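/-
S55 (Poitou-Tate) : top-level frozen interface, fifth wave.  Architect: helper9.

`s55_KappaStatement` is the ONLY arithmetic input of `Fermat.Agent.S55.result`:
for every admissible `(p, S, M)` there is a linear map
  `κ : Dual (H¹_S(M^*(1))) → H²_S(M)`   with   `range κ = Ш²_S(M)`   and   `ker κ = Ann (Ш¹_S(M^*(1)))`.
(`κ` is the connecting map `H¹(G_S, M')^∨ → H²(G_S, M)` of the nine-term sequence; the two
conditions are exactness at `H²(G_S, M)` and at `H¹(G_S, M')^∨`.)
`s55_result_of` turns it into the frozen statement by linear algebra over `ZMod p`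
(no finiteness is needed).
-/
import Mathlib
import Fermat.Prelude.Def_GroupCohomology_ContinuousUnramified

set_option autoImplicit false
set_option maxHeartbeats 1000000
set_option synthInstance.maxHeartbeats 400000
open CategoryTheory Module groupCohomology ExtCitation

namespace Fermat.Agent.S55

/-- The absolute Galois group of `ℚ`, as in the frozen statement. -/
abbrev s55_GQ : Type := AlgebraicClosure ℚ ≃ₐ[ℚ] AlgebraicClosure ℚ

/-- Smoothness hypothesis `hsm` of the frozen statement. -/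
def s55_Smooth {p : ℕ} [Fact p.Prime] (M : Rep (ZMod p) s55_GQ) : Prop :=
  ∀ m : M, ∃ F : IntermediateField ℚ (AlgebraicClosure ℚ), FiniteDimensional ℚ F ∧
    ∀ s ∈ F.fixingSubgroup, M.ρ s m = m

/-- Hypothesis `hMur` of the frozen statement: `M` is unramified outside `S`. -/
def s55_UnramOutside {p : ℕ} [Fact p.Prime] (S : Finset Nat.Primes) (M : Rep (ZMod p) s55_GQ) :
    Prop :=
  ∀ q : Nat.Primes, q ∉ S → ∀ A : ValuationSubring (AlgebraicClosure ℚ),
    A.LiesOverPrime (q : ℕ) → ∀ g ∈ A.inertiaSubgroupIn ℚ, M.ρ g = 1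

/-- `Ш¹_S(A)` as a submodule of `H¹_S(A) = continuousH1S S A`. -/
noncomputable def s55_sha1In {p : ℕ} [Fact p.Prime] (S : Finset Nat.Primes)
    (A : Rep (ZMod p) s55_GQ) : Submodule (ZMod p) ↥(continuousH1S S A) :=
  (sha₁ S A).comap (continuousH1S S A).subtype

/-- The property of a connecting map `κ : H¹_S(M^*(1))^∨ → H²_S(M)`. -/
def s55_IsKappa {p : ℕ} [Fact p.Prime] (S : Finset Nat.Primes) (M : Rep (ZMod p) s55_GQ)
    (κ : Module.Dual (ZMod p) ↥(continuousH1S S (M.dualTwist (cycloChar p))) →ₗ[ZMod p]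
      continuousH2S S M) : Prop :=
  LinearMap.range κ = sha₂ S M ∧
    LinearMap.ker κ = (s55_sha1In S (M.dualTwist (cycloChar p))).dualAnnihilator

/-- **TOP-LEVEL INTERFACE (frozen).** Existence of the connecting map for all admissible data. -/
def s55_KappaStatement : Prop :=
  ∀ {p : ℕ} [Fact p.Prime], p ≠ 2 → ∀ (S : Finset Nat.Primes), pPrime p ∈ S →
    ∀ (M : Rep (ZMod p) s55_GQ) [FiniteDimensional (ZMod p) M],
      s55_Smooth M → s55_UnramOutside S M →
      ∃ κ : Module.Dual (ZMod p) ↥(continuousH1S S (M.dualTwist (cycloChar p))) →ₗ[ZMod p]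
        continuousH2S S M, s55_IsKappa S M κ

section LinearAlgebra

variable {k : Type*} [Field k] {V X : Type*} [AddCommGroup V] [Module k V]
  [AddCommGroup X] [Module k X]

/-- Abstract form: if `κ : Dual H → X` has range `T` and kernel the annihilator of `W ≤ H`,
then `T` and `W` are in perfect duality. -/
theorem s55_pairing_of_kappa (W : Submodule k V) (T : Submodule k X)
    (κ : Module.Dual k V →ₗ[k] X) (hr : LinearMap.range κ = T)
    (hk : LinearMap.ker κ = W.dualAnnihilator) :
    ∃ Φ : T →ₗ[k] Module.Dual k W, Function.Injective Φ ∧ Function.Surjective Φ := by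
  classical
  -- `f : Dual V → T`, surjective, with kernel `W.dualAnnihilator`
  have hmem : ∀ φ, κ φ ∈ T := fun φ => hr ▸ LinearMap.mem_range_self κ φ
  let f : Module.Dual k V →ₗ[k] T := κ.codRestrict T hmem
  have hf : Function.Surjective f := by
    rintro ⟨x, hx⟩
    rw [← hr] at hx
    obtain ⟨φ, rfl⟩ := hx
    exact ⟨φ, rfl⟩
  have hkf : LinearMap.ker f = W.dualAnnihilator := by
    rw [← hk]
    ext φ
    simp only [LinearMap.mem_ker]
    constructor
    · intro h
      have := congrArg Subtype.val h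
      simpa [f] using this
    · intro h
      apply Subtype.ext
      simpa [f] using h
  let g : Module.Dual k V →ₗ[k] Module.Dual k W := W.dualRestrict
  have hg : Function.Surjective g := Subspace.dualRestrict_surjective
  have hkg : LinearMap.ker g = W.dualAnnihilator := W.dualRestrict_ker_eq_dualAnnihilator
  let e₁ : (Module.Dual k V ⧸ LinearMap.ker f) ≃ₗ[k] T := f.quotKerEquivOfSurjective hf
  let L : (Module.Dual k V ⧸ LinearMap.ker f) →ₗ[k] Module.Dual k W :=
    (LinearMap.ker f).liftQ g (by rw [hkf, hkg])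
  refine ⟨L ∘ₗ e₁.symm.toLinearMap, ?_, ?_⟩
  · have hL : Function.Injective L := by
      rw [← LinearMap.ker_eq_bot, Submodule.ker_liftQ, hkg, ← hkf, Submodule.mkQ_map_self]
    exact hL.comp e₁.symm.injective
  · have hL : Function.Surjective L := by
      intro ψ
      obtain ⟨φ, rfl⟩ := hg ψ
      exact ⟨Submodule.Quotient.mk φ, rfl⟩
    exact hL.comp e₁.symm.surjective

end LinearAlgebra

/-- **Final glue.** The frozen S55 statement follows from `s55_KappaStatement`. -/
theorem s55_result_of (hκ : s55_KappaStatement)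
    {p : ℕ} [Fact p.Prime] (hp2 : p ≠ 2) (S : Finset Nat.Primes) (hpS : pPrime p ∈ S)
    (M : Rep (ZMod p) (AlgebraicClosure ℚ ≃ₐ[ℚ] AlgebraicClosure ℚ))
    [FiniteDimensional (ZMod p) M]
    (hsm : ∀ m : M, ∃ F : IntermediateField ℚ (AlgebraicClosure ℚ), FiniteDimensional ℚ F ∧
      ∀ s ∈ F.fixingSubgroup, M.ρ s m = m)
    (hMur : ∀ q : Nat.Primes, q ∉ S → ∀ A : ValuationSubring (AlgebraicClosure ℚ),
      A.LiesOverPrime (q : ℕ) → ∀ g ∈ A.inertiaSubgroupIn ℚ, M.ρ g = 1) :
    ∃ B : sha₁ S (M.dualTwist (cycloChar p)) →ₗ[ZMod p] sha₂ S M →ₗ[ZMod p] ZMod p,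
      (∀ y, (∀ x, B y x = 0) → y = 0) ∧ (∀ x, (∀ y, B y x = 0) → x = 0) := by
  classical
  obtain ⟨κ, hr, hk⟩ := hκ hp2 S hpS M hsm hMur
  obtain ⟨Φ, hΦi, hΦs⟩ := s55_pairing_of_kappa
    (s55_sha1In S (M.dualTwist (cycloChar p))) (sha₂ S M) κ hr hk
  -- the inclusion `Ш¹ → W`
  have hle : ∀ y : sha₁ S (M.dualTwist (cycloChar p)),
      (y : H1 (M.dualTwist (cycloChar p))) ∈ continuousH1S S (M.dualTwist (cycloChar p)) :=
    fun y => (Submodule.mem_inf.1 y.2).1
  let ι : sha₁ S (M.dualTwist (cycloChar p)) →ₗ[ZMod p]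
      s55_sha1In S (M.dualTwist (cycloChar p)) :=
    { toFun := fun y => ⟨⟨y.1, hle y⟩, y.2⟩
      map_add' := fun _ _ => rfl
      map_smul' := fun _ _ => rfl }
  have hιi : Function.Injective ι := by
    intro y y' h
    apply Subtype.ext
    have := congrArg (fun w : s55_sha1In S (M.dualTwist (cycloChar p)) =>
      ((w : ↥(continuousH1S S (M.dualTwist (cycloChar p)))) :
        H1 (M.dualTwist (cycloChar p)))) h
    exact this
  have hιs : Function.Surjective ι := by
    rintro ⟨⟨w, hw⟩, hw'⟩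
    exact ⟨⟨w, hw'⟩, rfl⟩
  refine ⟨((LinearMap.lcomp (ZMod p) (ZMod p) ι) ∘ₗ Φ).flip, ?_, ?_⟩
  · intro y hy
    apply hιi
    rw [map_zero]
    rw [← Module.forall_dual_apply_eq_zero_iff (ZMod p)]
    intro φ
    obtain ⟨x, rfl⟩ := hΦs φ
    exact hy x
  · intro x hx
    apply hΦi
    rw [map_zero]
    ext w
    obtain ⟨y, rfl⟩ := hιs w
    exact hx y

end Fermat.Agent.S55
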