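/-
S55 (Poitou-Tate), ASSEMBLY layer (R2 of the blueprint).  Owner: helper9.  Prefix `asm_`.

* `asm_kappa_of_theta` : abstract linear algebra.  From an exact piece `P --∂--> C --π--> X`
  with `range π = T`, an isomorphism `θ : C ≃ Dual V`, a localisation map `loc' : V → P'` with
  kernel `W` and a pairing `P × P' → k` inducing a surjection `P → Dual P'` such that
  `θ (∂ x) y = ⟨x, loc' y⟩`, one gets `κ := π ∘ θ⁻¹` with `range κ = T`, `ker κ = Ann W`.
* `asm_H1v`, `asm_locH1`, `asm_locH1Total` : the continuous local `H¹` and the localisation map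
  on `H¹_S`, with `asm_ker_locH1Total : ker = s55_sha1In`.
* `asm_ThetaStatement` : the arithmetic input in the shape delivered by the cone construction;
  `asm_kappa_of_thetaStatement : asm_ThetaStatement → s55_KappaStatement`.
-/
import Mathlib
import Fermat.Agent.S55.Defs

set_option autoImplicit false
set_option maxHeartbeats 1000000
set_option synthInstance.maxHeartbeats 400000
open CategoryTheory Module groupCohomology ExtCitation

namespace Fermat.Agent.S55

section Abstract

variable {k : Type*} [Field k] {V P P' C X : Type*}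
  [AddCommGroup V] [Module k V] [AddCommGroup P] [Module k P]
  [AddCommGroup P'] [Module k P'] [AddCommGroup C] [Module k C]
  [AddCommGroup X] [Module k X]

/-- Abstract assembly: the connecting map `κ = π ∘ θ⁻¹`. -/
theorem asm_kappa_of_theta (W : Submodule k V) (T : Submodule k X)
    (loc' : V →ₗ[k] P') (hW : LinearMap.ker loc' = W)
    (pair : P →ₗ[k] Module.Dual k P') (hpair : Function.Surjective pair)
    (del : P →ₗ[k] C) (π : C →ₗ[k] X)
    (hC : LinearMap.range del = LinearMap.ker π) (hX : LinearMap.range π = T)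
    (θ : C ≃ₗ[k] Module.Dual k V)
    (hθ : ∀ x y, θ (del x) y = pair x (loc' y)) :
    ∃ κ : Module.Dual k V →ₗ[k] X,
      LinearMap.range κ = T ∧ LinearMap.ker κ = W.dualAnnihilator := by
  refine ⟨π ∘ₗ θ.symm.toLinearMap, ?_, ?_⟩
  · rw [LinearMap.range_comp, LinearEquiv.range, Submodule.map_top, hX]
  · ext φ
    rw [LinearMap.mem_ker, LinearMap.comp_apply, ← LinearMap.mem_ker, ← hC, ← hW,
      ← LinearMap.range_dualMap_eq_dualAnnihilator_ker]
    constructor
    · rintro ⟨x, hx⟩
      refine ⟨pair x, ?_⟩
      ext y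
      rw [LinearMap.dualMap_apply, ← hθ, hx]
      simp
    · rintro ⟨ψ, rfl⟩
      obtain ⟨x, rfl⟩ := hpair ψ
      refine ⟨x, ?_⟩
      apply θ.injective
      ext y
      rw [hθ]
      simp

/-- Right non-degeneracy plus finite dimension of the right factor gives surjectivity of
`P → Dual P'`. -/
theorem asm_surjective_of_nondeg [FiniteDimensional k P'] (pair : P →ₗ[k] Module.Dual k P')
    (h : ∀ y : P', (∀ x, pair x y = 0) → y = 0) : Function.Surjective pair := by
  classical
  rw [← LinearMap.range_eq_top]
  -- the range is a subspace of `Dual P'` whose coannihilator is trivial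
  have h0 : (LinearMap.range pair).dualCoannihilator = ⊥ := by
    rw [eq_bot_iff]
    intro y hy
    rw [Submodule.mem_dualCoannihilator] at hy
    exact (Submodule.mem_bot k).2 (h y fun x => hy _ (LinearMap.mem_range_self pair x))
  have := Subspace.dualCoannihilator_dualAnnihilator_eq (W := LinearMap.range pair)
  rw [← this, h0, Submodule.dualAnnihilator_bot]

end Abstract

section Local

variable {p : ℕ} [Fact p.Prime] (S : Finset Nat.Primes)

/-- The continuous local `H¹` at the place `v`, a submodule of the abstract local `H¹`. -/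
noncomputable abbrev asm_H1v (v : extArithIndex S) (A : Rep (ZMod p) s55_GQ) :
    Submodule (ZMod p) (H1 (Rep.res (extArithLoc S v) A)) :=
  continuousH1 (extArithLoc S v) (Rep.res (extArithLoc S v) A)

/-- Localisation maps continuous classes to continuous classes. -/
theorem asm_locRes_mem (v : extArithIndex S) (A : Rep (ZMod p) s55_GQ)
    (x : H1 A) (hx : x ∈ continuousH1S S A) :
    (locRes (extArithLoc S) A v).hom x ∈ asm_H1v S v A := by
  obtain ⟨c, hc, rfl⟩ := (mem_continuousH1S_iff S A x).1 hx
  have h1 : (locRes (extArithLoc S) A v).hom ((H1π A).hom c) =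
      (H1π (Rep.res (extArithLoc S v) A)).hom
        ((mapCocycles₁ (extArithLoc S v) (𝟙 (Rep.res (extArithLoc S v) A))).hom c) := by
    exact congrArg (fun f => f.hom c)
      (H1π_comp_map (extArithLoc S v) (𝟙 (Rep.res (extArithLoc S v) A)))
  rw [h1]
  refine H1π_mem_continuousH1 _ _ ?_
  obtain ⟨F, hF, h⟩ := hc
  refine ⟨F, hF.1, fun g s hs => ?_⟩
  change c.1 (extArithLoc S v (g * s)) = c.1 (extArithLoc S v g)
  rw [map_mul]
  exact h _ _ hs

/-- The localisation map `H¹_S(A) → H¹_cts(ℚ_v, A)`. -/
noncomputable def asm_locH1 (v : extArithIndex S) (A : Rep (ZMod p) s55_GQ) :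
    ↥(continuousH1S S A) →ₗ[ZMod p] ↥(asm_H1v S v A) :=
  ((locRes (extArithLoc S) A v).hom.comp (continuousH1S S A).subtype).codRestrict
    (asm_H1v S v A) (fun x => asm_locRes_mem S v A x.1 x.2)

/-- The total localisation map `H¹_S(A) → ∏_v H¹_cts(ℚ_v, A)`. -/
noncomputable def asm_locH1Total (A : Rep (ZMod p) s55_GQ) :
    ↥(continuousH1S S A) →ₗ[ZMod p] (∀ v : extArithIndex S, ↥(asm_H1v S v A)) :=
  LinearMap.pi fun v => asm_locH1 S v A

theorem asm_ker_locH1Total (A : Rep (ZMod p) s55_GQ) :
    LinearMap.ker (asm_locH1Total S A) = s55_sha1In S A := by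
  ext x
  simp only [LinearMap.mem_ker, s55_sha1In, Submodule.mem_comap, sha₁, Submodule.mem_inf,
    Submodule.subtype_apply]
  constructor
  · intro h
    refine ⟨x.2, ?_⟩
    ext v
    have := congrArg (fun f => ((f v : ↥(asm_H1v S v A)) : H1 (Rep.res (extArithLoc S v) A))) h
    exact this
  · rintro ⟨-, h⟩
    ext v
    have := congrFun h v
    exact this

end Local

/-- **THETA interface.**  For all admissible data there is a `ZMod p`-vector space `C`
(in the blueprint: the compactly supported cohomology `H²_c(G_S, M)` = `H²` of the cone of the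
localisation map on continuous cochains) sitting in an exact piece
`∏_v H¹(ℚ_v, M) --del--> C --π--> H²_S(M)` with `range π = Ш²_S(M)`, a pairing of the local
`H¹`'s inducing a surjection `∏_v H¹(ℚ_v, M) → Dual (∏_v H¹(ℚ_v, M'))` (local duality) and an
isomorphism `θ : C ≃ Dual H¹_S(M')` (global duality) compatible with `del`. -/
def asm_ThetaStatement : Prop :=
  ∀ {p : ℕ} [Fact p.Prime], p ≠ 2 → ∀ (S : Finset Nat.Primes), pPrime p ∈ S →
    ∀ (M : Rep (ZMod p) s55_GQ) [FiniteDimensional (ZMod p) M],
      s55_Smooth M → s55_UnramOutside S M →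
      ∃ (C : Type) (_ : AddCommGroup C) (_ : Module (ZMod p) C)
        (pair : (∀ v : extArithIndex S, ↥(asm_H1v S v M)) →ₗ[ZMod p]
          Module.Dual (ZMod p) (∀ v : extArithIndex S, ↥(asm_H1v S v (M.dualTwist (cycloChar p)))))
        (del : (∀ v : extArithIndex S, ↥(asm_H1v S v M)) →ₗ[ZMod p] C)
        (π : C →ₗ[ZMod p] continuousH2S S M)
        (θ : C ≃ₗ[ZMod p] Module.Dual (ZMod p) ↥(continuousH1S S (M.dualTwist (cycloChar p)))),
        Function.Surjective pair ∧ LinearMap.range del = LinearMap.ker π ∧
          LinearMap.range π = sha₂ S M ∧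
          ∀ x y, θ (del x) y = pair x (asm_locH1Total S (M.dualTwist (cycloChar p)) y)

/-- THETA implies KAPPA. -/
theorem asm_kappa_of_thetaStatement (h : asm_ThetaStatement) : s55_KappaStatement := by
  intro p _ hp2 S hpS M _ hsm hMur
  obtain ⟨C, _, _, pair, del, π, θ, hpair, hC, hX, hθ⟩ := h hp2 S hpS M hsm hMur
  exact asm_kappa_of_theta (s55_sha1In S (M.dualTwist (cycloChar p))) (sha₂ S M)
    (asm_locH1Total S (M.dualTwist (cycloChar p)))
    (asm_ker_locH1Total S (M.dualTwist (cycloChar p))) pair hpair del π hC hX θ hθ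

end Fermat.Agent.S55
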