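/-
S55 (Poitou-Tate), CONE layer (R1 of the blueprint).  Owner: helper9.  Prefix `cone_`.

The compactly supported cohomology `H²_c(G_S, M)` in degree 2, as the cohomology of the cone of
the localisation map on continuous cochains:
  cocycles  `(c, b)` : `c` a level-`S` 2-cocycle, `b v` a continuous local 1-cochain, `d (b v) = loc_v c`;
  coboundaries `(d a, loc a - d m)` : `a` a level-`S` 1-cochain, `m v ∈ M`.
Maps `cone_del : ∏_v H¹_cts(ℚ_v, M) → H²_c` and `cone_pi : H²_c → H²_S(M)`, with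
  `cone_range_del : range cone_del = ker cone_pi`,   `cone_range_pi : range cone_pi = sha₂ S M`.
-/
import Mathlib
import Fermat.Agent.S55.Assembly

set_option autoImplicit false
set_option maxHeartbeats 1000000
set_option synthInstance.maxHeartbeats 400000
open CategoryTheory Module groupCohomology ExtCitation

namespace Fermat.Agent.S55

variable {p : ℕ} [Fact p.Prime] (S : Finset Nat.Primes) (M : Rep (ZMod p) s55_GQ)

/-- Restriction of global 1-cochains to the place `v`. -/
noncomputable abbrev cone_loc₁ (v : extArithIndex S) :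
    (s55_GQ → M) →ₗ[ZMod p] (extArithLocalGroups S v → Rep.res (extArithLoc S v) M) :=
  cochainsPullPush₁ (extArithLoc S v) (LinearMap.id : M →ₗ[ZMod p] Rep.res (extArithLoc S v) M)

/-- Restriction of global 2-cochains to the place `v`. -/
noncomputable abbrev cone_loc₂ (v : extArithIndex S) :
    (s55_GQ × s55_GQ → M) →ₗ[ZMod p]
      (extArithLocalGroups S v × extArithLocalGroups S v → Rep.res (extArithLoc S v) M) :=
  cochainsPullPush₂ (extArithLoc S v) (LinearMap.id : M →ₗ[ZMod p] Rep.res (extArithLoc S v) M)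

/-- The ambient module of the cone in degree 2. -/
abbrev cone_Amb : Type :=
  (s55_GQ × s55_GQ → M) ×
    (∀ v : extArithIndex S, extArithLocalGroups S v → Rep.res (extArithLoc S v) M)

/-- Cone 2-cocycles. -/
noncomputable def cone_Z : Submodule (ZMod p) (cone_Amb S M) where
  carrier := {x | x.1 ∈ levelCocyclesS₂ S M ∧ ∀ v,
    x.2 v ∈ levelCochains₁ (extArithLoc S v) (Rep.res (extArithLoc S v) M) ∧
      (d₁₂ (Rep.res (extArithLoc S v) M)).hom (x.2 v) = cone_loc₂ S M v x.1}
  add_mem' := by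
    rintro x y ⟨hx, hx'⟩ ⟨hy, hy'⟩
    refine ⟨Submodule.add_mem _ hx hy, fun v => ⟨Submodule.add_mem _ (hx' v).1 (hy' v).1, ?_⟩⟩
    simp only [Prod.snd_add, Pi.add_apply, Prod.fst_add, map_add, (hx' v).2, (hy' v).2]
  zero_mem' := by
    refine ⟨Submodule.zero_mem _, fun v => ⟨Submodule.zero_mem _, ?_⟩⟩
    simp
  smul_mem' := by
    rintro a x ⟨hx, hx'⟩
    refine ⟨Submodule.smul_mem _ a hx, fun v => ⟨Submodule.smul_mem _ a (hx' v).1, ?_⟩⟩
    simp only [Prod.smul_snd, Pi.smul_apply, Prod.smul_fst, map_smul, (hx' v).2]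

/-- The coboundary map of the cone from degree 1 to degree 2. -/
noncomputable def cone_d : (↥(levelCochainsS₁ S M) × (extArithIndex S → M)) →ₗ[ZMod p]
    cone_Amb S M :=
  LinearMap.prod ((d₁₂ M).hom ∘ₗ (levelCochainsS₁ S M).subtype ∘ₗ LinearMap.fst _ _ _)
    (LinearMap.pi fun v =>
      (cone_loc₁ S M v ∘ₗ (levelCochainsS₁ S M).subtype ∘ₗ LinearMap.fst _ _ _) -
        ((d₀₁ (Rep.res (extArithLoc S v) M)).hom ∘ₗ
          (LinearMap.proj v : (extArithIndex S → M) →ₗ[ZMod p] M) ∘ₗ LinearMap.snd _ _ _))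

/-- Cone 2-coboundaries. -/
noncomputable def cone_B : Submodule (ZMod p) (cone_Amb S M) :=
  LinearMap.range (cone_d S M)

/-- `H²_c(G_S, M)`. -/
abbrev cone_H : Type :=
  ↥(cone_Z S M) ⧸ (cone_B S M).comap (cone_Z S M).subtype

lemma cone_d_fst (a : ↥(levelCochainsS₁ S M)) (m : extArithIndex S → M) :
    (cone_d S M (a, m)).1 = (d₁₂ M).hom (a : s55_GQ → M) := rfl

lemma cone_d_snd (a : ↥(levelCochainsS₁ S M)) (m : extArithIndex S → M) (v : extArithIndex S) :
    (cone_d S M (a, m)).2 v =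
      cone_loc₁ S M v (a : s55_GQ → M) - (d₀₁ (Rep.res (extArithLoc S v) M)).hom (m v) := rfl

/-- The projection `Z²_c → Z²_S`. -/
noncomputable def cone_piZ : ↥(cone_Z S M) →ₗ[ZMod p] ↥(levelCocyclesS₂ S M) :=
  ((LinearMap.fst (ZMod p) _ _).comp (cone_Z S M).subtype).codRestrict _ (fun x => x.2.1)

/-- `π : H²_c(G_S, M) → H²_S(M)`. -/
noncomputable def cone_pi : cone_H S M →ₗ[ZMod p] continuousH2S S M :=
  Submodule.mapQ _ _ (cone_piZ S M) (by
    rintro ⟨x, hx⟩ ⟨⟨a, m⟩, ha⟩
    simp only [Submodule.mem_comap, Submodule.subtype_apply]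
    refine (mem_levelCoboundariesS₂_iff S M _).2 ⟨a.1, a.2, ?_⟩
    have := congrArg Prod.fst ha
    exact this)

lemma cone_pi_mk (x : ↥(cone_Z S M)) :
    cone_pi S M (Submodule.Quotient.mk x) = continuousH2Sπ S M (cone_piZ S M x) := rfl

/-- Range of `π` is `Ш²`. -/
theorem cone_range_pi : LinearMap.range (cone_pi S M) = sha₂ S M := by
  ext y
  obtain ⟨c, rfl⟩ := Submodule.Quotient.mk_surjective _ y
  rw [sha₂, LinearMap.mem_ker]
  constructor
  · rintro ⟨x, hx⟩
    obtain ⟨x, rfl⟩ := Submodule.Quotient.mk_surjective _ x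
    rw [← hx]
    ext v
    rw [locTotal₂S_apply, Pi.zero_apply, cone_pi_mk]
    change continuousH2π _ _ _ = 0
    rw [continuousH2π_eq_zero_iff]
    exact (mem_levelCoboundaries₂_iff _ _ _).2 ⟨x.1.2 v, (x.2.2 v).1, (x.2.2 v).2⟩
  · intro h
    have h' : ∀ v, ∃ b : extArithLocalGroups S v → Rep.res (extArithLoc S v) M,
        IsLevelConstant₁ (extArithLoc S v) b ∧
          (d₁₂ (Rep.res (extArithLoc S v) M)).hom b = cone_loc₂ S M v c.1 := by
      intro v
      have hv := congrFun h v
      rw [locTotal₂S_apply, Pi.zero_apply] at hv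
      change continuousH2π _ _ _ = 0 at hv
      rw [continuousH2π_eq_zero_iff] at hv
      exact (mem_levelCoboundaries₂_iff _ _ _).1 hv
    choose b hb1 hb2 using h'
    refine ⟨Submodule.Quotient.mk ⟨(c.1, b), c.2, fun v => ⟨hb1 v, hb2 v⟩⟩, ?_⟩
    rw [cone_pi_mk]
    rfl

/-- Continuous local 1-cocycles at `v`. -/
noncomputable abbrev cone_Z1v (v : extArithIndex S) :
    Submodule (ZMod p) (cocycles₁ (Rep.res (extArithLoc S v) M)) :=
  levelCocycles₁ (extArithLoc S v) (Rep.res (extArithLoc S v) M)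

/-- `(z_v)_v ↦ (0, (z_v)_v)` into the ambient module. -/
noncomputable def cone_delAmb : (∀ v : extArithIndex S, ↥(cone_Z1v S M v)) →ₗ[ZMod p]
    cone_Amb S M :=
  LinearMap.prod 0 (LinearMap.pi fun v =>
    (cocycles₁ (Rep.res (extArithLoc S v) M)).subtype ∘ₗ (cone_Z1v S M v).subtype ∘ₗ
      LinearMap.proj v)

lemma cone_delAmb_fst (z : ∀ v : extArithIndex S, ↥(cone_Z1v S M v)) :
    (cone_delAmb S M z).1 = 0 := rfl

lemma cone_delAmb_snd (z : ∀ v : extArithIndex S, ↥(cone_Z1v S M v)) (v : extArithIndex S) :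
    (cone_delAmb S M z).2 v = ((z v : cocycles₁ (Rep.res (extArithLoc S v) M)) :
      extArithLocalGroups S v → Rep.res (extArithLoc S v) M) := rfl

lemma cone_delAmb_mem (z : ∀ v : extArithIndex S, ↥(cone_Z1v S M v)) :
    cone_delAmb S M z ∈ cone_Z S M := by
  refine ⟨Submodule.zero_mem _, fun v => ⟨(z v).2, ?_⟩⟩
  have h : (d₁₂ (Rep.res (extArithLoc S v) M)).hom
      ((z v : cocycles₁ (Rep.res (extArithLoc S v) M)) :
        extArithLocalGroups S v → Rep.res (extArithLoc S v) M) = 0 := (z v).1.2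
  rw [cone_delAmb_snd, h, cone_delAmb_fst, map_zero]

/-- `(z_v)_v ↦ (0, (z_v)_v)`. -/
noncomputable def cone_delZ : (∀ v : extArithIndex S, ↥(cone_Z1v S M v)) →ₗ[ZMod p]
    ↥(cone_Z S M) :=
  (cone_delAmb S M).codRestrict (cone_Z S M) (cone_delAmb_mem S M)

lemma cone_delZ_coe (z : ∀ v : extArithIndex S, ↥(cone_Z1v S M v)) :
    ((cone_delZ S M z : ↥(cone_Z S M)) : cone_Amb S M) = cone_delAmb S M z := rfl

/-- `(z_v)_v ↦ class of (0, (z_v)_v)`. -/
noncomputable def cone_delZH : (∀ v : extArithIndex S, ↥(cone_Z1v S M v)) →ₗ[ZMod p]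
    cone_H S M :=
  (Submodule.mkQ ((cone_B S M).comap (cone_Z S M).subtype)).comp (cone_delZ S M)

/-- The class map `∏_v Z¹_cts(ℚ_v, M) → ∏_v H¹_cts(ℚ_v, M)`. -/
noncomputable def cone_q : (∀ v : extArithIndex S, ↥(cone_Z1v S M v)) →ₗ[ZMod p]
    (∀ v : extArithIndex S, ↥(asm_H1v S v M)) :=
  LinearMap.pi fun v =>
    (((H1π (Rep.res (extArithLoc S v) M)).hom.comp (cone_Z1v S M v).subtype).codRestrict
      (asm_H1v S v M) (fun z => Submodule.mem_map_of_mem z.2)).comp (LinearMap.proj v)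

lemma cone_q_apply (z : ∀ v : extArithIndex S, ↥(cone_Z1v S M v)) (v : extArithIndex S) :
    ((cone_q S M z v : ↥(asm_H1v S v M)) : H1 (Rep.res (extArithLoc S v) M)) =
      (H1π (Rep.res (extArithLoc S v) M)).hom (z v).1 := rfl

lemma cone_q_surjective : Function.Surjective (cone_q S M) := by
  intro y
  have h : ∀ v, ∃ z : ↥(cone_Z1v S M v),
      (H1π (Rep.res (extArithLoc S v) M)).hom z.1 = (y v).1 := by
    intro v
    obtain ⟨z, hz, hzy⟩ := (y v).2
    exact ⟨⟨z, hz⟩, hzy⟩
  choose z hz using h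
  refine ⟨z, ?_⟩
  ext v
  rw [cone_q_apply, hz]

lemma cone_ker_q_le :
    LinearMap.ker (cone_q S M) ≤ LinearMap.ker (cone_delZH S M) := by
  intro z hz
  rw [LinearMap.mem_ker] at hz ⊢
  rw [cone_delZH, LinearMap.comp_apply, Submodule.mkQ_apply, Submodule.Quotient.mk_eq_zero,
    Submodule.mem_comap]
  have h : ∀ v, ∃ m : M, (d₀₁ (Rep.res (extArithLoc S v) M)).hom m =
      ((z v : cocycles₁ (Rep.res (extArithLoc S v) M)) :
        extArithLocalGroups S v → Rep.res (extArithLoc S v) M) := by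
    intro v
    have hv := congrArg (fun y => ((y v : ↥(asm_H1v S v M)) :
      H1 (Rep.res (extArithLoc S v) M))) hz
    simp only [cone_q_apply] at hv
    exact (H1π_eq_zero_iff _).1 hv
  choose m hm using h
  refine ⟨(0, -m), ?_⟩
  rw [Submodule.subtype_apply, cone_delZ_coe]
  refine Prod.ext ?_ ?_
  · rw [cone_d_fst, cone_delAmb_fst]
    simp
  · funext v
    rw [cone_d_snd, cone_delAmb_snd]
    simp only [ZeroMemClass.coe_zero, map_zero, Pi.neg_apply, map_neg, zero_sub, neg_neg, hm]

lemma cone_delZH_eq_of_q_eq (z z' : ∀ v : extArithIndex S, ↥(cone_Z1v S M v))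
    (h : cone_q S M z = cone_q S M z') : cone_delZH S M z = cone_delZH S M z' := by
  have h1 : z - z' ∈ LinearMap.ker (cone_q S M) := by
    rw [LinearMap.mem_ker, (cone_q S M).map_sub z z', h, sub_self]
  have h2 := cone_ker_q_le S M h1
  rw [LinearMap.mem_ker, (cone_delZH S M).map_sub z z', sub_eq_zero] at h2
  exact h2

/-- `del : ∏_v H¹_cts(ℚ_v, M) → H²_c(G_S, M)`. -/
noncomputable def cone_del : (∀ v : extArithIndex S, ↥(asm_H1v S v M)) →ₗ[ZMod p] cone_H S M where
  toFun y := cone_delZH S M (Function.surjInv (cone_q_surjective S M) y)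
  map_add' y y' := by
    rw [← (cone_delZH S M).map_add]
    apply cone_delZH_eq_of_q_eq
    rw [(cone_q S M).map_add]
    simp only [Function.surjInv_eq]
  map_smul' c y := by
    rw [RingHom.id_apply, ← (cone_delZH S M).map_smul]
    apply cone_delZH_eq_of_q_eq
    rw [(cone_q S M).map_smul]
    simp only [Function.surjInv_eq]

lemma cone_del_q (z : ∀ v : extArithIndex S, ↥(cone_Z1v S M v)) :
    cone_del S M (cone_q S M z) = Submodule.Quotient.mk (cone_delZ S M z) := by
  change cone_delZH S M (Function.surjInv (cone_q_surjective S M) (cone_q S M z)) =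
    cone_delZH S M z
  apply cone_delZH_eq_of_q_eq
  simp only [Function.surjInv_eq]

/-- Exactness at `H²_c`. -/
theorem cone_range_del : LinearMap.range (cone_del S M) = LinearMap.ker (cone_pi S M) := by
  ext y
  rw [LinearMap.mem_ker]
  constructor
  · rintro ⟨x, rfl⟩
    obtain ⟨z, rfl⟩ := cone_q_surjective S M x
    rw [cone_del_q, cone_pi_mk]
    change continuousH2Sπ S M 0 = 0
    exact map_zero _
  · intro h
    obtain ⟨x, rfl⟩ := Submodule.Quotient.mk_surjective _ y
    rw [cone_pi_mk, continuousH2Sπ_eq_zero_iff] at h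
    obtain ⟨a, ha, hda⟩ := (mem_levelCoboundariesS₂_iff S M _).1 h
    -- the local cocycles `b v - loc_v a`
    have hz : ∀ v, ∃ z : ↥(cone_Z1v S M v),
        ((z : cocycles₁ (Rep.res (extArithLoc S v) M)) :
          extArithLocalGroups S v → Rep.res (extArithLoc S v) M) =
          x.1.2 v - cone_loc₁ S M v a := by
      intro v
      have hcoc : x.1.2 v - cone_loc₁ S M v a ∈ cocycles₁ (Rep.res (extArithLoc S v) M) := by
        change (d₁₂ (Rep.res (extArithLoc S v) M)).hom _ = 0
        rw [map_sub, (x.2.2 v).2]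
        have := cochainsPullPush₂_d₁₂ (A := M) (B := Rep.res (extArithLoc S v) M)
          (extArithLoc S v)
          (LinearMap.id : M →ₗ[ZMod p] Rep.res (extArithLoc S v) M) (fun _ _ => rfl) a
        rw [← this, hda]
        exact sub_self _
      refine ⟨⟨⟨_, hcoc⟩, ?_⟩, rfl⟩
      change IsLevelConstant₁ (extArithLoc S v) (x.1.2 v - cone_loc₁ S M v a)
      have h1 : IsLevelConstant₁ (extArithLoc S v) (x.1.2 v) := (x.2.2 v).1
      have h2 : IsLevelConstant₁ (extArithLoc S v) (cone_loc₁ S M v a) :=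
        cochainsPullPush₁_mem_levelCochains₁ (rH := MonoidHom.id _) (extArithLoc S v)
          (fun _ => rfl) _ (ha.isLevelConstant₁)
      exact Submodule.sub_mem (levelCochains₁ (extArithLoc S v) (Rep.res (extArithLoc S v) M))
        h1 h2
    choose z hz using hz
    refine ⟨cone_q S M z, ?_⟩
    rw [cone_del_q]
    symm
    rw [Submodule.Quotient.eq, Submodule.mem_comap]
    refine ⟨(⟨a, ha⟩, 0), ?_⟩
    rw [Submodule.subtype_apply, Submodule.coe_sub, cone_delZ_coe]
    refine Prod.ext ?_ ?_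
    · rw [cone_d_fst, Prod.fst_sub, cone_delAmb_fst, sub_zero]
      exact hda
    · funext v
      rw [cone_d_snd, Prod.snd_sub, Pi.sub_apply, cone_delAmb_snd, hz v]
      simp only [Pi.zero_apply, map_zero, sub_zero]
      abel

/-- **THETA interface on the concrete cone.**  Local duality (a pairing of the local `H¹`'s
inducing a surjection onto the dual) and global duality `θ : H²_c(G_S, M) ≃ Dual H¹_S(M')`,
compatible with `cone_del`. -/
def cone_ThetaStatement : Prop :=
  ∀ {p : ℕ} [Fact p.Prime], p ≠ 2 → ∀ (S : Finset Nat.Primes), pPrime p ∈ S →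
    ∀ (M : Rep (ZMod p) s55_GQ) [FiniteDimensional (ZMod p) M],
      s55_Smooth M → s55_UnramOutside S M →
      ∃ (pair : (∀ v : extArithIndex S, ↥(asm_H1v S v M)) →ₗ[ZMod p]
          Module.Dual (ZMod p) (∀ v : extArithIndex S, ↥(asm_H1v S v (M.dualTwist (cycloChar p)))))
        (θ : cone_H S M ≃ₗ[ZMod p]
          Module.Dual (ZMod p) ↥(continuousH1S S (M.dualTwist (cycloChar p)))),
        Function.Surjective pair ∧
          ∀ x y, θ (cone_del S M x) y = pair x (asm_locH1Total S (M.dualTwist (cycloChar p)) y)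

theorem cone_theta_of (h : cone_ThetaStatement) : asm_ThetaStatement := by
  intro p _ hp2 S hpS M _ hsm hMur
  obtain ⟨pair, θ, hpair, hθ⟩ := h hp2 S hpS M hsm hMur
  exact ⟨cone_H S M, inferInstance, inferInstance, pair, cone_del S M, cone_pi S M, θ, hpair,
    cone_range_del S M, cone_range_pi S M, hθ⟩

/-- The whole reduction: `cone_ThetaStatement` implies the top-level interface. -/
theorem cone_kappa_of (h : cone_ThetaStatement) : s55_KappaStatement :=
  asm_kappa_of_thetaStatement (cone_theta_of h)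

end Fermat.Agent.S55
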