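/-
S55 (Poitou-Tate), CUP layer: cochain-level cup products in low degrees for an equivariant
pairing `φ : A × A' → B` of representations of a group `Γ`, with the Leibniz rules.
Owner: helper9.  Prefix `cup_`.  Mathlib only.

Conventions (inhomogeneous cochains, Mathlib's `d₀₁, d₁₂, d₂₃`):
  `(a ∪ b)(g₁..g_{i+j}) = φ (a(g₁..g_i)) (g₁⋯g_i • b(g_{i+1}..g_{i+j}))`,
  `d (a ∪ b) = d a ∪ b + (-1)^i a ∪ d b`.
-/
import Mathlib

set_option autoImplicit false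
open CategoryTheory groupCohomology

namespace Fermat.Agent.S55

universe u

variable {k Γ : Type u} [CommRing k] [Group Γ] {A A' B : Rep k Γ}

/-- Equivariance of a pairing. -/
def cup_Equivariant (φ : A →ₗ[k] A' →ₗ[k] B) : Prop :=
  ∀ (g : Γ) (a : A) (a' : A'), φ (A.ρ g a) (A'.ρ g a') = B.ρ g (φ a a')

variable (φ : A →ₗ[k] A' →ₗ[k] B)

/-- `C¹ × C⁰ → C¹`. -/
def cup₁₀ (b : Γ → A) (a' : A') : Γ → B := fun g => φ (b g) (A'.ρ g a')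

/-- `C⁰ × C¹ → C¹`. -/
def cup₀₁ (a : A) (y : Γ → A') : Γ → B := fun g => φ a (y g)

/-- `C¹ × C¹ → C²`. -/
def cup₁₁ (b : Γ → A) (y : Γ → A') : Γ × Γ → B := fun x => φ (b x.1) (A'.ρ x.1 (y x.2))

/-- `C² × C⁰ → C²`. -/
def cup₂₀ (c : Γ × Γ → A) (a' : A') : Γ × Γ → B := fun x => φ (c x) (A'.ρ (x.1 * x.2) a')

/-- `C² × C¹ → C³`. -/
def cup₂₁ (c : Γ × Γ → A) (y : Γ → A') : Γ × Γ × Γ → B :=
  fun x => φ (c (x.1, x.2.1)) (A'.ρ (x.1 * x.2.1) (y x.2.2))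

@[simp] lemma cup₁₀_apply (b : Γ → A) (a' : A') (g : Γ) :
    cup₁₀ φ b a' g = φ (b g) (A'.ρ g a') := rfl
@[simp] lemma cup₀₁_apply (a : A) (y : Γ → A') (g : Γ) : cup₀₁ φ a y g = φ a (y g) := rfl
@[simp] lemma cup₁₁_apply (b : Γ → A) (y : Γ → A') (g h : Γ) :
    cup₁₁ φ b y (g, h) = φ (b g) (A'.ρ g (y h)) := rfl
@[simp] lemma cup₂₀_apply (c : Γ × Γ → A) (a' : A') (g h : Γ) :
    cup₂₀ φ c a' (g, h) = φ (c (g, h)) (A'.ρ (g * h) a') := rfl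
@[simp] lemma cup₂₁_apply (c : Γ × Γ → A) (y : Γ → A') (g h j : Γ) :
    cup₂₁ φ c y (g, h, j) = φ (c (g, h)) (A'.ρ (g * h) (y j)) := rfl

variable {φ}

/-- Leibniz, degrees `(0,1)`: `d (a ∪ y) = d a ∪ y + a ∪ d y`; here for a cocycle `y`. -/
theorem cup_d₀₁ (hφ : cup_Equivariant φ) (a : A) (y : Γ → A')
    (hy : (d₁₂ A').hom y = 0) :
    (d₁₂ B).hom (cup₀₁ φ a y) = cup₁₁ φ ((d₀₁ A).hom a) y := by
  funext ⟨g, h⟩
  have h2 : y (g * h) = A'.ρ g (y h) + y g :=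
    (mem_cocycles₁_iff y).1 (LinearMap.mem_ker.2 hy) g h
  have e : ∀ (g : Γ) (a : A) (a' : A'), B.ρ g (φ a a') = φ (A.ρ g a) (A'.ρ g a') :=
    fun g a a' => (hφ g a a').symm
  simp only [d₁₂_hom_apply, cup₀₁_apply, cup₁₁_apply, d₀₁_hom_apply, h2, map_add, map_sub,
    LinearMap.sub_apply, e]
  abel

/-- Leibniz, degrees `(1,0)`: `d (b ∪ a') = d b ∪ a' - b ∪ d a'`. -/
theorem cup_d₁₀ (hφ : cup_Equivariant φ) (b : Γ → A) (a' : A') :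
    (d₁₂ B).hom (cup₁₀ φ b a') =
      cup₂₀ φ ((d₁₂ A).hom b) a' - cup₁₁ φ b ((d₀₁ A').hom a') := by
  funext ⟨g, h⟩
  have e : ∀ (g : Γ) (a : A) (a' : A'), B.ρ g (φ a a') = φ (A.ρ g a) (A'.ρ g a') :=
    fun g a a' => (hφ g a a').symm
  simp only [d₁₂_hom_apply, cup₁₀_apply, cup₂₀_apply, cup₁₁_apply, d₀₁_hom_apply, Pi.sub_apply,
    map_add, map_sub, LinearMap.add_apply, LinearMap.sub_apply, e, map_mul,
    Module.End.mul_apply]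
  abel

/-- Leibniz, degrees `(1,1)`, second factor a cocycle: `d (b ∪ y) = d b ∪ y`. -/
theorem cup_d₁₁ (hφ : cup_Equivariant φ) (b : Γ → A) (y : Γ → A')
    (hy : (d₁₂ A').hom y = 0) :
    (d₂₃ B).hom (cup₁₁ φ b y) = cup₂₁ φ ((d₁₂ A).hom b) y := by
  funext ⟨g, h, j⟩
  have h2 : y (h * j) = A'.ρ h (y j) + y h :=
    (mem_cocycles₁_iff y).1 (LinearMap.mem_ker.2 hy) h j
  have e : ∀ (g : Γ) (a : A) (a' : A'), B.ρ g (φ a a') = φ (A.ρ g a) (A'.ρ g a') :=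
    fun g a a' => (hφ g a a').symm
  simp only [d₂₃_hom_apply, cup₁₁_apply, cup₂₁_apply, d₁₂_hom_apply, h2, map_add, map_sub,
    LinearMap.add_apply, LinearMap.sub_apply, e, map_mul, Module.End.mul_apply]
  abel

/-- Leibniz, degrees `(2,0)`, first factor a cocycle: `d (c ∪ a') = c ∪ d a'`. -/
theorem cup_d₂₀ (hφ : cup_Equivariant φ) (c : Γ × Γ → A) (a' : A')
    (hc : (d₂₃ A).hom c = 0) :
    (d₂₃ B).hom (cup₂₀ φ c a') = cup₂₁ φ c ((d₀₁ A').hom a') := by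
  funext ⟨g, h, j⟩
  have h2 : c (g * h, j) + c (g, h) = A.ρ g (c (h, j)) + c (g, h * j) :=
    (mem_cocycles₂_iff c).1 (LinearMap.mem_ker.2 hc) g h j
  have h3 : A.ρ g (c (h, j)) = c (g * h, j) + c (g, h) - c (g, h * j) := by
    rw [h2]; abel
  have e : ∀ (g : Γ) (a : A) (a' : A'), B.ρ g (φ a a') = φ (A.ρ g a) (A'.ρ g a') :=
    fun g a a' => (hφ g a a').symm
  simp only [d₂₃_hom_apply, cup₂₀_apply, cup₂₁_apply, d₀₁_hom_apply, map_sub,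
    e, map_mul, Module.End.mul_apply, h3, map_add, LinearMap.add_apply, LinearMap.sub_apply,
    mul_assoc]
  abel

end Fermat.Agent.S55
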