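/-
S55 (Poitou-Tate), PT layer: the pluggable interface between the cone (`Cone.lean`) and the
arithmetic packages.  Owner: helper9.  Prefix `pt_`.

Objects:  `pt_T p = F_p(1)`,  `pt_ev M : M × M^*(1) → F_p(1)`  (evaluation), its local versions,
the Poitou-Tate pairing in degree `(2,1)` as a PREDICATE `pt_IsTheta` on linear maps
`Θ : H²_c(G_S, M) → Dual H¹_S(M')`, for a family `inv` of local invariant maps.
-/
import Mathlib
import Fermat.Agent.S55.Cone
import Fermat.Agent.S55.Cup

set_option autoImplicit false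
set_option maxHeartbeats 1000000
set_option synthInstance.maxHeartbeats 400000
open CategoryTheory Module groupCohomology ExtCitation

namespace Fermat.Agent.S55

/-- `F_p(1)`: the one-dimensional representation given by the mod `p` cyclotomic character. -/
noncomputable abbrev pt_T (p : ℕ) [Fact p.Prime] : Rep (ZMod p) s55_GQ :=
  ofChar (k := ZMod p) (cycloChar p)

variable {p : ℕ} [Fact p.Prime]

/-- The evaluation pairing `M × M^*(1) → F_p(1)`, `(m, f) ↦ f m`. -/
noncomputable def pt_ev (M : Rep (ZMod p) s55_GQ) :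
    M →ₗ[ZMod p] (M.dualTwist (cycloChar p)) →ₗ[ZMod p] pt_T p :=
  (LinearMap.id : Module.Dual (ZMod p) M →ₗ[ZMod p] Module.Dual (ZMod p) M).flip

lemma pt_ev_apply (M : Rep (ZMod p) s55_GQ) (m : M) (f : M.dualTwist (cycloChar p)) :
    pt_ev M m f = (show Module.Dual (ZMod p) M from f) m := rfl

theorem pt_ev_equivariant (M : Rep (ZMod p) s55_GQ) : cup_Equivariant (pt_ev M) := by
  intro g m f
  change ((M.dualTwist (cycloChar p)).ρ g f) (M.ρ g m) = (pt_T p).ρ g (f m)
  rw [Rep.dualTwist_ρ_apply]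
  change (cycloChar p g : ZMod p) • f (M.ρ g⁻¹ (M.ρ g m)) = (cycloChar p g : ZMod p) • f m
  have : M.ρ g⁻¹ (M.ρ g m) = m := by
    rw [← Module.End.mul_apply, ← map_mul, inv_mul_cancel, map_one, Module.End.one_apply]
  rw [this]

/-- The local evaluation pairing at the place `v` (same underlying map). -/
noncomputable def pt_evv (S : Finset Nat.Primes) (v : extArithIndex S)
    (M : Rep (ZMod p) s55_GQ) :
    Rep.res (extArithLoc S v) M →ₗ[ZMod p]
      Rep.res (extArithLoc S v) (M.dualTwist (cycloChar p)) →ₗ[ZMod p]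
        Rep.res (extArithLoc S v) (pt_T p) :=
  pt_ev M

theorem pt_evv_equivariant (S : Finset Nat.Primes) (v : extArithIndex S)
    (M : Rep (ZMod p) s55_GQ) : cup_Equivariant (pt_evv S v M) :=
  fun g m f => pt_ev_equivariant M (extArithLoc S v g) m f

/-- A family of local invariant maps `inv_v : H²_cts(ℚ_v, F_p(1)) → F_p`, for all `p, S, v`. -/
abbrev pt_InvFamily : Type :=
  ∀ (p : ℕ) [Fact p.Prime] (S : Finset Nat.Primes) (v : extArithIndex S),
    continuousH2 (extArithLoc S v) (Rep.res (extArithLoc S v) (pt_T p)) →ₗ[ZMod p] ZMod p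

/-- The class in `H¹_S` of a level-`S` cocycle. -/
noncomputable def pt_cls1 (S : Finset Nat.Primes) (A : Rep (ZMod p) s55_GQ)
    (y : cocycles₁ A) (hy : IsLevelConstantS₁ S y) : ↥(continuousH1S S A) :=
  ⟨(H1π A).hom y, (mem_continuousH1S_iff S A _).2 ⟨y, hy, rfl⟩⟩

/-- **The Poitou-Tate pairing in degrees `(2,1)`, as a predicate.**
`Θ [(c, b)] [y] = ∑_v inv_v [ b_v ∪ loc_v y - loc_v ε ]` whenever `d ε = c ∪ y`
(`ε` a level-`S` 2-cochain with values in `F_p(1)`). -/
def pt_IsTheta (inv : pt_InvFamily) (S : Finset Nat.Primes) (M : Rep (ZMod p) s55_GQ)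
    (Θ : cone_H S M →ₗ[ZMod p]
      Module.Dual (ZMod p) ↥(continuousH1S S (M.dualTwist (cycloChar p)))) : Prop :=
  ∀ (x : ↥(cone_Z S M)) (y : cocycles₁ (M.dualTwist (cycloChar p)))
    (hy : IsLevelConstantS₁ S y)
    (ε : s55_GQ × s55_GQ → pt_T p) (_ : IsLevelConstantS₂ S ε)
    (_ : (d₂₃ (pt_T p)).hom ε = cup₂₁ (pt_ev M) x.1.1 y)
    (hcoc : ∀ v : extArithIndex S,
      cup₁₁ (pt_evv S v M) (x.1.2 v) (cone_loc₁ S (M.dualTwist (cycloChar p)) v y) -
          cone_loc₂ S (pt_T p) v ε ∈
        levelCocycles₂ (extArithLoc S v) (Rep.res (extArithLoc S v) (pt_T p))),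
    Θ (Submodule.Quotient.mk x) (pt_cls1 S _ y hy) =
      ∑ v : extArithIndex S, inv p S v (continuousH2π _ _ ⟨_, hcoc v⟩)

/-- **[PAIR]** existence of the pairing map `Θ` for all admissible data. -/
def pt_PairStatement (inv : pt_InvFamily) : Prop :=
  ∀ {p : ℕ} [Fact p.Prime], p ≠ 2 → ∀ (S : Finset Nat.Primes), pPrime p ∈ S →
    ∀ (M : Rep (ZMod p) s55_GQ) [FiniteDimensional (ZMod p) M],
      s55_Smooth M → s55_UnramOutside S M →
      ∃ Θ : cone_H S M →ₗ[ZMod p]
        Module.Dual (ZMod p) ↥(continuousH1S S (M.dualTwist (cycloChar p))),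
        pt_IsTheta inv S M Θ

/-- **[BIJ]** (global duality) every `Θ` satisfying `pt_IsTheta` is bijective. -/
def pt_BijStatement (inv : pt_InvFamily) : Prop :=
  ∀ {p : ℕ} [Fact p.Prime], p ≠ 2 → ∀ (S : Finset Nat.Primes), pPrime p ∈ S →
    ∀ (M : Rep (ZMod p) s55_GQ) [FiniteDimensional (ZMod p) M],
      s55_Smooth M → s55_UnramOutside S M →
      ∀ Θ : cone_H S M →ₗ[ZMod p]
        Module.Dual (ZMod p) ↥(continuousH1S S (M.dualTwist (cycloChar p))),
        pt_IsTheta inv S M Θ → Function.Bijective Θ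

/-- **[LD1]** (local duality in degrees `(1,1)`, weak form) the cup product followed by `inv_v`
descends to a pairing of the products of the continuous local `H¹`'s which induces a SURJECTION
`∏_v H¹(ℚ_v, M) → Dual (∏_v H¹(ℚ_v, M'))`. -/
def pt_LD1Statement (inv : pt_InvFamily) : Prop :=
  ∀ {p : ℕ} [Fact p.Prime], p ≠ 2 → ∀ (S : Finset Nat.Primes), pPrime p ∈ S →
    ∀ (M : Rep (ZMod p) s55_GQ) [FiniteDimensional (ZMod p) M],
      s55_Smooth M → s55_UnramOutside S M →
      ∃ pair : (∀ v : extArithIndex S, ↥(asm_H1v S v M)) →ₗ[ZMod p]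
          Module.Dual (ZMod p) (∀ v : extArithIndex S, ↥(asm_H1v S v (M.dualTwist (cycloChar p)))),
        Function.Surjective pair ∧
        ∀ (z : ∀ v : extArithIndex S, ↥(cone_Z1v S M v))
          (y : ∀ v : extArithIndex S, ↥(cone_Z1v S (M.dualTwist (cycloChar p)) v))
          (hcoc : ∀ v : extArithIndex S,
            cup₁₁ (pt_evv S v M)
                ((z v : cocycles₁ (Rep.res (extArithLoc S v) M)) :
                  extArithLocalGroups S v → Rep.res (extArithLoc S v) M)
                ((y v : cocycles₁ (Rep.res (extArithLoc S v) (M.dualTwist (cycloChar p)))) :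
                  extArithLocalGroups S v → Rep.res (extArithLoc S v) (M.dualTwist (cycloChar p)))
              ∈ levelCocycles₂ (extArithLoc S v) (Rep.res (extArithLoc S v) (pt_T p))),
          pair (cone_q S M z) (cone_q S (M.dualTwist (cycloChar p)) y) =
            ∑ v : extArithIndex S, inv p S v (continuousH2π _ _ ⟨_, hcoc v⟩)

/-- **[CUPLEVEL]** the cup product of continuous local 1-cochains is continuous. -/
def pt_CupLevelStatement : Prop :=
  ∀ {p : ℕ} [Fact p.Prime], p ≠ 2 → ∀ (S : Finset Nat.Primes), pPrime p ∈ S →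
    ∀ (M : Rep.{0, 0, 0} (ZMod p) s55_GQ) [FiniteDimensional (ZMod p) M],
      s55_Smooth M → s55_UnramOutside S M →
      ∀ (v : extArithIndex S) (b : extArithLocalGroups S v → Rep.res (extArithLoc S v) M)
        (y : extArithLocalGroups S v → Rep.res (extArithLoc S v) (M.dualTwist (cycloChar p))),
        IsLevelConstant₁ (extArithLoc S v) b → IsLevelConstant₁ (extArithLoc S v) y →
        IsLevelConstant₂ (extArithLoc S v) (cup₁₁ (pt_evv S v M) b y)

section Assembly

variable (S : Finset Nat.Primes) (A : Rep (ZMod p) s55_GQ)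

/-- The restriction to `v` of a level-`S` global 1-cocycle, as a continuous local cocycle. -/
noncomputable def pt_locZ (v : extArithIndex S) (y : cocycles₁ A) (hy : IsLevelConstantS₁ S y) :
    ↥(cone_Z1v S A v) :=
  ⟨(mapCocycles₁ (extArithLoc S v) (𝟙 (Rep.res (extArithLoc S v) A))).hom y, by
    obtain ⟨F, hF, h⟩ := hy
    refine ⟨F, hF.1, fun g s hs => ?_⟩
    change y.1 (extArithLoc S v (g * s)) = y.1 (extArithLoc S v g)
    rw [map_mul]
    exact h _ _ hs⟩

lemma pt_locZ_coe (v : extArithIndex S) (y : cocycles₁ A) (hy : IsLevelConstantS₁ S y) :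
    (((pt_locZ S A v y hy : ↥(cone_Z1v S A v)) : cocycles₁ (Rep.res (extArithLoc S v) A)) :
      extArithLocalGroups S v → Rep.res (extArithLoc S v) A) = cone_loc₁ S A v y := rfl

lemma pt_locH1Total_cls (y : cocycles₁ A) (hy : IsLevelConstantS₁ S y) :
    asm_locH1Total S A (pt_cls1 S A y hy) = cone_q S A (fun v => pt_locZ S A v y hy) := by
  funext v
  apply Subtype.ext
  rw [cone_q_apply]
  exact congrArg (fun f => f.hom y)
    (H1π_comp_map (extArithLoc S v) (𝟙 (Rep.res (extArithLoc S v) A)))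

end Assembly

/-- **Assembly of THETA** from `[CUPLEVEL]`, `[LD1]`, `[PAIR]`, `[BIJ]`. -/
theorem pt_theta_of (inv : pt_InvFamily) (hcl : pt_CupLevelStatement)
    (hld : pt_LD1Statement inv) (hpair : pt_PairStatement inv) (hbij : pt_BijStatement inv) :
    cone_ThetaStatement := by
  intro p _ hp2 S hpS M _ hsm hMur
  obtain ⟨pair, hsurj, hform⟩ := hld hp2 S hpS M hsm hMur
  obtain ⟨Θ, hΘ⟩ := hpair hp2 S hpS M hsm hMur
  have hb := hbij hp2 S hpS M hsm hMur Θ hΘ
  refine ⟨pair, LinearEquiv.ofBijective Θ hb, hsurj, ?_⟩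
  intro x y
  obtain ⟨z, rfl⟩ := cone_q_surjective S M x
  obtain ⟨y₀, hy₀, hy⟩ := (mem_continuousH1S_iff S _ y.1).1 y.2
  have hyc : y = pt_cls1 S _ y₀ hy₀ := Subtype.ext hy.symm
  rw [hyc, pt_locH1Total_cls, LinearEquiv.ofBijective_apply, cone_del_q]
  -- membership facts
  have hcoc' : ∀ v : extArithIndex S,
      cup₁₁ (pt_evv S v M)
          ((z v : cocycles₁ (Rep.res (extArithLoc S v) M)) :
            extArithLocalGroups S v → Rep.res (extArithLoc S v) M)
          (((pt_locZ S (M.dualTwist (cycloChar p)) v y₀ hy₀ :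
              ↥(cone_Z1v S (M.dualTwist (cycloChar p)) v)) :
            cocycles₁ (Rep.res (extArithLoc S v) (M.dualTwist (cycloChar p)))) :
            extArithLocalGroups S v → Rep.res (extArithLoc S v) (M.dualTwist (cycloChar p)))
        ∈ levelCocycles₂ (extArithLoc S v) (Rep.res (extArithLoc S v) (pt_T p)) := by
    intro v
    refine ⟨?_, hcl hp2 S hpS M hsm hMur v _ _ (z v).2
      (pt_locZ S (M.dualTwist (cycloChar p)) v y₀ hy₀).2⟩
    change (d₂₃ _).hom _ = 0
    have hz : (d₁₂ (Rep.res (extArithLoc S v) M)).hom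
        ((z v : cocycles₁ (Rep.res (extArithLoc S v) M)) :
          extArithLocalGroups S v → Rep.res (extArithLoc S v) M) = 0 := (z v).1.2
    refine (cup_d₁₁ (pt_evv_equivariant S v M)
      ((z v : cocycles₁ (Rep.res (extArithLoc S v) M)) :
          extArithLocalGroups S v → Rep.res (extArithLoc S v) M)
      (((pt_locZ S (M.dualTwist (cycloChar p)) v y₀ hy₀ :
              ↥(cone_Z1v S (M.dualTwist (cycloChar p)) v)) :
            cocycles₁ (Rep.res (extArithLoc S v) (M.dualTwist (cycloChar p)))) :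
            extArithLocalGroups S v → Rep.res (extArithLoc S v) (M.dualTwist (cycloChar p)))
      (pt_locZ S (M.dualTwist (cycloChar p)) v y₀ hy₀).1.2).trans ?_
    rw [hz]
    funext x
    change (pt_evv S v M) 0 _ = 0
    rw [map_zero, LinearMap.zero_apply]
  rw [hform z _ hcoc']
  have hcoc : ∀ v : extArithIndex S,
      cup₁₁ (pt_evv S v M) ((cone_delZ S M z).1.2 v)
          (cone_loc₁ S (M.dualTwist (cycloChar p)) v y₀) -
          cone_loc₂ S (pt_T p) v 0 ∈
        levelCocycles₂ (extArithLoc S v) (Rep.res (extArithLoc S v) (pt_T p)) := by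
    intro v
    rw [map_zero, sub_zero]
    exact hcoc' v
  rw [hΘ (cone_delZ S M z) y₀ hy₀ 0 (isLevelConstantS₂_const S (0 : pt_T p))
    (by
      rw [map_zero]
      funext x
      change (0 : pt_T p) = (pt_ev M) 0 _
      rw [map_zero, LinearMap.zero_apply]) hcoc]
  refine Finset.sum_congr rfl fun v _ => ?_
  congr 2
  apply Subtype.ext
  change _ - cone_loc₂ S (pt_T p) v 0 = _
  rw [map_zero, sub_zero]
  rfl

end Fermat.Agent.S55
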