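/-
S55 (Poitou-Tate), PT layer, part 2: the leaf interfaces of the assembly and the two internal
packages [PAIR-OF] and [DEV] as closed `Prop`s.  Owner: helper9.  Prefix `pt_`.

LEAVES (to be proved by LOCAL / GLOBAL / BRIDGE):
  `pt_TAdmStatement`, `pt_DualAdmStatement`, `pt_CupLevelStatement` (in `PT.lean`),
  `pt_LD1Statement inv` (in `PT.lean`), `pt_RecStatement inv`, `pt_H3VanStatement`,
  `pt_LCDStatement`, `pt_CoverStatement inv`.
INTERNAL PACKAGES (pure cochain algebra, no arithmetic):
  `pt_PairOfStatement` : REC + H3VAN + ... → PAIR,      `pt_DevStatement` : REC + H3VAN + LCD + COVER → BIJ.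
FINAL: `pt_kappa_of_leaves`.
-/
import Mathlib
import Fermat.Agent.S55.PT

set_option autoImplicit false
set_option maxHeartbeats 1000000
set_option synthInstance.maxHeartbeats 400000
open CategoryTheory Module groupCohomology ExtCitation

namespace Fermat.Agent.S55

/-- Level-`S` functions of three variables on `G_ℚ`. -/
def pt_IsLevelS₃ (S : Finset Nat.Primes) {X : Type*} (f : s55_GQ × s55_GQ × s55_GQ → X) : Prop :=
  ∃ F : IntermediateField ℚ (AlgebraicClosure ℚ), F.IsUnramifiedOutside S ∧
    ∀ g g' g'' s s' s'', s ∈ F.fixingSubgroup → s' ∈ F.fixingSubgroup → s'' ∈ F.fixingSubgroup →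
      f (g * s, g' * s', g'' * s'') = f (g, g', g'')

/-- Continuous functions of three variables on a local group. -/
def pt_IsLevel₃ {H : Type} [Group H] (r : H →* s55_GQ) {X : Type*} (f : H × H × H → X) : Prop :=
  ∃ F : IntermediateField ℚ (AlgebraicClosure ℚ), FiniteDimensional ℚ F ∧
    ∀ g g' g'' s s' s'' : H, r s ∈ F.fixingSubgroup → r s' ∈ F.fixingSubgroup →
      r s'' ∈ F.fixingSubgroup → f (g * s, g' * s', g'' * s'') = f (g, g', g'')

/-- Inhomogeneous 3-cocycles. -/
def pt_IsCocycle₃ {k H : Type} [CommRing k] [Group H] (A : Rep k H) (z : H × H × H → A) : Prop :=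
  ∀ g h j l : H, A.ρ g (z (h, j, l)) - z (g * h, j, l) + z (g, h * j, l) - z (g, h, j * l)
    + z (g, h, j) = 0

/-- **[TADM]** `F_p(1)` is admissible. -/
def pt_TAdmStatement : Prop :=
  ∀ {p : ℕ} [Fact p.Prime], p ≠ 2 → ∀ (S : Finset Nat.Primes), pPrime p ∈ S →
    s55_Smooth (pt_T p) ∧ s55_UnramOutside S (pt_T p)

/-- **[DUALADM]** the Tate dual of an admissible module is admissible. -/
def pt_DualAdmStatement : Prop :=
  ∀ {p : ℕ} [Fact p.Prime], p ≠ 2 → ∀ (S : Finset Nat.Primes), pPrime p ∈ S →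
    ∀ (M : Rep.{0, 0, 0} (ZMod p) s55_GQ) [FiniteDimensional (ZMod p) M],
      s55_Smooth M → s55_UnramOutside S M →
      s55_Smooth (M.dualTwist (cycloChar p)) ∧ s55_UnramOutside S (M.dualTwist (cycloChar p))

/-- **[REC]** global reciprocity: the local invariants of a global class sum to zero. -/
def pt_RecStatement (inv : pt_InvFamily) : Prop :=
  ∀ {p : ℕ} [Fact p.Prime], p ≠ 2 → ∀ (S : Finset Nat.Primes), pPrime p ∈ S →
    ∀ x : continuousH2S S (pt_T p),
      ∑ v : extArithIndex S, inv p S v (locTotal₂S S (pt_T p) x v) = 0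

/-- **[H3VAN]** `H³(G_S, M) = 0` for admissible `M` (`p` odd): every level-`S` 3-cocycle is the
coboundary of a level-`S` 2-cochain. -/
def pt_H3VanStatement : Prop :=
  ∀ {p : ℕ} [Fact p.Prime], p ≠ 2 → ∀ (S : Finset Nat.Primes), pPrime p ∈ S →
    ∀ (M : Rep.{0, 0, 0} (ZMod p) s55_GQ) [FiniteDimensional (ZMod p) M],
      s55_Smooth M → s55_UnramOutside S M →
      ∀ z : s55_GQ × s55_GQ × s55_GQ → M, pt_IsLevelS₃ S z → pt_IsCocycle₃ M z →
        ∃ a : s55_GQ × s55_GQ → M, IsLevelConstantS₂ S a ∧ (d₂₃ M).hom a = z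

/-- **[LCD]** `H³(ℚ_v, M) = 0` for `v ∈ S ∪ {∞}` (`p` odd): every continuous local 3-cocycle is
the coboundary of a continuous local 2-cochain. -/
def pt_LCDStatement : Prop :=
  ∀ {p : ℕ} [Fact p.Prime], p ≠ 2 → ∀ (S : Finset Nat.Primes), pPrime p ∈ S →
    ∀ (M : Rep.{0, 0, 0} (ZMod p) s55_GQ) [FiniteDimensional (ZMod p) M],
      s55_Smooth M → s55_UnramOutside S M →
      ∀ (v : extArithIndex S)
        (z : extArithLocalGroups S v × extArithLocalGroups S v × extArithLocalGroups S v →
          Rep.res (extArithLoc S v) M),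
        pt_IsLevel₃ (extArithLoc S v) z → pt_IsCocycle₃ (Rep.res (extArithLoc S v) M) z →
        ∃ a : extArithLocalGroups S v × extArithLocalGroups S v → Rep.res (extArithLoc S v) M,
          IsLevelConstant₂ (extArithLoc S v) a ∧
            (d₂₃ (Rep.res (extArithLoc S v) M)).hom a = z

section Theta3

variable {p : ℕ} [Fact p.Prime]

/-- **The Poitou-Tate pairing in degrees `(3,0)`, as a predicate** on maps
`Θ₃ : ∏_v H²(ℚ_v, M) → Dual H⁰(G_ℚ, M')`:  `Θ₃ (c_v)_v m' = ∑_v inv_v [ c_v ∪ m' ]`.
(By [H3VAN], `H³_c(G_S, M) = coker (H²_S(M) → ∏_v H²(ℚ_v, M))`; global duality in degree 3 says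
that `Θ₃` is surjective with kernel the image of `H²_S(M)`.) -/
def pt_IsTheta3 (inv : pt_InvFamily) (S : Finset Nat.Primes) (M : Rep (ZMod p) s55_GQ)
    (Θ : (∀ v : extArithIndex S,
        continuousH2 (extArithLoc S v) (Rep.res (extArithLoc S v) M)) →ₗ[ZMod p]
      Module.Dual (ZMod p) ↥((M.dualTwist (cycloChar p)).ρ.invariants)) : Prop :=
  ∀ (c : ∀ v : extArithIndex S,
      ↥(levelCocycles₂ (extArithLoc S v) (Rep.res (extArithLoc S v) M)))
    (m' : ↥((M.dualTwist (cycloChar p)).ρ.invariants))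
    (hcoc : ∀ v : extArithIndex S,
      cup₂₀ (pt_evv S v M)
          ((c v : extArithLocalGroups S v × extArithLocalGroups S v →
            Rep.res (extArithLoc S v) M))
          (m'.1 : Rep.res (extArithLoc S v) (M.dualTwist (cycloChar p))) ∈
        levelCocycles₂ (extArithLoc S v) (Rep.res (extArithLoc S v) (pt_T p))),
    Θ (fun v => continuousH2π _ _ (c v)) m' =
      ∑ v : extArithIndex S, inv p S v (continuousH2π _ _ ⟨_, hcoc v⟩)

end Theta3

/-- **[COVER]** (the arithmetic heart: base case of the devissage, = class field theory +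
Shapiro + Kummer).  Every admissible `M` is a quotient of an admissible `I` (in the proof:
`I = Ind_{G_K}^{G_ℚ} Res M`, `K` the splitting field of `M ⊕ μ_p`) for which global duality holds
in degrees 2 and 3. -/
def pt_CoverStatement (inv : pt_InvFamily) : Prop :=
  ∀ {p : ℕ} [Fact p.Prime], p ≠ 2 → ∀ (S : Finset Nat.Primes), pPrime p ∈ S →
    ∀ (M : Rep.{0, 0, 0} (ZMod p) s55_GQ) [FiniteDimensional (ZMod p) M],
      s55_Smooth M → s55_UnramOutside S M →
      ∃ (I : Rep.{0, 0, 0} (ZMod p) s55_GQ) (_ : FiniteDimensional (ZMod p) I)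
        (f : I ⟶ M),
        s55_Smooth I ∧ s55_UnramOutside S I ∧ Function.Surjective f.hom ∧
        (∀ Θ : cone_H S I →ₗ[ZMod p]
            Module.Dual (ZMod p) ↥(continuousH1S S (I.dualTwist (cycloChar p))),
          pt_IsTheta inv S I Θ → Function.Bijective Θ) ∧
        (∀ Θ : (∀ v : extArithIndex S,
              continuousH2 (extArithLoc S v) (Rep.res (extArithLoc S v) I)) →ₗ[ZMod p]
            Module.Dual (ZMod p) ↥((I.dualTwist (cycloChar p)).ρ.invariants),
          pt_IsTheta3 inv S I Θ →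
            LinearMap.ker Θ = LinearMap.range (locTotal₂S S I) ∧ Function.Surjective Θ)

/-- **[PAIR-OF]** (internal package, cochain algebra): construction of `Θ`. -/
def pt_PairOfStatement : Prop :=
  ∀ inv : pt_InvFamily, pt_TAdmStatement → pt_DualAdmStatement → pt_CupLevelStatement →
    pt_RecStatement inv → pt_H3VanStatement → pt_PairStatement inv

/-- **[DEV]** (internal package, homological algebra): Serre's devissage. -/
def pt_DevStatement : Prop :=
  ∀ inv : pt_InvFamily, pt_TAdmStatement → pt_DualAdmStatement → pt_CupLevelStatement →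
    pt_RecStatement inv → pt_H3VanStatement → pt_LCDStatement → pt_CoverStatement inv →
    pt_BijStatement inv

/-- **FINAL ASSEMBLY.**  All leaves and the two internal packages give the top-level
interface `s55_KappaStatement`, hence (by `s55_result_of`) the frozen statement S55. -/
theorem pt_kappa_of_leaves (inv : pt_InvFamily)
    (hPO : pt_PairOfStatement) (hDEV : pt_DevStatement)
    (hT : pt_TAdmStatement) (hD : pt_DualAdmStatement) (hCL : pt_CupLevelStatement)
    (hLD1 : pt_LD1Statement inv) (hREC : pt_RecStatement inv) (hH3 : pt_H3VanStatement)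
    (hLCD : pt_LCDStatement) (hCOV : pt_CoverStatement inv) : s55_KappaStatement :=
  cone_kappa_of (pt_theta_of inv hCL hLD1 (hPO inv hT hD hCL hREC hH3)
    (hDEV inv hT hD hCL hREC hH3 hLCD hCOV))

end Fermat.Agent.S55
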