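/-
S55 (Poitou-Tate), leaves [TADM] and [DUALADM] (helper24).  Prefix `adm_`.

* `adm_cyclo_inertia` : the mod `p` cyclotomic character is unramified at every prime `q ≠ p`;
* `adm_uniform`       : a smooth finite-dimensional `𝔽_p`-representation of `G_ℚ` is fixed
                        pointwise by the fixing subgroup of one finite extension;
* `adm_tAdm`          : `pt_TAdmStatement`;
* `adm_dualAdm`       : `pt_DualAdmStatement`.
-/
import Mathlib
import Fermat.Agent.S55.PTDev
import Fermat.Agent.S05.Inertia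

set_option autoImplicit false
set_option linter.style.haveILetI false
set_option maxHeartbeats 1000000
set_option synthInstance.maxHeartbeats 400000
open CategoryTheory Module groupCohomology ExtCitation

namespace Fermat.Agent.S55

local notation "Qbar" => AlgebraicClosure ℚ

variable (p : ℕ) [Fact p.Prime]

/-- the action of `G_ℚ` on the `p`-th roots of unity is through `cycloChar p`. -/
theorem adm_cyclo_spec (σ : s55_GQ) {t : Qbarˣ} (ht : t ∈ rootsOfUnity p Qbar) :
    σ (t : Qbar) = (t : Qbar) ^ ((cycloChar p σ : ZMod p)).val := by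
  haveI : NeZero p := ⟨(Fact.out : p.Prime).ne_zero⟩
  have h := modularCyclotomicCharacter.spec Qbar (card_rootsOfUnity_eq_self p)
    (σ : Qbar ≃+* Qbar) ht
  exact_mod_cast h

/-- if `σ` fixes the `p`-th roots of unity then `cycloChar p σ = 1`. -/
theorem adm_cyclo_eq_one (σ : s55_GQ)
    (h : ∀ t : Qbarˣ, t ∈ rootsOfUnity p Qbar → σ (t : Qbar) = t) : cycloChar p σ = 1 := by
  haveI : NeZero p := ⟨(Fact.out : p.Prime).ne_zero⟩
  have h1 := modularCyclotomicCharacter.unique Qbar (card_rootsOfUnity_eq_self p)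
    (σ : Qbar ≃+* Qbar) (c := 1) (fun t ht => by
      have := h t ht
      rw [ZMod.val_one, pow_one]
      exact_mod_cast this)
  ext
  exact h1.symm

/-- the field generated by the `p`-th roots of unity. -/
noncomputable def adm_cycField : IntermediateField ℚ Qbar :=
  IntermediateField.adjoin ℚ {x : Qbar | x ^ p = 1}

theorem adm_cycField_finite : FiniteDimensional ℚ (adm_cycField p) := by
  haveI : NeZero p := ⟨(Fact.out : p.Prime).ne_zero⟩
  have hfin : Set.Finite {x : Qbar | x ^ p = 1} := by
    have := (Polynomial.nthRoots p (1 : Qbar)).toFinset.finite_toSet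
    refine this.subset (fun x hx => ?_)
    simp only [Finset.mem_coe, Multiset.mem_toFinset]
    exact (Polynomial.mem_nthRoots (Nat.pos_of_ne_zero (NeZero.ne p))).2 hx
  haveI : Finite {x : Qbar | x ^ p = 1} := hfin.to_subtype
  exact IntermediateField.finiteDimensional_adjoin
    (fun x _ => ((AlgebraicClosure.isAlgebraic ℚ).isAlgebraic x).isIntegral)

theorem adm_cyclo_eq_one_of_fix (σ : s55_GQ) (hσ : σ ∈ (adm_cycField p).fixingSubgroup) :
    cycloChar p σ = 1 := by
  refine adm_cyclo_eq_one p σ (fun t ht => ?_)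
  have hmem : (t : Qbar) ∈ adm_cycField p := by
    apply IntermediateField.subset_adjoin
    have := (mem_rootsOfUnity _ _).1 ht
    show (t : Qbar) ^ p = 1
    have h2 := congrArg (fun u : Qbarˣ => (u : Qbar)) this
    simpa using h2
  exact (IntermediateField.mem_fixingSubgroup_iff _ _).1 hσ _ hmem

/-- the prime `p` is the product of `1 - μ` over the primitive `p`-th roots of unity. -/
theorem adm_prod_one_sub {ζ : Qbar} (hζ : IsPrimitiveRoot ζ p) :
    (p : Qbar) = ∏ μ ∈ primitiveRoots p Qbar, (1 - μ) := by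
  have h1 := Polynomial.cyclotomic_eq_prod_X_sub_primitiveRoots hζ
  have h2 := congrArg (Polynomial.eval (1 : Qbar)) h1
  rw [Polynomial.eval_one_cyclotomic_prime, Polynomial.eval_prod] at h2
  simpa using h2

/-- a `p`-th root of unity has valuation `1`. -/
theorem adm_val_root (A : ValuationSubring Qbar) {t : Qbar} (ht : t ^ p = 1) :
    A.valuation t = 1 := by
  have h := congrArg A.valuation ht
  rw [map_pow, map_one] at h
  rcases pow_eq_one_iff.1 h with h1 | h1
  · exact h1
  · exact absurd h1 (Fact.out : p.Prime).ne_zero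

/-- **the mod `p` cyclotomic character is unramified at every prime `q ≠ p`.** -/
theorem adm_cyclo_inertia {q : ℕ} (hq : q.Prime) (hqp : q ≠ p) (A : ValuationSubring Qbar)
    (hA : A.LiesOverPrime q) (g : s55_GQ) (hg : g ∈ A.inertiaSubgroupIn ℚ) :
    cycloChar p g = 1 := by
  classical
  have hp : p.Prime := Fact.out
  refine adm_cyclo_eq_one p g (fun t ht => ?_)
  have htp : (t : Qbar) ^ p = 1 := by
    have := (mem_rootsOfUnity _ _).1 ht
    have h2 := congrArg (fun u : Qbarˣ => (u : Qbar)) this
    simpa using h2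
  by_contra hne
  -- `μ := g t / t` is a primitive `p`-th root of unity
  set μ : Qbar := g (t : Qbar) * (t : Qbar)⁻¹ with hμ
  have ht0 : (t : Qbar) ≠ 0 := t.ne_zero
  have hgtp : (g (t : Qbar)) ^ p = 1 := by
    rw [← map_pow, htp, map_one]
  have hμp : μ ^ p = 1 := by
    rw [hμ, mul_pow, inv_pow, hgtp, htp]
    simp
  have hμ1 : μ ≠ 1 := by
    intro h
    apply hne
    rw [hμ] at h
    field_simp at h
    exact h
  have hprim : IsPrimitiveRoot μ p := by
    have := IsPrimitiveRoot.orderOf μ
    rwa [orderOf_eq_prime hμp hμ1] at this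
  have hmem : μ ∈ primitiveRoots p Qbar := (mem_primitiveRoots hp.pos).2 hprim
  -- valuations
  have hvt : A.valuation (t : Qbar) = 1 := adm_val_root p A htp
  have hlt : A.valuation (1 - μ) < 1 := by
    have h1 := Fermat.Agent.S05.inertia_sub_lt_one A g hg (t : Qbar) hvt.le
    have h2 : (1 - μ) = -((g (t : Qbar) - t) * (t : Qbar)⁻¹) := by
      rw [hμ]
      field_simp
      ring
    rw [h2, Valuation.map_neg, map_mul, map_inv₀, hvt, inv_one, mul_one]
    exact h1
  have hle : ∀ ν ∈ primitiveRoots p Qbar, A.valuation (1 - ν) ≤ 1 := by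
    intro ν hν
    have hν' := ((mem_primitiveRoots hp.pos).1 hν).pow_eq_one
    have h1 := adm_val_root p A hν'
    calc A.valuation (1 - ν) ≤ max (A.valuation 1) (A.valuation ν) := Valuation.map_sub _ _ _
      _ = 1 := by rw [map_one, h1, max_self]
  have hprod : A.valuation (p : Qbar) < 1 := by
    rw [adm_prod_one_sub p hprim, map_prod, ← Finset.mul_prod_erase _ _ hmem]
    calc A.valuation (1 - μ) * ∏ x ∈ (primitiveRoots p Qbar).erase μ, A.valuation (1 - x)
        ≤ A.valuation (1 - μ) * 1 := by
          refine mul_le_mul_right (Finset.prod_le_one' (fun ν hν => ?_)) _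
          exact hle ν (Finset.mem_of_mem_erase hν)
      _ < 1 := by rw [mul_one]; exact hlt
  have hone : A.valuation (((p : ℤ) : ℚ) : Qbar) = 1 := by
    refine Fermat.Agent.S05.valuation_intCast_eq_one A hq hA (p : ℤ) ?_
    intro hdvd
    have h3 : q ∣ p := by exact_mod_cast hdvd
    exact hqp ((Nat.prime_dvd_prime_iff_eq hq hp).1 h3)
  have hcast : ((((p : ℤ) : ℚ)) : Qbar) = (p : Qbar) := by push_cast; rfl
  rw [hcast] at hone
  rw [hone] at hprod
  exact lt_irrefl _ hprod

/-- the action on `F_p(1)`. -/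
theorem adm_T_ρ (g : s55_GQ) (m : pt_T p) :
    (pt_T p).ρ g m = ((cycloChar p g : (ZMod p)ˣ) : ZMod p) • m := rfl

/-- **[TADM]** -/
theorem adm_tAdm : pt_TAdmStatement := by
  intro p _ hp2 S hpS
  refine ⟨fun m => ⟨adm_cycField p, adm_cycField_finite p, fun s hs => ?_⟩,
    fun q hq A hA g hg => ?_⟩
  · rw [adm_T_ρ, adm_cyclo_eq_one_of_fix p s hs]
    simp
  · have hqp : (q : ℕ) ≠ p := by
      intro h
      apply hq
      have : q = pPrime p := Subtype.ext h
      rw [this]
      exact hpS
    refine LinearMap.ext (fun m => ?_)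
    rw [adm_T_ρ, adm_cyclo_inertia p q.2 hqp A hA g hg]
    simp

/-- **Uniform smoothness**: a smooth finite-dimensional representation over `𝔽_p` is fixed
pointwise by the fixing subgroup of ONE finite extension of `ℚ`. -/
theorem adm_uniform (M : Rep (ZMod p) s55_GQ) [FiniteDimensional (ZMod p) M]
    (hsm : s55_Smooth M) :
    ∃ F : IntermediateField ℚ Qbar, FiniteDimensional ℚ F ∧
      ∀ s ∈ F.fixingSubgroup, ∀ m : M, M.ρ s m = m := by
  haveI : NeZero p := ⟨(Fact.out : p.Prime).ne_zero⟩
  haveI : Finite M := Module.finite_of_finite (ZMod p)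
  choose F hF hfix using hsm
  haveI : ∀ m, FiniteDimensional ℚ (F m) := hF
  refine ⟨⨆ m : M, F m, inferInstance, fun s hs m => ?_⟩
  exact hfix m s (IntermediateField.fixingSubgroup_antitone (le_iSup F m) hs)

/-- uniform smoothness of the Tate dual. -/
theorem adm_uniform_dual (M : Rep (ZMod p) s55_GQ) [FiniteDimensional (ZMod p) M]
    (hsm : s55_Smooth M) :
    ∃ F : IntermediateField ℚ Qbar, FiniteDimensional ℚ F ∧
      ∀ s ∈ F.fixingSubgroup, ∀ f : M.dualTwist (cycloChar p),
        (M.dualTwist (cycloChar p)).ρ s f = f := by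
  obtain ⟨F, hF, hfix⟩ := adm_uniform p M hsm
  haveI := hF
  haveI := adm_cycField_finite p
  refine ⟨F ⊔ adm_cycField p, inferInstance, fun s hs f => ?_⟩
  have hs1 : s ∈ F.fixingSubgroup := IntermediateField.fixingSubgroup_antitone le_sup_left hs
  have hs2 : s ∈ (adm_cycField p).fixingSubgroup :=
    IntermediateField.fixingSubgroup_antitone le_sup_right hs
  rw [Rep.dualTwist_ρ_apply, adm_cyclo_eq_one_of_fix p s hs2]
  have hinv : M.ρ s⁻¹ = LinearMap.id := by
    refine LinearMap.ext (fun m => ?_)
    exact hfix s⁻¹ (inv_mem hs1) m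
  rw [hinv]
  simp

/-- **[DUALADM]** -/
theorem adm_dualAdm : pt_DualAdmStatement := by
  intro p _ hp2 S hpS M _ hsm hMur
  refine ⟨fun f => ?_, fun q hq A hA g hg => ?_⟩
  · obtain ⟨F, hF, hfix⟩ := adm_uniform_dual p M hsm
    exact ⟨F, hF, fun s hs => hfix s hs f⟩
  · have hqp : (q : ℕ) ≠ p := by
      intro h
      apply hq
      have : q = pPrime p := Subtype.ext h
      rw [this]
      exact hpS
    refine LinearMap.ext (fun f => ?_)
    rw [Rep.dualTwist_ρ_apply, adm_cyclo_inertia p q.2 hqp A hA g hg]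
    have hinv : M.ρ g⁻¹ = LinearMap.id := by
      have h1 := hMur q hq A hA g⁻¹ (inv_mem hg)
      rw [h1]
      rfl
    rw [hinv]
    simp

end Fermat.Agent.S55
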