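/-
S55 (Poitou-Tate), leaf [CUPLEVEL] (helper24).  Prefix `cupl_`.

* `cupl_cupLevel` : `pt_CupLevelStatement` - the cup product of continuous local 1-cochains is
                    continuous.
-/
import Mathlib
import Fermat.Agent.S55.Adm

set_option autoImplicit false
set_option linter.style.haveILetI false
set_option maxHeartbeats 1000000
set_option synthInstance.maxHeartbeats 400000
open CategoryTheory Module groupCohomology ExtCitation

namespace Fermat.Agent.S55

/-- **[CUPLEVEL]** -/
theorem cupl_cupLevel : pt_CupLevelStatement := by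
  intro p _ hp2 S hpS M _ hsm hMur v b y hb hy
  obtain ⟨Fb, hFb, hb'⟩ := hb
  obtain ⟨Fy, hFy, hy'⟩ := hy
  obtain ⟨FM, hFM, hfix⟩ := adm_uniform_dual p M hsm
  haveI := hFb
  haveI := hFy
  haveI := hFM
  refine ⟨Fb ⊔ Fy ⊔ FM, inferInstance, fun g g' s s' hs hs' => ?_⟩
  have hs1 : extArithLoc S v s ∈ Fb.fixingSubgroup :=
    IntermediateField.fixingSubgroup_antitone (le_sup_left.trans le_sup_left) hs
  have hs3 : extArithLoc S v s ∈ FM.fixingSubgroup :=
    IntermediateField.fixingSubgroup_antitone le_sup_right hs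
  have hs2' : extArithLoc S v s' ∈ Fy.fixingSubgroup :=
    IntermediateField.fixingSubgroup_antitone (le_sup_right.trans le_sup_left) hs'
  rw [cup₁₁_apply, cup₁₁_apply, hb' g s hs1, hy' g' s' hs2']
  congr 1
  change (M.dualTwist (cycloChar p)).ρ (extArithLoc S v (g * s)) (y g') =
    (M.dualTwist (cycloChar p)).ρ (extArithLoc S v g) (y g')
  rw [map_mul, map_mul, Module.End.mul_apply]
  congr 1
  exact hfix _ hs3 _

end Fermat.Agent.S55
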