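/-
S55 (Poitou-Tate), PT layer, part 3: reduction of the leaves [COVER], [H3VAN] to the BASE cases
for the permutation modules `pt_A p K = F_p[G_ℚ / G_K] = Ind_{G_K}^{G_ℚ} F_p`
(so that, by Shapiro, they are statements about `G_{K,S}` with TRIVIAL coefficients).
Owner: helper9.  Prefix `pt_`.

ARITHMETIC LEAVES after this file:  `pt_LD1Statement inv`, `pt_LCDStatement`, `pt_RecStatement inv`,
  `pt_BaseStatement inv`, `pt_H3BaseStatement`.
INTERNAL (pure algebra) PACKAGES: `pt_PairOfStatement`, `pt_DevStatement`, `pt_CoverOfStatement`,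
  `pt_H3OfStatement`, `pt_TAdmStatement`, `pt_DualAdmStatement`, `pt_CupLevelStatement`.
-/
import Mathlib
import Fermat.Agent.S55.PTDev

set_option autoImplicit false
set_option maxHeartbeats 1000000
set_option synthInstance.maxHeartbeats 400000
open CategoryTheory Module groupCohomology ExtCitation

namespace Fermat.Agent.S55

/-- The permutation module `F_p[G_ℚ / G_K] = Ind_{G_K}^{G_ℚ} F_p`
(`G_ℚ / G_K` = the set of embeddings of `K` into `AlgebraicClosure ℚ`). -/
noncomputable abbrev pt_A (p : ℕ) [Fact p.Prime] (K : IntermediateField ℚ (AlgebraicClosure ℚ)) :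
    Rep.{0, 0, 0} (ZMod p) s55_GQ :=
  Rep.ofMulAction (ZMod p) s55_GQ (s55_GQ ⧸ K.fixingSubgroup)

/-- **[BASE]** (arithmetic heart = Poitou-Tate for `F_p` over `K ⊇ μ_p`, `K/ℚ` finite Galois
unramified outside `S`; Milne ADT I.4.10 for `M = ℤ/p`, NSW 8.6.7): global duality in degrees 2
and 3 for the module `pt_A p K`. -/
def pt_BaseStatement (inv : pt_InvFamily) : Prop :=
  ∀ {p : ℕ} [Fact p.Prime], p ≠ 2 → ∀ (S : Finset Nat.Primes), pPrime p ∈ S →
    ∀ K : IntermediateField ℚ (AlgebraicClosure ℚ), K.IsUnramifiedOutside S →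
      K.fixingSubgroup.Normal → (∀ s ∈ K.fixingSubgroup, cycloChar p s = 1) →
      (∀ Θ : cone_H S (pt_A p K) →ₗ[ZMod p]
          Module.Dual (ZMod p) ↥(continuousH1S S ((pt_A p K).dualTwist (cycloChar p))),
        pt_IsTheta inv S (pt_A p K) Θ → Function.Bijective Θ) ∧
      (∀ Θ : (∀ v : extArithIndex S,
            continuousH2 (extArithLoc S v) (Rep.res (extArithLoc S v) (pt_A p K))) →ₗ[ZMod p]
          Module.Dual (ZMod p) ↥(((pt_A p K).dualTwist (cycloChar p)).ρ.invariants),
        pt_IsTheta3 inv S (pt_A p K) Θ →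
          LinearMap.ker Θ = LinearMap.range (locTotal₂S S (pt_A p K)) ∧ Function.Surjective Θ)

/-- **[H3-BASE]** `H³(G_{K,S}, F_p) = 0` for every finite `K ⊇ μ_p` unramified outside `S`
(not necessarily Galois over `ℚ`), in Shapiro form: level-`S` 3-cocycles of `G_ℚ` with values in
`pt_A p K` are level-`S` coboundaries (NSW 8.3.18 / 10.9.3). -/
def pt_H3BaseStatement : Prop :=
  ∀ {p : ℕ} [Fact p.Prime], p ≠ 2 → ∀ (S : Finset Nat.Primes), pPrime p ∈ S →
    ∀ K : IntermediateField ℚ (AlgebraicClosure ℚ), K.IsUnramifiedOutside S →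
      (∀ s ∈ K.fixingSubgroup, cycloChar p s = 1) →
      ∀ z : s55_GQ × s55_GQ × s55_GQ → pt_A p K, pt_IsLevelS₃ S z → pt_IsCocycle₃ (pt_A p K) z →
        ∃ a : s55_GQ × s55_GQ → pt_A p K, IsLevelConstantS₂ S a ∧ (d₂₃ (pt_A p K)).hom a = z

/-- **[COVER-OF]** (internal, pure algebra): `I := Ind_{G_K}^{G_ℚ} Res M ≅ (pt_A p K)^d` for `K`
the splitting field of `M ⊕ μ_p`, the surjection `I → M`, and additivity/naturality of
`pt_IsTheta`, `pt_IsTheta3`. -/
def pt_CoverOfStatement : Prop :=
  ∀ inv : pt_InvFamily, pt_TAdmStatement → pt_DualAdmStatement → pt_CupLevelStatement →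
    pt_RecStatement inv → pt_H3VanStatement → pt_BaseStatement inv → pt_CoverStatement inv

/-- **[H3-OF]** (internal, pure algebra): Sylow + filtration devissage.  For admissible `M` take
`P ≤ G_ℚ` open of index prime to `p` whose image in `GL(M)` is a `p`-group and which fixes `μ_p`;
`M` is a direct summand of `Ind_P^{G_ℚ} Res M`, which is filtered with quotients `pt_A p K₀`,
`K₀` = fixed field of `P`. -/
def pt_H3OfStatement : Prop :=
  pt_H3BaseStatement → pt_H3VanStatement

/-- **FINAL ASSEMBLY, second form.** -/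
theorem pt_kappa_of_base_leaves (inv : pt_InvFamily)
    (hPO : pt_PairOfStatement) (hDEV : pt_DevStatement) (hCO : pt_CoverOfStatement)
    (hH3O : pt_H3OfStatement)
    (hT : pt_TAdmStatement) (hD : pt_DualAdmStatement) (hCL : pt_CupLevelStatement)
    (hLD1 : pt_LD1Statement inv) (hLCD : pt_LCDStatement) (hREC : pt_RecStatement inv)
    (hH3B : pt_H3BaseStatement) (hBASE : pt_BaseStatement inv) : s55_KappaStatement :=
  pt_kappa_of_leaves inv hPO hDEV hT hD hCL hLD1 hREC (hH3O hH3B) hLCD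
    (hCO inv hT hD hCL hREC (hH3O hH3B) hBASE)

end Fermat.Agent.S55
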