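/-
S55 (Poitou-Tate): THE GRAND ASSEMBLY.  Owner: helper9.  Prefix `fin55_`.

`fin55_kappa` : the frozen statement's top-level interface `s55_KappaStatement` from
  LOCAL    : `lcf_InvStatement` [L-INV], `ld_PtInvStatement` [PTINV], `ld_LD1Statement` [LD1],
             `pt_LCDStatement` [LCD];
  GLOBAL   : `fin55_RecOfStatement` [REC-OF], `fin55_BaseOfStatement` [BASE-OF],
             `pt_H3BaseStatement` [H3-BASE];
  INTERNAL : `pt_PairOfStatement`, `pt_DevStatement`, `pt_CoverOfStatement`, `pt_H3OfStatement`
(the internal leaves [TADM], [DUALADM], [CUPLEVEL] are discharged by helper24's `Adm.lean`,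
`CupLevel.lean`).
-/
import Mathlib
import Fermat.Agent.S55.PTBase
import Fermat.Agent.S55.Local.LDDefs
import Fermat.Agent.S55.CupLevel

set_option autoImplicit false
set_option maxHeartbeats 1000000
set_option synthInstance.maxHeartbeats 400000
open CategoryTheory Module groupCohomology ExtCitation

namespace Fermat.Agent.S55

/-- **[REC-OF]** global reciprocity for every family of invariant maps induced by a local
invariant system (Hasse sum formula for `Br(ℚ)[p]`, restricted to classes split by extensions
unramified outside `S`). -/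
def fin55_RecOfStatement : Prop :=
  ∀ (inv : lcf_InvType) (ptinv : pt_InvFamily), lcf_IsInvSystem inv → ld_Compat inv ptinv →
    pt_RecStatement ptinv

/-- **[BASE-OF]** the base case of global duality for every family of invariant maps induced by
a local invariant system. -/
def fin55_BaseOfStatement : Prop :=
  ∀ (inv : lcf_InvType) (ptinv : pt_InvFamily), lcf_IsInvSystem inv → ld_Compat inv ptinv →
    pt_BaseStatement ptinv

/-- **THE GRAND ASSEMBLY.** -/
theorem fin55_kappa
    (hLINV : lcf_InvStatement) (hPTINV : ld_PtInvStatement) (hLD1 : ld_LD1Statement)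
    (hLCD : pt_LCDStatement)
    (hREC : fin55_RecOfStatement) (hBASE : fin55_BaseOfStatement) (hH3B : pt_H3BaseStatement)
    (hPO : pt_PairOfStatement) (hDEV : pt_DevStatement) (hCO : pt_CoverOfStatement)
    (hH3O : pt_H3OfStatement) : s55_KappaStatement := by
  obtain ⟨inv, ptinv, hinv, hc, hld⟩ := ld_local_of hLINV hPTINV hLD1
  exact pt_kappa_of_base_leaves ptinv hPO hDEV hCO hH3O adm_tAdm adm_dualAdm cupl_cupLevel hld
    hLCD (hREC inv ptinv hinv hc) hH3B (hBASE inv ptinv hinv hc)

end Fermat.Agent.S55
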