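/-
S55 (Poitou-Tate), package [COVER-OF], part 1 (helper16).  Prefix `cov_`.

The splitting field `cov_K p M` of `M ⊕ μ_p` for an admissible `M`:
  `cov_H p M := ker ρ_M ⊓ ker (cycloChar p)` (a normal subgroup of `G_ℚ`),
  `cov_K p M := fixedField (cov_H p M)`.
For admissible `M` the subgroup `cov_H p M` is open, hence closed, and infinite Galois theory
gives `(cov_K p M).fixingSubgroup = cov_H p M`.
-/
import Mathlib
import Fermat.Agent.S55.PTBase
import Fermat.Agent.S55.Adm

set_option autoImplicit false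
set_option linter.style.haveILetI false
set_option maxHeartbeats 1000000
set_option synthInstance.maxHeartbeats 400000
open CategoryTheory Module groupCohomology ExtCitation

namespace Fermat.Agent.S55

local notation "Qbar" => AlgebraicClosure ℚ

variable (p : ℕ) [Fact p.Prime]

theorem cov_isGalois : IsGalois ℚ Qbar := by
  have halg : Algebra.IsAlgebraic ℚ (AlgebraicClosure ℚ) := AlgebraicClosure.isAlgebraic ℚ
  have hclos : IsAlgClosure ℚ (AlgebraicClosure ℚ) := AlgebraicClosure.instIsAlgClosure ℚ
  exact inferInstance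

/-- The common kernel of `ρ_M` and of the mod `p` cyclotomic character. -/
noncomputable def cov_H (M : Rep (ZMod p) s55_GQ) : Subgroup s55_GQ :=
  M.ρ.ker ⊓ (cycloChar p).ker

instance cov_H_normal (M : Rep (ZMod p) s55_GQ) : (cov_H p M).Normal := by
  unfold cov_H
  infer_instance

lemma cov_mem_H (M : Rep (ZMod p) s55_GQ) (s : s55_GQ) :
    s ∈ cov_H p M ↔ M.ρ s = 1 ∧ cycloChar p s = 1 := by
  unfold cov_H
  rw [Subgroup.mem_inf, MonoidHom.mem_ker, MonoidHom.mem_ker]

/-- The splitting field of `M ⊕ μ_p`. -/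
noncomputable def cov_K (M : Rep (ZMod p) s55_GQ) : IntermediateField ℚ Qbar :=
  IntermediateField.fixedField (cov_H p M)

/-- `cov_H p M` contains the fixing subgroup of a finite extension. -/
lemma cov_H_ge (M : Rep (ZMod p) s55_GQ) [FiniteDimensional (ZMod p) M] (hsm : s55_Smooth M) :
    ∃ F : IntermediateField ℚ Qbar, FiniteDimensional ℚ F ∧ F.fixingSubgroup ≤ cov_H p M := by
  obtain ⟨F, hF, hfix⟩ := adm_uniform p M hsm
  haveI := hF
  haveI := adm_cycField_finite p
  refine ⟨F ⊔ adm_cycField p, inferInstance, fun s hs => ?_⟩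
  have hs1 : s ∈ F.fixingSubgroup := IntermediateField.fixingSubgroup_antitone le_sup_left hs
  have hs2 : s ∈ (adm_cycField p).fixingSubgroup :=
    IntermediateField.fixingSubgroup_antitone le_sup_right hs
  rw [cov_mem_H]
  exact ⟨LinearMap.ext (fun m => hfix s hs1 m), adm_cyclo_eq_one_of_fix p s hs2⟩

/-- Infinite Galois theory: the fixing subgroup of `cov_K p M` is `cov_H p M`. -/
theorem cov_fixing_K (M : Rep (ZMod p) s55_GQ) [FiniteDimensional (ZMod p) M]
    (hsm : s55_Smooth M) : (cov_K p M).fixingSubgroup = cov_H p M := by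
  obtain ⟨F, hF, hle⟩ := cov_H_ge p M hsm
  haveI := hF
  have hopen : IsOpen (cov_H p M : Set s55_GQ) :=
    Subgroup.isOpen_mono hle (IntermediateField.fixingSubgroup_isOpen F)
  have hclosed : IsClosed (cov_H p M : Set s55_GQ) :=
    OpenSubgroup.isClosed ⟨cov_H p M, hopen⟩
  have hgal : IsGalois ℚ Qbar := cov_isGalois
  exact InfiniteGalois.fixingSubgroup_fixedField ⟨cov_H p M, hclosed⟩

lemma cov_K_le (M : Rep (ZMod p) s55_GQ) (F : IntermediateField ℚ Qbar)
    (hle : F.fixingSubgroup ≤ cov_H p M) : cov_K p M ≤ F := by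
  have h1 : IntermediateField.fixedField (cov_H p M) ≤
      IntermediateField.fixedField F.fixingSubgroup :=
    IntermediateField.fixedField_antitone hle
  have hgal : IsGalois ℚ Qbar := cov_isGalois
  rw [InfiniteGalois.fixedField_fixingSubgroup] at h1
  exact h1

theorem cov_K_finite (M : Rep (ZMod p) s55_GQ) [FiniteDimensional (ZMod p) M]
    (hsm : s55_Smooth M) : FiniteDimensional ℚ (cov_K p M) := by
  obtain ⟨F, hF, hle⟩ := cov_H_ge p M hsm
  haveI := hF
  have h := cov_K_le p M F hle
  exact FiniteDimensional.of_injective (IntermediateField.inclusion h).toLinearMap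
    (IntermediateField.inclusion_injective h)

/-- **The field `cov_K p M` has all the properties required in `pt_BaseStatement`**, and its
fixing subgroup acts trivially on `M`. -/
theorem cov_K_spec (M : Rep (ZMod p) s55_GQ) [FiniteDimensional (ZMod p) M]
    (hsm : s55_Smooth M) (S : Finset Nat.Primes) (hpS : pPrime p ∈ S)
    (hMur : s55_UnramOutside S M) :
    (cov_K p M).IsUnramifiedOutside S ∧ (cov_K p M).fixingSubgroup.Normal ∧
      (∀ s ∈ (cov_K p M).fixingSubgroup, cycloChar p s = 1) ∧
      (∀ s ∈ (cov_K p M).fixingSubgroup, ∀ m : M, M.ρ s m = m) := by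
  have hfix := cov_fixing_K p M hsm
  refine ⟨⟨cov_K_finite p M hsm, fun q hq A hA g hg => ?_⟩, ?_, fun s hs => ?_,
    fun s hs m => ?_⟩
  · rw [hfix, cov_mem_H]
    have hqp : (q : ℕ) ≠ p := by
      intro h
      apply hq
      have : q = pPrime p := Subtype.ext h
      rw [this]
      exact hpS
    exact ⟨hMur q hq A hA g hg, adm_cyclo_inertia p q.2 hqp A hA g hg⟩
  · rw [hfix]
    infer_instance
  · rw [hfix, cov_mem_H] at hs
    exact hs.2
  · rw [hfix, cov_mem_H] at hs
    rw [hs.1]
    rfl

end Fermat.Agent.S55
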