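/-
S55 (Poitou-Tate), package [COVER-OF], part 2 (helper16).  Prefix `cov_`.

The covering module `I = A^J` (`A = pt_A p K`, componentwise action), its inclusions / projections
`cov_iota`, `cov_pi`, the surjection `cov_f : I ⟶ M`, `(x_j)_j ↦ ∑_j F_{m_j}(x_j)` with
`F_m (e_{gK}) = ρ(g) m`, and the admissibility of `I`.
-/
import Mathlib
import Fermat.Agent.S55.PTBase
import Fermat.Agent.S55.Adm
import Fermat.Agent.S55.CoverOfField

set_option autoImplicit false
set_option linter.style.haveILetI false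
set_option maxHeartbeats 1000000
set_option synthInstance.maxHeartbeats 400000
open CategoryTheory Module groupCohomology ExtCitation

namespace Fermat.Agent.S55

local notation "Qbar" => AlgebraicClosure ℚ

variable {p : ℕ} [Fact p.Prime]

theorem cov_finite_quot (K : IntermediateField ℚ Qbar) [FiniteDimensional ℚ K] :
    Finite (s55_GQ ⧸ K.fixingSubgroup) := by
  have hgal : IsGalois ℚ Qbar := cov_isGalois
  have hopen : IsOpen (K.fixingSubgroup : Set s55_GQ) := IntermediateField.fixingSubgroup_isOpen K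
  exact Subgroup.quotient_finite_of_isOpen K.fixingSubgroup hopen

theorem cov_A_finite (K : IntermediateField ℚ Qbar) [FiniteDimensional ℚ K] :
    FiniteDimensional (ZMod p) (pt_A p K) := by
  haveI := cov_finite_quot K
  have e : (pt_A p K) ≃ₗ[ZMod p] ((s55_GQ ⧸ K.fixingSubgroup) →₀ ZMod p) :=
    MonoidAlgebra.coeffLinearEquiv (ZMod p)
  exact Module.Finite.equiv e.symm

theorem cov_A_fix (K : IntermediateField ℚ Qbar) (hn : K.fixingSubgroup.Normal)
    (s : s55_GQ) (hs : s ∈ K.fixingSubgroup) (a : pt_A p K) : (pt_A p K).ρ s a = a := by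
  induction a using MonoidAlgebra.induction_linear with
  | zero => simp
  | add a b ha hb => rw [map_add, ha, hb]
  | single x r =>
    change Representation.ofMulAction (ZMod p) s55_GQ _ s (MonoidAlgebra.single x r) = _
    rw [Representation.ofMulAction_single]
    congr 1
    induction x using QuotientGroup.induction_on with
    | H g =>
      change (QuotientGroup.mk (s * g) : s55_GQ ⧸ K.fixingSubgroup) = QuotientGroup.mk g
      rw [QuotientGroup.eq]
      have h1 : g⁻¹ * s⁻¹ * g⁻¹⁻¹ ∈ K.fixingSubgroup := hn.conj_mem _ (inv_mem hs) g⁻¹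
      have h2 : (s * g)⁻¹ * g = g⁻¹ * s⁻¹ * g⁻¹⁻¹ := by group
      rw [h2]
      exact h1

section Orbit

variable (M : Rep.{0, 0, 0} (ZMod p) s55_GQ) (K : IntermediateField ℚ Qbar)
  (hK : ∀ s ∈ K.fixingSubgroup, ∀ m : M, M.ρ s m = m)

/-- `gK ↦ ρ(g) m`. -/
noncomputable def cov_orb (hK : ∀ s ∈ K.fixingSubgroup, ∀ m : M, M.ρ s m = m) (m : M) :
    s55_GQ ⧸ K.fixingSubgroup → M :=
  Quotient.lift (fun g : s55_GQ => M.ρ g m) (by
    intro a b hab
    have h1 : a⁻¹ * b ∈ K.fixingSubgroup := QuotientGroup.leftRel_apply.1 hab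
    have h2 := hK _ h1 m
    change M.ρ a m = M.ρ b m
    have h3 : b = a * (a⁻¹ * b) := by group
    rw [h3, map_mul, Module.End.mul_apply, h2])

lemma cov_orb_mk (m : M) (g : s55_GQ) :
    cov_orb M K hK m (QuotientGroup.mk g) = M.ρ g m := rfl

lemma cov_orb_smul (m : M) (g : s55_GQ) (x : s55_GQ ⧸ K.fixingSubgroup) :
    cov_orb M K hK m (g • x) = M.ρ g (cov_orb M K hK m x) := by
  induction x using QuotientGroup.induction_on with
  | H h =>
    change cov_orb M K hK m (QuotientGroup.mk (g * h)) = _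
    rw [cov_orb_mk, cov_orb_mk, map_mul, Module.End.mul_apply]

/-- the linear map `pt_A p K → M`, `e_{gK} ↦ ρ(g) m`. -/
noncomputable def cov_F (m : M) : (pt_A p K) →ₗ[ZMod p] M :=
  (Finsupp.linearCombination (ZMod p) (cov_orb M K hK m)) ∘ₗ
    (MonoidAlgebra.coeffLinearEquiv (ZMod p)).toLinearMap

lemma cov_F_single (m : M) (x : s55_GQ ⧸ K.fixingSubgroup) (r : ZMod p) :
    cov_F M K hK m (MonoidAlgebra.single x r) = r • cov_orb M K hK m x := by
  simp [cov_F]

lemma cov_F_equivariant (m : M) (g : s55_GQ) (a : pt_A p K) :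
    cov_F M K hK m ((pt_A p K).ρ g a) = M.ρ g (cov_F M K hK m a) := by
  induction a using MonoidAlgebra.induction_linear with
  | zero => simp
  | add a b ha hb => rw [map_add, map_add, ha, hb, map_add, map_add]
  | single x r =>
    change cov_F M K hK m (Representation.ofMulAction (ZMod p) s55_GQ _ g
      (MonoidAlgebra.single x r)) = _
    rw [Representation.ofMulAction_single, cov_F_single, cov_F_single, cov_orb_smul, map_smul]

end Orbit

/-- The componentwise representation on `J → A`. -/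
noncomputable def cov_piRep {k G V : Type} [CommRing k] [Group G] [AddCommGroup V] [Module k V]
    (ρ : Representation k G V) (J : Type) : Representation k G (J → V) where
  toFun g := LinearMap.pi (fun j => ρ g ∘ₗ LinearMap.proj j)
  map_one' := by
    refine LinearMap.ext (fun x => funext (fun j => ?_))
    simp
  map_mul' g h := by
    refine LinearMap.ext (fun x => funext (fun j => ?_))
    simp

@[simp] lemma cov_piRep_apply {k G V : Type} [CommRing k] [Group G] [AddCommGroup V] [Module k V]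
    (ρ : Representation k G V) (J : Type) (g : G) (x : J → V) (j : J) :
    cov_piRep ρ J g x j = ρ g (x j) := rfl

/-- `A^J`. -/
noncomputable abbrev cov_I (A : Rep.{0, 0, 0} (ZMod p) s55_GQ) (J : Type) :
    Rep.{0, 0, 0} (ZMod p) s55_GQ :=
  Rep.of (cov_piRep A.ρ J)

lemma cov_I_ρ_apply (A : Rep.{0, 0, 0} (ZMod p) s55_GQ) (J : Type) (g : s55_GQ)
    (x : cov_I A J) (j : J) : (cov_I A J).ρ g x j = A.ρ g (x j) := rfl

/-- the inclusion of the `j`-th factor. -/
noncomputable def cov_iota (A : Rep.{0, 0, 0} (ZMod p) s55_GQ) (J : Type) [DecidableEq J] (j : J) :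
    A ⟶ cov_I A J :=
  Rep.ofHom (ρ := A.ρ) (σ := cov_piRep A.ρ J)
    ⟨LinearMap.single (ZMod p) (fun _ : J => A.V) j, fun g => by
      refine LinearMap.ext (fun a => funext (fun i => ?_))
      simp only [LinearMap.comp_apply, cov_piRep_apply, LinearMap.single_apply]
      by_cases h : i = j
      · subst h
        simp
      · simp [Pi.single_eq_of_ne h]⟩

/-- the projection to the `j`-th factor. -/
noncomputable def cov_pi (A : Rep.{0, 0, 0} (ZMod p) s55_GQ) (J : Type) (j : J) :
    cov_I A J ⟶ A :=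
  Rep.ofHom (ρ := cov_piRep A.ρ J) (σ := A.ρ)
    ⟨LinearMap.proj j, fun g => by
      refine LinearMap.ext (fun a => ?_)
      simp⟩

lemma cov_iota_apply (A : Rep.{0, 0, 0} (ZMod p) s55_GQ) (J : Type) [DecidableEq J] (j : J)
    (a : A) : (cov_iota A J j).hom a = Pi.single j a := rfl

lemma cov_pi_apply (A : Rep.{0, 0, 0} (ZMod p) s55_GQ) (J : Type) (j : J)
    (x : cov_I A J) : (cov_pi A J j).hom x = x j := rfl

lemma cov_pi_iota_same (A : Rep.{0, 0, 0} (ZMod p) s55_GQ) (J : Type) [DecidableEq J] (j : J)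
    (a : A) : (cov_pi A J j).hom ((cov_iota A J j).hom a) = a := by
  rw [cov_pi_apply, cov_iota_apply, Pi.single_eq_same]

lemma cov_pi_iota_ne (A : Rep.{0, 0, 0} (ZMod p) s55_GQ) (J : Type) [DecidableEq J] {i j : J}
    (h : i ≠ j) (a : A) : (cov_pi A J i).hom ((cov_iota A J j).hom a) = 0 := by
  rw [cov_pi_apply, cov_iota_apply, Pi.single_eq_of_ne h]

lemma cov_sum_iota_pi (A : Rep.{0, 0, 0} (ZMod p) s55_GQ) (J : Type) [DecidableEq J] [Fintype J]
    (x : cov_I A J) : ∑ j : J, (cov_iota A J j).hom ((cov_pi A J j).hom x) = x := by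
  change ∑ j : J, Pi.single j (x j) = x
  exact Finset.univ_sum_single x

section Adm

variable (A : Rep.{0, 0, 0} (ZMod p) s55_GQ) (J : Type)

theorem cov_I_finite [Finite J] [FiniteDimensional (ZMod p) A] :
    FiniteDimensional (ZMod p) (cov_I A J) := by
  change Module.Finite (ZMod p) (J → A.V)
  infer_instance

theorem cov_I_smooth (K : IntermediateField ℚ Qbar) [FiniteDimensional ℚ K]
    (hfix : ∀ s ∈ K.fixingSubgroup, ∀ a : A, A.ρ s a = a) : s55_Smooth (cov_I A J) :=
  fun x => ⟨K, inferInstance, fun s hs => funext (fun j => by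
    rw [cov_I_ρ_apply, hfix s hs])⟩

theorem cov_I_unram (S : Finset Nat.Primes) (K : IntermediateField ℚ Qbar)
    (hK : K.IsUnramifiedOutside S)
    (hfix : ∀ s ∈ K.fixingSubgroup, ∀ a : A, A.ρ s a = a) : s55_UnramOutside S (cov_I A J) := by
  intro q hq B hB g hg
  refine LinearMap.ext (fun x => funext (fun j => ?_))
  rw [cov_I_ρ_apply, hfix g (hK.2 q hq B hB hg)]
  rfl

end Adm

section Cover

variable (M : Rep.{0, 0, 0} (ZMod p) s55_GQ) (K : IntermediateField ℚ Qbar)
  (hK : ∀ s ∈ K.fixingSubgroup, ∀ m : M, M.ρ s m = m) {J : Type} [Fintype J] (m : J → M)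

/-- the linear map underlying `cov_f`. -/
noncomputable def cov_fLin : (cov_I (pt_A p K) J) →ₗ[ZMod p] M :=
  ∑ j : J, (cov_F M K hK (m j)) ∘ₗ (LinearMap.proj j : (J → (pt_A p K).V) →ₗ[ZMod p] _)

lemma cov_fLin_apply (x : cov_I (pt_A p K) J) :
    cov_fLin M K hK m x = ∑ j : J, cov_F M K hK (m j) (x j) := by
  simp [cov_fLin]

/-- **the covering map** `I = (pt_A p K)^J ⟶ M`. -/
noncomputable def cov_f : cov_I (pt_A p K) J ⟶ M :=
  Rep.ofHom (ρ := cov_piRep (pt_A p K).ρ J) (σ := M.ρ)
    ⟨cov_fLin M K hK m, fun g => by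
      refine LinearMap.ext (fun x => ?_)
      simp only [LinearMap.comp_apply]
      rw [cov_fLin_apply, cov_fLin_apply, map_sum]
      refine Finset.sum_congr rfl (fun j _ => ?_)
      rw [cov_piRep_apply, cov_F_equivariant]⟩

lemma cov_f_apply (x : cov_I (pt_A p K) J) :
    (cov_f M K hK m).hom x = ∑ j : J, cov_F M K hK (m j) (x j) :=
  cov_fLin_apply M K hK m x

theorem cov_f_surjective [DecidableEq J]
    (hm : ∀ x : M, ∃ c : J → ZMod p, x = ∑ j : J, c j • m j) :
    Function.Surjective (cov_f M K hK m).hom := by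
  intro x
  obtain ⟨c, rfl⟩ := hm x
  refine ⟨fun j => MonoidAlgebra.single (QuotientGroup.mk 1) (c j), ?_⟩
  rw [cov_f_apply]
  refine Finset.sum_congr rfl (fun j _ => ?_)
  rw [cov_F_single, cov_orb_mk, map_one]
  rfl

end Cover

end Fermat.Agent.S55
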