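/-
S55 (Poitou-Tate), internal package [H3-OF] (helper13), part 4: the Sylow subgroup.
Prefix `h3o_`.

For an admissible `M`: an open subgroup `P = Gal(ℚ̄/K₀)` of index prime to `p` acting on `M`
through a `p`-group and trivially on `μ_p`, with `K₀` unramified outside `S`.
-/
import Mathlib
import Fermat.Agent.S55.Adm
import Fermat.Agent.S55.H3OfFlag

set_option autoImplicit false
set_option linter.style.haveILetI false
set_option linter.unusedVariables false
set_option linter.unusedSimpArgs false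
set_option linter.unusedSectionVars false
set_option maxHeartbeats 1000000
set_option synthInstance.maxHeartbeats 400000
open CategoryTheory Module groupCohomology ExtCitation

namespace Fermat.Agent.S55

local notation "Qbar" => AlgebraicClosure ℚ

theorem h3o_isGalois : IsGalois ℚ Qbar := by
  have hclos : IsAlgClosure ℚ (AlgebraicClosure ℚ) := AlgebraicClosure.instIsAlgClosure ℚ
  exact inferInstance

/-- Galois correspondence for a subgroup containing the fixing subgroup of a finite extension. -/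
theorem h3o_open_subgroup (H : Subgroup s55_GQ) (F : IntermediateField ℚ Qbar)
    (hF : FiniteDimensional ℚ F) (hFH : F.fixingSubgroup ≤ H) :
    (IntermediateField.fixedField H).fixingSubgroup = H ∧
      FiniteDimensional ℚ (IntermediateField.fixedField H) ∧ Finite (s55_GQ ⧸ H) := by
  haveI := h3o_isGalois
  haveI := hF
  have hopen : IsOpen (H : Set s55_GQ) :=
    Subgroup.isOpen_mono hFH (IntermediateField.fixingSubgroup_isOpen F)
  have hclosed : IsClosed (H : Set s55_GQ) := Subgroup.isClosed_of_isOpen H hopen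
  refine ⟨InfiniteGalois.fixingSubgroup_fixedField ⟨H, hclosed⟩, ?_, ?_⟩
  · have hle : IntermediateField.fixedField H ≤ F := by
      have h1 := IntermediateField.fixedField_antitone hFH
      rwa [InfiniteGalois.fixedField_fixingSubgroup F] at h1
    exact FiniteDimensional.of_injective (IntermediateField.inclusion hle).toLinearMap
      (IntermediateField.inclusion_injective hle)
  · exact Subgroup.quotient_finite_of_isOpen H hopen

variable {p : ℕ} [Fact p.Prime]

/-- An element of `(ZMod p)ˣ` of `p`-power order is trivial. -/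
theorem h3o_unit_eq_one (x : (ZMod p)ˣ) (n : ℕ) (hx : x ^ (p ^ n) = 1) : x = 1 := by
  have hp : p.Prime := Fact.out
  have h1 : orderOf x ∣ p ^ n := orderOf_dvd_of_pow_eq_one hx
  have h2 : orderOf x ∣ p - 1 := by
    have := orderOf_dvd_card (x := x)
    rwa [ZMod.card_units_eq_totient, Nat.totient_prime hp] at this
  obtain ⟨j, -, hj⟩ := (Nat.dvd_prime_pow hp).1 h1
  rcases Nat.eq_zero_or_pos j with h0 | hpos
  · rw [h0, pow_zero] at hj
    exact orderOf_eq_one_iff.1 hj
  · exfalso
    have h3 : p ∣ p - 1 := by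
      have : p ∣ orderOf x := by
        rw [hj]
        exact dvd_pow_self p hpos.ne'
      exact this.trans h2
    have h4 : 0 < p - 1 := Nat.sub_pos_of_lt hp.one_lt
    have h5 := Nat.le_of_dvd h4 h3
    omega

/-- **The Sylow data** of an admissible module. -/
theorem h3o_exists_sylow (S : Finset Nat.Primes) (hpS : pPrime p ∈ S)
    (M : Rep.{0, 0, 0} (ZMod p) s55_GQ) [FiniteDimensional (ZMod p) M]
    (hsm : s55_Smooth M) (hMur : s55_UnramOutside S M) :
    ∃ (K₀ L : IntermediateField ℚ Qbar),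
      K₀.IsUnramifiedOutside S ∧ (∀ s ∈ K₀.fixingSubgroup, cycloChar p s = 1) ∧
      Finite (s55_GQ ⧸ K₀.fixingSubgroup) ∧ ¬ p ∣ Nat.card (s55_GQ ⧸ K₀.fixingSubgroup) ∧
      (∀ u ∈ K₀.fixingSubgroup, ∃ n : ℕ, ∀ m : M, M.ρ (u ^ (p ^ n)) m = m) ∧
      L.IsUnramifiedOutside S ∧ L.fixingSubgroup.Normal ∧
      L.fixingSubgroup ≤ K₀.fixingSubgroup ∧ (∀ s ∈ L.fixingSubgroup, ∀ m : M, M.ρ s m = m) := by
  classical
  obtain ⟨FM, hFM, hfixM⟩ := adm_uniform p M hsm
  haveI := hFM
  haveI := adm_cycField_finite p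
  have hF₁ : FiniteDimensional ℚ ↥(FM ⊔ adm_cycField p) := inferInstance
  -- the kernel
  let H : Subgroup s55_GQ := (M.ρ : s55_GQ →* (M →ₗ[ZMod p] M)).ker ⊓ (cycloChar p).ker
  have hHn : H.Normal := inferInstance
  have hmemH : ∀ g : s55_GQ, g ∈ H ↔ M.ρ g = 1 ∧ cycloChar p g = 1 := fun g => Iff.rfl
  have hF₁H : (FM ⊔ adm_cycField p).fixingSubgroup ≤ H := by
    intro s hs
    rw [hmemH]
    refine ⟨LinearMap.ext fun m => ?_, ?_⟩
    · exact hfixM s (IntermediateField.fixingSubgroup_antitone le_sup_left hs) m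
    · exact adm_cyclo_eq_one_of_fix p s
        (IntermediateField.fixingSubgroup_antitone le_sup_right hs)
  obtain ⟨hfixL, hLfin, hfinH⟩ := h3o_open_subgroup H _ hF₁ hF₁H
  haveI := hfinH
  -- the Sylow subgroup
  let Psyl : Sylow p (s55_GQ ⧸ H) := default
  let P : Subgroup s55_GQ := Subgroup.comap (QuotientGroup.mk' H) (Psyl : Subgroup (s55_GQ ⧸ H))
  have hmemP : ∀ g : s55_GQ, g ∈ P ↔ (g : s55_GQ ⧸ H) ∈ (Psyl : Subgroup (s55_GQ ⧸ H)) :=
    fun g => Iff.rfl
  have hHP : H ≤ P := by
    intro h hh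
    rw [hmemP, (QuotientGroup.eq_one_iff h).2 hh]
    exact one_mem _
  obtain ⟨hfixK, hKfin, hfinP⟩ := h3o_open_subgroup P _ hF₁ (hF₁H.trans hHP)
  have hpow : ∀ u ∈ P, ∃ n : ℕ, u ^ (p ^ n) ∈ H := by
    intro u hu
    obtain ⟨n, hn⟩ := Psyl.isPGroup' ⟨(u : s55_GQ ⧸ H), (hmemP u).1 hu⟩
    refine ⟨n, ?_⟩
    rw [← QuotientGroup.eq_one_iff]
    have := congrArg Subtype.val hn
    simpa using this
  have hLur : (IntermediateField.fixedField H).IsUnramifiedOutside S := by
    refine ⟨hLfin, fun q hq A hA g hg => ?_⟩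
    rw [hfixL, hmemH]
    have hqp : (q : ℕ) ≠ p := by
      intro h
      apply hq
      have : q = pPrime p := Subtype.ext h
      rw [this]
      exact hpS
    exact ⟨hMur q hq A hA g hg, adm_cyclo_inertia p q.2 hqp A hA g hg⟩
  refine ⟨IntermediateField.fixedField P, IntermediateField.fixedField H, ?_, ?_, ?_, ?_, ?_,
    hLur, ?_, ?_, ?_⟩
  · exact hLur.of_le (IntermediateField.fixedField_antitone hHP)
  · rw [hfixK]
    intro u hu
    obtain ⟨n, hn⟩ := hpow u hu
    have h1 : cycloChar p (u ^ (p ^ n)) = 1 := ((hmemH _).1 hn).2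
    rw [map_pow] at h1
    exact h3o_unit_eq_one _ n h1
  · rw [hfixK]
    exact hfinP
  · rw [hfixK]
    have h1 : Nat.card (s55_GQ ⧸ P) = P.index := rfl
    have h2 : P.index = (Psyl : Subgroup (s55_GQ ⧸ H)).index :=
      Subgroup.index_comap_of_surjective _ (QuotientGroup.mk'_surjective H)
    rw [h1, h2]
    exact Psyl.not_dvd_index
  · rw [hfixK]
    intro u hu
    obtain ⟨n, hn⟩ := hpow u hu
    refine ⟨n, fun m => ?_⟩
    rw [((hmemH _).1 hn).1]
    rfl
  · rw [hfixL]
    exact hHn
  · rw [hfixL, hfixK]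
    exact hHP
  · rw [hfixL]
    intro s hs m
    rw [((hmemH _).1 hs).1]
    rfl

end Fermat.Agent.S55
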