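/-
S55 (Poitou-Tate), package [H3-OF], final file (helper13).  Prefix `h3o_`.

* `h3o_normalLevel` : every finite extension unramified outside `S` lies in one with normal
  fixing subgroup which is still unramified outside `S` (from helper24's `brg_gClosure`);
* `h3o_main : pt_H3OfStatement`, i.e. `pt_H3BaseStatement → pt_H3VanStatement`
  (Sylow + flag devissage + averaging).
-/
import Mathlib
import Fermat.Agent.S55.Bridge.FinLevelG
import Fermat.Agent.S55.H3OfSylow

set_option autoImplicit false
set_option linter.style.haveILetI false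
set_option linter.unusedVariables false
set_option linter.unusedSimpArgs false
set_option linter.unusedSectionVars false
set_option maxHeartbeats 1000000
set_option synthInstance.maxHeartbeats 400000
open CategoryTheory Module groupCohomology ExtCitation

namespace Fermat.Agent.S55

local notation "Qbar" => AlgebraicClosure ℚ

/-- Normal levels exist. -/
theorem h3o_normalLevel (S : Finset Nat.Primes) : h3o_NormalLevel S := by
  intro F hF
  obtain ⟨F', hFF', hF', hn⟩ := brg_gClosure S F hF
  refine ⟨F', hFF', hF', ?_⟩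
  haveI := h3o_isGalois
  have hN : @Normal ℚ F' _ _ (IntermediateField.algebra' F') := hn
  have hg : @IsGalois ℚ _ F' _ (IntermediateField.algebra' F') :=
    @IsGalois.mk ℚ _ F' _ (IntermediateField.algebra' F') inferInstance hN
  exact @IsGalois.fixingSubgroup_normal_of_isGalois ℚ Qbar _ _ _ F' _ hg

/-- **[H3-OF]** -/
theorem h3o_main : pt_H3OfStatement := by
  intro hBase p _ hp2 S hpS M _ hsm hMur z hz hc
  classical
  obtain ⟨K₀, L, hK₀ur, hcyc, hfin, hndvd, hP, hLur, hLn, hLP, hLM⟩ :=
    h3o_exists_sylow S hpS M hsm hMur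
  haveI := hfin
  have hNC := h3o_normalLevel S
  have hC : h3o_Van S (Rep.ofMulAction (ZMod p) s55_GQ (s55_GQ ⧸ K₀.fixingSubgroup)) :=
    fun z hz hc => hBase hp2 S hpS K₀ hK₀ur hcyc z hz hc
  have hB : h3o_RepLevel S (h3o_fun M K₀.fixingSubgroup) :=
    h3o_fun_repLevel M K₀.fixingSubgroup L hLur hLn hLP hLM
  have hV : h3o_Van S (h3o_fun M K₀.fixingSubgroup) :=
    h3o_van_fun hNC M K₀.fixingSubgroup hB hP hC
  letI : Fintype (s55_GQ ⧸ K₀.fixingSubgroup) := Fintype.ofFinite _
  have hne : ((Fintype.card (s55_GQ ⧸ K₀.fixingSubgroup) : ℕ) : ZMod p) ≠ 0 := by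
    intro h0
    rw [ZMod.natCast_eq_zero_iff] at h0
    apply hndvd
    rwa [Nat.card_eq_fintype_card]
  have hVM : h3o_Van S M :=
    h3o_van_of_fun M K₀.fixingSubgroup
      ((Fintype.card (s55_GQ ⧸ K₀.fixingSubgroup) : ZMod p))⁻¹
      (inv_mul_cancel₀ hne) hV
  exact hVM z hz hc

end Fermat.Agent.S55
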