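import Mathlib

set_option autoImplicit false

namespace Fermat.Agent.S55

open scoped BigOperators

/-- Hypotheses of the unramified package: a finite group `G` acts on the valued field `(L, v)`
by isometries, `ϖ` is a `G`-fixed uniformizer (value group generated by `v ϖ`), `G` acts
faithfully on the residue field, and `L` is complete in the elementary sense. -/
structure unr_Hyp (G : Type*) {L Γ₀ : Type*} [Group G] [Field L] [MulSemiringAction G L]
    [LinearOrderedCommGroupWithZero Γ₀] (v : Valuation L Γ₀) (ϖ : L) : Prop where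
  inv : ∀ (g : G) (x : L), v (g • x) = v x
  fix : ∀ g : G, g • ϖ = ϖ
  lt_one : v ϖ < 1
  ne_zero : ϖ ≠ 0
  disc : ∀ x : L, x ≠ 0 → ∃ k : ℤ, v x = v ϖ ^ k
  faithful : ∀ g : G, g ≠ 1 → ∃ x : L, v x ≤ 1 ∧ v (g • x - x) = 1
  complete : ∀ f : ℕ → L, (∀ n, v (f (n + 1) - f n) ≤ v ϖ ^ n) →
    ∃ x : L, ∀ n, v (x - f n) ≤ v ϖ ^ n

section Elementary

variable {L Γ₀ : Type*} [Field L] [LinearOrderedCommGroupWithZero Γ₀]
  (v : Valuation L Γ₀) (ϖ : L)

theorem unr_val_pos (hne : ϖ ≠ 0) : 0 < v ϖ :=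
  zero_lt_iff.2 ((Valuation.ne_zero_iff v).2 hne)

theorem unr_zpow_lt_one_iff (hne : ϖ ≠ 0) (hlt : v ϖ < 1) (k : ℤ) :
    v ϖ ^ k < 1 ↔ 0 < k := by
  have h0 : 0 < v ϖ := unr_val_pos v ϖ hne
  constructor
  · intro h
    by_contra hk
    push Not at hk
    have : (1 : Γ₀) ≤ v ϖ ^ k := by
      obtain ⟨n, rfl⟩ : ∃ n : ℕ, k = -n := ⟨(-k).toNat, by omega⟩
      rw [zpow_neg, zpow_natCast]
      rw [one_le_inv₀ (pow_pos h0 n)]
      exact pow_le_one₀ h0.le hlt.le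
    exact absurd h (not_lt.2 this)
  · intro hk
    obtain ⟨n, rfl⟩ : ∃ n : ℕ, k = n + 1 := ⟨(k - 1).toNat, by omega⟩
    have : v ϖ ^ ((n : ℤ) + 1) = v ϖ ^ (n + 1) := by
      rw [← zpow_natCast]; push_cast; rfl
    rw [this]
    exact pow_lt_one₀ h0.le hlt (by omega)

theorem unr_zpow_le_pow_iff (hne : ϖ ≠ 0) (hlt : v ϖ < 1) (k : ℤ) (n : ℕ) :
    v ϖ ^ k ≤ v ϖ ^ n ↔ (n : ℤ) ≤ k := by
  have h0 : 0 < v ϖ := unr_val_pos v ϖ hne
  have hne' : v ϖ ≠ 0 := h0.ne'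
  constructor
  · intro h
    by_contra hk
    push Not at hk
    have h1 : v ϖ ^ ((n : ℤ) - k) < 1 := (unr_zpow_lt_one_iff v ϖ hne hlt _).2 (by omega)
    have h2 : v ϖ ^ (n : ℤ) = v ϖ ^ ((n : ℤ) - k) * v ϖ ^ k := by
      rw [← zpow_add₀ hne']; congr 1; ring
    rw [← zpow_natCast, h2] at h
    have h3 : 0 < v ϖ ^ k := zpow_pos h0 k
    have : v ϖ ^ ((n : ℤ) - k) * v ϖ ^ k < 1 * v ϖ ^ k :=
      mul_lt_mul_of_pos_right h1 h3
    rw [one_mul] at this
    exact absurd h (not_le.2 this)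
  · intro hk
    obtain ⟨m, rfl⟩ : ∃ m : ℕ, k = n + m := ⟨(k - n).toNat, by omega⟩
    have : v ϖ ^ ((n : ℤ) + m) = v ϖ ^ n * v ϖ ^ m := by
      rw [zpow_add₀ hne', zpow_natCast, zpow_natCast]
    rw [this]
    calc v ϖ ^ n * v ϖ ^ m ≤ v ϖ ^ n * 1 :=
          mul_le_mul_of_nonneg_left (pow_le_one₀ h0.le hlt.le) (pow_pos h0 n).le
      _ = v ϖ ^ n := mul_one _

/-- discreteness: a strict inequality against a power of the uniformizer improves by one. -/
theorem unr_le_succ_of_lt (hne : ϖ ≠ 0) (hlt : v ϖ < 1)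
    (hdisc : ∀ x : L, x ≠ 0 → ∃ k : ℤ, v x = v ϖ ^ k) (z : L) (n : ℕ)
    (hz : v z < v ϖ ^ n) : v z ≤ v ϖ ^ (n + 1) := by
  rcases eq_or_ne z 0 with rfl | hz0
  · simp
  obtain ⟨k, hk⟩ := hdisc z hz0
  rw [hk] at hz ⊢
  rw [unr_zpow_le_pow_iff v ϖ hne hlt]
  by_contra hcon
  push Not at hcon
  have : v ϖ ^ n ≤ v ϖ ^ k := by
    have h0 : 0 < v ϖ := unr_val_pos v ϖ hne
    obtain ⟨m, rfl⟩ | hneg : (∃ m : ℕ, k = m) ∨ k < 0 := by
      rcases le_or_gt 0 k with h | h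
      · exact Or.inl ⟨k.toNat, by omega⟩
      · exact Or.inr h
    · rw [zpow_natCast]
      have hmn : m ≤ n := by push_cast at hcon; omega
      exact pow_le_pow_of_le_one h0.le hlt.le hmn
    · have h1 : ¬ v ϖ ^ k < 1 := by
        rw [unr_zpow_lt_one_iff v ϖ hne hlt]; omega
      exact le_trans (pow_le_one₀ h0.le hlt.le) (not_lt.1 h1)
  exact absurd hz (not_lt.2 this)

theorem unr_le_of_lt_one (hne : ϖ ≠ 0) (hlt : v ϖ < 1)
    (hdisc : ∀ x : L, x ≠ 0 → ∃ k : ℤ, v x = v ϖ ^ k) (z : L)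
    (hz : v z < 1) : v z ≤ v ϖ := by
  have := unr_le_succ_of_lt v ϖ hne hlt hdisc z 0 (by simpa using hz)
  simpa using this

theorem unr_eq_zero_of_forall_le (hne : ϖ ≠ 0) (hlt : v ϖ < 1)
    (hdisc : ∀ x : L, x ≠ 0 → ∃ k : ℤ, v x = v ϖ ^ k) (z : L)
    (hz : ∀ n : ℕ, v z ≤ v ϖ ^ n) : z = 0 := by
  by_contra hz0
  obtain ⟨k, hk⟩ := hdisc z hz0
  have h := hz (k.toNat + 1)
  rw [hk, unr_zpow_le_pow_iff v ϖ hne hlt] at h
  push_cast at h
  omega

/-- an element of value at most `v ϖ ^ n` is `ϖ ^ n` times an integral element. -/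
theorem unr_exists_eq_pow_mul (hne : ϖ ≠ 0) (z : L) (n : ℕ) (hz : v z ≤ v ϖ ^ n) :
    ∃ a : L, v a ≤ 1 ∧ z = ϖ ^ n * a := by
  refine ⟨z / ϖ ^ n, ?_, ?_⟩
  · rw [map_div₀, map_pow]
    exact div_le_one_of_le₀ hz zero_le
  · field_simp

theorem unr_prod_le_one {ι : Type*} (s : Finset ι) (a : ι → L) (ha : ∀ i ∈ s, v (a i) ≤ 1) :
    v (∏ i ∈ s, a i) ≤ 1 := by
  rw [map_prod]
  exact Finset.prod_le_one' ha

theorem unr_sum_le {ι : Type*} (s : Finset ι) (a : ι → L) (c : Γ₀)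
    (ha : ∀ i ∈ s, v (a i) ≤ c) : v (∑ i ∈ s, a i) ≤ c := by
  classical
  induction s using Finset.induction_on with
  | empty => simp
  | insert i s hi ih =>
    rw [Finset.sum_insert hi]
    refine le_trans (v.map_add _ _) (max_le (ha i (Finset.mem_insert_self i s)) ?_)
    exact ih fun j hj => ha j (Finset.mem_insert_of_mem hj)

/-- continuity of finite products on the valuation ring. -/
theorem unr_prod_sub_prod_le {ι : Type*} (s : Finset ι) (a b : ι → L) (c : Γ₀)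
    (ha : ∀ i ∈ s, v (a i) ≤ 1) (hb : ∀ i ∈ s, v (b i) ≤ 1)
    (hab : ∀ i ∈ s, v (a i - b i) ≤ c) : v (∏ i ∈ s, a i - ∏ i ∈ s, b i) ≤ c := by
  classical
  induction s using Finset.induction_on with
  | empty => simp
  | insert i s hi ih =>
    rw [Finset.prod_insert hi, Finset.prod_insert hi]
    have e : a i * ∏ j ∈ s, a j - b i * ∏ j ∈ s, b j
        = (a i - b i) * ∏ j ∈ s, a j + b i * (∏ j ∈ s, a j - ∏ j ∈ s, b j) := by ring
    rw [e]
    refine le_trans (v.map_add _ _) (max_le ?_ ?_)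
    · rw [map_mul]
      calc v (a i - b i) * v (∏ j ∈ s, a j) ≤ c * 1 :=
            mul_le_mul' (hab i (Finset.mem_insert_self i s))
              (unr_prod_le_one v s a fun j hj => ha j (Finset.mem_insert_of_mem hj))
        _ = c := mul_one c
    · rw [map_mul]
      calc v (b i) * v (∏ j ∈ s, a j - ∏ j ∈ s, b j) ≤ 1 * c :=
            mul_le_mul' (hb i (Finset.mem_insert_self i s))
              (ih (fun j hj => ha j (Finset.mem_insert_of_mem hj))
                (fun j hj => hb j (Finset.mem_insert_of_mem hj))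
                (fun j hj => hab j (Finset.mem_insert_of_mem hj)))
        _ = c := one_mul c

/-- first-order expansion of a product `∏ (1 + t y_i)`. -/
theorem unr_prod_one_add {ι : Type*} (s : Finset ι) (t : L) (y : ι → L) (ht : v t ≤ 1)
    (hy : ∀ i ∈ s, v (y i) ≤ 1) :
    ∃ r : L, v r ≤ 1 ∧ ∏ i ∈ s, (1 + t * y i) = 1 + t * ∑ i ∈ s, y i + t ^ 2 * r := by
  classical
  induction s using Finset.induction_on with
  | empty => exact ⟨0, by simp, by simp⟩
  | insert i s hi ih =>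
    obtain ⟨r, hr, e⟩ := ih fun j hj => hy j (Finset.mem_insert_of_mem hj)
    have hyi := hy i (Finset.mem_insert_self i s)
    have hS : v (∑ j ∈ s, y j) ≤ 1 :=
      unr_sum_le v s y 1 fun j hj => hy j (Finset.mem_insert_of_mem hj)
    refine ⟨r + y i * ∑ j ∈ s, y j + t * y i * r, ?_, ?_⟩
    · refine le_trans (v.map_add _ _) (max_le (le_trans (v.map_add _ _) (max_le hr ?_)) ?_)
      · rw [map_mul]; exact mul_le_one' hyi hS
      · rw [map_mul, map_mul]; exact mul_le_one' (mul_le_one' ht hyi) hr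
    · rw [Finset.prod_insert hi, Finset.sum_insert hi, e]; ring

end Elementary

end Fermat.Agent.S55
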