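import Mathlib
import Fermat.Agent.S55.UnrCore

set_option autoImplicit false

namespace Fermat.Agent.S55

open scoped BigOperators

section FiniteFields

variable (G l : Type*) [Group G] [Fintype G] [Field l] [MulSemiringAction G l]
  [FaithfulSMul G l]

/-- norm surjectivity for a finite field with a faithful action of a finite group. -/
theorem unr_fin_norm_surj [Finite l] (u : l) (hu : ∀ g : G, g • u = u) :
    ∃ y : l, ∏ g : G, g • y = u := by
  classical
  let k₀ := FixedPoints.subfield G l
  have hmem : u ∈ k₀ := fun g => hu g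
  obtain ⟨y, hy⟩ := FiniteField.norm_surjective k₀ l ⟨u, hmem⟩
  refine ⟨y, ?_⟩
  have h1 := Algebra.norm_eq_prod_automorphisms k₀ y
  rw [hy] at h1
  have h2 : ∏ σ : l ≃ₐ[k₀] l, σ y = ∏ g : G, g • y := by
    symm
    refine Fintype.prod_equiv (FixedPoints.toAlgAutMulEquiv G l).toEquiv _ _ ?_
    intro g
    rfl
  rw [← h2, ← h1]
  rfl

/-- trace surjectivity for a field with a faithful action of a finite group. -/
theorem unr_fin_trace_surj (a : l) (ha : ∀ g : G, g • a = a) :
    ∃ b : l, ∑ g : G, g • b = a := by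
  classical
  let k₀ := FixedPoints.subfield G l
  have hmem : a ∈ k₀ := fun g => ha g
  obtain ⟨b, hb⟩ := Algebra.trace_surjective k₀ l ⟨a, hmem⟩
  refine ⟨b, ?_⟩
  have h1 := trace_eq_sum_automorphisms (K := k₀) (L := l) b
  rw [hb] at h1
  have h2 : ∑ σ : l ≃ₐ[k₀] l, σ b = ∑ g : G, g • b := by
    symm
    refine Fintype.sum_equiv (FixedPoints.toAlgAutMulEquiv G l).toEquiv _ _ ?_
    intro g
    rfl
  rw [← h2, ← h1]
  rfl

end FiniteFields

section Residue

variable {G L Γ₀ : Type*} [Group G] [Field L] [MulSemiringAction G L]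
  [LinearOrderedCommGroupWithZero Γ₀] (v : Valuation L Γ₀)

/-- The action of `G` on the valuation ring of a `G`-invariant valuation. -/
@[reducible] noncomputable def unr_actA (hinv : ∀ (g : G) (x : L), v (g • x) = v x) :
    MulSemiringAction G v.valuationSubring where
  smul g x := ⟨g • (x : L), by
    rw [Valuation.mem_valuationSubring_iff, hinv]
    exact (Valuation.mem_valuationSubring_iff v _).1 x.2⟩
  one_smul x := Subtype.ext (one_smul G (x : L))
  mul_smul g g' x := Subtype.ext (mul_smul g g' (x : L))
  smul_zero g := Subtype.ext (smul_zero g)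
  smul_add g x y := Subtype.ext (smul_add g (x : L) (y : L))
  smul_one g := Subtype.ext (smul_one g)
  smul_mul g x y := Subtype.ext (smul_mul' g (x : L) (y : L))

theorem unr_residue_eq_zero_iff (x : v.valuationSubring) :
    IsLocalRing.residue v.valuationSubring x = 0 ↔ v (x : L) < 1 := by
  rw [IsLocalRing.residue_eq_zero_iff, ValuationSubring.valuation_lt_one_iff]
  have h1 := Valuation.isEquiv_valuation_valuationSubring v
  exact (Valuation.isEquiv_iff_val_lt_one.1 h1).symm

variable {v} {ϖ : L}

/-- faithfulness of the induced action on the residue field. -/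
theorem unr_faithful (h : unr_Hyp G v ϖ) :
    letI := unr_actA v h.inv
    FaithfulSMul G (IsLocalRing.ResidueField v.valuationSubring) := by
  let := unr_actA v h.inv
  refine ⟨fun {g₁ g₂} H => ?_⟩
  by_contra hne
  have hg : g₂⁻¹ * g₁ ≠ 1 := by
    intro e
    apply hne
    have := congrArg (fun t => g₂ * t) e
    simpa using this
  obtain ⟨x, hx1, hx2⟩ := h.faithful _ hg
  let xA : v.valuationSubring := ⟨x, hx1⟩
  have e1 := H (IsLocalRing.residue v.valuationSubring xA)
  have e2 : (g₂⁻¹ * g₁) • IsLocalRing.residue v.valuationSubring xA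
      = IsLocalRing.residue v.valuationSubring xA := by
    rw [mul_smul, e1, inv_smul_smul]
  rw [← IsLocalRing.ResidueField.residue_smul, ← sub_eq_zero, ← map_sub,
    unr_residue_eq_zero_iff] at e2
  have e3 : (((g₂⁻¹ * g₁) • xA - xA : v.valuationSubring) : L) = (g₂⁻¹ * g₁) • x - x := rfl
  rw [e3, hx2] at e2
  exact lt_irrefl _ e2

variable [Fintype G]

theorem unr_coe_prod_smul (h : unr_Hyp G v ϖ) (y : v.valuationSubring) :
    letI := unr_actA v h.inv
    ((∏ g : G, g • y : v.valuationSubring) : L) = ∏ g : G, g • (y : L) := by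
  let := unr_actA v h.inv
  rw [← ValuationSubring.subtype_apply, map_prod]
  rfl

theorem unr_coe_sum_smul (h : unr_Hyp G v ϖ) (y : v.valuationSubring) :
    letI := unr_actA v h.inv
    ((∑ g : G, g • y : v.valuationSubring) : L) = ∑ g : G, g • (y : L) := by
  let := unr_actA v h.inv
  rw [← ValuationSubring.subtype_apply, map_sum]
  rfl

/-- Lemma A: the norm is surjective on residue fields. -/
theorem unr_res_norm (h : unr_Hyp G v ϖ)
    [Finite (IsLocalRing.ResidueField v.valuationSubring)]
    (u : L) (hu : ∀ g : G, g • u = u) (hvu : v u = 1) :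
    ∃ x : L, v x = 1 ∧ v (∏ g : G, g • x - u) < 1 := by
  let := unr_actA v h.inv
  have := unr_faithful h
  let uA : v.valuationSubring := ⟨u, hvu.le⟩
  have hfix : ∀ g : G, g • IsLocalRing.residue v.valuationSubring uA
      = IsLocalRing.residue v.valuationSubring uA := by
    intro g
    rw [← IsLocalRing.ResidueField.residue_smul]
    congr 1
    exact Subtype.ext (hu g)
  obtain ⟨y, hy⟩ := unr_fin_norm_surj G (IsLocalRing.ResidueField v.valuationSubring) _ hfix
  obtain ⟨yA, rfl⟩ := IsLocalRing.residue_surjective y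
  have e1 : IsLocalRing.residue v.valuationSubring (∏ g : G, g • yA - uA) = 0 := by
    rw [map_sub, map_prod, sub_eq_zero, ← hy]
    rfl
  rw [unr_residue_eq_zero_iff] at e1
  have e2 : ((∏ g : G, g • yA - uA : v.valuationSubring) : L)
      = ∏ g : G, g • (yA : L) - u := by
    rw [← unr_coe_prod_smul h yA]; rfl
  rw [e2] at e1
  refine ⟨yA, ?_, e1⟩
  -- the value of `yA` is one
  have hN : v (∏ g : G, g • (yA : L)) = 1 := by
    have e3 : ∏ g : G, g • (yA : L) = u + (∏ g : G, g • (yA : L) - u) := by ring
    rw [e3, Valuation.map_add_eq_of_lt_left v (by rw [hvu]; exact e1), hvu]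
  have hle : v (yA : L) ≤ 1 := yA.2
  rcases hle.lt_or_eq with hlt | heq
  · exfalso
    classical
    rw [map_prod] at hN
    have : ∏ g : G, v (g • (yA : L)) < 1 := by
      have hall : ∀ g ∈ (Finset.univ : Finset G), v (g • (yA : L)) ≤ 1 := fun g _ => by
        rw [h.inv]; exact hle
      have h1 : v ((1 : G) • (yA : L)) < 1 := by rw [h.inv]; exact hlt
      calc ∏ g : G, v (g • (yA : L))
          = v ((1 : G) • (yA : L)) * ∏ g ∈ Finset.univ.erase (1 : G), v (g • (yA : L)) := by
            exact (Finset.mul_prod_erase Finset.univ (fun g : G => v (g • (yA : L)))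
              (Finset.mem_univ (1 : G))).symm
        _ ≤ v ((1 : G) • (yA : L)) * 1 :=
            mul_le_mul' le_rfl (Finset.prod_le_one' fun g hg =>
              hall g (Finset.mem_univ _))
        _ < 1 := by rw [mul_one]; exact h1
    exact absurd hN this.ne
  · exact heq

/-- Lemma B: the trace is surjective on residue fields. -/
theorem unr_res_trace (h : unr_Hyp G v ϖ)
    (a : L) (ha : ∀ g : G, g • a = a) (hva : v a ≤ 1) :
    ∃ b : L, v b ≤ 1 ∧ v (∑ g : G, g • b - a) < 1 := by
  let := unr_actA v h.inv
  have := unr_faithful h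
  let aA : v.valuationSubring := ⟨a, hva⟩
  have hfix : ∀ g : G, g • IsLocalRing.residue v.valuationSubring aA
      = IsLocalRing.residue v.valuationSubring aA := by
    intro g
    rw [← IsLocalRing.ResidueField.residue_smul]
    congr 1
    exact Subtype.ext (ha g)
  obtain ⟨y, hy⟩ := unr_fin_trace_surj G (IsLocalRing.ResidueField v.valuationSubring) _ hfix
  obtain ⟨yA, rfl⟩ := IsLocalRing.residue_surjective y
  have e1 : IsLocalRing.residue v.valuationSubring (∑ g : G, g • yA - aA) = 0 := by
    rw [map_sub, map_sum, sub_eq_zero, ← hy]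
    rfl
  rw [unr_residue_eq_zero_iff] at e1
  have e2 : ((∑ g : G, g • yA - aA : v.valuationSubring) : L)
      = ∑ g : G, g • (yA : L) - a := by
    rw [← unr_coe_sum_smul h yA]; rfl
  rw [e2] at e1
  exact ⟨yA, yA.2, e1⟩

end Residue

end Fermat.Agent.S55
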