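import Mathlib
import Fermat.Agent.S55.UnrRes

set_option autoImplicit false

namespace Fermat.Agent.S55

open scoped BigOperators

section FiniteFields

variable (G l : Type*) [Group G] [Finite G] [Field l] [Finite l] [MulSemiringAction G l]
  [FaithfulSMul G l]

/-- A finite group acting faithfully on a finite field is generated by a Frobenius element,
which raises to the power "cardinality of the fixed field". -/
theorem unr_fin_exists_frob :
    ∃ φ : G, (∀ g : G, g ∈ Subgroup.zpowers φ) ∧
      ∀ x : l, φ • x = x ^ Nat.card (FixedPoints.subfield G l) := by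
  classical
  let k₀ := FixedPoints.subfield G l
  let _ : Fintype k₀ := Fintype.ofFinite _
  let e := FixedPoints.toAlgAutMulEquiv G l
  let F := FiniteField.frobeniusAlgEquivOfAlgebraic k₀ l
  have he : ∀ (g : G) (x : l), e g x = g • x := fun _ _ => rfl
  refine ⟨e.symm F, ?_, ?_⟩
  · intro g
    obtain ⟨n, hn⟩ := (FiniteField.bijective_frobeniusAlgEquivOfAlgebraic_pow k₀ l).2 (e g)
    rw [Subgroup.mem_zpowers_iff]
    refine ⟨(n : ℕ), ?_⟩
    apply e.injective
    rw [zpow_natCast, map_pow, e.apply_symm_apply]
    exact hn
  · intro x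
    rw [← he, e.apply_symm_apply, Nat.card_eq_fintype_card]
    rfl

end FiniteFields

section Frob

variable {G L Γ₀ : Type*} [Group G] [Field L] [MulSemiringAction G L]
  [LinearOrderedCommGroupWithZero Γ₀] {v : Valuation L Γ₀} {ϖ : L}

/-- **Frobenius.**  In the unramified situation the group is generated by an element `φ` with
`φ x ≡ x ^ q` modulo the maximal ideal, where `q` is the cardinality of the fixed field of the
residue field. -/
theorem unr_exists_frob [Finite G] (h : unr_Hyp G v ϖ)
    [Finite (IsLocalRing.ResidueField v.valuationSubring)] :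
    letI := unr_actA v h.inv
    ∃ φ : G, (∀ g : G, g ∈ Subgroup.zpowers φ) ∧
      ∀ x : L, v x ≤ 1 → v (φ • x - x ^ Nat.card
        (FixedPoints.subfield G (IsLocalRing.ResidueField v.valuationSubring))) < 1 := by
  let := unr_actA v h.inv
  have := unr_faithful h
  obtain ⟨φ, hgen, hφ⟩ := unr_fin_exists_frob G (IsLocalRing.ResidueField v.valuationSubring)
  refine ⟨φ, hgen, fun x hx => ?_⟩
  let xA : v.valuationSubring := ⟨x, hx⟩
  have e1 : IsLocalRing.residue v.valuationSubring (φ • xA - xA ^ Nat.card
      (FixedPoints.subfield G (IsLocalRing.ResidueField v.valuationSubring))) = 0 := by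
    rw [map_sub, map_pow, IsLocalRing.ResidueField.residue_smul, hφ, sub_self]
  exact (unr_residue_eq_zero_iff v _).1 e1

/-- the group is cyclic in the unramified situation. -/
theorem unr_isCyclic [Finite G] (h : unr_Hyp G v ϖ)
    [Finite (IsLocalRing.ResidueField v.valuationSubring)] : IsCyclic G := by
  obtain ⟨φ, hgen, -⟩ := unr_exists_frob h
  exact ⟨⟨φ, fun g => Subgroup.mem_zpowers_iff.1 (hgen g)⟩⟩

end Frob

end Fermat.Agent.S55
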