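import Mathlib
import Fermat.Agent.S55.UnrCore
import Fermat.Agent.S55.UnrRes

set_option autoImplicit false

namespace Fermat.Agent.S55

open scoped BigOperators

section Norm

variable {G L Γ₀ : Type*} [Group G] [Fintype G] [Field L] [MulSemiringAction G L]
  [LinearOrderedCommGroupWithZero Γ₀] {v : Valuation L Γ₀} {ϖ : L}

omit [LinearOrderedCommGroupWithZero Γ₀] in
theorem unr_smul_prod (x : L) (g : G) : g • ∏ k : G, k • x = ∏ k : G, k • x := by
  rw [Finset.smul_prod']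
  refine Fintype.prod_equiv (Equiv.mulLeft g) _ _ ?_
  intro k
  simp [mul_smul]

omit [LinearOrderedCommGroupWithZero Γ₀] in
theorem unr_smul_sum (x : L) (g : G) : g • ∑ k : G, k • x = ∑ k : G, k • x := by
  rw [Finset.smul_sum]
  refine Fintype.sum_equiv (Equiv.mulLeft g) _ _ ?_
  intro k
  simp [mul_smul]

theorem unr_val_prod_eq_one (h : unr_Hyp G v ϖ) (x : L) (hx : v x = 1) :
    v (∏ g : G, g • x) = 1 := by
  rw [map_prod]
  exact Finset.prod_eq_one fun g _ => by rw [h.inv, hx]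

omit [Fintype G] in
theorem unr_pow_le_one (h : unr_Hyp G v ϖ) (n : ℕ) : v ϖ ^ n ≤ 1 :=
  pow_le_one₀ (unr_val_pos v ϖ h.ne_zero).le h.lt_one.le

omit [Fintype G] in
theorem unr_pow_le_pow (h : unr_Hyp G v ϖ) {m n : ℕ} (hmn : m ≤ n) : v ϖ ^ n ≤ v ϖ ^ m :=
  pow_le_pow_of_le_one (unr_val_pos v ϖ h.ne_zero).le h.lt_one.le hmn

/-- one step of the successive approximation for the norm. -/
theorem unr_norm_step (h : unr_Hyp G v ϖ) (u : L) (hu : ∀ g : G, g • u = u)
    (m : ℕ) (x : L) (hx : v x = 1) (hN : v (∏ g : G, g • x - u) ≤ v ϖ ^ (m + 1)) :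
    ∃ x' : L, v x' = 1 ∧ v (∏ g : G, g • x' - u) ≤ v ϖ ^ (m + 2) ∧
      v (x' - x) ≤ v ϖ ^ (m + 1) := by
  set N : L := ∏ g : G, g • x with hNdef
  have hvN : v N = 1 := unr_val_prod_eq_one h x hx
  have hN0 : N ≠ 0 := by
    intro e; rw [e, map_zero] at hvN; exact zero_ne_one hvN
  have hNfix : ∀ g : G, g • N = N := unr_smul_prod x
  have hϖ0 : ϖ ^ (m + 1) ≠ 0 := pow_ne_zero _ h.ne_zero
  set a : L := (u / N - 1) / ϖ ^ (m + 1) with hadef
  have hafix : ∀ g : G, g • a = a := by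
    intro g
    rw [hadef, smul_div₀', smul_sub, smul_div₀', smul_one, hu g, hNfix g, smul_pow', h.fix g]
  have hva : v a ≤ 1 := by
    have e : u / N - 1 = (u - N) / N := by field_simp
    rw [hadef, e, map_div₀, map_div₀, hvN, div_one, map_pow]
    have h1 : v (u - N) ≤ v ϖ ^ (m + 1) := by rw [← Valuation.map_sub_swap]; exact hN
    exact div_le_one_of_le₀ h1 zero_le
  obtain ⟨b, hb, hTb⟩ := unr_res_trace h a hafix hva
  have hTb' : v (∑ g : G, g • b - a) ≤ v ϖ :=
    unr_le_of_lt_one v ϖ h.ne_zero h.lt_one h.disc _ hTb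
  set y : L := 1 + ϖ ^ (m + 1) * b with hydef
  have hy1 : v (y - 1) ≤ v ϖ ^ (m + 1) := by
    have : y - 1 = ϖ ^ (m + 1) * b := by rw [hydef]; ring
    rw [this, map_mul, map_pow]
    calc v ϖ ^ (m + 1) * v b ≤ v ϖ ^ (m + 1) * 1 := mul_le_mul' le_rfl hb
      _ = v ϖ ^ (m + 1) := mul_one _
  have hpowlt : v ϖ ^ (m + 1) < 1 :=
    pow_lt_one₀ (unr_val_pos v ϖ h.ne_zero).le h.lt_one (by omega)
  have hvy : v y = 1 := by
    have e : y = 1 + (y - 1) := by ring
    rw [e, Valuation.map_add_eq_of_lt_left v (by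
      rw [map_one]; exact lt_of_le_of_lt hy1 hpowlt), map_one]
  -- the norm of y
  have hNy : ∏ g : G, g • y = ∏ g : G, (1 + ϖ ^ (m + 1) * g • b) := by
    refine Finset.prod_congr rfl fun g _ => ?_
    rw [hydef, smul_add, smul_one, smul_mul', smul_pow', h.fix g]
  obtain ⟨r, hr, hexp⟩ := unr_prod_one_add v (Finset.univ : Finset G) (ϖ ^ (m + 1))
    (fun g => g • b) (by rw [map_pow]; exact unr_pow_le_one h _)
    (fun g _ => by rw [h.inv]; exact hb)
  refine ⟨x * y, by rw [map_mul, hx, hvy, one_mul], ?_, ?_⟩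
  · have e1 : ∏ g : G, g • (x * y) = N * ∏ g : G, g • y := by
      rw [hNdef, ← Finset.prod_mul_distrib]
      exact Finset.prod_congr rfl fun g _ => smul_mul' g x y
    have e2 : u = N * (1 + ϖ ^ (m + 1) * a) := by
      rw [hadef]; field_simp; ring
    have e3 : ∏ g : G, g • (x * y) - u
        = N * (ϖ ^ (m + 1) * (∑ g : G, g • b - a) + (ϖ ^ (m + 1)) ^ 2 * r) := by
      rw [e1, hNy, hexp]
      linear_combination (-1 : L) * e2
    rw [e3, map_mul, hvN, one_mul]
    refine le_trans (v.map_add _ _) (max_le ?_ ?_)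
    · rw [map_mul, map_pow]
      calc v ϖ ^ (m + 1) * v (∑ g : G, g • b - a) ≤ v ϖ ^ (m + 1) * v ϖ :=
            mul_le_mul' le_rfl hTb'
        _ = v ϖ ^ (m + 2) := by rw [← pow_succ]
    · rw [map_mul, map_pow, map_pow, ← pow_mul]
      calc (v ϖ) ^ ((m + 1) * 2) * v r ≤ (v ϖ) ^ ((m + 1) * 2) * 1 := mul_le_mul' le_rfl hr
        _ = (v ϖ) ^ ((m + 1) * 2) := mul_one _
        _ ≤ v ϖ ^ (m + 2) := unr_pow_le_pow h (by omega)
  · have : x * y - x = x * (y - 1) := by ring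
    rw [this, map_mul, hx, one_mul]
    exact hy1

/-- (U1a) In the unramified situation with finite residue field the norm is surjective
on units: every `G`-fixed unit is the norm of a unit. -/
theorem unr_norm_surj (h : unr_Hyp G v ϖ)
    [Finite (IsLocalRing.ResidueField v.valuationSubring)]
    (u : L) (hu : ∀ g : G, g • u = u) (hvu : v u = 1) :
    ∃ x : L, v x = 1 ∧ ∏ g : G, g • x = u := by
  classical
  -- the approximating sequence
  let P : ℕ → L → Prop := fun m x => v x = 1 ∧ v (∏ g : G, g • x - u) ≤ v ϖ ^ (m + 1)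
  have hstart : ∃ x, P 0 x := by
    obtain ⟨x, hx, hx'⟩ := unr_res_norm h u hu hvu
    refine ⟨x, hx, ?_⟩
    have := unr_le_of_lt_one v ϖ h.ne_zero h.lt_one h.disc _ hx'
    simpa using this
  have hstep : ∀ m (x : {x // P m x}), ∃ x' : {x // P (m + 1) x},
      v ((x' : L) - x) ≤ v ϖ ^ (m + 1) := by
    rintro m ⟨x, hx, hN⟩
    obtain ⟨x', h1, h2, h3⟩ := unr_norm_step h u hu m x hx hN
    exact ⟨⟨x', h1, h2⟩, h3⟩
  let f : ∀ m, {x // P m x} := fun m =>
    Nat.rec (motive := fun m => {x // P m x}) ⟨hstart.choose, hstart.choose_spec⟩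
      (fun m x => (hstep m x).choose) m
  have hf : ∀ m, v ((f (m + 1) : L) - f m) ≤ v ϖ ^ (m + 1) := fun m =>
    (hstep m (f m)).choose_spec
  obtain ⟨x, hxlim⟩ := h.complete (fun m => (f m : L)) (fun m =>
    le_trans (hf m) (unr_pow_le_pow h (Nat.le_succ m)))
  have hc1 : v ϖ ^ 1 < 1 := by rw [pow_one]; exact h.lt_one
  have hvx : v x = 1 := by
    have e : x = (f 1 : L) + (x - f 1) := by ring
    have h1 : v (f 1 : L) = 1 := (f 1).2.1
    rw [e, Valuation.map_add_eq_of_lt_left v (by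
      rw [h1]; exact lt_of_le_of_lt (hxlim 1) hc1), h1]
  refine ⟨x, hvx, ?_⟩
  rw [← sub_eq_zero]
  refine unr_eq_zero_of_forall_le v ϖ h.ne_zero h.lt_one h.disc _ fun n => ?_
  have e : ∏ g : G, g • x - u
      = (∏ g : G, g • x - ∏ g : G, g • (f n : L)) + (∏ g : G, g • (f n : L) - u) := by ring
  rw [e]
  refine le_trans (v.map_add _ _) (max_le ?_ ?_)
  · refine unr_prod_sub_prod_le v _ _ _ _ (fun g _ => ?_) (fun g _ => ?_) (fun g _ => ?_)
    · rw [h.inv, hvx]
    · rw [h.inv, (f n).2.1]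
    · rw [← smul_sub, h.inv]; exact hxlim n
  · exact le_trans (f n).2.2 (unr_pow_le_pow h (Nat.le_succ n))

omit [Fintype G] in
theorem unr_smul_zpow_unif (h : unr_Hyp G v ϖ) (g : G) (k : ℤ) : g • ϖ ^ k = ϖ ^ k := by
  have e := map_zpow₀ (MulSemiringAction.toRingHom G L g) ϖ k
  simp only [MulSemiringAction.toRingHom_apply] at e
  rw [e, h.fix g]

theorem unr_prod_smul_zpow_unif (h : unr_Hyp G v ϖ) (k : ℤ) :
    ∏ g : G, g • ϖ ^ k = ϖ ^ ((Fintype.card G : ℤ) * k) := by
  rw [Finset.prod_congr rfl fun g _ => unr_smul_zpow_unif h g k, Finset.prod_const,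
    Finset.card_univ, ← zpow_natCast, ← zpow_mul, mul_comm]

/-- (U2) In the unramified situation with finite residue field, a nonzero `G`-fixed element is
a norm if and only if its valuation is a `|G|`-th power in the value group. -/
theorem unr_norm_range (h : unr_Hyp G v ϖ)
    [Finite (IsLocalRing.ResidueField v.valuationSubring)]
    (a : L) (ha : ∀ g : G, g • a = a) (ha0 : a ≠ 0) :
    (∃ x : L, ∏ g : G, g • x = a) ↔ ∃ k : ℤ, v a = v ϖ ^ ((Fintype.card G : ℤ) * k) := by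
  constructor
  · rintro ⟨x, rfl⟩
    have hx0 : x ≠ 0 := by
      rintro rfl
      apply ha0
      exact Finset.prod_eq_zero (Finset.mem_univ (1 : G)) (smul_zero _)
    obtain ⟨k, hk⟩ := h.disc x hx0
    refine ⟨k, ?_⟩
    rw [map_prod, Finset.prod_congr rfl fun g _ => h.inv g x, Finset.prod_const,
      Finset.card_univ, hk, ← zpow_natCast, ← zpow_mul, mul_comm]
  · rintro ⟨k, hk⟩
    have hϖk : ϖ ^ ((Fintype.card G : ℤ) * k) ≠ 0 := zpow_ne_zero _ h.ne_zero
    set u : L := a / ϖ ^ ((Fintype.card G : ℤ) * k) with hudef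
    have hufix : ∀ g : G, g • u = u := fun g => by
      rw [hudef, smul_div₀', ha g, unr_smul_zpow_unif h]
    have hvu : v u = 1 := by
      rw [hudef, map_div₀, map_zpow₀, hk]
      exact div_self (zpow_ne_zero _ (unr_val_pos v ϖ h.ne_zero).ne')
    obtain ⟨y, -, hy⟩ := unr_norm_surj h u hufix hvu
    refine ⟨ϖ ^ k * y, ?_⟩
    rw [Finset.prod_congr rfl fun g _ => smul_mul' g (ϖ ^ k) y, Finset.prod_mul_distrib, hy,
      unr_prod_smul_zpow_unif h, hudef]
    field_simp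

end Norm

end Fermat.Agent.S55
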