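import Mathlib
import Fermat.Agent.S55.UnrNorm

set_option autoImplicit false

namespace Fermat.Agent.S55

open scoped BigOperators

section H1

variable {G L Γ₀ : Type*} [Group G] [Field L] [MulSemiringAction G L]
  [LinearOrderedCommGroupWithZero Γ₀] {v : Valuation L Γ₀} {ϖ : L}

/-- the action on `L` is faithful in the unramified situation. -/
theorem unr_faithfulSMul (h : unr_Hyp G v ϖ) : FaithfulSMul G L := by
  refine ⟨fun {g₁ g₂} H => ?_⟩
  by_contra hne
  have hg : g₂⁻¹ * g₁ ≠ 1 := by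
    intro e
    apply hne
    have := congrArg (fun t => g₂ * t) e
    simpa using this
  obtain ⟨x, -, hx2⟩ := h.faithful _ hg
  have : (g₂⁻¹ * g₁) • x - x = 0 := by
    rw [mul_smul, H x, inv_smul_smul, sub_self]
  rw [this, map_zero] at hx2
  exact zero_ne_one hx2

/-- every nonzero element is a unit times a power of the uniformizer. -/
theorem unr_exists_unit_zpow (h : unr_Hyp G v ϖ) (b : L) (hb : b ≠ 0) :
    ∃ (k : ℤ) (w : L), v w = 1 ∧ b = ϖ ^ k * w := by
  obtain ⟨k, hk⟩ := h.disc b hb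
  have hϖ : ϖ ^ k ≠ 0 := zpow_ne_zero k h.ne_zero
  refine ⟨k, b / ϖ ^ k, ?_, ?_⟩
  · rw [map_div₀, map_zpow₀, hk]
    exact div_self (zpow_ne_zero k ((Valuation.ne_zero_iff v).2 h.ne_zero))
  · field_simp

/-- **Hilbert 90 for the unit group** (Noether form): a 1-cocycle of `G` with values in `Lˣ`
is the coboundary of a unit. -/
theorem unr_hilbert90 [Finite G] (h : unr_Hyp G v ϖ) (c : G → L) (hc0 : ∀ g, c g ≠ 0)
    (hc : ∀ g g' : G, c (g * g') = c g * g • c g') :
    ∃ w : L, v w = 1 ∧ ∀ g : G, g • w = c g * w := by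
  classical
  have := unr_faithfulSMul h
  let K₀ := FixedPoints.subfield G L
  let e : G ≃* (L ≃ₐ[K₀] L) := FixedPoints.toAlgAutMulEquiv G L
  have he : ∀ (g : G) (x : L), e g x = g • x := fun _ _ => rfl
  let f : (L ≃ₐ[K₀] L) → Lˣ := fun σ => Units.mk0 (c (e.symm σ)) (hc0 _)
  have hf : groupCohomology.IsMulCocycle₁ f := by
    intro σ τ
    apply Units.ext
    simp only [f, Units.val_mk0, map_mul, Units.val_mul, AlgEquiv.smul_units_def,
      Units.coe_map, MonoidHom.coe_coe]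
    rw [hc, mul_comm]
    congr 1
    rw [← he, e.apply_symm_apply]
  obtain ⟨β, hβ⟩ := groupCohomology.isMulCoboundary₁_of_isMulCocycle₁_of_aut_to_units f hf
  obtain ⟨k, w, hw, ew⟩ := unr_exists_unit_zpow h (β : L) β.ne_zero
  refine ⟨w, hw, fun g => ?_⟩
  have h1 := congrArg (fun u : Lˣ => (u : L)) (hβ (e g))
  simp only [f, Units.val_mk0, Units.val_div_eq_div_val, AlgEquiv.smul_units_def,
    Units.coe_map, MonoidHom.coe_coe, e.symm_apply_apply] at h1
  rw [he, ew, smul_mul', unr_smul_zpow_unif h] at h1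
  have hϖ : ϖ ^ k ≠ 0 := zpow_ne_zero k h.ne_zero
  have hw0 : w ≠ 0 := by
    rintro rfl
    simp at hw
  rw [mul_div_mul_left _ _ hϖ, div_eq_iff hw0] at h1
  exact h1

end H1

section Cyclic

variable {G : Type*} {L : Type} {Γ₀ : Type*} [Group G] [Field L] [MulSemiringAction G L]
  [LinearOrderedCommGroupWithZero Γ₀] {v : Valuation L Γ₀} {ϖ : L}

/-- **Hilbert 90 for the unit group** (cyclic form): an element of norm one is `w / φ w` for
a unit `w`, `φ` any generator. -/
theorem unr_hilbert90_cyclic [Fintype G] (h : unr_Hyp G v ϖ) (φ : G)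
    (hφ : ∀ g : G, g ∈ Subgroup.zpowers φ) (x : L) (hx : ∏ g : G, g • x = 1) :
    ∃ w : L, v w = 1 ∧ w / φ • w = x := by
  classical
  have := unr_faithfulSMul h
  let K₀ := FixedPoints.subfield G L
  let e : G ≃* (L ≃ₐ[K₀] L) := FixedPoints.toAlgAutMulEquiv G L
  have he : ∀ (g : G) (x : L), e g x = g • x := fun _ _ => rfl
  have hcyc : IsCyclic (L ≃ₐ[K₀] L) :=
    ⟨⟨e φ, fun σ => by
      obtain ⟨n, hn⟩ := Subgroup.mem_zpowers_iff.1 (hφ (e.symm σ))
      refine ⟨n, ?_⟩
      have := congrArg e hn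
      rw [map_zpow, e.apply_symm_apply] at this
      exact this⟩⟩
  have hgen : ∀ σ : L ≃ₐ[K₀] L, σ ∈ Subgroup.zpowers (e φ) := by
    intro σ
    obtain ⟨n, hn⟩ := Subgroup.mem_zpowers_iff.1 (hφ (e.symm σ))
    rw [Subgroup.mem_zpowers_iff]
    refine ⟨n, ?_⟩
    have := congrArg e hn
    rw [map_zpow, e.apply_symm_apply] at this
    exact this
  have hN : Algebra.norm K₀ x = 1 := by
    apply (algebraMap K₀ L).injective
    rw [Algebra.norm_eq_prod_automorphisms, map_one, ← hx]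
    symm
    refine Fintype.prod_equiv e.toEquiv _ _ ?_
    intro g
    rfl
  obtain ⟨y, hy⟩ := groupCohomology.exists_div_of_norm_eq_one (K := K₀) (L := L) hgen hN
  obtain ⟨k, w, hw, ew⟩ := unr_exists_unit_zpow h (y : L) y.ne_zero
  refine ⟨w, hw, ?_⟩
  rw [he, ew, smul_mul', unr_smul_zpow_unif h] at hy
  have hϖ : ϖ ^ k ≠ 0 := zpow_ne_zero k h.ne_zero
  rw [mul_div_mul_left _ _ hϖ] at hy
  exact hy

end Cyclic

end Fermat.Agent.S55
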