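import Mathlib
import Fermat.Agent.S55.UnrRes

set_option autoImplicit false

namespace Fermat.Agent.S55

open scoped BigOperators

section Inertia

variable {L Γ₀ : Type*} [Field L] [LinearOrderedCommGroupWithZero Γ₀]
  (v : Valuation L Γ₀) (ϖ : L)

theorem unr_val_pow_le_one (a : L) (ha : v a ≤ 1) (i : ℕ) : v (a ^ i) ≤ 1 := by
  rw [map_pow]
  exact pow_le_one₀ zero_le ha

theorem unr_val_geom_sum₂_le_one (a b : L) (ha : v a ≤ 1) (hb : v b ≤ 1) (n : ℕ) :
    v (∑ i ∈ Finset.range n, a ^ i * b ^ (n - 1 - i)) ≤ 1 := by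
  refine unr_sum_le v _ _ 1 fun i _ => ?_
  rw [map_mul]
  exact mul_le_one' (unr_val_pow_le_one v a ha i) (unr_val_pow_le_one v b hb _)

theorem unr_val_pow_sub_pow_le (a b : L) (ha : v a ≤ 1) (hb : v b ≤ 1) (i : ℕ) :
    v (a ^ i - b ^ i) ≤ v (a - b) := by
  rw [← geom_sum₂_mul, map_mul]
  calc v (∑ j ∈ Finset.range i, a ^ j * b ^ (i - 1 - j)) * v (a - b) ≤ 1 * v (a - b) :=
        mul_le_mul' (unr_val_geom_sum₂_le_one v a b ha hb i) le_rfl
    _ = v (a - b) := one_mul _

theorem unr_val_geom_sum₂_sub_le (a b : L) (ha : v a ≤ 1) (hb : v b ≤ 1) (q : ℕ) :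
    v (∑ i ∈ Finset.range q, a ^ i * b ^ (q - 1 - i) - (q : L) * b ^ (q - 1)) ≤ v (a - b) := by
  have e : ∑ i ∈ Finset.range q, a ^ i * b ^ (q - 1 - i) - (q : L) * b ^ (q - 1)
      = ∑ i ∈ Finset.range q, (a ^ i - b ^ i) * b ^ (q - 1 - i) := by
    have e1 : (q : L) * b ^ (q - 1) = ∑ i ∈ Finset.range q, b ^ i * b ^ (q - 1 - i) := by
      rw [Finset.sum_congr rfl (g := fun _ => b ^ (q - 1))]
      · rw [Finset.sum_const, Finset.card_range, nsmul_eq_mul]
      · intro i hi
        rw [← pow_add]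
        congr 1
        have := Finset.mem_range.1 hi
        omega
    rw [e1, ← Finset.sum_sub_distrib]
    refine Finset.sum_congr rfl fun i _ => ?_
    ring
  rw [e]
  refine unr_sum_le v _ _ _ fun i _ => ?_
  rw [map_mul]
  calc v (a ^ i - b ^ i) * v (b ^ (q - 1 - i)) ≤ v (a - b) * 1 :=
        mul_le_mul' (unr_val_pow_sub_pow_le v a b ha hb i) (unr_val_pow_le_one v b hb _)
    _ = v (a - b) := mul_one _

/-- if `a ≡ b` modulo `ϖ ^ n` (`n ≥ 1`) and `q ≡ 0` modulo `ϖ`, then `a ^ q ≡ b ^ q`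
modulo `ϖ ^ (n + 1)`. -/
theorem unr_val_pow_sub_pow_succ (a b : L) (ha : v a ≤ 1) (hb : v b ≤ 1) (q n : ℕ)
    (hq : v (q : L) ≤ v ϖ) (hϖ : v ϖ ≤ 1) (hn : 1 ≤ n) (hab : v (a - b) ≤ v ϖ ^ n) :
    v (a ^ q - b ^ q) ≤ v ϖ ^ (n + 1) := by
  have hab1 : v (a - b) ≤ v ϖ :=
    le_trans hab (by
      calc v ϖ ^ n ≤ v ϖ ^ 1 := pow_le_pow_of_le_one zero_le hϖ hn
        _ = v ϖ := pow_one _)
  have hS : v (∑ i ∈ Finset.range q, a ^ i * b ^ (q - 1 - i)) ≤ v ϖ := by
    have e : ∑ i ∈ Finset.range q, a ^ i * b ^ (q - 1 - i)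
        = (∑ i ∈ Finset.range q, a ^ i * b ^ (q - 1 - i) - (q : L) * b ^ (q - 1))
          + (q : L) * b ^ (q - 1) := by ring
    rw [e]
    refine le_trans (v.map_add _ _) (max_le ?_ ?_)
    · exact le_trans (unr_val_geom_sum₂_sub_le v a b ha hb q) hab1
    · rw [map_mul]
      calc v (q : L) * v (b ^ (q - 1)) ≤ v ϖ * 1 :=
            mul_le_mul' hq (unr_val_pow_le_one v b hb _)
        _ = v ϖ := mul_one _
  rw [← geom_sum₂_mul, map_mul, pow_succ, mul_comm (v ϖ ^ n)]
  exact mul_le_mul' hS hab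

/-- **Triviality of inertia in the unramified case.**  A valuation-preserving ring endomorphism
fixing the uniformizer and acting trivially on the residue field (which is assumed to satisfy
`x ^ q = x`, `q = 0`) is the identity. -/
theorem unr_inertia_trivial (hne : ϖ ≠ 0) (hlt : v ϖ < 1)
    (hdisc : ∀ x : L, x ≠ 0 → ∃ k : ℤ, v x = v ϖ ^ k)
    (q : ℕ) (hq : v (q : L) < 1) (hfrob : ∀ x : L, v x ≤ 1 → v (x ^ q - x) < 1)
    (σ : L →+* L) (hσv : ∀ x, v (σ x) = v x) (hσϖ : σ ϖ = ϖ)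
    (hI : ∀ x : L, v x ≤ 1 → v (σ x - x) < 1) (x : L) : σ x = x := by
  have hq' : v (q : L) ≤ v ϖ := unr_le_of_lt_one v ϖ hne hlt hdisc _ hq
  -- all levels on the valuation ring
  have key : ∀ n : ℕ, ∀ y : L, v y ≤ 1 → v (σ y - y) ≤ v ϖ ^ (n + 1) := by
    intro n
    induction n with
    | zero =>
      intro y hy
      simpa using unr_le_of_lt_one v ϖ hne hlt hdisc _ (hI y hy)
    | succ n ih =>
      intro y hy
      have h1 : v (y ^ q - y) ≤ v ϖ ^ 1 := by
        simpa using unr_le_of_lt_one v ϖ hne hlt hdisc _ (hfrob y hy)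
      obtain ⟨z, hz, ez⟩ := unr_exists_eq_pow_mul v ϖ hne _ 1 h1
      rw [pow_one] at ez
      have e : σ y - y = (σ y ^ q - y ^ q) - ϖ * (σ z - z) := by
        have : y = y ^ q - ϖ * z := by rw [← ez]; ring
        have e2 : σ y = σ y ^ q - ϖ * σ z := by
          conv_lhs => rw [this]
          rw [map_sub, map_mul, map_pow, hσϖ]
        linear_combination e2 - this
      rw [e]
      refine le_trans (Valuation.map_sub v _ _) (max_le ?_ ?_)
      · exact unr_val_pow_sub_pow_succ v ϖ (σ y) y (by rw [hσv]; exact hy) hy q (n + 1) hq'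
          hlt.le (by omega) (ih y hy)
      · rw [map_mul, pow_succ, mul_comm (v ϖ ^ (n + 1))]
        exact mul_le_mul' le_rfl (ih z hz)
  have hint : ∀ y : L, v y ≤ 1 → σ y = y := by
    intro y hy
    have : σ y - y = 0 := by
      refine unr_eq_zero_of_forall_le v ϖ hne hlt hdisc _ fun n => ?_
      refine le_trans (key n y hy) ?_
      exact pow_le_pow_of_le_one zero_le hlt.le (by omega)
    exact sub_eq_zero.1 this
  rcases le_or_gt (v x) 1 with hx | hx
  · exact hint x hx
  · have hx0 : x ≠ 0 := by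
      rintro rfl
      simp at hx
    have h1 : v x⁻¹ ≤ 1 := by
      rw [map_inv₀]
      exact inv_le_one_of_one_le₀ hx.le
    have h2 := hint x⁻¹ h1
    rw [map_inv₀] at h2
    exact inv_injective h2

end Inertia

section Group

variable {G L Γ₀ : Type*} [Group G] [Field L] [MulSemiringAction G L]
  [LinearOrderedCommGroupWithZero Γ₀] (v : Valuation L Γ₀) (ϖ : L)

theorem unr_val_natCard_lt_one [Finite (IsLocalRing.ResidueField v.valuationSubring)] :
    v ((Nat.card (IsLocalRing.ResidueField v.valuationSubring) : ℕ) : L) < 1 := by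
  classical
  let := Fintype.ofFinite (IsLocalRing.ResidueField v.valuationSubring)
  have h1 : ((Nat.card (IsLocalRing.ResidueField v.valuationSubring) : ℕ) :
      IsLocalRing.ResidueField v.valuationSubring) = 0 := by
    rw [Nat.card_eq_fintype_card]
    exact Nat.cast_card_eq_zero _
  have h2 : IsLocalRing.residue v.valuationSubring
      ((Nat.card (IsLocalRing.ResidueField v.valuationSubring) : ℕ) : v.valuationSubring) = 0 := by
    rw [map_natCast]; exact h1
  have h3 := (unr_residue_eq_zero_iff v _).1 h2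
  simpa using h3

theorem unr_val_pow_natCard_sub_lt_one [Finite (IsLocalRing.ResidueField v.valuationSubring)]
    (x : L) (hx : v x ≤ 1) :
    v (x ^ Nat.card (IsLocalRing.ResidueField v.valuationSubring) - x) < 1 := by
  classical
  let := Fintype.ofFinite (IsLocalRing.ResidueField v.valuationSubring)
  let xA : v.valuationSubring := ⟨x, hx⟩
  have h2 : IsLocalRing.residue v.valuationSubring
      (xA ^ Nat.card (IsLocalRing.ResidueField v.valuationSubring) - xA) = 0 := by
    rw [map_sub, map_pow, Nat.card_eq_fintype_card, FiniteField.pow_card, sub_self]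
  exact (unr_residue_eq_zero_iff v _).1 h2

/-- In the unramified situation, a faithful action on `L` is automatically faithful on the
residue field. -/
theorem unr_faithful_of_faithfulSMul [FaithfulSMul G L]
    [Finite (IsLocalRing.ResidueField v.valuationSubring)]
    (hinv : ∀ (g : G) (x : L), v (g • x) = v x) (hfix : ∀ g : G, g • ϖ = ϖ)
    (hlt : v ϖ < 1) (hne : ϖ ≠ 0) (hdisc : ∀ x : L, x ≠ 0 → ∃ k : ℤ, v x = v ϖ ^ k)
    (g : G) (hg : g ≠ 1) : ∃ x : L, v x ≤ 1 ∧ v (g • x - x) = 1 := by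
  by_contra hcon
  push Not at hcon
  apply hg
  have hI : ∀ x : L, v x ≤ 1 → v (MulSemiringAction.toRingHom G L g x - x) < 1 := by
    intro x hx
    refine lt_of_le_of_ne ?_ (hcon x hx)
    refine le_trans (Valuation.map_sub v _ _) (max_le ?_ hx)
    rw [MulSemiringAction.toRingHom_apply, hinv]; exact hx
  have := unr_inertia_trivial v ϖ hne hlt hdisc _ (unr_val_natCard_lt_one v)
    (unr_val_pow_natCard_sub_lt_one v) (MulSemiringAction.toRingHom G L g)
    (fun x => by rw [MulSemiringAction.toRingHom_apply, hinv])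
    (by rw [MulSemiringAction.toRingHom_apply, hfix]) hI
  refine FaithfulSMul.eq_of_smul_eq_smul (α := L) fun x => ?_
  rw [one_smul]
  exact this x

/-- Constructor of `unr_Hyp` from a faithful action on `L`. -/
theorem unr_Hyp.of_faithfulSMul [FaithfulSMul G L]
    [Finite (IsLocalRing.ResidueField v.valuationSubring)]
    (hinv : ∀ (g : G) (x : L), v (g • x) = v x) (hfix : ∀ g : G, g • ϖ = ϖ)
    (hlt : v ϖ < 1) (hne : ϖ ≠ 0) (hdisc : ∀ x : L, x ≠ 0 → ∃ k : ℤ, v x = v ϖ ^ k)
    (hcomplete : ∀ f : ℕ → L, (∀ n, v (f (n + 1) - f n) ≤ v ϖ ^ n) →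
      ∃ x : L, ∀ n, v (x - f n) ≤ v ϖ ^ n) : unr_Hyp G v ϖ where
  inv := hinv
  fix := hfix
  lt_one := hlt
  ne_zero := hne
  disc := hdisc
  faithful := unr_faithful_of_faithfulSMul v ϖ hinv hfix hlt hne hdisc
  complete := hcomplete

end Group

end Fermat.Agent.S55
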