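import Mathlib
import Fermat.Agent.S55.UnrInertia
import Fermat.Agent.S55.UnrNorm

set_option autoImplicit false

namespace Fermat.Agent.S55

open scoped BigOperators NNReal

section FiniteResidue

variable {L Γ₀ : Type*} [Field L] [LinearOrderedCommGroupWithZero Γ₀] (v : Valuation L Γ₀)

/-- a finite set of representatives of the closed unit ball modulo the open one makes the
residue field finite. -/
theorem unr_finite_residue (S : Finset L)
    (hS : ∀ x : L, v x ≤ 1 → ∃ s ∈ S, v (x - s) < 1) :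
    Finite (IsLocalRing.ResidueField v.valuationSubring) := by
  classical
  let f : S → IsLocalRing.ResidueField v.valuationSubring := fun s =>
    if h : v (s : L) ≤ 1 then IsLocalRing.residue v.valuationSubring ⟨(s : L), h⟩ else 0
  refine Finite.of_surjective f fun r => ?_
  obtain ⟨x, rfl⟩ := IsLocalRing.residue_surjective r
  obtain ⟨s, hs, hxs⟩ := hS (x : L) x.2
  have hs1 : v s ≤ 1 := by
    have e : s = (x : L) - ((x : L) - s) := by ring
    rw [e]
    exact le_trans (Valuation.map_sub v _ _) (max_le x.2 hxs.le)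
  refine ⟨⟨s, hs⟩, ?_⟩
  have e1 : f ⟨s, hs⟩ = IsLocalRing.residue v.valuationSubring ⟨s, hs1⟩ := dif_pos hs1
  rw [e1, eq_comm, ← sub_eq_zero, ← map_sub, unr_residue_eq_zero_iff]
  exact hxs

end FiniteResidue

section Normed

variable {G L : Type*} [Group G] [NormedField L] [IsUltrametricDist L]
  [MulSemiringAction G L]

theorem unr_normed_val_le_iff (x y : L) :
    NormedField.valuation x ≤ NormedField.valuation y ↔ ‖x‖ ≤ ‖y‖ := by
  rw [NormedField.valuation_apply, NormedField.valuation_apply, ← NNReal.coe_le_coe,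
    coe_nnnorm, coe_nnnorm]

theorem unr_normed_val_le_pow_iff (x ϖ : L) (n : ℕ) :
    NormedField.valuation x ≤ NormedField.valuation ϖ ^ n ↔ ‖x‖ ≤ ‖ϖ‖ ^ n := by
  rw [← map_pow, unr_normed_val_le_iff, norm_pow]

theorem unr_normed_val_eq_one_iff (x : L) : NormedField.valuation x = 1 ↔ ‖x‖ = 1 := by
  rw [NormedField.valuation_apply, ← NNReal.coe_inj, coe_nnnorm, NNReal.coe_one]

theorem unr_normed_val_le_one_iff (x : L) : NormedField.valuation x ≤ 1 ↔ ‖x‖ ≤ 1 := by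
  rw [NormedField.valuation_apply, ← NNReal.coe_le_coe, coe_nnnorm, NNReal.coe_one]

theorem unr_normed_val_lt_one_iff (x : L) : NormedField.valuation x < 1 ↔ ‖x‖ < 1 := by
  rw [NormedField.valuation_apply, ← NNReal.coe_lt_coe, coe_nnnorm, NNReal.coe_one]

theorem unr_normed_val_eq_zpow_iff (x ϖ : L) (k : ℤ) :
    NormedField.valuation x = NormedField.valuation ϖ ^ k ↔ ‖x‖ = ‖ϖ‖ ^ k := by
  rw [NormedField.valuation_apply, NormedField.valuation_apply, ← NNReal.coe_inj, coe_nnnorm,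
    NNReal.coe_zpow, coe_nnnorm]

/-- elementary completeness (in the sense of `unr_Hyp`) of a complete ultrametric normed
field. -/
theorem unr_normed_complete [CompleteSpace L] (ϖ : L) (hlt : ‖ϖ‖ < 1) (f : ℕ → L)
    (hf : ∀ n, ‖f (n + 1) - f n‖ ≤ ‖ϖ‖ ^ n) : ∃ x : L, ∀ n, ‖x - f n‖ ≤ ‖ϖ‖ ^ n := by
  have hc : CauchySeq f := by
    refine cauchySeq_of_le_geometric ‖ϖ‖ 1 hlt fun n => ?_
    rw [dist_eq_norm, norm_sub_rev, one_mul]
    exact hf n
  obtain ⟨x, hx⟩ := cauchySeq_tendsto_of_complete hc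
  refine ⟨x, fun n => ?_⟩
  have hb : ∀ m, n ≤ m → ‖f m - f n‖ ≤ ‖ϖ‖ ^ n := by
    intro m hm
    induction m, hm using Nat.le_induction with
    | base => simp
    | succ m hm ih =>
      have e : f (m + 1) - f n = (f (m + 1) - f m) + (f m - f n) := by ring
      rw [e]
      refine le_trans (IsUltrametricDist.norm_add_le_max _ _) (max_le ?_ ih)
      exact le_trans (hf m) (pow_le_pow_of_le_one (norm_nonneg _) hlt.le hm)
  have ht : Filter.Tendsto (fun m => ‖f m - f n‖) Filter.atTop (nhds ‖x - f n‖) :=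
    ((hx.sub_const (f n)).norm)
  refine le_of_tendsto ht ?_
  filter_upwards [Filter.eventually_ge_atTop n] with m hm
  exact hb m hm

omit [MulSemiringAction G L] in
theorem unr_normed_finite_residue (S : Finset L)
    (hS : ∀ x : L, ‖x‖ ≤ 1 → ∃ s ∈ S, ‖x - s‖ < 1) :
    Finite (IsLocalRing.ResidueField (NormedField.valuation (K := L)).valuationSubring) := by
  refine unr_finite_residue _ S fun x hx => ?_
  obtain ⟨s, hs, h⟩ := hS x ((unr_normed_val_le_one_iff x).1 hx)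
  exact ⟨s, hs, (unr_normed_val_lt_one_iff _).2 h⟩

variable [FaithfulSMul G L] [CompleteSpace L]

/-- **The unramified hypotheses in the normed setting.**  `L` a complete ultrametric normed
field with a faithful isometric action of `G`, a `G`-fixed uniformizer `ϖ` and a finite set of
representatives of the residue field. -/
theorem unr_normed_hyp (ϖ : L) (hinv : ∀ (g : G) (x : L), ‖g • x‖ = ‖x‖)
    (hfix : ∀ g : G, g • ϖ = ϖ) (hlt : ‖ϖ‖ < 1) (hne : ϖ ≠ 0)
    (hdisc : ∀ x : L, x ≠ 0 → ∃ k : ℤ, ‖x‖ = ‖ϖ‖ ^ k)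
    (S : Finset L) (hS : ∀ x : L, ‖x‖ ≤ 1 → ∃ s ∈ S, ‖x - s‖ < 1) :
    unr_Hyp G (NormedField.valuation (K := L)) ϖ := by
  have hfin := unr_normed_finite_residue S hS
  refine unr_Hyp.of_faithfulSMul _ ϖ ?_ hfix ((unr_normed_val_lt_one_iff ϖ).2 hlt) hne ?_ ?_
  · intro g x
    rw [NormedField.valuation_apply, NormedField.valuation_apply, ← NNReal.coe_inj,
      coe_nnnorm, coe_nnnorm, hinv]
  · intro x hx
    obtain ⟨k, hk⟩ := hdisc x hx
    exact ⟨k, (unr_normed_val_eq_zpow_iff x ϖ k).2 hk⟩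
  · intro f hf
    obtain ⟨x, hx⟩ := unr_normed_complete ϖ hlt f
      fun n => (unr_normed_val_le_pow_iff _ ϖ n).1 (hf n)
    exact ⟨x, fun n => (unr_normed_val_le_pow_iff _ ϖ n).2 (hx n)⟩

variable [Fintype G]

/-- **Norm surjectivity on units, normed form.** -/
theorem unr_normed_norm_surj (ϖ : L) (hinv : ∀ (g : G) (x : L), ‖g • x‖ = ‖x‖)
    (hfix : ∀ g : G, g • ϖ = ϖ) (hlt : ‖ϖ‖ < 1) (hne : ϖ ≠ 0)
    (hdisc : ∀ x : L, x ≠ 0 → ∃ k : ℤ, ‖x‖ = ‖ϖ‖ ^ k)
    (S : Finset L) (hS : ∀ x : L, ‖x‖ ≤ 1 → ∃ s ∈ S, ‖x - s‖ < 1)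
    (u : L) (hu : ∀ g : G, g • u = u) (hu1 : ‖u‖ = 1) :
    ∃ x : L, ‖x‖ = 1 ∧ ∏ g : G, g • x = u := by
  have h := unr_normed_hyp (G := G) ϖ hinv hfix hlt hne hdisc S hS
  have := unr_normed_finite_residue S hS
  obtain ⟨x, hx, e⟩ := unr_norm_surj h u hu ((unr_normed_val_eq_one_iff u).2 hu1)
  exact ⟨x, (unr_normed_val_eq_one_iff x).1 hx, e⟩

/-- **The norm group, normed form**: a nonzero fixed element is a norm iff its valuation is
divisible by the order of the group. -/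
theorem unr_normed_norm_range (ϖ : L) (hinv : ∀ (g : G) (x : L), ‖g • x‖ = ‖x‖)
    (hfix : ∀ g : G, g • ϖ = ϖ) (hlt : ‖ϖ‖ < 1) (hne : ϖ ≠ 0)
    (hdisc : ∀ x : L, x ≠ 0 → ∃ k : ℤ, ‖x‖ = ‖ϖ‖ ^ k)
    (S : Finset L) (hS : ∀ x : L, ‖x‖ ≤ 1 → ∃ s ∈ S, ‖x - s‖ < 1)
    (a : L) (ha : ∀ g : G, g • a = a) (ha0 : a ≠ 0) :
    (∃ x : L, ∏ g : G, g • x = a) ↔ ∃ k : ℤ, ‖a‖ = ‖ϖ‖ ^ ((Fintype.card G : ℤ) * k) := by
  have h := unr_normed_hyp (G := G) ϖ hinv hfix hlt hne hdisc S hS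
  have := unr_normed_finite_residue S hS
  rw [unr_norm_range h a ha ha0]
  exact exists_congr fun k => unr_normed_val_eq_zpow_iff a ϖ _

end Normed

end Fermat.Agent.S55
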