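import Mathlib
import Fermat.Agent.S55.Local.LFGal
import Fermat.Agent.S55.UnrNormed
import Fermat.Agent.S55.UnrFrob
import Fermat.Agent.S55.UnrH1

set_option autoImplicit false

namespace Fermat.Agent.S55

open scoped BigOperators

section LF

variable (K L : Type*) [NormedField K] [NormedField L] [Algebra K L]

/-- An extension of local fields is *unramified* if a uniformizer of the base generates the
value group of the extension. -/
def unr_IsUnram [lf_IsLocal K] : Prop :=
  ∀ x : L, x ≠ 0 → ∃ n : ℤ, ‖x‖ = ‖lf_unif K‖ ^ n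

variable {K L}
variable [lf_IsLocal K] [lf_IsLocal L] [lf_IsLocalExt K L]

omit [lf_IsLocal L] in
theorem unr_lf_norm_unif : ‖algebraMap K L (lf_unif K)‖ = ‖lf_unif K‖ :=
  lf_norm_algebraMap _

/-- The abstract unramified hypotheses hold for an unramified extension of local fields, with
`G = Gal(L/K)`. -/
theorem unr_lf_hyp (hu : unr_IsUnram K L) :
    unr_Hyp (L ≃ₐ[K] L) (NormedField.valuation (K := L)) (algebraMap K L (lf_unif K)) := by
  obtain ⟨S, hS⟩ := lf_IsLocal.finite_residue (K := L)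
  refine unr_normed_hyp (G := L ≃ₐ[K] L) (algebraMap K L (lf_unif K))
    (fun g x => lf_norm_algEquiv g x) (fun g => g.commutes _) ?_ ?_ ?_ S hS
  · rw [unr_lf_norm_unif]; exact lf_norm_unif_lt_one K
  · rw [Ne, map_eq_zero]; exact lf_unif_ne_zero K
  · intro x hx
    obtain ⟨n, hn⟩ := hu x hx
    exact ⟨n, by rw [unr_lf_norm_unif]; exact hn⟩

theorem unr_lf_finite_residue :
    Finite (IsLocalRing.ResidueField (NormedField.valuation (K := L)).valuationSubring) := by
  obtain ⟨S, hS⟩ := lf_IsLocal.finite_residue (K := L)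
  exact unr_normed_finite_residue S hS

/-- **(U2)** the Galois group of an unramified extension is cyclic. -/
theorem unr_lf_isCyclic (hu : unr_IsUnram K L) : IsCyclic (L ≃ₐ[K] L) := by
  have := unr_lf_finite_residue (L := L)
  exact unr_isCyclic (unr_lf_hyp hu)

/-- **(U1b)** Hilbert 90 for units, Noether form: a 1-cocycle of `Gal(L/K)` with values in `Lˣ`
is the coboundary of a unit of norm one (in particular the cocycle has values in the units). -/
theorem unr_lf_hilbert90 (hu : unr_IsUnram K L) (c : (L ≃ₐ[K] L) → Lˣ)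
    (hc : groupCohomology.IsMulCocycle₁ c) :
    ∃ w : Lˣ, w ∈ lf_units L ∧ ∀ σ : L ≃ₐ[K] L, σ • w / w = c σ := by
  have h := unr_lf_hyp hu
  obtain ⟨w, hw, e⟩ := unr_hilbert90 h (fun σ => (c σ : L)) (fun σ => (c σ).ne_zero) (by
    intro σ τ
    have := congrArg (fun u : Lˣ => (u : L)) (hc σ τ)
    simp only [Units.val_mul, AlgEquiv.smul_units_def, Units.coe_map, MonoidHom.coe_coe] at this
    rw [this, mul_comm]
    rfl)
  have hw1 : ‖w‖ = 1 := (unr_normed_val_eq_one_iff w).1 hw
  have hw0 : w ≠ 0 := by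
    rintro rfl
    simp at hw1
  refine ⟨Units.mk0 w hw0, (lf_mem_units_iff _).2 hw1, fun σ => ?_⟩
  apply Units.ext
  simp only [Units.val_div_eq_div_val, AlgEquiv.smul_units_def, Units.coe_map, Units.val_mk0,
    MonoidHom.coe_coe]
  rw [div_eq_iff hw0]
  exact e σ

variable [IsGalois K L]

omit [lf_IsLocal K] [lf_IsLocal L] in
theorem unr_lf_prod_eq (x : L) :
    ∏ σ : L ≃ₐ[K] L, σ • x = algebraMap K L (Algebra.norm K x) :=
  (Algebra.norm_eq_prod_automorphisms K x).symm

/-- **(U1a)** the norm is surjective on units of an unramified extension. -/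
theorem unr_lf_norm_surj (hu : unr_IsUnram K L) (u : K) (hu1 : ‖u‖ = 1) :
    ∃ x : L, ‖x‖ = 1 ∧ Algebra.norm K x = u := by
  have h := unr_lf_hyp hu
  have := unr_lf_finite_residue (L := L)
  obtain ⟨x, hx, e⟩ := unr_norm_surj h (algebraMap K L u) (fun g => g.commutes u)
    ((unr_normed_val_eq_one_iff _).2 (by rw [lf_norm_algebraMap, hu1]))
  refine ⟨x, (unr_normed_val_eq_one_iff x).1 hx, ?_⟩
  apply (algebraMap K L).injective
  rw [← unr_lf_prod_eq, e]

/-- **(U3)** the norm group of an unramified extension: a nonzero element of the base is a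
norm iff its order is divisible by the degree. -/
theorem unr_lf_norm_range (hu : unr_IsUnram K L) (a : K) (ha : a ≠ 0) :
    (∃ x : L, Algebra.norm K x = a) ↔
      ∃ k : ℤ, ‖a‖ = ‖lf_unif K‖ ^ ((Module.finrank K L : ℤ) * k) := by
  have h := unr_lf_hyp hu
  have := unr_lf_finite_residue (L := L)
  have hcard : Fintype.card (L ≃ₐ[K] L) = Module.finrank K L := by
    rw [← Nat.card_eq_fintype_card, IsGalois.card_aut_eq_finrank]
  have h1 := unr_norm_range h (algebraMap K L a) (fun g => g.commutes a)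
    (by rw [Ne, map_eq_zero]; exact ha)
  constructor
  · rintro ⟨x, hx⟩
    obtain ⟨k, hk⟩ := h1.1 ⟨x, by rw [unr_lf_prod_eq, hx]⟩
    refine ⟨k, ?_⟩
    have := (unr_normed_val_eq_zpow_iff _ _ _).1 hk
    rw [lf_norm_algebraMap, unr_lf_norm_unif, hcard] at this
    exact this
  · rintro ⟨k, hk⟩
    obtain ⟨x, hx⟩ := h1.2 ⟨k, (unr_normed_val_eq_zpow_iff _ _ _).2 (by
      rw [lf_norm_algebraMap, unr_lf_norm_unif, hcard]; exact hk)⟩
    refine ⟨x, ?_⟩
    apply (algebraMap K L).injective
    rw [← unr_lf_prod_eq, hx]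

/-- **(U3)** in terms of the order function. -/
theorem unr_lf_norm_range_ord (hu : unr_IsUnram K L) (a : Kˣ) :
    (∃ x : L, Algebra.norm K x = (a : K)) ↔ (Module.finrank K L : ℤ) ∣ lf_ordFun K a := by
  rw [unr_lf_norm_range hu (a : K) a.ne_zero]
  constructor
  · rintro ⟨k, hk⟩
    exact ⟨k, (lf_ordFun_eq_iff a _).2 hk⟩
  · rintro ⟨k, hk⟩
    exact ⟨k, by rw [← hk]; exact lf_norm_eq_zpow_ordFun a⟩

end LF

end Fermat.Agent.S55
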