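import Mathlib
import Fermat.Agent.S55.UnrLF

set_option autoImplicit false

namespace Fermat.Agent.S55

open scoped BigOperators

section ResCard

/-- The cardinality of the residue field of an ultrametric normed field. -/
noncomputable def unr_resCard (K : Type*) [NormedField K] [IsUltrametricDist K] : ℕ :=
  Nat.card (IsLocalRing.ResidueField (NormedField.valuation (K := K)).valuationSubring)

variable {K L : Type*} [NormedField K] [NormedField L] [Algebra K L]
  [IsUltrametricDist K] [IsUltrametricDist L]

/-- The map of valuation rings induced by a norm-preserving algebra map. -/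
noncomputable def unr_mapInt (hn : ∀ k : K, ‖algebraMap K L k‖ = ‖k‖) :
    (NormedField.valuation (K := K)).valuationSubring →+*
      (NormedField.valuation (K := L)).valuationSubring where
  toFun x := ⟨algebraMap K L x, by
    rw [Valuation.mem_valuationSubring_iff, unr_normed_val_le_one_iff, hn]
    exact (unr_normed_val_le_one_iff _).1 ((Valuation.mem_valuationSubring_iff _ _).1 x.2)⟩
  map_one' := Subtype.ext (map_one _)
  map_mul' x y := Subtype.ext (map_mul _ _ _)
  map_zero' := Subtype.ext (map_zero _)
  map_add' x y := Subtype.ext (map_add _ _ _)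

theorem unr_coe_mapInt (hn : ∀ k : K, ‖algebraMap K L k‖ = ‖k‖)
    (x : (NormedField.valuation (K := K)).valuationSubring) :
    ((unr_mapInt hn x : (NormedField.valuation (K := L)).valuationSubring) : L)
      = algebraMap K L (x : K) := rfl

theorem unr_isLocalHom_mapInt (hn : ∀ k : K, ‖algebraMap K L k‖ = ‖k‖) :
    IsLocalHom (unr_mapInt hn) := by
  refine ⟨fun a ha => ?_⟩
  rw [← IsLocalRing.residue_ne_zero_iff_isUnit, Ne, unr_residue_eq_zero_iff,
    unr_normed_val_lt_one_iff] at ha ⊢
  rw [unr_coe_mapInt, hn] at ha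
  exact ha

end ResCard

section Frob

variable {K L : Type*} [NormedField K] [NormedField L] [Algebra K L]
variable [lf_IsLocal K] [lf_IsLocal L] [lf_IsLocalExt K L] [IsGalois K L]

/-- the fixed field of the residue field of an unramified extension is the residue field of
the base (cardinalities). -/
theorem unr_lf_card_fixed (hu : unr_IsUnram K L) :
    letI := unr_actA (NormedField.valuation (K := L)) (unr_lf_hyp (K := K) hu).inv
    Nat.card (FixedPoints.subfield (L ≃ₐ[K] L)
      (IsLocalRing.ResidueField (NormedField.valuation (K := L)).valuationSubring))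
      = unr_resCard K := by
  classical
  have h := unr_lf_hyp (K := K) (L := L) hu
  let := unr_actA (NormedField.valuation (K := L)) h.inv
  have hfaith := unr_faithful h
  have hn : ∀ k : K, ‖algebraMap K L k‖ = ‖k‖ := fun k => lf_norm_algebraMap k
  have := unr_isLocalHom_mapInt (K := K) (L := L) hn
  let φ := IsLocalRing.ResidueField.map (unr_mapInt (K := K) (L := L) hn)
  have hfix : ∀ x, φ x ∈ FixedPoints.subfield (L ≃ₐ[K] L)
      (IsLocalRing.ResidueField (NormedField.valuation (K := L)).valuationSubring) := by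
    intro x σ
    obtain ⟨a, rfl⟩ := IsLocalRing.residue_surjective x
    rw [IsLocalRing.ResidueField.map_residue, ← IsLocalRing.ResidueField.residue_smul]
    congr 1
    exact Subtype.ext (σ.commutes _)
  let ψ : IsLocalRing.ResidueField (NormedField.valuation (K := K)).valuationSubring →
      FixedPoints.subfield (L ≃ₐ[K] L)
        (IsLocalRing.ResidueField (NormedField.valuation (K := L)).valuationSubring) :=
    fun x => ⟨φ x, hfix x⟩
  have hψ : Function.Bijective ψ := by
    constructor
    · intro x y hxy
      exact φ.injective (congrArg Subtype.val hxy)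
    · rintro ⟨y, hy⟩
      obtain ⟨zbar, hz⟩ := unr_fin_trace_surj (L ≃ₐ[K] L)
        (IsLocalRing.ResidueField (NormedField.valuation (K := L)).valuationSubring) y hy
      obtain ⟨z, rfl⟩ := IsLocalRing.residue_surjective zbar
      have e1 : algebraMap K L (Algebra.trace K L (z : L))
          = ((∑ σ : L ≃ₐ[K] L, σ • z : (NormedField.valuation (K := L)).valuationSubring) : L) := by
        rw [unr_coe_sum_smul h z, trace_eq_sum_automorphisms]
        rfl
      have e2 : ‖Algebra.trace K L (z : L)‖ ≤ 1 := by
        rw [← hn, e1]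
        exact (unr_normed_val_le_one_iff _).1
          ((Valuation.mem_valuationSubring_iff _ _).1 (SetLike.coe_mem _))
      let a : (NormedField.valuation (K := K)).valuationSubring :=
        ⟨Algebra.trace K L (z : L), (Valuation.mem_valuationSubring_iff _ _).2
          ((unr_normed_val_le_one_iff _).2 e2)⟩
      refine ⟨IsLocalRing.residue _ a, Subtype.ext ?_⟩
      change φ (IsLocalRing.residue _ a) = y
      rw [IsLocalRing.ResidueField.map_residue, ← hz]
      have e3 : unr_mapInt (K := K) (L := L) hn a = ∑ σ : L ≃ₐ[K] L, σ • z := Subtype.ext e1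
      rw [e3, map_sum]
      rfl
  exact (Nat.card_congr (Equiv.ofBijective ψ hψ)).symm

/-- **(U2)** Frobenius: the Galois group of an unramified extension is generated by an
element `φ` with `φ x ≡ x ^ q` modulo the maximal ideal, `q` the cardinality of the residue
field of the base. -/
theorem unr_lf_exists_frob (hu : unr_IsUnram K L) :
    ∃ φ : L ≃ₐ[K] L, (∀ σ : L ≃ₐ[K] L, σ ∈ Subgroup.zpowers φ) ∧
      ∀ x : L, ‖x‖ ≤ 1 → ‖φ x - x ^ unr_resCard K‖ < 1 := by
  have h := unr_lf_hyp (K := K) (L := L) hu
  have := unr_lf_finite_residue (L := L)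
  obtain ⟨φ, hgen, hφ⟩ := unr_exists_frob h
  refine ⟨φ, hgen, fun x hx => ?_⟩
  have := hφ x ((unr_normed_val_le_one_iff x).2 hx)
  rw [unr_lf_card_fixed hu, unr_normed_val_lt_one_iff] at this
  exact this

end Frob

end Fermat.Agent.S55

namespace Fermat.Agent.S55

section FrobUnique

variable {K L : Type*} [NormedField K] [NormedField L] [Algebra K L]
variable [lf_IsLocal K] [lf_IsLocal L] [lf_IsLocalExt K L]

/-- An automorphism of an unramified extension which is trivial on the residue field is
trivial. -/
theorem unr_lf_eq_one_of_residue (hu : unr_IsUnram K L) (σ : L ≃ₐ[K] L)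
    (hσ : ∀ x : L, ‖x‖ ≤ 1 → ‖σ x - x‖ < 1) : σ = 1 := by
  have h := unr_lf_hyp (K := K) (L := L) hu
  by_contra hne
  obtain ⟨x, hx1, hx2⟩ := h.faithful σ hne
  have h1 := hσ x ((unr_normed_val_le_one_iff x).1 hx1)
  have h2 := (unr_normed_val_eq_one_iff _).1 hx2
  have h3 : σ • x = σ x := rfl
  rw [h3] at h2
  rw [h2] at h1
  exact lt_irrefl _ h1

/-- Uniqueness of the Frobenius: an automorphism inducing the `q`-th power map on the residue
field is determined by `q`. -/
theorem unr_lf_frob_unique (hu : unr_IsUnram K L) (q : ℕ) (φ ψ : L ≃ₐ[K] L)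
    (hφ : ∀ x : L, ‖x‖ ≤ 1 → ‖φ x - x ^ q‖ < 1)
    (hψ : ∀ x : L, ‖x‖ ≤ 1 → ‖ψ x - x ^ q‖ < 1) : φ = ψ := by
  have key : ψ⁻¹ * φ = 1 := by
    refine unr_lf_eq_one_of_residue hu _ fun x hx => ?_
    have e : (ψ⁻¹ * φ) x - x = ψ⁻¹ (φ x - ψ x) := by
      rw [AlgEquiv.mul_apply, map_sub]
      congr 1
      exact (ψ.symm_apply_apply x).symm
    rw [e, lf_norm_algEquiv]
    have e2 : φ x - ψ x = (φ x - x ^ q) - (ψ x - x ^ q) := by ring
    rw [e2]
    exact lt_of_le_of_lt (lf_norm_sub_le_max _ _) (max_lt (hφ x hx) (hψ x hx))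
  have := congrArg (fun t => ψ * t) key
  simpa using this

end FrobUnique

section Cyclic

variable {K L : Type} [NormedField K] [NormedField L] [Algebra K L]
variable [lf_IsLocal K] [lf_IsLocal L] [lf_IsLocalExt K L] [IsGalois K L]

/-- **(U1b)** Hilbert 90 for units, cyclic form: an element of norm one of an unramified
extension is `w / φ w` for a unit `w`, for any generator `φ` of the Galois group. -/
theorem unr_lf_hilbert90_cyclic (hu : unr_IsUnram K L) (φ : L ≃ₐ[K] L)
    (hφ : ∀ σ : L ≃ₐ[K] L, σ ∈ Subgroup.zpowers φ) (x : L) (hx : Algebra.norm K x = 1) :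
    ∃ w : L, ‖w‖ = 1 ∧ w / φ w = x := by
  have h := unr_lf_hyp (K := K) (L := L) hu
  obtain ⟨w, hw, e⟩ := unr_hilbert90_cyclic h φ hφ x (by rw [unr_lf_prod_eq, hx, map_one])
  exact ⟨w, (unr_normed_val_eq_one_iff w).1 hw, e⟩

end Cyclic

end Fermat.Agent.S55
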