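import Mathlib
import Fermat.Agent.S55.UnrLF

set_option autoImplicit false

namespace Fermat.Agent.S55

open scoped BigOperators

section Abstract

variable {G L Γ₀ : Type*} [Group G] [Field L] [MulSemiringAction G L]
  [LinearOrderedCommGroupWithZero Γ₀] (v : Valuation L Γ₀)

/-- faithfulness of the induced action on the residue field (hypotheses spelled out). -/
theorem unr_faithful_res (hinv : ∀ (g : G) (x : L), v (g • x) = v x)
    (hfaith : ∀ g : G, g ≠ 1 → ∃ x : L, v x ≤ 1 ∧ v (g • x - x) = 1) :
    letI := unr_actA v hinv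
    FaithfulSMul G (IsLocalRing.ResidueField v.valuationSubring) := by
  let := unr_actA v hinv
  refine ⟨fun {g₁ g₂} H => ?_⟩
  by_contra hne
  have hg : g₂⁻¹ * g₁ ≠ 1 := by
    intro e
    apply hne
    have := congrArg (fun t => g₂ * t) e
    simpa using this
  obtain ⟨x, hx1, hx2⟩ := hfaith _ hg
  let xA : v.valuationSubring := ⟨x, hx1⟩
  have e1 := H (IsLocalRing.residue v.valuationSubring xA)
  have e2 : (g₂⁻¹ * g₁) • IsLocalRing.residue v.valuationSubring xA
      = IsLocalRing.residue v.valuationSubring xA := by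
    rw [mul_smul, e1, inv_smul_smul]
  rw [← IsLocalRing.ResidueField.residue_smul, ← sub_eq_zero, ← map_sub,
    unr_residue_eq_zero_iff] at e2
  have e3 : (((g₂⁻¹ * g₁) • xA - xA : v.valuationSubring) : L) = (g₂⁻¹ * g₁) • x - x := rfl
  rw [e3, hx2] at e2
  exact lt_irrefl _ e2

/-- **Trivial inertia implies unramified** (abstract form): if the finite group `G` acts
faithfully on the residue field, then every nonzero `x` has the same value as a trace
`∑ g, g • (c * x)` with `c` integral.  (Dedekind's independence of characters on the residue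
field.) -/
theorem unr_exists_trace_val [Fintype G] (hinv : ∀ (g : G) (x : L), v (g • x) = v x)
    (hfaith : ∀ g : G, g ≠ 1 → ∃ x : L, v x ≤ 1 ∧ v (g • x - x) = 1)
    (x : L) (hx : x ≠ 0) :
    ∃ c : L, v c ≤ 1 ∧ v (∑ g : G, g • (c * x)) = v x := by
  classical
  let := unr_actA v hinv
  have hF := unr_faithful_res v hinv hfaith
  have hvx : v x ≠ 0 := (Valuation.ne_zero_iff v).2 hx
  -- the units `u g = g • x / x`
  have hu : ∀ g : G, v (g • x / x) = 1 := by
    intro g
    rw [map_div₀, hinv]
    exact div_self hvx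
  let uA : G → v.valuationSubring := fun g => ⟨g • x / x, (hu g).le⟩
  have hubar : ∀ g : G, IsLocalRing.residue v.valuationSubring (uA g) ≠ 0 := by
    intro g h0
    rw [unr_residue_eq_zero_iff] at h0
    have : v ((uA g : v.valuationSubring) : L) = 1 := hu g
    rw [this] at h0
    exact lt_irrefl _ h0
  -- the characters of the residue field
  let χ : G → (IsLocalRing.ResidueField v.valuationSubring →*
      IsLocalRing.ResidueField v.valuationSubring) := fun g =>
    (MulSemiringAction.toRingHom G (IsLocalRing.ResidueField v.valuationSubring) g :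
      IsLocalRing.ResidueField v.valuationSubring →*
        IsLocalRing.ResidueField v.valuationSubring)
  have hχ : Function.Injective χ := by
    intro g g' hgg
    refine FaithfulSMul.eq_of_smul_eq_smul
      (α := IsLocalRing.ResidueField v.valuationSubring) fun y => ?_
    exact DFunLike.congr_fun hgg y
  have hli : LinearIndependent (IsLocalRing.ResidueField v.valuationSubring)
      (fun g : G => (χ g : IsLocalRing.ResidueField v.valuationSubring →
        IsLocalRing.ResidueField v.valuationSubring)) :=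
    LinearIndependent.comp (linearIndependent_monoidHom _ _) χ hχ
  have hne : ∃ cbar : IsLocalRing.ResidueField v.valuationSubring,
      ∑ g : G, IsLocalRing.residue v.valuationSubring (uA g) * g • cbar ≠ 0 := by
    by_contra hcon
    push Not at hcon
    have h0 : ∑ g : G, IsLocalRing.residue v.valuationSubring (uA g) •
        (χ g : IsLocalRing.ResidueField v.valuationSubring →
          IsLocalRing.ResidueField v.valuationSubring) = 0 := by
      funext y
      rw [Finset.sum_apply]
      exact hcon y
    exact hubar 1 ((Fintype.linearIndependent_iff.1 hli) _ h0 1)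
  obtain ⟨cbar, hc⟩ := hne
  obtain ⟨c, rfl⟩ := IsLocalRing.residue_surjective cbar
  refine ⟨c, c.2, ?_⟩
  have e1 : IsLocalRing.residue v.valuationSubring (∑ g : G, uA g * g • c)
      = ∑ g : G, IsLocalRing.residue v.valuationSubring (uA g)
          * g • IsLocalRing.residue v.valuationSubring c := by
    rw [map_sum]
    refine Finset.sum_congr rfl fun g _ => ?_
    rw [map_mul, IsLocalRing.ResidueField.residue_smul]
  have e2 : ¬ v (((∑ g : G, uA g * g • c : v.valuationSubring)) : L) < 1 := by
    rw [← unr_residue_eq_zero_iff, e1]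
    exact hc
  have e3 : v (((∑ g : G, uA g * g • c : v.valuationSubring)) : L) = 1 :=
    le_antisymm ((Valuation.mem_valuationSubring_iff v _).1 (SetLike.coe_mem _)) (not_lt.1 e2)
  have e4 : ((∑ g : G, uA g * g • c : v.valuationSubring) : L)
      = ∑ g : G, (g • x / x) * g • (c : L) := by
    rw [← ValuationSubring.subtype_apply, map_sum]
    rfl
  have e5 : ∑ g : G, g • ((c : L) * x) = x * ∑ g : G, (g • x / x) * g • (c : L) := by
    rw [Finset.mul_sum]
    refine Finset.sum_congr rfl fun g _ => ?_
    rw [smul_mul']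
    field_simp
  rw [e5, map_mul, ← e4, e3, mul_one]

end Abstract

section LF

variable {K L : Type*} [NormedField K] [NormedField L] [Algebra K L]
variable [lf_IsLocal K] [lf_IsLocal L] [lf_IsLocalExt K L] [IsGalois K L]

/-- **Trivial inertia implies unramified**: a Galois extension of local fields whose Galois
group acts faithfully on the residue field is unramified. -/
theorem unr_lf_isUnram_of_faithful
    (hI : ∀ σ : L ≃ₐ[K] L, σ ≠ 1 → ∃ x : L, ‖x‖ ≤ 1 ∧ ‖σ x - x‖ = 1) :
    unr_IsUnram K L := by
  have hinv : ∀ (g : L ≃ₐ[K] L) (x : L),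
      NormedField.valuation (g • x) = NormedField.valuation x := by
    intro g x
    rw [NormedField.valuation_apply, NormedField.valuation_apply, ← NNReal.coe_inj,
      coe_nnnorm, coe_nnnorm]
    exact lf_norm_algEquiv g x
  have hfaith : ∀ g : L ≃ₐ[K] L, g ≠ 1 → ∃ x : L, NormedField.valuation x ≤ 1 ∧
      NormedField.valuation (g • x - x) = 1 := by
    intro g hg
    obtain ⟨x, hx1, hx2⟩ := hI g hg
    exact ⟨x, (unr_normed_val_le_one_iff x).2 hx1, (unr_normed_val_eq_one_iff _).2 hx2⟩
  -- a uniformizer of `L` with the norm of an element of `K`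
  obtain ⟨c, -, hc⟩ := unr_exists_trace_val (NormedField.valuation (K := L)) hinv hfaith
    (lf_unif L) (lf_unif_ne_zero L)
  have hc' : ‖∑ g : L ≃ₐ[K] L, g • (c * lf_unif L)‖ = ‖lf_unif L‖ := by
    have := congrArg (fun t : NNReal => (t : ℝ)) hc
    simpa using this
  have etr : ∑ g : L ≃ₐ[K] L, g • (c * lf_unif L)
      = algebraMap K L (Algebra.trace K L (c * lf_unif L)) :=
    (trace_eq_sum_automorphisms (K := K) (c * lf_unif L)).symm
  rw [etr, lf_norm_algebraMap] at hc'
  set t := Algebra.trace K L (c * lf_unif L) with ht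
  have ht0 : t ≠ 0 := by
    intro h0
    rw [h0, norm_zero] at hc'
    exact (lf_norm_unif_pos L).ne hc'
  obtain ⟨j, hj⟩ := lf_exists_norm_eq_zpow ht0
  have hK0 : algebraMap K L (lf_unif K) ≠ 0 := by
    rw [Ne, map_eq_zero]; exact lf_unif_ne_zero K
  obtain ⟨i, hi⟩ := lf_exists_norm_eq_zpow hK0
  rw [lf_norm_algebraMap] at hi
  -- `‖ϖ_L‖ = ‖ϖ_K‖ ^ j` and `‖ϖ_K‖ = ‖ϖ_L‖ ^ i`
  have hLK : ‖lf_unif L‖ = ‖lf_unif K‖ ^ j := by rw [← hc', hj]
  have hij : i * j = 1 := by
    have h1 : ‖lf_unif L‖ ^ (i * j) = ‖lf_unif L‖ ^ (1 : ℤ) := by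
      rw [zpow_mul, ← hi, ← hLK, zpow_one]
    exact lf_zpow_norm_unif_injective (K := L) h1
  have hj1 : j = 1 := by
    rcases Int.eq_one_or_neg_one_of_mul_eq_one' hij with ⟨-, h⟩ | ⟨-, h⟩
    · exact h
    · exfalso
      rw [h, zpow_neg, zpow_one] at hLK
      have h1 : 1 < ‖lf_unif L‖ := by
        rw [hLK]
        exact (one_lt_inv₀ (lf_norm_unif_pos K)).mpr (lf_norm_unif_lt_one K)
      exact absurd (lf_norm_unif_lt_one L) (not_lt.2 h1.le)
  rw [hj1, zpow_one] at hLK
  intro x hx
  obtain ⟨n, hn⟩ := lf_exists_norm_eq_zpow hx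
  exact ⟨n, by rw [← hLK]; exact hn⟩

end LF

end Fermat.Agent.S55
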