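import Mathlib
import Fermat.Agent.S55.Local.LFExt
import Fermat.Agent.S55.UnrTriv
import Fermat.Agent.S55.UnrLFFrob

set_option autoImplicit false

namespace Fermat.Agent.S55

open scoped BigOperators

universe u

section Roots

variable {L : Type*} [NormedField L] [IsUltrametricDist L]

omit [IsUltrametricDist L] in
/-- roots of unity have norm one. -/
theorem unr_norm_eq_one_of_pow_eq_one (x : L) (m : ℕ) (hm : m ≠ 0) (h : x ^ m = 1) :
    ‖x‖ = 1 := by
  have h1 : ‖x‖ ^ m = 1 := by rw [← norm_pow, h, norm_one]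
  exact (pow_eq_one_iff_of_nonneg (norm_nonneg x) hm).1 h1

/-- a nontrivial `m`-th root of unity, `m` a unit, is not congruent to one. -/
theorem unr_norm_sub_one_of_pow_eq_one (x : L) (m : ℕ) (hm : ‖(m : L)‖ = 1) (h : x ^ m = 1)
    (hx : x ≠ 1) : ‖x - 1‖ = 1 := by
  have hm0 : m ≠ 0 := by
    rintro rfl
    simp at hm
  have hx1 : ‖x‖ = 1 := unr_norm_eq_one_of_pow_eq_one x m hm0 h
  have hle : ‖x - 1‖ ≤ 1 := by
    rw [sub_eq_add_neg]
    refine le_trans (IsUltrametricDist.norm_add_le_max x (-1)) (max_le hx1.le ?_)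
    rw [norm_neg, norm_one]
  refine le_antisymm hle ?_
  -- the geometric sum vanishes
  have hgs : ∑ i ∈ Finset.range m, x ^ i = 0 := by
    have := geom_sum_mul x m
    rw [h, sub_self] at this
    rcases mul_eq_zero.1 this with h0 | h0
    · exact h0
    · exact absurd (sub_eq_zero.1 h0) hx
  have key := unr_val_geom_sum₂_sub_le (NormedField.valuation (K := L)) x 1
    ((unr_normed_val_le_one_iff x).2 hx1.le) (by simp) m
  simp only [one_pow, mul_one] at key
  rw [hgs, zero_sub, Valuation.map_neg, unr_normed_val_le_iff, hm] at key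
  exact key

end Roots

section Spectral

variable (K : Type u) [NormedField K] [lf_IsLocal K] (L : Type u) [Field L] [Algebra K L]
  [FiniteDimensional K L]

/-- the spectral norm on a finite extension of a local field. -/
@[reducible] noncomputable def unr_spectralNormedField : NormedField L :=
  letI := lf_nontriviallyNormedField K
  spectralNorm.normedField K L

theorem unr_spectral_isLocalExt :
    @lf_IsLocalExt K L _ (unr_spectralNormedField K L) _ := by
  let := lf_nontriviallyNormedField K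
  let := unr_spectralNormedField K L
  exact ⟨inferInstance, fun k => spectralNorm_extends k⟩

end Spectral

section Cyc

variable {K L : Type*} [NormedField K] [NormedField L] [Algebra K L]
variable [lf_IsLocal K] [lf_IsLocal L] [lf_IsLocalExt K L]

omit [lf_IsLocal K] [lf_IsLocal L] in
theorem unr_cyc_norm_natCast (m : ℕ) : ‖(m : L)‖ = ‖(m : K)‖ := by
  rw [← lf_norm_algebraMap (K := K) (L := L), map_natCast]

omit [lf_IsLocal K] in
/-- distinct `m`-th roots of unity are not congruent (`m` a unit). -/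
theorem unr_cyc_norm_sub (m : ℕ) (hm : ‖(m : K)‖ = 1) (x y : L) (hx : x ^ m = 1)
    (hy : y ^ m = 1) (hxy : x ≠ y) : ‖x - y‖ = 1 := by
  have hm0 : m ≠ 0 := by
    rintro rfl
    simp at hm
  have hy1 : ‖y‖ = 1 := unr_norm_eq_one_of_pow_eq_one y m hm0 hy
  have hy0 : y ≠ 0 := by
    rintro rfl
    simp at hy1
  have h1 : (x / y) ^ m = 1 := by rw [div_pow, hx, hy, div_one]
  have h2 : x / y ≠ 1 := by
    intro h
    exact hxy ((div_eq_one_iff_eq hy0).1 h)
  have h3 := unr_norm_sub_one_of_pow_eq_one (x / y) m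
    (by rw [unr_cyc_norm_natCast (K := K), hm]) h1 h2
  have h4 : x - y = y * (x / y - 1) := by field_simp
  rw [h4, norm_mul, hy1, h3, mul_one]

variable [IsGalois K L]

/-- **A field generated by a root of unity of order prime to the residue characteristic is
unramified.** -/
theorem unr_cyc_isUnram (m : ℕ) (hm : ‖(m : K)‖ = 1) (ζ : L) (hζ : ζ ^ m = 1)
    (hgen : ∀ σ : L ≃ₐ[K] L, σ ζ = ζ → σ = 1) : unr_IsUnram K L := by
  have hm0 : m ≠ 0 := by
    rintro rfl
    simp at hm
  refine unr_lf_isUnram_of_faithful fun σ hσ => ⟨ζ, ?_, ?_⟩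
  · exact (unr_norm_eq_one_of_pow_eq_one ζ m hm0 hζ).le
  · refine unr_cyc_norm_sub (K := K) m hm (σ ζ) ζ ?_ hζ fun h => hσ (hgen σ h)
    rw [← map_pow, hζ, map_one]

omit [lf_IsLocal K] [IsGalois K L] in
/-- the Frobenius acts on roots of unity of order prime to `p` by `ζ ↦ ζ ^ q`. -/
theorem unr_cyc_frob_apply (m : ℕ) (hm : ‖(m : K)‖ = 1) (ζ : L) (hζ : ζ ^ m = 1)
    (q : ℕ) (φ : L ≃ₐ[K] L) (hφ : ∀ x : L, ‖x‖ ≤ 1 → ‖φ x - x ^ q‖ < 1) :
    φ ζ = ζ ^ q := by
  have hm0 : m ≠ 0 := by
    rintro rfl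
    simp at hm
  by_contra hne
  have h1 := unr_cyc_norm_sub (K := K) m hm (φ ζ) (ζ ^ q)
    (by rw [← map_pow, hζ, map_one]) (by rw [← pow_mul, mul_comm, pow_mul, hζ, one_pow]) hne
  have h2 := hφ ζ (unr_norm_eq_one_of_pow_eq_one ζ m hm0 hζ).le
  rw [h1] at h2
  exact lt_irrefl _ h2

omit [lf_IsLocal K] [IsGalois K L] in
theorem unr_cyc_frob_pow_apply (m : ℕ) (hm : ‖(m : K)‖ = 1) (ζ : L) (hζ : ζ ^ m = 1)
    (q : ℕ) (φ : L ≃ₐ[K] L) (hφ : ∀ x : L, ‖x‖ ≤ 1 → ‖φ x - x ^ q‖ < 1) (j : ℕ) :
    (φ ^ j) ζ = ζ ^ (q ^ j) := by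
  induction j with
  | zero => simp
  | succ j ih =>
    rw [pow_succ', AlgEquiv.mul_apply, ih, map_pow,
      unr_cyc_frob_apply (K := K) m hm ζ hζ q φ hφ, ← pow_mul, pow_succ']

/-- **The degree of the unramified extension generated by the roots of unity of order
`q ^ n - 1`** is `n`. -/
theorem unr_cyc_finrank (n : ℕ) (hn : 0 < n) (ζ : L)
    (hζ : IsPrimitiveRoot ζ (unr_resCard K ^ n - 1))
    (hm : ‖((unr_resCard K ^ n - 1 : ℕ) : K)‖ = 1)
    (hq : 2 ≤ unr_resCard K)
    (hgen : ∀ σ : L ≃ₐ[K] L, σ ζ = ζ → σ = 1) : Module.finrank K L = n := by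
  classical
  set q := unr_resCard K with hq_def
  set m := q ^ n - 1 with hm_def
  have hqn : 1 ≤ q ^ n := Nat.one_le_pow _ _ (by omega)
  have hm0 : m ≠ 0 := by
    intro h0
    rw [h0] at hm
    simp at hm
  have hu : unr_IsUnram K L := unr_cyc_isUnram (K := K) m hm ζ hζ.pow_eq_one hgen
  obtain ⟨φ, hφgen, hφ⟩ := unr_lf_exists_frob hu
  have hpow := unr_cyc_frob_pow_apply (K := K) m hm ζ hζ.pow_eq_one q φ hφ
  have hcard : Nat.card (L ≃ₐ[K] L) = Module.finrank K L := IsGalois.card_aut_eq_finrank K L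
  have hord : orderOf φ = Nat.card (L ≃ₐ[K] L) := orderOf_eq_card_of_forall_mem_zpowers hφgen
  -- `φ ^ n = 1`
  have h1 : φ ^ n = 1 := by
    apply hgen
    rw [hpow n]
    have : q ^ n = m + 1 := by omega
    rw [this, pow_succ, hζ.pow_eq_one, one_mul]
  have hdvd : Module.finrank K L ∣ n := by
    rw [← hcard, ← hord]
    exact orderOf_dvd_of_pow_eq_one h1
  -- `n ≤ #G`
  have hpos : 0 < Module.finrank K L := Module.finrank_pos
  have h2 : φ ^ Module.finrank K L = 1 := by
    rw [← hcard, ← hord]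
    exact pow_orderOf_eq_one φ
  have h3 : ζ ^ (q ^ Module.finrank K L) = ζ := by
    rw [← hpow, h2]; rfl
  have hζ0 : ζ ≠ 0 := by
    intro h0
    have := hζ.pow_eq_one
    rw [h0, zero_pow hm0] at this
    exact zero_ne_one this
  have hqd : 1 ≤ q ^ Module.finrank K L := Nat.one_le_pow _ _ (by omega)
  have h4 : ζ ^ (q ^ Module.finrank K L - 1) = 1 := by
    have e : q ^ Module.finrank K L = (q ^ Module.finrank K L - 1) + 1 := by omega
    rw [e, pow_succ] at h3
    exact mul_right_cancel₀ hζ0 (by rw [h3, one_mul])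
  have h5 : m ∣ q ^ Module.finrank K L - 1 := (hζ.pow_eq_one_iff_dvd _).1 h4
  have h6 : q ^ n ≤ q ^ Module.finrank K L := by
    have hlt : 1 < q ^ Module.finrank K L := Nat.one_lt_pow (by omega) (by omega)
    have := Nat.le_of_dvd (by omega) h5
    omega
  have h7 : n ≤ Module.finrank K L := (Nat.pow_le_pow_iff_right (by omega)).1 h6
  exact le_antisymm (Nat.le_of_dvd hn hdvd) h7

end Cyc

section Exists

variable (K : Type u) [NormedField K] [lf_IsLocal K]

theorem unr_lf_finite_residue' :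
    Finite (IsLocalRing.ResidueField (NormedField.valuation (K := K)).valuationSubring) := by
  obtain ⟨S, hS⟩ := lf_IsLocal.finite_residue (K := K)
  exact unr_normed_finite_residue S hS

theorem unr_resCard_ge_two : 2 ≤ unr_resCard K := by
  have := unr_lf_finite_residue' K
  have h := Finite.one_lt_card
    (α := IsLocalRing.ResidueField (NormedField.valuation (K := K)).valuationSubring)
  exact h

theorem unr_norm_resCard_lt_one : ‖(unr_resCard K : K)‖ < 1 := by
  have := unr_lf_finite_residue' K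
  exact (unr_normed_val_lt_one_iff _).1 (unr_val_natCard_lt_one (NormedField.valuation (K := K)))

theorem unr_norm_resCard_pow_sub_one (n : ℕ) (hn : 0 < n) :
    ‖((unr_resCard K ^ n - 1 : ℕ) : K)‖ = 1 := by
  have hq := unr_resCard_ge_two K
  have hqn : 1 ≤ unr_resCard K ^ n := Nat.one_le_pow _ _ (by omega)
  have h1 : ‖((unr_resCard K : K)) ^ n‖ < 1 := by
    rw [norm_pow]
    exact pow_lt_one₀ (norm_nonneg _) (unr_norm_resCard_lt_one K) (by omega)
  rw [Nat.cast_sub hqn, Nat.cast_pow, Nat.cast_one, ← norm_neg, neg_sub]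
  have h2 : ‖(1 : K) - (unr_resCard K : K) ^ n‖ ≤ 1 := by
    rw [sub_eq_add_neg]
    refine le_trans (IsUltrametricDist.norm_add_le_max _ _) (max_le (by rw [norm_one]) ?_)
    rw [norm_neg]; exact h1.le
  refine le_antisymm h2 ?_
  by_contra hlt
  push Not at hlt
  have h3 : (1 : K) = (1 - (unr_resCard K : K) ^ n) + (unr_resCard K : K) ^ n := by ring
  have h4 : ‖(1 : K)‖ < 1 := by
    rw [h3]
    exact lt_of_le_of_lt (IsUltrametricDist.norm_add_le_max _ _) (max_lt hlt h1)
  rw [norm_one] at h4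
  exact lt_irrefl _ h4

/-- **(d) Existence of the unramified extension of degree `n`.** -/
theorem unr_exists (n : ℕ) (hn : 0 < n) :
    ∃ (L : Type u) (_ : NormedField L) (_ : Algebra K L),
      lf_IsLocalExt K L ∧ IsGalois K L ∧ Module.finrank K L = n ∧ unr_IsUnram K L := by
  have hq := unr_resCard_ge_two K
  have hm := unr_norm_resCard_pow_sub_one K n hn
  have hm0 : unr_resCard K ^ n - 1 ≠ 0 := by
    intro h0
    rw [h0] at hm
    simp at hm
  have : NeZero (unr_resCard K ^ n - 1) := ⟨hm0⟩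
  have : NeZero ((unr_resCard K ^ n - 1 : ℕ) : K) := ⟨by
    intro h0
    rw [h0, norm_zero] at hm
    exact zero_ne_one hm⟩
  have hcyc : IsCyclotomicExtension {unr_resCard K ^ n - 1} K
      (CyclotomicField (unr_resCard K ^ n - 1) K) := inferInstance
  have : FiniteDimensional K (CyclotomicField (unr_resCard K ^ n - 1) K) :=
    IsCyclotomicExtension.finiteDimensional {unr_resCard K ^ n - 1} K _
  have hgal : IsGalois K (CyclotomicField (unr_resCard K ^ n - 1) K) :=
    IsCyclotomicExtension.isGalois {unr_resCard K ^ n - 1} K _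
  let nf : NormedField (CyclotomicField (unr_resCard K ^ n - 1) K) :=
    unr_spectralNormedField K _
  have ext : lf_IsLocalExt K (CyclotomicField (unr_resCard K ^ n - 1) K) :=
    unr_spectral_isLocalExt K _
  have : lf_IsLocal (CyclotomicField (unr_resCard K ^ n - 1) K) := lf_isLocal_of_ext K _
  have hζ := IsCyclotomicExtension.zeta_spec (unr_resCard K ^ n - 1) K
    (CyclotomicField (unr_resCard K ^ n - 1) K)
  have hgen : ∀ σ : CyclotomicField (unr_resCard K ^ n - 1) K ≃ₐ[K]
      CyclotomicField (unr_resCard K ^ n - 1) K,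
      σ (IsCyclotomicExtension.zeta (unr_resCard K ^ n - 1) K
        (CyclotomicField (unr_resCard K ^ n - 1) K))
        = IsCyclotomicExtension.zeta (unr_resCard K ^ n - 1) K
          (CyclotomicField (unr_resCard K ^ n - 1) K) → σ = 1 := by
    intro σ hσ
    have htop := IsCyclotomicExtension.adjoin_primitive_root_eq_top (A := K) hζ
    have : (σ : CyclotomicField (unr_resCard K ^ n - 1) K →ₐ[K]
        CyclotomicField (unr_resCard K ^ n - 1) K)
        = ((1 : CyclotomicField (unr_resCard K ^ n - 1) K ≃ₐ[K]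
          CyclotomicField (unr_resCard K ^ n - 1) K) :
            CyclotomicField (unr_resCard K ^ n - 1) K →ₐ[K]
              CyclotomicField (unr_resCard K ^ n - 1) K) := by
      refine AlgHom.ext_of_adjoin_eq_top htop ?_
      intro x hx
      rw [Set.mem_singleton_iff] at hx
      rw [hx]
      exact hσ
    exact AlgEquiv.coe_toAlgHom_injective this
  exact ⟨CyclotomicField (unr_resCard K ^ n - 1) K, nf, inferInstance, ext, hgal,
    unr_cyc_finrank n hn _ hζ hm hq hgen,
    unr_cyc_isUnram (K := K) _ hm _ hζ.pow_eq_one hgen⟩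

end Exists

end Fermat.Agent.S55
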