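import Mathlib
import Fermat.Agent.S55.Local.LCFLeaves
import Fermat.Agent.S55.UnrCyc

set_option autoImplicit false

namespace Fermat.Agent.S55

section Abs

variable {q : ℕ} [Fact q.Prime]

theorem unr_abs_isGalois : IsGalois ℚ_[q] (PadicAlgCl q) := inferInstance

theorem unr_abs_isOpen (U : Subgroup (lcf_Gal q)) (hU : lcf_IsOpen U) :
    IsOpen (U : Set (lcf_Gal q)) := by
  obtain ⟨E, hE, hEU⟩ := hU
  exact Subgroup.isOpen_mono hEU E.fixingSubgroup_isOpen

theorem unr_abs_isClosed (U : Subgroup (lcf_Gal q)) (hU : lcf_IsOpen U) :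
    IsClosed (U : Set (lcf_Gal q)) :=
  Subgroup.isClosed_of_isOpen U (unr_abs_isOpen U hU)

theorem unr_abs_fixing_fixed (U : Subgroup (lcf_Gal q)) (hU : lcf_IsOpen U) :
    (IntermediateField.fixedField U).fixingSubgroup = U :=
  InfiniteGalois.fixingSubgroup_fixedField ⟨U, unr_abs_isClosed U hU⟩

theorem unr_abs_finite (U : Subgroup (lcf_Gal q)) (hU : lcf_IsOpen U) :
    FiniteDimensional ℚ_[q] (IntermediateField.fixedField U) := by
  obtain ⟨E, hE, hEU⟩ := hU
  have h1 : IntermediateField.fixedField U ≤ E := by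
    have := IntermediateField.fixedField_antitone hEU
    rwa [InfiniteGalois.fixedField_fixingSubgroup] at this
  exact FiniteDimensional.of_injective (IntermediateField.inclusion h1).toLinearMap
    (IntermediateField.inclusion_injective h1)

theorem unr_abs_norm_map (σ : lcf_Gal q) (x : PadicAlgCl q) : ‖σ x‖ = ‖x‖ := by
  rw [← PadicAlgCl.spectralNorm_eq, ← PadicAlgCl.spectralNorm_eq]
  exact (spectralNorm_eq_of_equiv σ x).symm

end Abs

end Fermat.Agent.S55

namespace Fermat.Agent.S55

section Unif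

variable {q : ℕ} [Fact q.Prime]

theorem unr_abs_smul_units_val (U : Subgroup (lcf_Gal q)) (g : ↥U) (x : (PadicAlgCl q)ˣ) :
    ((g • x : (PadicAlgCl q)ˣ) : PadicAlgCl q) = (g : lcf_Gal q) (x : PadicAlgCl q) := rfl

/-- **[UNIF]** the fixed field of an open subgroup has a uniformizer. -/
theorem unr_abs_unif : lcf_UnifStatement := by
  intro q _ U hU
  have hfin := unr_abs_finite U hU
  have hloc : lf_IsLocal ↥(IntermediateField.fixedField U) := lf_isLocal_intermediate _
  have h0 : ((lf_unif ↥(IntermediateField.fixedField U) : ↥(IntermediateField.fixedField U)) :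
      PadicAlgCl q) ≠ 0 := by
    intro h
    exact lf_unif_ne_zero ↥(IntermediateField.fixedField U) (Subtype.ext h)
  refine ⟨Units.mk0 _ h0, ?_, ?_, ?_⟩
  · intro g
    apply Units.ext
    rw [unr_abs_smul_units_val]
    exact (lf_unif ↥(IntermediateField.fixedField U)).2 ⟨g, g.2⟩
  · exact lf_norm_unif_lt_one ↥(IntermediateField.fixedField U)
  · intro x hx
    have hxK : (x : PadicAlgCl q) ∈ IntermediateField.fixedField U := by
      intro g
      have := congrArg (fun u : (PadicAlgCl q)ˣ => (u : PadicAlgCl q)) (hx ⟨g, g.2⟩)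
      exact this
    have hx0 : (⟨(x : PadicAlgCl q), hxK⟩ : ↥(IntermediateField.fixedField U)) ≠ 0 := by
      intro h
      exact x.ne_zero (congrArg Subtype.val h)
    obtain ⟨n, hn⟩ := lf_exists_norm_eq_zpow hx0
    exact ⟨n, hn⟩

end Unif

end Fermat.Agent.S55
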