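/-
S55 (Poitou-Tate), package [H3-OF], group-theoretic half (second seat: helper7; owner of
[H3-OF]: helper13).  Prefix `h3g_`.

`h3g_sylow` : for an admissible `M` there is a finite extension `K₀/ℚ`, unramified outside `S`,
with `P := K₀.fixingSubgroup` of index prime to `p`, `cycloChar p` trivial on `P`, such that
every nonzero `P`-stable subspace `N ≤ M` carries a `P`-invariant linear form which is nonzero
on `N` (so `M` has a full `P`-stable flag with trivial graded pieces).
-/
import Mathlib
import Fermat.Agent.S55.PTBase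
import Fermat.Agent.S55.Adm

set_option autoImplicit false
set_option linter.style.haveILetI false
set_option maxHeartbeats 1000000
set_option synthInstance.maxHeartbeats 400000
open CategoryTheory Module groupCohomology ExtCitation

namespace Fermat.Agent.S55

local notation "Qbar" => AlgebraicClosure ℚ

theorem h3g_isGalois : IsGalois ℚ Qbar := by
  have halg : Algebra.IsAlgebraic ℚ (AlgebraicClosure ℚ) := AlgebraicClosure.isAlgebraic ℚ
  have hclos : IsAlgClosure ℚ (AlgebraicClosure ℚ) := AlgebraicClosure.instIsAlgClosure ℚ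
  exact inferInstance

/-- The fixing subgroup of a finite extension has finite index. -/
theorem h3g_index_ne_zero (F : IntermediateField ℚ Qbar) [FiniteDimensional ℚ F] :
    F.fixingSubgroup.index ≠ 0 := by
  haveI := h3g_isGalois
  rw [← IntermediateField.finrank_eq_fixingSubgroup_index]
  exact Module.finrank_pos.ne'

/-- Galois correspondence for subgroups containing the fixing subgroup of a finite extension. -/
theorem h3g_fix_fixed (P : Subgroup s55_GQ) (F : IntermediateField ℚ Qbar)
    [FiniteDimensional ℚ F] (h : F.fixingSubgroup ≤ P) :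
    (IntermediateField.fixedField P).fixingSubgroup = P ∧ IntermediateField.fixedField P ≤ F := by
  haveI := h3g_isGalois
  have hopen : IsOpen (P : Set s55_GQ) := Subgroup.isOpen_mono h F.fixingSubgroup_isOpen
  have hclosed : IsClosed (P : Set s55_GQ) := P.isClosed_of_isOpen hopen
  refine ⟨InfiniteGalois.fixingSubgroup_fixedField ⟨P, hclosed⟩, ?_⟩
  have h1 : IntermediateField.fixedField P ≤ IntermediateField.fixedField F.fixingSubgroup :=
    IntermediateField.fixedField_antitone h
  rwa [InfiniteGalois.fixedField_fixingSubgroup] at h1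

/-- A `p`-group acting linearly on a nonzero finite-dimensional `𝔽_p`-vector space has a nonzero
invariant linear form. -/
theorem h3g_fixed_form {p : ℕ} [Fact p.Prime] {Q : Type*} [Group Q] (hQ : IsPGroup p Q)
    {N : Type*} [AddCommGroup N] [Module (ZMod p) N] [FiniteDimensional (ZMod p) N]
    [Nontrivial N] (ρ : Representation (ZMod p) Q N) :
    ∃ l : Module.Dual (ZMod p) N, l ≠ 0 ∧ ∀ q n, l (ρ q n) = l n := by
  classical
  haveI : NeZero p := ⟨(Fact.out : p.Prime).ne_zero⟩
  letI : MulAction Q (Module.Dual (ZMod p) N) := MulAction.compHom _ ρ.dual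
  haveI : Finite (Module.Dual (ZMod p) N) := Module.finite_of_finite (ZMod p)
  have hcard : p ∣ Nat.card (Module.Dual (ZMod p) N) := by
    rw [Module.natCard_eq_pow_finrank (K := ZMod p), Nat.card_zmod, Subspace.dual_finrank_eq]
    exact dvd_pow_self p (Module.finrank_pos (R := ZMod p) (M := N)).ne'
  have h0 : (0 : Module.Dual (ZMod p) N) ∈ MulAction.fixedPoints Q (Module.Dual (ZMod p) N) := by
    intro q
    show ρ.dual q 0 = 0
    simp
  obtain ⟨l, hl, hne⟩ := hQ.exists_fixed_point_of_prime_dvd_card_of_fixed_point _ hcard h0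
  refine ⟨l, fun h => hne h.symm, fun q n => ?_⟩
  have h1 : ρ.dual q⁻¹ l = l := hl q⁻¹
  have h2 := congrArg (fun f : Module.Dual (ZMod p) N => f n) h1
  simp only [Representation.dual_apply, Module.Dual.transpose_apply, inv_inv] at h2
  exact h2

/-- An element of `p`-power order in `(ZMod p)ˣ` is trivial. -/
theorem h3g_unit_eq_one {p : ℕ} [Fact p.Prime] (u : (ZMod p)ˣ) (k : ℕ) (h : u ^ p ^ k = 1) :
    u = 1 := by
  have hp : p.Prime := Fact.out
  have h2 : u ^ (p - 1) = 1 := by
    have := pow_card_eq_one (x := u)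
    rwa [ZMod.card_units] at this
  have hcop : Nat.Coprime (p ^ k) (p - 1) := by
    apply Nat.Coprime.pow_left
    rw [Nat.Prime.coprime_iff_not_dvd hp]
    intro hd
    have h2le := hp.two_le
    have := Nat.le_of_dvd (by omega) hd
    omega
  have h3 : u ^ Nat.gcd (p ^ k) (p - 1) = 1 := pow_gcd_eq_one.mpr ⟨h, h2⟩
  rw [hcop, pow_one] at h3
  exact h3

/-- **[H3-OF], group-theoretic half.**  For an admissible `M` there is a finite extension
`K₀/ℚ`, unramified outside `S`, on whose fixing subgroup `P` the cyclotomic character is trivial,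
with `[G_ℚ : P]` prime to `p`, and such that every nonzero `P`-stable subspace `N ≤ M` carries a
linear form `l` (defined on all of `M`), nonzero on `N` and `P`-invariant on `N`. -/
theorem h3g_sylow {p : ℕ} [Fact p.Prime] (_hp2 : p ≠ 2) (S : Finset Nat.Primes)
    (hpS : pPrime p ∈ S) (M : Rep.{0, 0, 0} (ZMod p) s55_GQ) [FiniteDimensional (ZMod p) M]
    (hsm : s55_Smooth M) (hur : s55_UnramOutside S M) :
    ∃ K₀ : IntermediateField ℚ Qbar, K₀.IsUnramifiedOutside S ∧
      (∀ s ∈ K₀.fixingSubgroup, cycloChar p s = 1) ∧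
      K₀.fixingSubgroup.index ≠ 0 ∧ ¬ p ∣ K₀.fixingSubgroup.index ∧
      ∀ N : Submodule (ZMod p) M, N ≠ ⊥ →
        (∀ s ∈ K₀.fixingSubgroup, ∀ n ∈ N, M.ρ s n ∈ N) →
        ∃ l : M →ₗ[ZMod p] ZMod p, (∃ n ∈ N, l n ≠ 0) ∧
          ∀ s ∈ K₀.fixingSubgroup, ∀ n ∈ N, l (M.ρ s n) = l n := by
  classical
  have hp : p.Prime := Fact.out
  -- the uniform level
  obtain ⟨F₁, hF₁fin, hF₁⟩ := adm_uniform p M hsm
  haveI := hF₁fin
  haveI := adm_cycField_finite p
  set F : IntermediateField ℚ Qbar := F₁ ⊔ adm_cycField p with hF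
  haveI hFfin : FiniteDimensional ℚ F := IntermediateField.finiteDimensional_sup F₁ _
  -- the normal subgroup `H = ker ρ ⊓ ker χ`
  set H : Subgroup s55_GQ := (M.ρ : s55_GQ →* (M →ₗ[ZMod p] M)).ker ⊓ (cycloChar p).ker with hH
  haveI hHn : H.Normal := Subgroup.normal_inf_normal _ _
  have hFH : F.fixingSubgroup ≤ H := by
    intro s hs
    rw [hF, IntermediateField.fixingSubgroup_sup] at hs
    refine Subgroup.mem_inf.mpr ⟨MonoidHom.mem_ker.mpr ?_, MonoidHom.mem_ker.mpr ?_⟩
    · ext m
      exact hF₁ s hs.1 m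
    · exact adm_cyclo_eq_one_of_fix p s hs.2
  haveI hFfi : F.fixingSubgroup.FiniteIndex := ⟨h3g_index_ne_zero F⟩
  haveI hHfi : H.FiniteIndex := Subgroup.finiteIndex_of_le hFH
  haveI : Finite (s55_GQ ⧸ H) := Subgroup.finite_quotient_of_finiteIndex
  -- the Sylow subgroup and its preimage
  obtain ⟨Q⟩ : Nonempty (Sylow p (s55_GQ ⧸ H)) := inferInstance
  set P : Subgroup s55_GQ := (Q : Subgroup (s55_GQ ⧸ H)).comap (QuotientGroup.mk' H) with hP
  have hHP : H ≤ P := by
    intro s hs
    rw [hP, Subgroup.mem_comap]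
    have : QuotientGroup.mk' H s = 1 := (QuotientGroup.eq_one_iff s).mpr hs
    rw [this]
    exact one_mem _
  have hFP : F.fixingSubgroup ≤ P := hFH.trans hHP
  obtain ⟨hfix, hle⟩ := h3g_fix_fixed P F hFP
  have hpow : ∀ s ∈ P, ∃ k : ℕ, s ^ p ^ k ∈ H := by
    intro s hs
    obtain ⟨k, hk⟩ := Q.isPGroup' ⟨QuotientGroup.mk' H s, hs⟩
    refine ⟨k, ?_⟩
    have h1 := congrArg Subtype.val hk
    simp only [Subgroup.coe_pow, Subgroup.coe_one] at h1
    rw [← map_pow] at h1
    exact (QuotientGroup.eq_one_iff _).mp h1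
  have hindex : P.index = (Q : Subgroup (s55_GQ ⧸ H)).index :=
    Subgroup.index_comap_of_surjective _ (QuotientGroup.mk'_surjective H)
  refine ⟨IntermediateField.fixedField P, ?_, ?_, ?_, ?_, ?_⟩
  · -- unramified outside `S`
    refine ⟨FiniteDimensional.of_injective (IntermediateField.inclusion hle).toLinearMap
      (IntermediateField.inclusion_injective hle), fun q hq A hA g hg => ?_⟩
    rw [hfix]
    apply hHP
    refine Subgroup.mem_inf.mpr ⟨MonoidHom.mem_ker.mpr ?_, MonoidHom.mem_ker.mpr ?_⟩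
    · exact hur q hq A hA g hg
    · have hqp : (q : ℕ) ≠ p := by
        intro h
        apply hq
        have : q = pPrime p := Subtype.ext h
        rw [this]
        exact hpS
      exact adm_cyclo_inertia p q.2 hqp A hA g hg
  · -- the cyclotomic character is trivial on `P`
    intro s hs
    rw [hfix] at hs
    obtain ⟨k, hk⟩ := hpow s hs
    have h1 : cycloChar p (s ^ p ^ k) = 1 := MonoidHom.mem_ker.mp (Subgroup.mem_inf.mp hk).2
    rw [map_pow] at h1
    exact h3g_unit_eq_one _ k h1
  · rw [hfix, hindex]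
    exact Subgroup.FiniteIndex.index_ne_zero
  · rw [hfix, hindex]
    exact Q.not_dvd_index
  · -- the invariant linear form
    intro N hN hstab
    rw [hfix] at hstab
    -- the representation of `Q` on `N`
    have hker : H ≤ (M.ρ : s55_GQ →* (M →ₗ[ZMod p] M)).ker := inf_le_left
    set ρbar : (s55_GQ ⧸ H) →* (M →ₗ[ZMod p] M) := QuotientGroup.lift H M.ρ hker with hρbar
    have hρmk : ∀ s : s55_GQ, ρbar (QuotientGroup.mk' H s) = M.ρ s := fun s => rfl
    have hstabQ : ∀ q : (Q : Subgroup (s55_GQ ⧸ H)), ∀ n ∈ N, ρbar (q : s55_GQ ⧸ H) n ∈ N := by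
      rintro ⟨q, hq⟩ n hn
      obtain ⟨s, rfl⟩ := QuotientGroup.mk'_surjective H q
      rw [hρmk]
      exact hstab s hq n hn
    let ρN : Representation (ZMod p) (Q : Subgroup (s55_GQ ⧸ H)) N :=
      { toFun := fun q => (ρbar (q : s55_GQ ⧸ H)).restrict (hstabQ q)
        map_one' := by
          ext n
          simp
        map_mul' := fun q q' => by
          ext n
          simp }
    haveI : Nontrivial N := (Submodule.nontrivial_iff_ne_bot).mpr hN
    obtain ⟨l₀, hl₀, hinv⟩ := h3g_fixed_form Q.isPGroup' ρN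
    obtain ⟨l, hl⟩ := LinearMap.exists_extend l₀
    have hlN : ∀ (n : M) (hn : n ∈ N), l n = l₀ ⟨n, hn⟩ := fun n hn => by
      have := congrArg (fun f : N →ₗ[ZMod p] ZMod p => f ⟨n, hn⟩) hl
      simpa using this
    refine ⟨l, ?_, fun s hs n hn => ?_⟩
    rotate_left
    · rw [hfix] at hs
      rw [hlN _ (hstab s hs n hn), hlN n hn]
      have := hinv ⟨QuotientGroup.mk' H s, hs⟩ ⟨n, hn⟩
      rw [← this]
      rfl
    · by_contra hcon
      apply hl₀
      ext ⟨n, hn⟩
      rw [← hlN n hn]
      by_contra h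
      exact hcon ⟨n, hn, h⟩

end Fermat.Agent.S55
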