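/-
S55 (Poitou-Tate), package [COVER-OF], part 5 (helper16).  Prefix `cov_`.  Mathlib only.

Abstract "block" linear algebra: a pairing `Θ : V_I → Dual W_I` on finite direct sums
`V_I = ⊕_j V_A`, `W_I = ⊕_j W_A` which is block diagonal and whose diagonal blocks are bijective
(resp. have a prescribed kernel and are surjective) is bijective (resp. has the corresponding
kernel and is surjective).
-/
import Mathlib

set_option autoImplicit false

namespace Fermat.Agent.S55

open Module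

section Block

variable {k : Type*} [CommSemiring k] {J : Type*} [Fintype J]
  {VI VA WI WA : Type*} [AddCommMonoid VI] [Module k VI] [AddCommMonoid VA] [Module k VA]
  [AddCommMonoid WI] [Module k WI] [AddCommMonoid WA] [Module k WA]

/-- the diagonal block of a pairing. -/
def cov_blk (ι : VA →ₗ[k] VI) (P : WA →ₗ[k] WI) (Θ : VI →ₗ[k] Module.Dual k WI) :
    VA →ₗ[k] Module.Dual k WA :=
  (Module.Dual.transpose (R := k) P) ∘ₗ Θ ∘ₗ ι

omit [Fintype J] in
lemma cov_blk_apply (ι : VA →ₗ[k] VI) (P : WA →ₗ[k] WI) (Θ : VI →ₗ[k] Module.Dual k WI)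
    (w : VA) (y : WA) : cov_blk ι P Θ w y = Θ (ι w) (P y) := rfl

/-- the value of a block-diagonal pairing on the `j`-th block of the second variable. -/
lemma cov_block_col (ι : J → VA →ₗ[k] VI) (π : J → VI →ₗ[k] VA) (P : J → WA →ₗ[k] WI)
    (hV : ∀ w, ∑ j, ι j (π j w) = w) (Θ : VI →ₗ[k] Module.Dual k WI)
    (hmix : ∀ i j, i ≠ j → ∀ w y, Θ (ι j w) (P i y) = 0) (w : VI) (j : J) (y : WA) :
    Θ w (P j y) = Θ (ι j (π j w)) (P j y) := by
  conv_lhs => rw [← hV w]
  rw [map_sum, LinearMap.sum_apply]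
  refine Finset.sum_eq_single j (fun i _ hij => ?_) (fun h => absurd (Finset.mem_univ j) h)
  exact hmix j i (Ne.symm hij) _ _

/-- the value of a block-diagonal pairing as a sum over the blocks. -/
lemma cov_block_sum (ι : J → VA →ₗ[k] VI) (π : J → VI →ₗ[k] VA) (P : J → WA →ₗ[k] WI)
    (Q : J → WI →ₗ[k] WA)
    (hV : ∀ w, ∑ j, ι j (π j w) = w) (hW : ∀ y, ∑ j, P j (Q j y) = y)
    (Θ : VI →ₗ[k] Module.Dual k WI)
    (hmix : ∀ i j, i ≠ j → ∀ w y, Θ (ι j w) (P i y) = 0) (w : VI) (y : WI) :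
    Θ w y = ∑ j, cov_blk (ι j) (P j) Θ (π j w) (Q j y) := by
  conv_lhs => rw [← hW y]
  rw [map_sum]
  refine Finset.sum_congr rfl (fun j _ => ?_)
  rw [cov_blk_apply]
  exact cov_block_col ι π P hV Θ hmix w j (Q j y)

/-- **block lemma, surjectivity**. -/
theorem cov_block_surj (ι : J → VA →ₗ[k] VI) (P : J → WA →ₗ[k] WI)
    (Q : J → WI →ₗ[k] WA) (hW : ∀ y, ∑ j, P j (Q j y) = y)
    (Θ : VI →ₗ[k] Module.Dual k WI)
    (hmix : ∀ i j, i ≠ j → ∀ w y, Θ (ι j w) (P i y) = 0)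
    (hsurj : ∀ j, Function.Surjective (cov_blk (ι j) (P j) Θ)) : Function.Surjective Θ := by
  intro φ
  have hex : ∀ j, ∃ w : VA, cov_blk (ι j) (P j) Θ w = φ ∘ₗ P j := fun j => hsurj j _
  choose w hw using hex
  refine ⟨∑ j, ι j (w j), ?_⟩
  refine LinearMap.ext (fun y => ?_)
  rw [map_sum, LinearMap.sum_apply]
  have h1 : ∀ j, Θ (ι j (w j)) y = φ (P j (Q j y)) := by
    intro j
    conv_lhs => rw [← hW y]
    rw [map_sum]
    rw [Finset.sum_eq_single j (fun i _ hij => hmix i j hij _ _)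
      (fun h => absurd (Finset.mem_univ j) h)]
    have := congrArg (fun f => f (Q j y)) (hw j)
    exact this
  rw [Finset.sum_congr rfl (fun j _ => h1 j), ← map_sum, hW]

variable {HI HA : Type*} [AddCommMonoid HI] [Module k HI] [AddCommMonoid HA] [Module k HA]

/-- **block lemma, kernel and surjectivity**. -/
theorem cov_block_ker (locI : HI →ₗ[k] VI) (locA : HA →ₗ[k] VA)
    (ι : J → VA →ₗ[k] VI) (π : J → VI →ₗ[k] VA)
    (ιH : J → HA →ₗ[k] HI) (πH : J → HI →ₗ[k] HA)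
    (P : J → WA →ₗ[k] WI) (Q : J → WI →ₗ[k] WA)
    (hC : ∀ c, ∑ j, ι j (π j c) = c) (hN : ∀ n, ∑ j, P j (Q j n) = n)
    (hιloc : ∀ j h, locI (ιH j h) = ι j (locA h))
    (hπloc : ∀ j h, locA (πH j h) = π j (locI h))
    (Θ : VI →ₗ[k] Module.Dual k WI)
    (hmix : ∀ i j, i ≠ j → ∀ c n, Θ (ι j c) (P i n) = 0)
    (hA : ∀ j, LinearMap.ker (cov_blk (ι j) (P j) Θ) = LinearMap.range locA ∧
      Function.Surjective (cov_blk (ι j) (P j) Θ)) :
    LinearMap.ker Θ = LinearMap.range locI ∧ Function.Surjective Θ := by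
  refine ⟨le_antisymm ?_ ?_, cov_block_surj ι P Q hN Θ hmix (fun j => (hA j).2)⟩
  · intro c hc
    rw [LinearMap.mem_ker] at hc
    have h0 : ∀ j, π j c ∈ LinearMap.range locA := by
      intro j
      rw [← (hA j).1, LinearMap.mem_ker]
      refine LinearMap.ext (fun n => ?_)
      rw [cov_blk_apply, ← cov_block_col ι π P hC Θ hmix c j n, hc]
      rfl
    choose h hh using h0
    refine ⟨∑ j, ιH j (h j), ?_⟩
    rw [map_sum]
    conv_rhs => rw [← hC c]
    refine Finset.sum_congr rfl (fun j _ => ?_)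
    rw [hιloc, hh]
  · rintro c ⟨h, rfl⟩
    rw [LinearMap.mem_ker]
    refine LinearMap.ext (fun n => ?_)
    rw [cov_block_sum ι π P Q hC hN Θ hmix (locI h) n]
    refine Finset.sum_eq_zero (fun j _ => ?_)
    have h1 : π j (locI h) ∈ LinearMap.ker (cov_blk (ι j) (P j) Θ) := by
      rw [(hA j).1, ← hπloc]
      exact LinearMap.mem_range_self _ _
    rw [LinearMap.mem_ker] at h1
    rw [h1]
    rfl

end Block

section BlockBij

variable {k : Type*} [CommRing k] {J : Type*} [Fintype J]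
  {VI VA WI WA : Type*} [AddCommGroup VI] [Module k VI] [AddCommGroup VA] [Module k VA]
  [AddCommGroup WI] [Module k WI] [AddCommGroup WA] [Module k WA]

/-- **block lemma, bijectivity**. -/
theorem cov_block_bij (ι : J → VA →ₗ[k] VI) (π : J → VI →ₗ[k] VA) (P : J → WA →ₗ[k] WI)
    (Q : J → WI →ₗ[k] WA)
    (hV : ∀ w, ∑ j, ι j (π j w) = w) (hW : ∀ y, ∑ j, P j (Q j y) = y)
    (Θ : VI →ₗ[k] Module.Dual k WI)
    (hmix : ∀ i j, i ≠ j → ∀ w y, Θ (ι j w) (P i y) = 0)
    (hbij : ∀ j, Function.Bijective (cov_blk (ι j) (P j) Θ)) : Function.Bijective Θ := by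
  refine ⟨?_, cov_block_surj ι P Q hW Θ hmix (fun j => (hbij j).2)⟩
  rw [injective_iff_map_eq_zero]
  intro w hw
  have h0 : ∀ j, π j w = 0 := by
    intro j
    apply (hbij j).1
    rw [map_zero]
    refine LinearMap.ext (fun y => ?_)
    rw [cov_blk_apply, ← cov_block_col ι π P hV Θ hmix w j y, hw]
    rfl
  rw [← hV w]
  refine Finset.sum_eq_zero (fun j _ => ?_)
  rw [h0 j, map_zero]

end BlockBij

end Fermat.Agent.S55
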