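/-
S55 (Poitou-Tate), package [COVER-OF], part 3 (helper16).  Prefix `cov_`.

Functoriality in the coefficient module, for a morphism `g : A ⟶ B` of representations of `G_ℚ`:
  `cov_coneMap S g : H²_c(G_S, A) → H²_c(G_S, B)`,   `cov_h1Map S g : H¹_S(A) → H¹_S(B)`,
  `cov_h2vMap S g : ∏_v H²(ℚ_v, A) → ∏_v H²(ℚ_v, B)`,   `cov_h2SMap S g : H²_S(A) → H²_S(B)`,
  `cov_invMap g : A^G → B^G`,   the Tate dual `cov_dual g : B^*(1) ⟶ A^*(1)`,
and the naturality of the localisation map `cov_loc_nat`.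
All maps are given by composing cochains with `g` (formulas `*_mk`, `*_cls`).
-/
import Mathlib
import Fermat.Agent.S55.PTBase

set_option autoImplicit false
set_option linter.style.haveILetI false
set_option maxHeartbeats 1000000
set_option synthInstance.maxHeartbeats 400000
open CategoryTheory Module groupCohomology ExtCitation

namespace Fermat.Agent.S55

variable {p : ℕ} [Fact p.Prime] (S : Finset Nat.Primes)
  {A B : Rep.{0, 0, 0} (ZMod p) s55_GQ} (g : A ⟶ B)

/-- the linear map underlying a morphism of representations. -/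
noncomputable abbrev cov_lin : A →ₗ[ZMod p] B := g.hom.toLinearMap

lemma cov_lin_comm (s : s55_GQ) (a : A) : cov_lin g (A.ρ s a) = B.ρ s (cov_lin g a) :=
  Rep.hom_comm_apply g s a

/-- push-forward of global 2-cochains. -/
noncomputable abbrev cov_push₂ : (s55_GQ × s55_GQ → A) →ₗ[ZMod p] (s55_GQ × s55_GQ → B) :=
  (cov_lin g).compLeft (s55_GQ × s55_GQ)

/-- push-forward of global 1-cochains. -/
noncomputable abbrev cov_push₁ : (s55_GQ → A) →ₗ[ZMod p] (s55_GQ → B) :=
  (cov_lin g).compLeft s55_GQ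

/-- push-forward of local 1-cochains. -/
noncomputable abbrev cov_pushv₁ (v : extArithIndex S) :
    (extArithLocalGroups S v → Rep.res (extArithLoc S v) A) →ₗ[ZMod p]
      (extArithLocalGroups S v → Rep.res (extArithLoc S v) B) :=
  (cov_lin g).compLeft (extArithLocalGroups S v)

/-- push-forward of local 2-cochains. -/
noncomputable abbrev cov_pushv₂ (v : extArithIndex S) :
    (extArithLocalGroups S v × extArithLocalGroups S v → Rep.res (extArithLoc S v) A) →ₗ[ZMod p]
      (extArithLocalGroups S v × extArithLocalGroups S v → Rep.res (extArithLoc S v) B) :=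
  (cov_lin g).compLeft (extArithLocalGroups S v × extArithLocalGroups S v)

lemma cov_push₂_d (a : s55_GQ → A) :
    (d₁₂ B).hom (cov_push₁ g a) = cov_push₂ g ((d₁₂ A).hom a) := by
  funext ⟨s, t⟩
  simp only [d₁₂_hom_apply, LinearMap.compLeft_apply, Function.comp_apply, map_add, map_sub,
    cov_lin_comm]

lemma cov_pushv₂_d (v : extArithIndex S)
    (a : extArithLocalGroups S v → Rep.res (extArithLoc S v) A) :
    (d₁₂ (Rep.res (extArithLoc S v) B)).hom (cov_pushv₁ S g v a) =
      cov_pushv₂ S g v ((d₁₂ (Rep.res (extArithLoc S v) A)).hom a) := by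
  funext ⟨s, t⟩
  simp only [d₁₂_hom_apply, LinearMap.compLeft_apply, Function.comp_apply, map_add, map_sub]
  congr 2
  exact (cov_lin_comm g (extArithLoc S v s) (a t)).symm

lemma cov_pushv₁_d (v : extArithIndex S) (m : A) :
    (d₀₁ (Rep.res (extArithLoc S v) B)).hom (cov_lin g m) =
      cov_pushv₁ S g v ((d₀₁ (Rep.res (extArithLoc S v) A)).hom m) := by
  funext s
  simp only [d₀₁_hom_apply, LinearMap.compLeft_apply, Function.comp_apply, map_sub]
  congr 1
  exact (cov_lin_comm g (extArithLoc S v s) m).symm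

lemma cov_push₂_cocycle {c : s55_GQ × s55_GQ → A} (hc : c ∈ cocycles₂ A) :
    cov_push₂ g c ∈ cocycles₂ B := by
  rw [mem_cocycles₂_iff] at hc ⊢
  intro s t u
  simp only [LinearMap.compLeft_apply, Function.comp_apply]
  rw [← cov_lin_comm, ← map_add, ← map_add, hc]

lemma cov_pushv₂_cocycle (v : extArithIndex S)
    {c : extArithLocalGroups S v × extArithLocalGroups S v → Rep.res (extArithLoc S v) A}
    (hc : c ∈ cocycles₂ (Rep.res (extArithLoc S v) A)) :
    cov_pushv₂ S g v c ∈ cocycles₂ (Rep.res (extArithLoc S v) B) := by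
  rw [mem_cocycles₂_iff] at hc ⊢
  intro s t u
  simp only [LinearMap.compLeft_apply, Function.comp_apply]
  have h1 := congrArg (cov_lin g) (hc s t u)
  rw [map_add, map_add] at h1
  rw [h1]
  congr 1
  exact cov_lin_comm g (extArithLoc S v s) (c (t, u))

lemma cov_loc₂_push (v : extArithIndex S) (c : s55_GQ × s55_GQ → A) :
    cone_loc₂ S B v (cov_push₂ g c) = cov_pushv₂ S g v (cone_loc₂ S A v c) := rfl

lemma cov_loc₁_push (v : extArithIndex S) (c : s55_GQ → A) :
    cone_loc₁ S B v (cov_push₁ g c) = cov_pushv₁ S g v (cone_loc₁ S A v c) := rfl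

/-- the map on the ambient module of the cone. -/
noncomputable def cov_ambMap : cone_Amb S A →ₗ[ZMod p] cone_Amb S B :=
  LinearMap.prodMap (cov_push₂ g)
    (LinearMap.pi fun v => (cov_pushv₁ S g v) ∘ₗ LinearMap.proj v)

lemma cov_ambMap_fst (x : cone_Amb S A) : (cov_ambMap S g x).1 = cov_push₂ g x.1 := rfl

lemma cov_ambMap_snd (x : cone_Amb S A) (v : extArithIndex S) :
    (cov_ambMap S g x).2 v = cov_pushv₁ S g v (x.2 v) := rfl

lemma cov_ambMap_mem_Z {x : cone_Amb S A} (hx : x ∈ cone_Z S A) :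
    cov_ambMap S g x ∈ cone_Z S B := by
  obtain ⟨hx1, hx2⟩ := hx
  refine ⟨⟨cov_push₂_cocycle g hx1.1, IsLevelConstantS₂.comp hx1.2 (cov_lin g)⟩, fun v => ⟨?_, ?_⟩⟩
  · exact IsLevelConstant₁.comp (hx2 v).1 (cov_lin g)
  · rw [cov_ambMap_snd, cov_pushv₂_d, (hx2 v).2, cov_ambMap_fst, cov_loc₂_push]

lemma cov_ambMap_mem_B {x : cone_Amb S A} (hx : x ∈ cone_B S A) :
    cov_ambMap S g x ∈ cone_B S B := by
  obtain ⟨⟨a, m⟩, rfl⟩ := hx
  refine ⟨(⟨cov_push₁ g a.1, IsLevelConstantS₁.comp a.2 (cov_lin g)⟩,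
    fun v => cov_lin g (m v)), ?_⟩
  refine Prod.ext ?_ (funext fun v => ?_)
  · rw [cone_d_fst, cov_ambMap_fst, cone_d_fst, cov_push₂_d]
  · rw [cone_d_snd, cov_ambMap_snd, cone_d_snd, map_sub, cov_pushv₁_d, cov_loc₁_push]

/-- the map on cone cocycles. -/
noncomputable def cov_coneZMap : ↥(cone_Z S A) →ₗ[ZMod p] ↥(cone_Z S B) :=
  (cov_ambMap S g).restrict (fun _ hx => cov_ambMap_mem_Z S g hx)

lemma cov_coneZMap_coe (x : ↥(cone_Z S A)) :
    ((cov_coneZMap S g x : ↥(cone_Z S B)) : cone_Amb S B) = cov_ambMap S g x.1 := rfl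

/-- **functoriality of `H²_c`**. -/
noncomputable def cov_coneMap : cone_H S A →ₗ[ZMod p] cone_H S B :=
  Submodule.mapQ _ _ (cov_coneZMap S g) (by
    intro x hx
    rw [Submodule.mem_comap, Submodule.subtype_apply] at hx
    rw [Submodule.mem_comap, Submodule.mem_comap, Submodule.subtype_apply]
    exact cov_ambMap_mem_B S g hx)

lemma cov_coneMap_mk (x : ↥(cone_Z S A)) :
    cov_coneMap S g (Submodule.Quotient.mk x) = Submodule.Quotient.mk (cov_coneZMap S g x) := rfl

/-! ### `H¹_S` -/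

/-- push-forward of 1-cocycles. -/
noncomputable abbrev cov_Z1Map : cocycles₁ A →ₗ[ZMod p] cocycles₁ B :=
  (mapCocycles₁ (MonoidHom.id s55_GQ) g).hom

lemma cov_Z1Map_apply (y : cocycles₁ A) (s : s55_GQ) :
    (cov_Z1Map g y : s55_GQ → B) s = cov_lin g ((y : s55_GQ → A) s) := rfl

lemma cov_Z1Map_level {y : cocycles₁ A} (hy : IsLevelConstantS₁ S y) :
    IsLevelConstantS₁ S (cov_Z1Map g y) :=
  IsLevelConstantS₁.comp hy (cov_lin g)

lemma cov_H1_mem {x : H1 A} (hx : x ∈ continuousH1S S A) :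
    (map (MonoidHom.id s55_GQ) g 1).hom x ∈ continuousH1S S B := by
  obtain ⟨y, hy, rfl⟩ := (mem_continuousH1S_iff S A x).1 hx
  refine (mem_continuousH1S_iff S B _).2 ⟨cov_Z1Map g y, cov_Z1Map_level S g hy, ?_⟩
  exact (congrArg (fun f => f.hom y) (H1π_comp_map (MonoidHom.id s55_GQ) g)).symm

/-- **functoriality of `H¹_S`**. -/
noncomputable def cov_h1Map : ↥(continuousH1S S A) →ₗ[ZMod p] ↥(continuousH1S S B) :=
  ((map (MonoidHom.id s55_GQ) g 1).hom).restrict (fun _ hx => cov_H1_mem S g hx)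

lemma cov_h1Map_cls (y : cocycles₁ A) (hy : IsLevelConstantS₁ S y) :
    cov_h1Map S g (pt_cls1 S A y hy) = pt_cls1 S B (cov_Z1Map g y) (cov_Z1Map_level S g hy) := by
  apply Subtype.ext
  exact congrArg (fun f => f.hom y) (H1π_comp_map (MonoidHom.id s55_GQ) g)

/-! ### the Tate dual of a morphism -/

/-- the transpose `B^*(1) → A^*(1)`, `φ ↦ φ ∘ g`. -/
noncomputable def cov_dual : B.dualTwist (cycloChar p) ⟶ A.dualTwist (cycloChar p) :=
  Rep.ofHom (ρ := B.ρ.dual.twist (cycloChar p)) (σ := A.ρ.dual.twist (cycloChar p))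
    ⟨Module.Dual.transpose (cov_lin g), fun s => by
      refine LinearMap.ext (fun φ => LinearMap.ext (fun a => ?_))
      change (((B.dualTwist (cycloChar p)).ρ s φ : Module.Dual (ZMod p) B)) (cov_lin g a) =
        (((A.dualTwist (cycloChar p)).ρ s
          ((show Module.Dual (ZMod p) B from φ) ∘ₗ cov_lin g) : Module.Dual (ZMod p) A)) a
      rw [Rep.dualTwist_ρ_apply, Rep.dualTwist_ρ_apply]
      simp only [LinearMap.smul_apply, LinearMap.comp_apply]
      rw [cov_lin_comm]⟩

lemma cov_dual_apply (φ : B.dualTwist (cycloChar p)) (a : A) :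
    (show Module.Dual (ZMod p) A from (cov_dual g).hom φ) a =
      (show Module.Dual (ZMod p) B from φ) (cov_lin g a) := rfl

lemma cov_ev_dual (a : A) (φ : B.dualTwist (cycloChar p)) :
    pt_ev A a ((cov_dual g).hom φ) = pt_ev B (cov_lin g a) φ := rfl

/-! ### local `H²` -/

lemma cov_pushv₂_mem_Z (v : extArithIndex S)
    {c : extArithLocalGroups S v × extArithLocalGroups S v → Rep.res (extArithLoc S v) A}
    (hc : c ∈ levelCocycles₂ (extArithLoc S v) (Rep.res (extArithLoc S v) A)) :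
    cov_pushv₂ S g v c ∈ levelCocycles₂ (extArithLoc S v) (Rep.res (extArithLoc S v) B) :=
  ⟨cov_pushv₂_cocycle S g v hc.1, IsLevelConstant₂.comp hc.2 (cov_lin g)⟩

lemma cov_pushv₂_mem_B (v : extArithIndex S)
    {c : extArithLocalGroups S v × extArithLocalGroups S v → Rep.res (extArithLoc S v) A}
    (hc : c ∈ levelCoboundaries₂ (extArithLoc S v) (Rep.res (extArithLoc S v) A)) :
    cov_pushv₂ S g v c ∈ levelCoboundaries₂ (extArithLoc S v) (Rep.res (extArithLoc S v) B) := by
  obtain ⟨x, hx, rfl⟩ := (mem_levelCoboundaries₂_iff _ _ _).1 hc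
  exact (mem_levelCoboundaries₂_iff _ _ _).2
    ⟨cov_pushv₁ S g v x, IsLevelConstant₁.comp hx (cov_lin g), cov_pushv₂_d S g v x⟩

/-- the map on continuous local 2-cocycles. -/
noncomputable def cov_Z2vMap (v : extArithIndex S) :
    ↥(levelCocycles₂ (extArithLoc S v) (Rep.res (extArithLoc S v) A)) →ₗ[ZMod p]
      ↥(levelCocycles₂ (extArithLoc S v) (Rep.res (extArithLoc S v) B)) :=
  (cov_pushv₂ S g v).restrict (fun _ hc => cov_pushv₂_mem_Z S g v hc)

/-- functoriality of the continuous local `H²`. -/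
noncomputable def cov_h2vMap₁ (v : extArithIndex S) :
    continuousH2 (extArithLoc S v) (Rep.res (extArithLoc S v) A) →ₗ[ZMod p]
      continuousH2 (extArithLoc S v) (Rep.res (extArithLoc S v) B) :=
  Submodule.mapQ _ _ (cov_Z2vMap S g v) (by
    intro x hx
    rw [Submodule.mem_comap, Submodule.subtype_apply] at hx
    rw [Submodule.mem_comap, Submodule.mem_comap, Submodule.subtype_apply]
    exact cov_pushv₂_mem_B S g v hx)

lemma cov_h2vMap₁_mk (v : extArithIndex S)
    (c : ↥(levelCocycles₂ (extArithLoc S v) (Rep.res (extArithLoc S v) A))) :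
    cov_h2vMap₁ S g v (continuousH2π _ _ c) = continuousH2π _ _ (cov_Z2vMap S g v c) := rfl

/-- **functoriality of `∏_v H²(ℚ_v, -)`**. -/
noncomputable def cov_h2vMap :
    (∀ v : extArithIndex S, continuousH2 (extArithLoc S v) (Rep.res (extArithLoc S v) A))
      →ₗ[ZMod p]
    (∀ v : extArithIndex S, continuousH2 (extArithLoc S v) (Rep.res (extArithLoc S v) B)) :=
  LinearMap.pi fun v => (cov_h2vMap₁ S g v) ∘ₗ LinearMap.proj v

lemma cov_h2vMap_apply
    (c : ∀ v : extArithIndex S, continuousH2 (extArithLoc S v) (Rep.res (extArithLoc S v) A))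
    (v : extArithIndex S) : cov_h2vMap S g c v = cov_h2vMap₁ S g v (c v) := rfl

/-! ### global `H²_S` -/

lemma cov_push₂_mem_ZS {c : s55_GQ × s55_GQ → A} (hc : c ∈ levelCocyclesS₂ S A) :
    cov_push₂ g c ∈ levelCocyclesS₂ S B :=
  ⟨cov_push₂_cocycle g hc.1, IsLevelConstantS₂.comp hc.2 (cov_lin g)⟩

lemma cov_push₂_mem_BS {c : s55_GQ × s55_GQ → A} (hc : c ∈ levelCoboundariesS₂ S A) :
    cov_push₂ g c ∈ levelCoboundariesS₂ S B := by
  obtain ⟨x, hx, rfl⟩ := (mem_levelCoboundariesS₂_iff S A c).1 hc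
  exact (mem_levelCoboundariesS₂_iff S B _).2
    ⟨cov_push₁ g x, IsLevelConstantS₁.comp hx (cov_lin g), cov_push₂_d g x⟩

/-- the map on level-`S` 2-cocycles. -/
noncomputable def cov_Z2SMap : ↥(levelCocyclesS₂ S A) →ₗ[ZMod p] ↥(levelCocyclesS₂ S B) :=
  (cov_push₂ g).restrict (fun _ hc => cov_push₂_mem_ZS S g hc)

/-- **functoriality of `H²_S`**. -/
noncomputable def cov_h2SMap : continuousH2S S A →ₗ[ZMod p] continuousH2S S B :=
  Submodule.mapQ _ _ (cov_Z2SMap S g) (by
    intro x hx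
    rw [Submodule.mem_comap, Submodule.subtype_apply] at hx
    rw [Submodule.mem_comap, Submodule.mem_comap, Submodule.subtype_apply]
    exact cov_push₂_mem_BS S g hx)

lemma cov_h2SMap_mk (c : ↥(levelCocyclesS₂ S A)) :
    cov_h2SMap S g (continuousH2Sπ S A c) = continuousH2Sπ S B (cov_Z2SMap S g c) := rfl

/-- **naturality of the localisation map**. -/
theorem cov_loc_nat (x : continuousH2S S A) :
    locTotal₂S S B (cov_h2SMap S g x) = cov_h2vMap S g (locTotal₂S S A x) := by
  obtain ⟨c, rfl⟩ := Submodule.Quotient.mk_surjective _ x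
  funext v
  rfl

/-! ### invariants -/

/-- functoriality of the invariants. -/
noncomputable def cov_invMap : ↥(A.ρ.invariants) →ₗ[ZMod p] ↥(B.ρ.invariants) :=
  (cov_lin g).restrict (fun a ha s => by
    rw [← cov_lin_comm, ha s])

lemma cov_invMap_coe (a : ↥(A.ρ.invariants)) : ((cov_invMap g a : ↥(B.ρ.invariants)) : B) =
    cov_lin g a.1 := rfl

end Fermat.Agent.S55
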