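/-
S55 (Poitou-Tate), package [COVER-OF], part 4 (helper16).  Prefix `cov_`.

Naturality of the Poitou-Tate pairings (as PREDICATES `pt_IsTheta`, `pt_IsTheta3`) in the
coefficient module.  For `g : A ⟶ B`, `r : B ⟶ A` and a map `Θ_B` satisfying `pt_IsTheta` on `B`:
  (N2) `cov_theta_pull` : if `r ∘ g = 1` then `(w, y) ↦ Θ_B (g_* w) (r'_* y)` satisfies
       `pt_IsTheta` on `A`;      `cov_theta_zero` : if `r ∘ g = 0` this map is zero.
  (N3) `cov_theta3_pull`, `cov_theta3_zero` : the same for `pt_IsTheta3`.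
-/
import Mathlib
import Fermat.Agent.S55.CoverOfFun

set_option autoImplicit false
set_option linter.style.haveILetI false
set_option maxHeartbeats 1000000
set_option synthInstance.maxHeartbeats 400000
open CategoryTheory Module groupCohomology ExtCitation

namespace Fermat.Agent.S55

variable {p : ℕ} [Fact p.Prime] (inv : pt_InvFamily) (S : Finset Nat.Primes)
  {A B : Rep.{0, 0, 0} (ZMod p) s55_GQ} (g : A ⟶ B) (r : B ⟶ A)

lemma cov_lin_id : cov_lin (𝟙 A) = LinearMap.id := rfl

lemma cov_lin_zero : cov_lin (0 : A ⟶ B) = 0 := rfl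

lemma cov_lin_comp (a : A) : cov_lin (g ≫ r) a = cov_lin r (cov_lin g a) := rfl

lemma cov_push₂_id (c : s55_GQ × s55_GQ → A) : cov_push₂ (𝟙 A) c = c := rfl

lemma cov_push₂_zero (c : s55_GQ × s55_GQ → A) : cov_push₂ (0 : A ⟶ B) c = 0 := rfl

lemma cov_pushv₁_id (v : extArithIndex S)
    (b : extArithLocalGroups S v → Rep.res (extArithLoc S v) A) :
    cov_pushv₁ S (𝟙 A) v b = b := rfl

lemma cov_pushv₁_zero (v : extArithIndex S)
    (b : extArithLocalGroups S v → Rep.res (extArithLoc S v) A) :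
    cov_pushv₁ S (0 : A ⟶ B) v b = 0 := rfl

lemma cov_pushv₂_id (v : extArithIndex S)
    (b : extArithLocalGroups S v × extArithLocalGroups S v → Rep.res (extArithLoc S v) A) :
    cov_pushv₂ S (𝟙 A) v b = b := rfl

lemma cov_pushv₂_zero (v : extArithIndex S)
    (b : extArithLocalGroups S v × extArithLocalGroups S v → Rep.res (extArithLoc S v) A) :
    cov_pushv₂ S (0 : A ⟶ B) v b = 0 := rfl

lemma cov_ev_adj (a : A) (s : s55_GQ) (φ : A.dualTwist (cycloChar p)) :
    pt_ev B (cov_lin g a) ((B.dualTwist (cycloChar p)).ρ s ((cov_dual r).hom φ)) =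
      pt_ev A (cov_lin r (cov_lin g a)) ((A.dualTwist (cycloChar p)).ρ s φ) := by
  rw [← Rep.hom_comm_apply (cov_dual r) s φ]
  rfl

lemma cov_cup₂₁_nat (c : s55_GQ × s55_GQ → A) (y : cocycles₁ (A.dualTwist (cycloChar p))) :
    cup₂₁ (pt_ev B) (cov_push₂ g c) (cov_Z1Map (cov_dual r) y) =
      cup₂₁ (pt_ev A) (cov_push₂ (g ≫ r) c) y := by
  funext ⟨s, t, u⟩
  rw [cup₂₁_apply, cup₂₁_apply]
  exact cov_ev_adj g r (c (s, t)) (s * t) ((y : s55_GQ → A.dualTwist (cycloChar p)) u)

lemma cov_cup₁₁_nat (v : extArithIndex S)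
    (b : extArithLocalGroups S v → Rep.res (extArithLoc S v) A)
    (y : cocycles₁ (A.dualTwist (cycloChar p))) :
    cup₁₁ (pt_evv S v B) (cov_pushv₁ S g v b)
        (cone_loc₁ S (B.dualTwist (cycloChar p)) v (cov_Z1Map (cov_dual r) y)) =
      cup₁₁ (pt_evv S v A) (cov_pushv₁ S (g ≫ r) v b)
        (cone_loc₁ S (A.dualTwist (cycloChar p)) v y) := by
  funext ⟨s, t⟩
  rw [cup₁₁_apply, cup₁₁_apply]
  exact cov_ev_adj g r (b s) (extArithLoc S v s)
    ((y : s55_GQ → A.dualTwist (cycloChar p)) (extArithLoc S v t))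

lemma cov_cup₂₀_nat (v : extArithIndex S)
    (c : extArithLocalGroups S v × extArithLocalGroups S v → Rep.res (extArithLoc S v) A)
    (m' : A.dualTwist (cycloChar p)) :
    cup₂₀ (pt_evv S v B) (cov_pushv₂ S g v c)
        (((cov_dual r).hom m' : B.dualTwist (cycloChar p)) :
          Rep.res (extArithLoc S v) (B.dualTwist (cycloChar p))) =
      cup₂₀ (pt_evv S v A) (cov_pushv₂ S (g ≫ r) v c)
        (m' : Rep.res (extArithLoc S v) (A.dualTwist (cycloChar p))) := by
  funext ⟨s, t⟩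
  rw [cup₂₀_apply, cup₂₀_apply]
  exact cov_ev_adj g r (c (s, t)) (extArithLoc S v (s * t)) m'

/-- **(N2)** the general naturality formula for a map `Θ` satisfying `pt_IsTheta` on `B`,
evaluated on `g_* [x]` and `r'_* [y]` (`g : A ⟶ B`, `r : B ⟶ A`, `e = r ∘ g`). -/
theorem cov_theta_nat (e : A ⟶ A) (he : g ≫ r = e)
    (Θ : cone_H S B →ₗ[ZMod p]
      Module.Dual (ZMod p) ↥(continuousH1S S (B.dualTwist (cycloChar p))))
    (hΘ : pt_IsTheta inv S B Θ)
    (x : ↥(cone_Z S A)) (y : cocycles₁ (A.dualTwist (cycloChar p)))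
    (hy : IsLevelConstantS₁ S y)
    (ε : s55_GQ × s55_GQ → pt_T p) (hε : IsLevelConstantS₂ S ε)
    (hd : (d₂₃ (pt_T p)).hom ε = cup₂₁ (pt_ev A) (cov_push₂ e x.1.1) y)
    (hcoc : ∀ v : extArithIndex S,
      cup₁₁ (pt_evv S v A) (cov_pushv₁ S e v (x.1.2 v))
          (cone_loc₁ S (A.dualTwist (cycloChar p)) v y) -
          cone_loc₂ S (pt_T p) v ε ∈
        levelCocycles₂ (extArithLoc S v) (Rep.res (extArithLoc S v) (pt_T p))) :
    Θ (cov_coneMap S g (Submodule.Quotient.mk x))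
        (cov_h1Map S (cov_dual r) (pt_cls1 S _ y hy)) =
      ∑ v : extArithIndex S, inv p S v (continuousH2π _ _ ⟨_, hcoc v⟩) := by
  subst he
  rw [cov_coneMap_mk, cov_h1Map_cls]
  have hfun : ∀ v : extArithIndex S,
      cup₁₁ (pt_evv S v B) ((cov_coneZMap S g x).1.2 v)
          (cone_loc₁ S (B.dualTwist (cycloChar p)) v (cov_Z1Map (cov_dual r) y)) -
          cone_loc₂ S (pt_T p) v ε =
      cup₁₁ (pt_evv S v A) (cov_pushv₁ S (g ≫ r) v (x.1.2 v))
          (cone_loc₁ S (A.dualTwist (cycloChar p)) v y) -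
          cone_loc₂ S (pt_T p) v ε := by
    intro v
    rw [← cov_cup₁₁_nat S g r v (x.1.2 v) y]
    rfl
  have hcoc' : ∀ v : extArithIndex S,
      cup₁₁ (pt_evv S v B) ((cov_coneZMap S g x).1.2 v)
          (cone_loc₁ S (B.dualTwist (cycloChar p)) v (cov_Z1Map (cov_dual r) y)) -
          cone_loc₂ S (pt_T p) v ε ∈
        levelCocycles₂ (extArithLoc S v) (Rep.res (extArithLoc S v) (pt_T p)) := by
    intro v
    rw [hfun v]
    exact hcoc v
  have hd' : (d₂₃ (pt_T p)).hom ε =
      cup₂₁ (pt_ev B) (cov_coneZMap S g x).1.1 (cov_Z1Map (cov_dual r) y) := by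
    rw [hd, ← cov_cup₂₁_nat g r x.1.1 y]
    rfl
  rw [hΘ (cov_coneZMap S g x) (cov_Z1Map (cov_dual r) y) (cov_Z1Map_level S (cov_dual r) hy)
    ε hε hd' hcoc']
  refine Finset.sum_congr rfl (fun v _ => ?_)
  congr 2
  exact Subtype.ext (hfun v)

/-- the transported pairing `Θ_A (w) (y) = Θ_B (g_* w) (r'_* y)`. -/
noncomputable def cov_pull
    (Θ : cone_H S B →ₗ[ZMod p]
      Module.Dual (ZMod p) ↥(continuousH1S S (B.dualTwist (cycloChar p)))) :
    cone_H S A →ₗ[ZMod p]
      Module.Dual (ZMod p) ↥(continuousH1S S (A.dualTwist (cycloChar p))) :=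
  (Module.Dual.transpose (R := ZMod p) (cov_h1Map S (cov_dual r))) ∘ₗ Θ ∘ₗ (cov_coneMap S g)

lemma cov_pull_apply
    (Θ : cone_H S B →ₗ[ZMod p]
      Module.Dual (ZMod p) ↥(continuousH1S S (B.dualTwist (cycloChar p))))
    (w : cone_H S A) (y : ↥(continuousH1S S (A.dualTwist (cycloChar p)))) :
    cov_pull S g r Θ w y = Θ (cov_coneMap S g w) (cov_h1Map S (cov_dual r) y) := rfl

/-- **(N2), retraction case**: if `r ∘ g = id` then the transported pairing satisfies
`pt_IsTheta` on `A`. -/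
theorem cov_theta_pull (he : g ≫ r = 𝟙 A)
    (Θ : cone_H S B →ₗ[ZMod p]
      Module.Dual (ZMod p) ↥(continuousH1S S (B.dualTwist (cycloChar p))))
    (hΘ : pt_IsTheta inv S B Θ) : pt_IsTheta inv S A (cov_pull S g r Θ) := by
  intro x y hy ε hε hd hcoc
  rw [cov_pull_apply]
  exact cov_theta_nat inv S g r (𝟙 A) he Θ hΘ x y hy ε hε hd hcoc

/-- **(N2), orthogonal case**: if `r ∘ g = 0` then `Θ_B (g_* w) (r'_* y) = 0`. -/
theorem cov_theta_zero (he : g ≫ r = 0)
    (Θ : cone_H S B →ₗ[ZMod p]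
      Module.Dual (ZMod p) ↥(continuousH1S S (B.dualTwist (cycloChar p))))
    (hΘ : pt_IsTheta inv S B Θ) (w : cone_H S A)
    (y : ↥(continuousH1S S (A.dualTwist (cycloChar p)))) :
    Θ (cov_coneMap S g w) (cov_h1Map S (cov_dual r) y) = 0 := by
  obtain ⟨x, rfl⟩ := Submodule.Quotient.mk_surjective _ w
  obtain ⟨y₀, hy₀, hy⟩ := (mem_continuousH1S_iff S _ y.1).1 y.2
  have hyc : y = pt_cls1 S _ y₀ hy₀ := Subtype.ext hy.symm
  rw [hyc]
  have hfun : ∀ v : extArithIndex S,
      cup₁₁ (pt_evv S v A) (cov_pushv₁ S (0 : A ⟶ A) v (x.1.2 v))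
          (cone_loc₁ S (A.dualTwist (cycloChar p)) v y₀) -
          cone_loc₂ S (pt_T p) v 0 = 0 := by
    intro v
    funext ⟨s, t⟩
    change pt_evv S v A 0 _ - 0 = 0
    rw [map_zero, LinearMap.zero_apply, sub_zero]
  have hcoc : ∀ v : extArithIndex S,
      cup₁₁ (pt_evv S v A) (cov_pushv₁ S (0 : A ⟶ A) v (x.1.2 v))
          (cone_loc₁ S (A.dualTwist (cycloChar p)) v y₀) -
          cone_loc₂ S (pt_T p) v 0 ∈
        levelCocycles₂ (extArithLoc S v) (Rep.res (extArithLoc S v) (pt_T p)) := by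
    intro v
    rw [hfun v]
    exact Submodule.zero_mem _
  rw [cov_theta_nat inv S g r 0 he Θ hΘ x y₀ hy₀ 0 (isLevelConstantS₂_const S (0 : pt_T p))
    (by
      rw [map_zero]
      funext ⟨s, t, u⟩
      change (0 : pt_T p) = pt_ev A 0 _
      rw [map_zero, LinearMap.zero_apply]) hcoc]
  refine Finset.sum_eq_zero (fun v _ => ?_)
  have h0 : (⟨_, hcoc v⟩ :
      ↥(levelCocycles₂ (extArithLoc S v) (Rep.res (extArithLoc S v) (pt_T p)))) = 0 :=
    Subtype.ext (hfun v)
  rw [h0, map_zero, map_zero]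

/-- **(N3)** the general naturality formula for a map `Θ` satisfying `pt_IsTheta3` on `B`. -/
theorem cov_theta3_nat (e : A ⟶ A) (he : g ≫ r = e)
    (Θ : (∀ v : extArithIndex S,
        continuousH2 (extArithLoc S v) (Rep.res (extArithLoc S v) B)) →ₗ[ZMod p]
      Module.Dual (ZMod p) ↥((B.dualTwist (cycloChar p)).ρ.invariants))
    (hΘ : pt_IsTheta3 inv S B Θ)
    (c : ∀ v : extArithIndex S,
      ↥(levelCocycles₂ (extArithLoc S v) (Rep.res (extArithLoc S v) A)))
    (m' : ↥((A.dualTwist (cycloChar p)).ρ.invariants))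
    (hcoc : ∀ v : extArithIndex S,
      cup₂₀ (pt_evv S v A)
          (cov_pushv₂ S e v ((c v : extArithLocalGroups S v × extArithLocalGroups S v →
            Rep.res (extArithLoc S v) A)))
          (m'.1 : Rep.res (extArithLoc S v) (A.dualTwist (cycloChar p))) ∈
        levelCocycles₂ (extArithLoc S v) (Rep.res (extArithLoc S v) (pt_T p))) :
    Θ (cov_h2vMap S g (fun v => continuousH2π _ _ (c v))) (cov_invMap (cov_dual r) m') =
      ∑ v : extArithIndex S, inv p S v (continuousH2π _ _ ⟨_, hcoc v⟩) := by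
  subst he
  have hfun : ∀ v : extArithIndex S,
      cup₂₀ (pt_evv S v B)
          ((cov_Z2vMap S g v (c v) : extArithLocalGroups S v × extArithLocalGroups S v →
            Rep.res (extArithLoc S v) B))
          ((cov_invMap (cov_dual r) m').1 :
            Rep.res (extArithLoc S v) (B.dualTwist (cycloChar p))) =
      cup₂₀ (pt_evv S v A)
          (cov_pushv₂ S (g ≫ r) v ((c v : extArithLocalGroups S v × extArithLocalGroups S v →
            Rep.res (extArithLoc S v) A)))
          (m'.1 : Rep.res (extArithLoc S v) (A.dualTwist (cycloChar p))) := by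
    intro v
    rw [← cov_cup₂₀_nat S g r v _ m'.1]
    rfl
  have hcoc' : ∀ v : extArithIndex S,
      cup₂₀ (pt_evv S v B)
          ((cov_Z2vMap S g v (c v) : extArithLocalGroups S v × extArithLocalGroups S v →
            Rep.res (extArithLoc S v) B))
          ((cov_invMap (cov_dual r) m').1 :
            Rep.res (extArithLoc S v) (B.dualTwist (cycloChar p))) ∈
        levelCocycles₂ (extArithLoc S v) (Rep.res (extArithLoc S v) (pt_T p)) := by
    intro v
    rw [hfun v]
    exact hcoc v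
  have h1 : cov_h2vMap S g (fun v => continuousH2π _ _ (c v)) =
      fun v => continuousH2π _ _ (cov_Z2vMap S g v (c v)) := rfl
  rw [h1, hΘ (fun v => cov_Z2vMap S g v (c v)) (cov_invMap (cov_dual r) m') hcoc']
  refine Finset.sum_congr rfl (fun v _ => ?_)
  congr 2
  exact Subtype.ext (hfun v)

/-- the transported pairing in degree 3. -/
noncomputable def cov_pull3
    (Θ : (∀ v : extArithIndex S,
        continuousH2 (extArithLoc S v) (Rep.res (extArithLoc S v) B)) →ₗ[ZMod p]
      Module.Dual (ZMod p) ↥((B.dualTwist (cycloChar p)).ρ.invariants)) :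
    (∀ v : extArithIndex S,
        continuousH2 (extArithLoc S v) (Rep.res (extArithLoc S v) A)) →ₗ[ZMod p]
      Module.Dual (ZMod p) ↥((A.dualTwist (cycloChar p)).ρ.invariants) :=
  (Module.Dual.transpose (R := ZMod p) (cov_invMap (cov_dual r))) ∘ₗ Θ ∘ₗ (cov_h2vMap S g)

lemma cov_pull3_apply
    (Θ : (∀ v : extArithIndex S,
        continuousH2 (extArithLoc S v) (Rep.res (extArithLoc S v) B)) →ₗ[ZMod p]
      Module.Dual (ZMod p) ↥((B.dualTwist (cycloChar p)).ρ.invariants))
    (c : ∀ v : extArithIndex S,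
        continuousH2 (extArithLoc S v) (Rep.res (extArithLoc S v) A))
    (m' : ↥((A.dualTwist (cycloChar p)).ρ.invariants)) :
    cov_pull3 S g r Θ c m' = Θ (cov_h2vMap S g c) (cov_invMap (cov_dual r) m') := rfl

/-- **(N3), retraction case**. -/
theorem cov_theta3_pull (he : g ≫ r = 𝟙 A)
    (Θ : (∀ v : extArithIndex S,
        continuousH2 (extArithLoc S v) (Rep.res (extArithLoc S v) B)) →ₗ[ZMod p]
      Module.Dual (ZMod p) ↥((B.dualTwist (cycloChar p)).ρ.invariants))
    (hΘ : pt_IsTheta3 inv S B Θ) : pt_IsTheta3 inv S A (cov_pull3 S g r Θ) := by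
  intro c m' hcoc
  rw [cov_pull3_apply]
  exact cov_theta3_nat inv S g r (𝟙 A) he Θ hΘ c m' hcoc

/-- **(N3), orthogonal case**. -/
theorem cov_theta3_zero (he : g ≫ r = 0)
    (Θ : (∀ v : extArithIndex S,
        continuousH2 (extArithLoc S v) (Rep.res (extArithLoc S v) B)) →ₗ[ZMod p]
      Module.Dual (ZMod p) ↥((B.dualTwist (cycloChar p)).ρ.invariants))
    (hΘ : pt_IsTheta3 inv S B Θ)
    (c : ∀ v : extArithIndex S,
        continuousH2 (extArithLoc S v) (Rep.res (extArithLoc S v) A))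
    (m' : ↥((A.dualTwist (cycloChar p)).ρ.invariants)) :
    Θ (cov_h2vMap S g c) (cov_invMap (cov_dual r) m') = 0 := by
  have hrep : ∀ v : extArithIndex S,
      ∃ c₀ : ↥(levelCocycles₂ (extArithLoc S v) (Rep.res (extArithLoc S v) A)),
        continuousH2π _ _ c₀ = c v := fun v => Submodule.Quotient.mk_surjective _ (c v)
  choose c₀ hc₀ using hrep
  have hc : c = fun v => continuousH2π _ _ (c₀ v) := funext (fun v => (hc₀ v).symm)
  rw [hc]
  have hfun : ∀ v : extArithIndex S,
      cup₂₀ (pt_evv S v A)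
          (cov_pushv₂ S (0 : A ⟶ A) v
            ((c₀ v : extArithLocalGroups S v × extArithLocalGroups S v →
              Rep.res (extArithLoc S v) A)))
          (m'.1 : Rep.res (extArithLoc S v) (A.dualTwist (cycloChar p))) = 0 := by
    intro v
    funext ⟨s, t⟩
    change pt_evv S v A 0 _ = 0
    rw [map_zero, LinearMap.zero_apply]
  have hcoc : ∀ v : extArithIndex S,
      cup₂₀ (pt_evv S v A)
          (cov_pushv₂ S (0 : A ⟶ A) v
            ((c₀ v : extArithLocalGroups S v × extArithLocalGroups S v →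
              Rep.res (extArithLoc S v) A)))
          (m'.1 : Rep.res (extArithLoc S v) (A.dualTwist (cycloChar p))) ∈
        levelCocycles₂ (extArithLoc S v) (Rep.res (extArithLoc S v) (pt_T p)) := by
    intro v
    rw [hfun v]
    exact Submodule.zero_mem _
  rw [cov_theta3_nat inv S g r 0 he Θ hΘ c₀ m' hcoc]
  refine Finset.sum_eq_zero (fun v _ => ?_)
  have h0 : (⟨_, hcoc v⟩ :
      ↥(levelCocycles₂ (extArithLoc S v) (Rep.res (extArithLoc S v) (pt_T p)))) = 0 :=
    Subtype.ext (hfun v)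
  rw [h0, map_zero, map_zero]

end Fermat.Agent.S55
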