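/-
S55 (Poitou-Tate), package [COVER-OF], final part (helper16).  Prefix `cov_`.

`cov_main : pt_CoverOfStatement`.

For admissible `M`: `K := cov_K p M` (splitting field of `M ⊕ μ_p`), `A := pt_A p K`,
`I := A^J` (`J = Fin (dim M)`), `f := cov_f : I ⟶ M` (`CoverOfRep.lean`).
For a map `Θ_I` satisfying `pt_IsTheta` on `I` the diagonal blocks
`(w, y) ↦ Θ_I (ι_j w) (π_j' y)` satisfy `pt_IsTheta` on `A` (naturality, `CoverOfNat.lean`), hence
are bijective by [BASE]; the off-diagonal blocks vanish; so `Θ_I` is bijective by the block lemma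
(`CoverOfBlock.lean`).  The same for `pt_IsTheta3`.
NOTE: only the hypothesis [BASE] of `pt_CoverOfStatement` is used.
-/
import Mathlib
import Fermat.Agent.S55.CoverOfRep
import Fermat.Agent.S55.CoverOfNat
import Fermat.Agent.S55.CoverOfBlock

set_option autoImplicit false
set_option linter.style.haveILetI false
set_option maxHeartbeats 1000000
set_option synthInstance.maxHeartbeats 400000
open CategoryTheory Module groupCohomology ExtCitation

namespace Fermat.Agent.S55

local notation "Qbar" => AlgebraicClosure ℚ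

variable {p : ℕ} [Fact p.Prime]

section Identities

variable (A : Rep.{0, 0, 0} (ZMod p) s55_GQ) (J : Type) [DecidableEq J]

lemma cov_iota_pi_same (j : J) : cov_iota A J j ≫ cov_pi A J j = 𝟙 A := by
  refine Rep.hom_ext (Representation.IntertwiningMap.ext (LinearMap.ext (fun a => ?_)))
  exact cov_pi_iota_same A J j a

lemma cov_iota_pi_ne {i j : J} (h : i ≠ j) : cov_iota A J j ≫ cov_pi A J i = 0 := by
  refine Rep.hom_ext (Representation.IntertwiningMap.ext (LinearMap.ext (fun a => ?_)))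
  exact cov_pi_iota_ne A J h a

lemma cov_sum_pi_iota_lin [Fintype J] (x : cov_I A J) :
    ∑ j, cov_lin (cov_pi A J j ≫ cov_iota A J j) x = cov_lin (𝟙 (cov_I A J)) x :=
  cov_sum_iota_pi A J x

lemma cov_sum_dual_lin [Fintype J] (φ : (cov_I A J).dualTwist (cycloChar p)) :
    ∑ j, cov_lin (cov_dual (cov_iota A J j) ≫ cov_dual (cov_pi A J j)) φ =
      cov_lin (𝟙 ((cov_I A J).dualTwist (cycloChar p))) φ := by
  change ∑ j, (show Module.Dual (ZMod p) (cov_I A J) from φ) ∘ₗ
      (cov_lin (cov_pi A J j ≫ cov_iota A J j)) = (show Module.Dual (ZMod p) (cov_I A J) from φ)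
  refine LinearMap.ext (fun x => ?_)
  rw [LinearMap.sum_apply]
  simp only [LinearMap.comp_apply]
  rw [← map_sum, cov_sum_pi_iota_lin]
  rfl

end Identities

section Sums

variable (S : Finset Nat.Primes) {A B : Rep.{0, 0, 0} (ZMod p) s55_GQ}
  {J : Type} [Fintype J]

/-- additivity of `cov_coneMap` in the morphism (pointwise form). -/
lemma cov_coneMap_sum (g : J → (A ⟶ B)) (h : A ⟶ B)
    (hsum : ∀ a : A, ∑ j, cov_lin (g j) a = cov_lin h a) (w : cone_H S A) :
    ∑ j, cov_coneMap S (g j) w = cov_coneMap S h w := by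
  obtain ⟨x, rfl⟩ := Submodule.Quotient.mk_surjective _ w
  have key : ∑ j, cov_coneZMap S (g j) x = cov_coneZMap S h x := by
    apply Subtype.ext
    rw [Submodule.coe_sum]
    simp only [cov_coneZMap_coe]
    refine Prod.ext ?_ ?_
    · rw [Prod.fst_sum]
      funext y
      rw [Finset.sum_apply]
      exact hsum (x.1.1 y)
    · rw [Prod.snd_sum]
      funext v y
      rw [Finset.sum_apply, Finset.sum_apply]
      exact hsum (x.1.2 v y)
  calc ∑ j, cov_coneMap S (g j) (Submodule.Quotient.mk x)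
      = ∑ j, Submodule.mkQ ((cone_B S B).comap (cone_Z S B).subtype)
          (cov_coneZMap S (g j) x) := rfl
    _ = Submodule.mkQ ((cone_B S B).comap (cone_Z S B).subtype)
          (∑ j, cov_coneZMap S (g j) x) := (map_sum _ _ _).symm
    _ = cov_coneMap S h (Submodule.Quotient.mk x) := by rw [key]; rfl

lemma cov_coneMap_comp {C : Rep.{0, 0, 0} (ZMod p) s55_GQ} (g : A ⟶ B) (r : B ⟶ C)
    (w : cone_H S A) : cov_coneMap S (g ≫ r) w = cov_coneMap S r (cov_coneMap S g w) := by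
  obtain ⟨x, rfl⟩ := Submodule.Quotient.mk_surjective _ w
  rfl

lemma cov_coneMap_id (w : cone_H S A) : cov_coneMap S (𝟙 A) w = w := by
  obtain ⟨x, rfl⟩ := Submodule.Quotient.mk_surjective _ w
  rfl

/-- additivity of `cov_h1Map` in the morphism (pointwise form). -/
lemma cov_h1Map_sum (g : J → (A ⟶ B)) (h : A ⟶ B)
    (hsum : ∀ a : A, ∑ j, cov_lin (g j) a = cov_lin h a) (y : ↥(continuousH1S S A)) :
    ∑ j, cov_h1Map S (g j) y = cov_h1Map S h y := by
  obtain ⟨y₀, hy₀, hy⟩ := (mem_continuousH1S_iff S _ y.1).1 y.2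
  have hyc : y = pt_cls1 S _ y₀ hy₀ := Subtype.ext hy.symm
  rw [hyc]
  simp only [cov_h1Map_cls]
  apply Subtype.ext
  rw [Submodule.coe_sum]
  change ∑ j, (H1π B).hom (cov_Z1Map (g j) y₀) = (H1π B).hom (cov_Z1Map h y₀)
  rw [← map_sum]
  congr 1
  apply Subtype.ext
  rw [Submodule.coe_sum]
  funext s
  rw [Finset.sum_apply]
  exact hsum _

lemma cov_h1Map_comp {C : Rep.{0, 0, 0} (ZMod p) s55_GQ} (g : A ⟶ B) (r : B ⟶ C)
    (y : ↥(continuousH1S S A)) : cov_h1Map S (g ≫ r) y = cov_h1Map S r (cov_h1Map S g y) := by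
  obtain ⟨y₀, hy₀, hy⟩ := (mem_continuousH1S_iff S _ y.1).1 y.2
  have hyc : y = pt_cls1 S _ y₀ hy₀ := Subtype.ext hy.symm
  rw [hyc, cov_h1Map_cls, cov_h1Map_cls, cov_h1Map_cls]
  rfl

lemma cov_h1Map_id (y : ↥(continuousH1S S A)) : cov_h1Map S (𝟙 A) y = y := by
  obtain ⟨y₀, hy₀, hy⟩ := (mem_continuousH1S_iff S _ y.1).1 y.2
  have hyc : y = pt_cls1 S _ y₀ hy₀ := Subtype.ext hy.symm
  rw [hyc, cov_h1Map_cls]
  rfl

/-- additivity of `cov_h2vMap` in the morphism (pointwise form). -/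
lemma cov_h2vMap_sum (g : J → (A ⟶ B)) (h : A ⟶ B)
    (hsum : ∀ a : A, ∑ j, cov_lin (g j) a = cov_lin h a)
    (c : ∀ v : extArithIndex S, continuousH2 (extArithLoc S v) (Rep.res (extArithLoc S v) A)) :
    ∑ j, cov_h2vMap S (g j) c = cov_h2vMap S h c := by
  funext v
  rw [Finset.sum_apply]
  simp only [cov_h2vMap_apply]
  obtain ⟨x, hx⟩ := Submodule.Quotient.mk_surjective _ (c v)
  rw [← hx]
  have key : ∑ j, cov_Z2vMap S (g j) v x = cov_Z2vMap S h v x := by
    apply Subtype.ext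
    rw [Submodule.coe_sum]
    funext y
    rw [Finset.sum_apply]
    exact hsum _
  calc ∑ j, cov_h2vMap₁ S (g j) v (Submodule.Quotient.mk x)
      = ∑ j, continuousH2π _ _ (cov_Z2vMap S (g j) v x) := rfl
    _ = continuousH2π _ _ (∑ j, cov_Z2vMap S (g j) v x) := (map_sum _ _ _).symm
    _ = cov_h2vMap₁ S h v (Submodule.Quotient.mk x) := by rw [key]; rfl

lemma cov_h2vMap_comp {C : Rep.{0, 0, 0} (ZMod p) s55_GQ} (g : A ⟶ B) (r : B ⟶ C)
    (c : ∀ v : extArithIndex S, continuousH2 (extArithLoc S v) (Rep.res (extArithLoc S v) A)) :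
    cov_h2vMap S (g ≫ r) c = cov_h2vMap S r (cov_h2vMap S g c) := by
  funext v
  simp only [cov_h2vMap_apply]
  obtain ⟨x, hx⟩ := Submodule.Quotient.mk_surjective _ (c v)
  rw [← hx]
  rfl

lemma cov_h2vMap_id
    (c : ∀ v : extArithIndex S, continuousH2 (extArithLoc S v) (Rep.res (extArithLoc S v) A)) :
    cov_h2vMap S (𝟙 A) c = c := by
  funext v
  simp only [cov_h2vMap_apply]
  obtain ⟨x, hx⟩ := Submodule.Quotient.mk_surjective _ (c v)
  rw [← hx]
  rfl

omit [Fintype J] in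
lemma cov_invMap_comp {C : Rep.{0, 0, 0} (ZMod p) s55_GQ} (g : A ⟶ B) (r : B ⟶ C)
    (a : ↥(A.ρ.invariants)) : cov_invMap (g ≫ r) a = cov_invMap r (cov_invMap g a) := rfl

omit [Fintype J] in
lemma cov_invMap_id (a : ↥(A.ρ.invariants)) : cov_invMap (𝟙 A) a = a := rfl

/-- additivity of `cov_invMap` in the morphism (pointwise form). -/
lemma cov_invMap_sum (g : J → (A ⟶ B)) (h : A ⟶ B)
    (hsum : ∀ a : A, ∑ j, cov_lin (g j) a = cov_lin h a) (a : ↥(A.ρ.invariants)) :
    ∑ j, cov_invMap (g j) a = cov_invMap h a := by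
  apply Subtype.ext
  rw [Submodule.coe_sum]
  exact hsum a.1

end Sums

section Main

variable (inv : pt_InvFamily) (S : Finset Nat.Primes) (A : Rep.{0, 0, 0} (ZMod p) s55_GQ)
  (J : Type) [Fintype J] [DecidableEq J]

/-- **degree 2**: global duality for `A` implies global duality for `A^J`. -/
theorem cov_bij_of_base
    (hA : ∀ Θ : cone_H S A →ₗ[ZMod p]
        Module.Dual (ZMod p) ↥(continuousH1S S (A.dualTwist (cycloChar p))),
      pt_IsTheta inv S A Θ → Function.Bijective Θ)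
    (Θ : cone_H S (cov_I A J) →ₗ[ZMod p]
      Module.Dual (ZMod p) ↥(continuousH1S S ((cov_I A J).dualTwist (cycloChar p))))
    (hΘ : pt_IsTheta inv S (cov_I A J) Θ) : Function.Bijective Θ := by
  refine cov_block_bij (fun j => cov_coneMap S (cov_iota A J j))
    (fun j => cov_coneMap S (cov_pi A J j))
    (fun j => cov_h1Map S (cov_dual (cov_pi A J j)))
    (fun j => cov_h1Map S (cov_dual (cov_iota A J j))) ?_ ?_ Θ ?_ ?_
  · intro w
    simp only [← cov_coneMap_comp]
    rw [cov_coneMap_sum S (fun j => cov_pi A J j ≫ cov_iota A J j) (𝟙 _)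
      (cov_sum_pi_iota_lin A J), cov_coneMap_id]
  · intro y
    simp only [← cov_h1Map_comp]
    rw [cov_h1Map_sum S (fun j => cov_dual (cov_iota A J j) ≫ cov_dual (cov_pi A J j)) (𝟙 _)
      (cov_sum_dual_lin A J), cov_h1Map_id]
  · intro i j hij w y
    exact cov_theta_zero inv S (cov_iota A J j) (cov_pi A J i) (cov_iota_pi_ne A J hij) Θ hΘ w y
  · intro j
    exact hA _ (cov_theta_pull inv S (cov_iota A J j) (cov_pi A J j) (cov_iota_pi_same A J j)
      Θ hΘ)

/-- **degree 3**: global duality for `A` implies global duality for `A^J`. -/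
theorem cov_ker_of_base
    (hA : ∀ Θ : (∀ v : extArithIndex S,
          continuousH2 (extArithLoc S v) (Rep.res (extArithLoc S v) A)) →ₗ[ZMod p]
        Module.Dual (ZMod p) ↥((A.dualTwist (cycloChar p)).ρ.invariants),
      pt_IsTheta3 inv S A Θ →
        LinearMap.ker Θ = LinearMap.range (locTotal₂S S A) ∧ Function.Surjective Θ)
    (Θ : (∀ v : extArithIndex S,
          continuousH2 (extArithLoc S v) (Rep.res (extArithLoc S v) (cov_I A J))) →ₗ[ZMod p]
        Module.Dual (ZMod p) ↥(((cov_I A J).dualTwist (cycloChar p)).ρ.invariants))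
    (hΘ : pt_IsTheta3 inv S (cov_I A J) Θ) :
    LinearMap.ker Θ = LinearMap.range (locTotal₂S S (cov_I A J)) ∧ Function.Surjective Θ := by
  refine cov_block_ker (k := ZMod p)
    (VI := ∀ v : extArithIndex S,
      continuousH2 (extArithLoc S v) (Rep.res (extArithLoc S v) (cov_I A J)))
    (VA := ∀ v : extArithIndex S,
      continuousH2 (extArithLoc S v) (Rep.res (extArithLoc S v) A))
    (locTotal₂S S (cov_I A J)) (locTotal₂S S A)
    (fun j => cov_h2vMap S (cov_iota A J j))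
    (fun j => cov_h2vMap S (cov_pi A J j))
    (fun j => cov_h2SMap S (cov_iota A J j))
    (fun j => cov_h2SMap S (cov_pi A J j))
    (fun j => cov_invMap (cov_dual (cov_pi A J j)))
    (fun j => cov_invMap (cov_dual (cov_iota A J j))) ?_ ?_ ?_ ?_ Θ ?_ ?_
  · intro c
    simp only [← cov_h2vMap_comp]
    rw [cov_h2vMap_sum S (fun j => cov_pi A J j ≫ cov_iota A J j) (𝟙 _)
      (cov_sum_pi_iota_lin A J), cov_h2vMap_id]
  · intro n
    exact cov_invMap_sum (fun j => cov_dual (cov_iota A J j) ≫ cov_dual (cov_pi A J j)) (𝟙 _)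
      (cov_sum_dual_lin A J) n
  · intro j h
    exact cov_loc_nat S (cov_iota A J j) h
  · intro j h
    exact cov_loc_nat S (cov_pi A J j) h
  · intro i j hij c n
    exact cov_theta3_zero inv S (cov_iota A J j) (cov_pi A J i) (cov_iota_pi_ne A J hij) Θ hΘ c n
  · intro j
    exact hA _ (cov_theta3_pull inv S (cov_iota A J j) (cov_pi A J j) (cov_iota_pi_same A J j)
      Θ hΘ)

end Main

/-- **[COVER-OF]**. -/
theorem cov_main : pt_CoverOfStatement := by
  intro inv _ _ _ _ _ hBASE p _ hp2 S hpS M _ hsm hMur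
  obtain ⟨hKur, hKn, hKcyc, hKfix⟩ := cov_K_spec p M hsm S hpS hMur
  haveI : FiniteDimensional ℚ (cov_K p M) := hKur.1
  obtain ⟨hB1, hB2⟩ := hBASE hp2 S hpS (cov_K p M) hKur hKn hKcyc
  have hAfix : ∀ s ∈ (cov_K p M).fixingSubgroup, ∀ a : pt_A p (cov_K p M),
      (pt_A p (cov_K p M)).ρ s a = a := fun s hs a => cov_A_fix (cov_K p M) hKn s hs a
  haveI : FiniteDimensional (ZMod p) (pt_A p (cov_K p M)) := cov_A_finite (cov_K p M)
  refine ⟨cov_I (pt_A p (cov_K p M)) (Fin (Module.finrank (ZMod p) M)),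
    cov_I_finite (pt_A p (cov_K p M)) (Fin (Module.finrank (ZMod p) M)),
    cov_f M (cov_K p M) hKfix (Module.finBasis (ZMod p) M),
    cov_I_smooth _ _ (cov_K p M) hAfix, cov_I_unram _ _ S (cov_K p M) hKur hAfix,
    cov_f_surjective M (cov_K p M) hKfix _ (fun x => ?_),
    fun Θ hΘ => cov_bij_of_base inv S _ _ hB1 Θ hΘ,
    fun Θ hΘ => cov_ker_of_base inv S _ _ hB2 Θ hΘ⟩
  exact ⟨fun j => (Module.finBasis (ZMod p) M).repr x j,
    ((Module.finBasis (ZMod p) M).sum_repr x).symm⟩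

end Fermat.Agent.S55
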