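import Mathlib
import Fermat.Agent.S55.UnrAbs1

set_option autoImplicit false

namespace Fermat.Agent.S55

open scoped BigOperators

section RootsOfUnity

variable {q : ℕ} [Fact q.Prime]

theorem unr_abs_one_le_prod (x : PadicAlgCl q) (s : Multiset (PadicAlgCl q))
    (h : ∀ ζ ∈ s, 1 ≤ ‖x - ζ‖) : 1 ≤ ‖(s.map (x - ·)).prod‖ := by
  induction s using Multiset.induction_on with
  | empty => simp
  | cons a s ih =>
    rw [Multiset.map_cons, Multiset.prod_cons, norm_mul]
    exact one_le_mul_of_one_le_of_one_le (h a (Multiset.mem_cons_self a s))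
      (ih fun ζ hζ => h ζ (Multiset.mem_cons_of_mem hζ))

/-- an element of the unit sphere of `Ω` whose `M`-th power is congruent to one is congruent
to an `M`-th root of unity. -/
theorem unr_abs_exists_root (x : PadicAlgCl q) (M : ℕ) (hM : 0 < M) (hx : ‖x ^ M - 1‖ < 1) :
    ∃ ζ : PadicAlgCl q, ζ ^ M = 1 ∧ ‖x - ζ‖ < 1 := by
  by_contra hcon
  push Not at hcon
  have hmonic : (Polynomial.X ^ M - Polynomial.C (1 : PadicAlgCl q)).Monic :=
    Polynomial.monic_X_pow_sub_C 1 hM.ne'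
  have hsplit := IsAlgClosed.splits (Polynomial.X ^ M - Polynomial.C (1 : PadicAlgCl q))
  have e := hsplit.eval_eq_prod_roots x
  rw [hmonic.leadingCoeff, one_mul] at e
  have e' : x ^ M - 1 = ((Polynomial.X ^ M - Polynomial.C (1 : PadicAlgCl q)).roots.map
      (x - ·)).prod := by
    rw [← e]; simp
  have h1 := unr_abs_one_le_prod x _ (fun ζ hζ => by
    have hroot := (Polynomial.mem_roots hmonic.ne_zero).1 hζ
    have hζM : ζ ^ M = 1 := by
      have := hroot
      simp only [Polynomial.IsRoot, Polynomial.eval_sub, Polynomial.eval_pow, Polynomial.eval_X,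
        Polynomial.eval_C] at this
      exact sub_eq_zero.1 this
    exact hcon ζ hζM)
  rw [← e'] at h1
  exact absurd hx (not_lt.2 h1)

/-- every element of the unit sphere of `Ω` satisfies `x ^ M ≡ 1` for some `M` prime to the
residue characteristic. -/
theorem unr_abs_exists_pow (x : PadicAlgCl q) (hx : ‖x‖ = 1) :
    ∃ M : ℕ, 0 < M ∧ ‖(M : PadicAlgCl q)‖ = 1 ∧ ‖x ^ M - 1‖ < 1 := by
  have hint : IsIntegral ℚ_[q] x := (Algebra.IsAlgebraic.isAlgebraic x).isIntegral
  have hfin : FiniteDimensional ℚ_[q] ↥(IntermediateField.adjoin ℚ_[q] ({x} : Set (PadicAlgCl q))) :=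
    IntermediateField.adjoin.finiteDimensional hint
  have hloc : lf_IsLocal ↥(IntermediateField.adjoin ℚ_[q] ({x} : Set (PadicAlgCl q))) :=
    lf_isLocal_intermediate _
  have hres := unr_lf_finite_residue' ↥(IntermediateField.adjoin ℚ_[q] ({x} : Set (PadicAlgCl q)))
  let x' : ↥(IntermediateField.adjoin ℚ_[q] ({x} : Set (PadicAlgCl q))) :=
    ⟨x, IntermediateField.mem_adjoin_simple_self ℚ_[q] x⟩
  have hx' : ‖x'‖ = 1 := hx
  have hq2 := unr_resCard_ge_two ↥(IntermediateField.adjoin ℚ_[q] ({x} : Set (PadicAlgCl q)))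
  have h1 := unr_val_pow_natCard_sub_lt_one
    (NormedField.valuation (K := ↥(IntermediateField.adjoin ℚ_[q] ({x} : Set (PadicAlgCl q)))))
    x' ((unr_normed_val_le_one_iff x').2 hx'.le)
  rw [unr_normed_val_lt_one_iff] at h1
  have h2 := unr_norm_resCard_pow_sub_one
    ↥(IntermediateField.adjoin ℚ_[q] ({x} : Set (PadicAlgCl q))) 1 one_pos
  rw [pow_one] at h2
  set Q := unr_resCard ↥(IntermediateField.adjoin ℚ_[q] ({x} : Set (PadicAlgCl q))) with hQ
  refine ⟨Q - 1, by omega, ?_, ?_⟩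
  · have : ((Q - 1 : ℕ) : PadicAlgCl q)
        = (((Q - 1 : ℕ) : ↥(IntermediateField.adjoin ℚ_[q] ({x} : Set (PadicAlgCl q)))) :
          PadicAlgCl q) := by
      simp
    rw [this]
    exact h2
  · have h3 : ‖x ^ Q - x‖ < 1 := h1
    have e : x ^ Q - x = x * (x ^ (Q - 1) - 1) := by
      have : Q = (Q - 1) + 1 := by omega
      conv_lhs => rw [this, pow_succ]
      ring
    rw [e, norm_mul, hx, one_mul] at h3
    exact h3

/-- every element of the unit sphere of `Ω` is congruent to a root of unity of order prime to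
the residue characteristic. -/
theorem unr_abs_exists_teich (x : PadicAlgCl q) (hx : ‖x‖ = 1) :
    ∃ (M : ℕ) (ζ : PadicAlgCl q), 0 < M ∧ ‖(M : PadicAlgCl q)‖ = 1 ∧ ζ ^ M = 1 ∧
      ‖x - ζ‖ < 1 := by
  obtain ⟨M, hM, hM1, h⟩ := unr_abs_exists_pow x hx
  obtain ⟨ζ, hζ, hxζ⟩ := unr_abs_exists_root x M hM h
  exact ⟨M, ζ, hM, hM1, hζ, hxζ⟩

/-- Criterion for a Frobenius on `Ω`: it suffices to check roots of unity of order prime to
the residue characteristic. -/
theorem unr_abs_frob_of_roots (N : ℕ) (hN : 0 < N) (φ : lcf_Gal q)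
    (hφ : ∀ (M : ℕ) (ζ : PadicAlgCl q), ‖(M : PadicAlgCl q)‖ = 1 → ζ ^ M = 1 → φ ζ = ζ ^ N)
    (x : PadicAlgCl q) (hx : ‖x‖ ≤ 1) : ‖φ x - x ^ N‖ < 1 := by
  rcases hx.lt_or_eq with hlt | heq
  · rw [sub_eq_add_neg]
    refine lt_of_le_of_lt (IsUltrametricDist.norm_add_le_max _ _) (max_lt ?_ ?_)
    · rw [unr_abs_norm_map]; exact hlt
    · rw [norm_neg, norm_pow]
      exact pow_lt_one₀ (norm_nonneg _) hlt hN.ne'
  · obtain ⟨M, ζ, hM, hM1, hζ, hxζ⟩ := unr_abs_exists_teich x heq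
    have hζ1 : ‖ζ‖ = 1 := unr_norm_eq_one_of_pow_eq_one ζ M hM.ne' hζ
    have e : φ x - x ^ N = φ (x - ζ) + (ζ ^ N - x ^ N) := by
      rw [map_sub, hφ M ζ hM1 hζ]; ring
    rw [e]
    refine lt_of_le_of_lt (IsUltrametricDist.norm_add_le_max _ _) (max_lt ?_ ?_)
    · rw [unr_abs_norm_map]; exact hxζ
    · have := unr_val_pow_sub_pow_le (NormedField.valuation (K := PadicAlgCl q)) ζ x
        ((unr_normed_val_le_one_iff ζ).2 hζ1.le) ((unr_normed_val_le_one_iff x).2 heq.le) N
      rw [unr_normed_val_le_iff] at this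
      refine lt_of_le_of_lt this ?_
      rw [norm_sub_rev]; exact hxζ

end RootsOfUnity

end Fermat.Agent.S55
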