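import Mathlib
import Fermat.Agent.S55.UnrAbs2

set_option autoImplicit false

namespace Fermat.Agent.S55

open scoped BigOperators

section FiniteLevel

variable {q : ℕ} [Fact q.Prime] (K : IntermediateField ℚ_[q] (PadicAlgCl q))
  [FiniteDimensional ℚ_[q] ↥K]

/-- The finite-level input: for a primitive `M`-th root of unity `ξ` (`M` prime to the residue
characteristic) there is an automorphism of `Ω/K` acting on `ξ` as the Frobenius `ξ ↦ ξ ^ N`,
and every automorphism of `Ω/K` acts on `ξ` as a power of the Frobenius. -/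
theorem unr_abs_finite_level (M : ℕ) (hM : ‖(M : PadicAlgCl q)‖ = 1) (ξ : PadicAlgCl q)
    (hξ : IsPrimitiveRoot ξ M) :
    (∃ σ : PadicAlgCl q ≃ₐ[↥K] PadicAlgCl q, σ ξ = ξ ^ unr_resCard ↥K) ∧
    (∀ σ : PadicAlgCl q ≃ₐ[↥K] PadicAlgCl q, ∃ j : ℕ, σ ξ = ξ ^ (unr_resCard ↥K ^ j)) := by
  classical
  have hM0 : M ≠ 0 := by
    rintro rfl
    simp at hM
  have : NeZero M := ⟨hM0⟩
  have hint : IsIntegral ↥K ξ := (Algebra.IsAlgebraic.isAlgebraic ξ).isIntegral
  have hfinL : FiniteDimensional ↥K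
      ↥(IntermediateField.adjoin ↥K ({ξ} : Set (PadicAlgCl q))) :=
    IntermediateField.adjoin.finiteDimensional hint
  have hcyc : IsCyclotomicExtension {M} ↥K
      ↥(IntermediateField.adjoin ↥K ({ξ} : Set (PadicAlgCl q))) :=
    hξ.intermediateField_adjoin_isCyclotomicExtension ↥K
  have hgal : IsGalois ↥K ↥(IntermediateField.adjoin ↥K ({ξ} : Set (PadicAlgCl q))) :=
    IsCyclotomicExtension.isGalois {M} ↥K _
  have hlocK : lf_IsLocal ↥K := lf_isLocal_intermediate K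
  have hext : lf_IsLocalExt ↥K ↥(IntermediateField.adjoin ↥K ({ξ} : Set (PadicAlgCl q))) :=
    lf_isLocalExt_tower K _
  have hlocL : lf_IsLocal ↥(IntermediateField.adjoin ↥K ({ξ} : Set (PadicAlgCl q))) :=
    lf_isLocal_tower K _
  let ξ' : ↥(IntermediateField.adjoin ↥K ({ξ} : Set (PadicAlgCl q))) :=
    ⟨ξ, IntermediateField.mem_adjoin_simple_self ↥K ξ⟩
  have hξ' : IsPrimitiveRoot ξ' M := by
    have : IsPrimitiveRoot ((algebraMap
        ↥(IntermediateField.adjoin ↥K ({ξ} : Set (PadicAlgCl q))) (PadicAlgCl q)) ξ') M := hξ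
    exact this.of_map_of_injective
      (algebraMap ↥(IntermediateField.adjoin ↥K ({ξ} : Set (PadicAlgCl q)))
        (PadicAlgCl q)).injective
  have hmK : ‖(M : ↥K)‖ = 1 := by
    have : ((M : ↥K) : PadicAlgCl q) = (M : PadicAlgCl q) := by simp
    rw [← hM, ← this]
    rfl
  have hgen : ∀ σ : ↥(IntermediateField.adjoin ↥K ({ξ} : Set (PadicAlgCl q))) ≃ₐ[↥K]
      ↥(IntermediateField.adjoin ↥K ({ξ} : Set (PadicAlgCl q))), σ ξ' = ξ' → σ = 1 := by
    intro σ hσ
    have htop := IsCyclotomicExtension.adjoin_primitive_root_eq_top (A := ↥K) hξ'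
    have : (σ : ↥(IntermediateField.adjoin ↥K ({ξ} : Set (PadicAlgCl q))) →ₐ[↥K]
        ↥(IntermediateField.adjoin ↥K ({ξ} : Set (PadicAlgCl q))))
        = ((1 : ↥(IntermediateField.adjoin ↥K ({ξ} : Set (PadicAlgCl q))) ≃ₐ[↥K]
          ↥(IntermediateField.adjoin ↥K ({ξ} : Set (PadicAlgCl q)))) :
            ↥(IntermediateField.adjoin ↥K ({ξ} : Set (PadicAlgCl q))) →ₐ[↥K]
              ↥(IntermediateField.adjoin ↥K ({ξ} : Set (PadicAlgCl q)))) := by
      refine AlgHom.ext_of_adjoin_eq_top htop ?_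
      intro x hx
      rw [Set.mem_singleton_iff] at hx
      rw [hx]
      exact hσ
    exact AlgEquiv.coe_toAlgHom_injective this
  have hu : unr_IsUnram ↥K ↥(IntermediateField.adjoin ↥K ({ξ} : Set (PadicAlgCl q))) :=
    unr_cyc_isUnram (K := ↥K) M hmK ξ' hξ'.pow_eq_one hgen
  obtain ⟨φL, hgenφ, hφL⟩ := unr_lf_exists_frob hu
  have hpow := unr_cyc_frob_pow_apply (K := ↥K) M hmK ξ' hξ'.pow_eq_one (unr_resCard ↥K) φL hφL
  constructor
  · refine ⟨φL.liftNormal (PadicAlgCl q), ?_⟩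
    have h1 := φL.liftNormal_commutes (PadicAlgCl q) ξ'
    have h2 := hpow 1
    rw [pow_one, pow_one] at h2
    rw [h2] at h1
    exact h1
  · intro σ
    have hmem : σ.restrictNormal ↥(IntermediateField.adjoin ↥K ({ξ} : Set (PadicAlgCl q)))
        ∈ Submonoid.powers φL := mem_powers_iff_mem_zpowers.2 (hgenφ _)
    obtain ⟨j, hj⟩ := hmem
    refine ⟨j, ?_⟩
    have h1 := σ.restrictNormal_commutes
      ↥(IntermediateField.adjoin ↥K ({ξ} : Set (PadicAlgCl q))) ξ'
    rw [← hj, hpow j] at h1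
    exact h1.symm

end FiniteLevel

end Fermat.Agent.S55
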