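import Mathlib
import Fermat.Agent.S55.UnrAbs3

set_option autoImplicit false

namespace Fermat.Agent.S55

open scoped BigOperators Pointwise

section Arith

theorem unr_coprime_pow_sub_one (N n : ℕ) (hN : 2 ≤ N) (hn : 0 < n) :
    Nat.Coprime N (N ^ n - 1) := by
  have h1 : 1 ≤ N ^ n := Nat.one_le_pow _ _ (by omega)
  have h2 : Nat.Coprime (N ^ n) (N ^ n - 1) := by
    have : N ^ n = (N ^ n - 1) + 1 := by omega
    rw [Nat.coprime_comm]
    conv_rhs => rw [this]
    simp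
  exact Nat.Coprime.coprime_dvd_left (dvd_pow_self N hn.ne') h2

/-- the order of `N` modulo `N ^ n - 1` is `n`. -/
theorem unr_modEq_of_pow_modEq (N n : ℕ) (hN : 2 ≤ N) (hn : 0 < n) (i j : ℕ)
    (h : N ^ i ≡ N ^ j [MOD N ^ n - 1]) : i ≡ j [MOD n] := by
  have h1 : 1 ≤ N ^ n := Nat.one_le_pow _ _ (by omega)
  have hcop := unr_coprime_pow_sub_one N n hN hn
  set M := N ^ n - 1 with hM
  let u : (ZMod M)ˣ := ZMod.unitOfCoprime N hcop
  have hu : (u : ZMod M) = (N : ZMod M) := ZMod.coe_unitOfCoprime N hcop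
  have hun : u ^ n = 1 := by
    apply Units.ext
    rw [Units.val_pow_eq_pow_val, hu, Units.val_one, ← Nat.cast_pow]
    have : N ^ n = M + 1 := by omega
    rw [this, Nat.cast_add, ZMod.natCast_self, zero_add, Nat.cast_one]
  have hord : orderOf u = n := by
    rw [orderOf_eq_iff hn]
    refine ⟨hun, fun m hm hm0 hcon => ?_⟩
    have e1 : ((N ^ m : ℕ) : ZMod M) = ((1 : ℕ) : ZMod M) := by
      have := congrArg (fun t : (ZMod M)ˣ => (t : ZMod M)) hcon
      simp only [Units.val_pow_eq_pow_val, hu, Units.val_one] at this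
      rw [Nat.cast_pow, this, Nat.cast_one]
    rw [ZMod.natCast_eq_natCast_iff] at e1
    have h2 : 1 ≤ N ^ m := Nat.one_le_pow _ _ (by omega)
    have h3 : M ∣ N ^ m - 1 := (Nat.modEq_iff_dvd' h2).1 e1.symm
    have h4 : N ^ m < N ^ n := Nat.pow_lt_pow_right (by omega) hm
    have h5 : N ^ m - 1 = 0 := Nat.eq_zero_of_dvd_of_lt h3 (by omega)
    have h6 : 1 < N ^ m := Nat.one_lt_pow hm0.ne' (by omega)
    omega
  have e2 : u ^ i = u ^ j := by
    apply Units.ext
    rw [Units.val_pow_eq_pow_val, Units.val_pow_eq_pow_val, hu, ← Nat.cast_pow, ← Nat.cast_pow,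
      ZMod.natCast_eq_natCast_iff]
    exact h
  rw [pow_eq_pow_iff_modEq, hord] at e2
  exact e2

end Arith

section Frob

variable {q : ℕ} [Fact q.Prime]

theorem unr_abs_isClosed_eval (x y : PadicAlgCl q) :
    IsClosed {σ : lcf_Gal q | σ x = y} := by
  rw [← isOpen_compl_iff, isOpen_iff_forall_mem_open]
  intro σ₀ hσ₀
  have hint : IsIntegral ℚ_[q] x := (Algebra.IsAlgebraic.isAlgebraic x).isIntegral
  have hfin : FiniteDimensional ℚ_[q]
      ↥(IntermediateField.adjoin ℚ_[q] ({x} : Set (PadicAlgCl q))) :=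
    IntermediateField.adjoin.finiteDimensional hint
  refine ⟨σ₀ • ((IntermediateField.adjoin ℚ_[q] ({x} : Set (PadicAlgCl q))).fixingSubgroup :
    Set (lcf_Gal q)), ?_, (IntermediateField.fixingSubgroup_isOpen _).leftCoset σ₀,
    ⟨1, Subgroup.one_mem _, mul_one σ₀⟩⟩
  intro τ hτ
  rw [mem_leftCoset_iff, SetLike.mem_coe, IntermediateField.mem_fixingSubgroup_iff] at hτ
  have h1 := hτ x (IntermediateField.mem_adjoin_simple_self ℚ_[q] x)
  have h2 : τ x = σ₀ x := by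
    have := congrArg σ₀ h1
    simpa using this
  intro hcon
  apply hσ₀
  change σ₀ x = y
  rw [← h2]
  exact hcon

/-- elements of the fixing subgroup of `K` as automorphisms over `K`, and back. -/
theorem unr_abs_exists_in_U (U : Subgroup (lcf_Gal q)) (hU : lcf_IsOpen U)
    (σ : PadicAlgCl q ≃ₐ[↥(IntermediateField.fixedField U)] PadicAlgCl q) :
    ∃ τ : ↥U, ∀ x : PadicAlgCl q, (τ : lcf_Gal q) x = σ x := by
  have hmem : σ.restrictScalars ℚ_[q] ∈ U := by
    refine (unr_abs_fixing_fixed U hU).le ?_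
    rw [IntermediateField.mem_fixingSubgroup_iff]
    intro x hx
    exact σ.commutes ⟨x, hx⟩
  exact ⟨⟨σ.restrictScalars ℚ_[q], hmem⟩, fun x => rfl⟩

theorem unr_abs_exists_over_K (U : Subgroup (lcf_Gal q)) (τ : ↥U) :
    ∃ σ : PadicAlgCl q ≃ₐ[↥(IntermediateField.fixedField U)] PadicAlgCl q,
      ∀ x : PadicAlgCl q, σ x = (τ : lcf_Gal q) x := by
  refine ⟨{ AlgEquiv.toRingEquiv (τ : lcf_Gal q) with commutes' := ?_ }, fun x => rfl⟩
  intro x
  exact x.2 τ

/-- two `M`-th roots of unity (`M` prime to the residue characteristic) which are congruent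
are equal. -/
theorem unr_abs_root_eq (M : ℕ) (hM : ‖(M : PadicAlgCl q)‖ = 1) (x y : PadicAlgCl q)
    (hx : x ^ M = 1) (hy : y ^ M = 1) (h : ‖x - y‖ < 1) : x = y := by
  by_contra hxy
  have hM0 : M ≠ 0 := by
    rintro rfl
    simp at hM
  have hy1 : ‖y‖ = 1 := unr_norm_eq_one_of_pow_eq_one y M hM0 hy
  have hy0 : y ≠ 0 := by
    rintro rfl
    simp at hy1
  have h1 : (x / y) ^ M = 1 := by rw [div_pow, hx, hy, div_one]
  have h2 : x / y ≠ 1 := fun h' => hxy ((div_eq_one_iff_eq hy0).1 h')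
  have h3 := unr_norm_sub_one_of_pow_eq_one (x / y) M hM h1 h2
  have h4 : x - y = y * (x / y - 1) := by field_simp
  rw [h4, norm_mul, hy1, h3, mul_one] at h
  exact lt_irrefl _ h

/-- There is an element of `U` acting on all roots of unity of order prime to the residue
characteristic as the Frobenius (compactness of the Galois group). -/
theorem unr_abs_exists_frob_roots (U : Subgroup (lcf_Gal q)) (hU : lcf_IsOpen U) :
    ∃ φ : ↥U, ∀ (M : ℕ) (ζ : PadicAlgCl q), ‖(M : PadicAlgCl q)‖ = 1 → ζ ^ M = 1 →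
      (φ : lcf_Gal q) ζ = ζ ^ lcf_resCard U := by
  classical
  have hfin := unr_abs_finite U hU
  let m : PadicAlgCl q → ℕ := fun ζ =>
    if h : ∃ M : ℕ, ‖(M : PadicAlgCl q)‖ = 1 ∧ ζ ^ M = 1 then h.choose else 1
  have hm1 : ∀ ζ, ‖((m ζ : ℕ) : PadicAlgCl q)‖ = 1 := by
    intro ζ
    by_cases h : ∃ M : ℕ, ‖(M : PadicAlgCl q)‖ = 1 ∧ ζ ^ M = 1
    · simp only [m, dif_pos h]
      exact h.choose_spec.1
    · simp only [m, dif_neg h]
      simp
  have hm2 : ∀ ζ, (∃ M : ℕ, ‖(M : PadicAlgCl q)‖ = 1 ∧ ζ ^ M = 1) → ζ ^ m ζ = 1 := by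
    intro ζ h
    simp only [m, dif_pos h]
    exact h.choose_spec.2
  let t : PadicAlgCl q → Set (lcf_Gal q) := fun ζ =>
    {σ | (∃ M : ℕ, ‖(M : PadicAlgCl q)‖ = 1 ∧ ζ ^ M = 1) → σ ζ = ζ ^ lcf_resCard U}
  have htc : ∀ ζ, IsClosed (t ζ) := by
    intro ζ
    by_cases h : ∃ M : ℕ, ‖(M : PadicAlgCl q)‖ = 1 ∧ ζ ^ M = 1
    · have : t ζ = {σ : lcf_Gal q | σ ζ = ζ ^ lcf_resCard U} := by
        ext σ
        exact ⟨fun hσ => hσ h, fun hσ _ => hσ⟩
      rw [this]
      exact unr_abs_isClosed_eval _ _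
    · have : t ζ = Set.univ := by
        ext σ
        exact ⟨fun _ => trivial, fun _ h' => absurd h' h⟩
      rw [this]
      exact isClosed_univ
  have hs : IsCompact (U : Set (lcf_Gal q)) := (unr_abs_isClosed U hU).isCompact
  have hst : ∀ u : Finset (PadicAlgCl q), ((U : Set (lcf_Gal q)) ∩ ⋂ ζ ∈ u, t ζ).Nonempty := by
    intro u
    have hM₀ : ‖((∏ ζ ∈ u, m ζ : ℕ) : PadicAlgCl q)‖ = 1 := by
      rw [Nat.cast_prod, norm_prod]
      exact Finset.prod_eq_one fun ζ _ => hm1 ζ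
    have hM₀0 : (∏ ζ ∈ u, m ζ) ≠ 0 := by
      intro h0
      rw [h0] at hM₀
      simp at hM₀
    have hne : NeZero ((∏ ζ ∈ u, m ζ : ℕ) : ℚ_[q]) := ⟨Nat.cast_ne_zero.2 hM₀0⟩
    have hne' : NeZero (∏ ζ ∈ u, m ζ) := ⟨hM₀0⟩
    obtain ⟨ξ, hξ⟩ := HasEnoughRootsOfUnity.exists_primitiveRoot (PadicAlgCl q) (∏ ζ ∈ u, m ζ)
    obtain ⟨⟨σ, hσ⟩, -⟩ := unr_abs_finite_level (IntermediateField.fixedField U) _ hM₀ ξ hξ
    obtain ⟨τ, hτ⟩ := unr_abs_exists_in_U U hU σ
    refine ⟨τ, τ.2, ?_⟩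
    rw [Set.mem_iInter₂]
    intro ζ hζ hval
    have h1 : ζ ^ (∏ ζ ∈ u, m ζ) = 1 := by
      obtain ⟨c, hc⟩ := Finset.dvd_prod_of_mem m hζ
      rw [hc, pow_mul, hm2 ζ hval, one_pow]
    obtain ⟨i, -, hi⟩ := hξ.eq_pow_of_pow_eq_one h1
    change (τ : lcf_Gal q) ζ = ζ ^ lcf_resCard U
    rw [← hi, hτ, map_pow, hσ, ← pow_mul, ← pow_mul, mul_comm]
    rfl
  obtain ⟨φ, hφU, hφ⟩ := hs.inter_iInter_nonempty t htc hst
  exact ⟨⟨φ, hφU⟩, fun M ζ hM hζ => (Set.mem_iInter.1 hφ ζ) ⟨M, hM, hζ⟩⟩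

/-- **Existence of a Frobenius element** in every open subgroup of the local Galois group. -/
theorem unr_abs_exists_frob (U : Subgroup (lcf_Gal q)) (hU : lcf_IsOpen U) :
    ∃ φ : ↥U, lcf_IsFrob U φ := by
  have hfin := unr_abs_finite U hU
  have hloc : lf_IsLocal ↥(IntermediateField.fixedField U) := lf_isLocal_intermediate _
  have hN2 : 2 ≤ unr_resCard ↥(IntermediateField.fixedField U) :=
    unr_resCard_ge_two ↥(IntermediateField.fixedField U)
  have hN2' : 2 ≤ lcf_resCard U := hN2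
  have hpos : 0 < lcf_resCard U := lt_of_lt_of_le (by norm_num) hN2'
  obtain ⟨φ, hφ⟩ := unr_abs_exists_frob_roots U hU
  refine ⟨φ, ?_⟩
  intro x hx
  exact unr_abs_frob_of_roots (lcf_resCard U) hpos (φ : lcf_Gal q) hφ x hx

/-- **[UNR-CHAR]** existence of the unramified character of order `n` together with a
Frobenius element. -/
theorem unr_abs_unrChar : lcf_UnrCharStatement := by
  intro q _ U hU n _
  classical
  have hfin := unr_abs_finite U hU
  have hloc : lf_IsLocal ↥(IntermediateField.fixedField U) := lf_isLocal_intermediate _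
  have hN2 : 2 ≤ unr_resCard ↥(IntermediateField.fixedField U) :=
    unr_resCard_ge_two ↥(IntermediateField.fixedField U)
  have hn : 0 < n := Nat.pos_of_ne_zero (NeZero.ne n)
  obtain ⟨φ, hφ⟩ := unr_abs_exists_frob_roots U hU
  have hpos : 0 < lcf_resCard U := lt_of_lt_of_le (by norm_num) hN2
  have hfrob : lcf_IsFrob U φ := by
    intro x hx
    exact unr_abs_frob_of_roots (lcf_resCard U) hpos (φ : lcf_Gal q) hφ x hx
  -- the root of unity of order `N ^ n - 1`
  have hMK := unr_norm_resCard_pow_sub_one ↥(IntermediateField.fixedField U) n hn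
  have hM : ‖((unr_resCard ↥(IntermediateField.fixedField U) ^ n - 1 : ℕ) : PadicAlgCl q)‖
      = 1 := by
    have : ((unr_resCard ↥(IntermediateField.fixedField U) ^ n - 1 : ℕ) : PadicAlgCl q)
        = (((unr_resCard ↥(IntermediateField.fixedField U) ^ n - 1 : ℕ) :
          ↥(IntermediateField.fixedField U)) : PadicAlgCl q) := by simp
    rw [this]
    exact hMK
  have hM0 : unr_resCard ↥(IntermediateField.fixedField U) ^ n - 1 ≠ 0 := by
    intro h0
    rw [h0] at hM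
    simp at hM
  have hne : NeZero ((unr_resCard ↥(IntermediateField.fixedField U) ^ n - 1 : ℕ) : ℚ_[q]) :=
    ⟨Nat.cast_ne_zero.2 hM0⟩
  obtain ⟨ξ, hξ⟩ := HasEnoughRootsOfUnity.exists_primitiveRoot (PadicAlgCl q)
    (unr_resCard ↥(IntermediateField.fixedField U) ^ n - 1)
  have hlevel := unr_abs_finite_level (IntermediateField.fixedField U) _ hM ξ hξ
  -- exponents
  have hex : ∀ τ : ↥U, ∃ j : ℕ,
      (τ : lcf_Gal q) ξ = ξ ^ (unr_resCard ↥(IntermediateField.fixedField U) ^ j) := by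
    intro τ
    obtain ⟨σ, hσ⟩ := unr_abs_exists_over_K U τ
    obtain ⟨j, hj⟩ := hlevel.2 σ
    exact ⟨j, by rw [← hσ]; exact hj⟩
  have huniq : ∀ i j : ℕ, ξ ^ (unr_resCard ↥(IntermediateField.fixedField U) ^ i)
      = ξ ^ (unr_resCard ↥(IntermediateField.fixedField U) ^ j) →
      ((i : ℕ) : ZMod n) = ((j : ℕ) : ZMod n) := by
    intro i j h
    have hfo : IsOfFinOrder ξ :=
      isOfFinOrder_iff_pow_eq_one.2 ⟨_, Nat.pos_of_ne_zero hM0, hξ.pow_eq_one⟩
    rw [hfo.pow_eq_pow_iff_modEq, ← hξ.eq_orderOf] at h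
    exact (ZMod.natCast_eq_natCast_iff _ _ _).2 (unr_modEq_of_pow_modEq _ n hN2 hn i j h)
  let θf : ↥U → Multiplicative (ZMod n) := fun τ =>
    Multiplicative.ofAdd (((hex τ).choose : ℕ) : ZMod n)
  have hθf : ∀ (τ : ↥U) (j : ℕ),
      (τ : lcf_Gal q) ξ = ξ ^ (unr_resCard ↥(IntermediateField.fixedField U) ^ j) →
      θf τ = Multiplicative.ofAdd ((j : ℕ) : ZMod n) := by
    intro τ j hj
    change Multiplicative.ofAdd _ = Multiplicative.ofAdd _
    congr 1
    apply huniq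
    rw [← (hex τ).choose_spec, hj]
  have hmul : ∀ a b : ↥U, θf (a * b) = θf a * θf b := by
    intro a b
    obtain ⟨ja, hja⟩ := hex a
    obtain ⟨jb, hjb⟩ := hex b
    have hab : ((a * b : ↥U) : lcf_Gal q) ξ
        = ξ ^ (unr_resCard ↥(IntermediateField.fixedField U) ^ (ja + jb)) := by
      rw [Subgroup.coe_mul, AlgEquiv.mul_apply, hjb, map_pow, hja, ← pow_mul, ← pow_add]
    rw [hθf (a * b) _ hab, hθf a ja hja, hθf b jb hjb, Nat.cast_add, ofAdd_add]
  let θ : ↥U →* Multiplicative (ZMod n) := MonoidHom.mk' θf hmul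
  have hθ : ∀ τ : ↥U, θ τ = θf τ := fun _ => rfl
  have hθone : ∀ s : ↥U, (s : lcf_Gal q) ξ = ξ → θ s = 1 := by
    intro s hs
    rw [hθ, hθf s 0 (by rw [pow_zero, pow_one]; exact hs), Nat.cast_zero, ofAdd_zero]
  refine ⟨θ, φ, ?_, ?_, hfrob, ?_⟩
  · -- smoothness
    have hint : IsIntegral ℚ_[q] ξ := (Algebra.IsAlgebraic.isAlgebraic ξ).isIntegral
    refine ⟨IntermediateField.adjoin ℚ_[q] ({ξ} : Set (PadicAlgCl q)),
      IntermediateField.adjoin.finiteDimensional hint, fun g s hs => ?_⟩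
    rw [map_mul, hθone s, mul_one]
    exact (IntermediateField.mem_fixingSubgroup_iff _ _).1 hs ξ
      (IntermediateField.mem_adjoin_simple_self ℚ_[q] ξ)
  · -- trivial on inertia
    intro s hs
    apply hθone
    have h1 : ‖ξ‖ = 1 := unr_norm_eq_one_of_pow_eq_one ξ _ hM0 hξ.pow_eq_one
    refine unr_abs_root_eq _ hM _ _ ?_ hξ.pow_eq_one (hs ξ h1.le)
    rw [← map_pow, hξ.pow_eq_one, map_one]
  · -- value at Frobenius
    have h1 := hφ _ ξ hM hξ.pow_eq_one
    rw [hθ, hθf φ 1 (by rw [pow_one]; exact h1), Nat.cast_one]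

end Frob

end Fermat.Agent.S55
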