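import Mathlib
import Fermat.Agent.S55.UnrAbs4

/-!
S55, LOCAL side: the maximal unramified extension in the absolute setting.
* an element of the local Galois group is inert iff it fixes all roots of unity of order prime
  to the residue characteristic;
* an element of `Ω` fixed by the inertia subgroup of `U` lies in `K_U(ξ)` for one such root of
  unity `ξ`;
* `K_U(ξ)` has the same value group as `K_U`, and its Galois group is generated by a Frobenius.
-/

set_option autoImplicit false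

namespace Fermat.Agent.S55

open scoped BigOperators Pointwise

section MaxUnr

variable {q : ℕ} [Fact q.Prime]

/-- an automorphism fixing all roots of unity of order prime to `q` is inert. -/
theorem unr_abs_inert_of_roots (s : lcf_Gal q)
    (hs : ∀ (M : ℕ) (ζ : PadicAlgCl q), ‖(M : PadicAlgCl q)‖ = 1 → ζ ^ M = 1 → s ζ = ζ) :
    lcf_IsInert s := by
  intro x hx
  have := unr_abs_frob_of_roots 1 one_pos s
    (fun M ζ hM hζ => by rw [pow_one]; exact hs M ζ hM hζ) x hx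
  rwa [pow_one] at this

/-- an inert automorphism fixes all roots of unity of order prime to `q`. -/
theorem unr_abs_inert_root (s : lcf_Gal q) (hs : lcf_IsInert s) (M : ℕ)
    (hM : ‖(M : PadicAlgCl q)‖ = 1) (ζ : PadicAlgCl q) (hζ : ζ ^ M = 1) : s ζ = ζ := by
  have hM0 : M ≠ 0 := by
    rintro rfl
    simp at hM
  refine unr_abs_root_eq M hM _ _ ?_ hζ (hs ζ (unr_norm_eq_one_of_pow_eq_one ζ M hM0 hζ).le)
  rw [← map_pow, hζ, map_one]

/-- a Frobenius element acts on roots of unity of order prime to `q` by `ζ ↦ ζ ^ N`. -/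
theorem unr_abs_frob_root (U : Subgroup (lcf_Gal q)) (φ : ↥U) (hφ : lcf_IsFrob U φ) (M : ℕ)
    (hM : ‖(M : PadicAlgCl q)‖ = 1) (ζ : PadicAlgCl q) (hζ : ζ ^ M = 1) :
    (φ : lcf_Gal q) ζ = ζ ^ lcf_resCard U := by
  have hM0 : M ≠ 0 := by
    rintro rfl
    simp at hM
  refine unr_abs_root_eq M hM _ _ ?_ ?_ (hφ ζ (unr_norm_eq_one_of_pow_eq_one ζ M hM0 hζ).le)
  · rw [← map_pow, hζ, map_one]
  · rw [← pow_mul, mul_comm, pow_mul, hζ, one_pow]

theorem unr_abs_frob_pow_root (U : Subgroup (lcf_Gal q)) (φ : ↥U) (hφ : lcf_IsFrob U φ) (M : ℕ)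
    (hM : ‖(M : PadicAlgCl q)‖ = 1) (ζ : PadicAlgCl q) (hζ : ζ ^ M = 1) (j : ℕ) :
    ((φ ^ j : ↥U) : lcf_Gal q) ζ = ζ ^ (lcf_resCard U ^ j) := by
  induction j with
  | zero => simp
  | succ j ih =>
    rw [pow_succ, Subgroup.coe_mul, AlgEquiv.mul_apply, unr_abs_frob_root U φ hφ M hM ζ hζ,
      map_pow, ih, ← pow_mul, ← pow_succ]

/-- **Key lemma**: an element of `Ω` which is fixed by the inertia subgroup of `U` lies in
`K_U(ξ)` for a root of unity `ξ` of order prime to `q`. -/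
theorem unr_abs_mem_adjoin_root (U : Subgroup (lcf_Gal q)) (hU : lcf_IsOpen U)
    (x : PadicAlgCl q)
    (hx : ∀ s : ↥U, lcf_IsInert (s : lcf_Gal q) → (s : lcf_Gal q) x = x) :
    ∃ (M : ℕ) (ξ : PadicAlgCl q), ‖(M : PadicAlgCl q)‖ = 1 ∧ IsPrimitiveRoot ξ M ∧
      x ∈ IntermediateField.adjoin ↥(IntermediateField.fixedField U)
        ({ξ} : Set (PadicAlgCl q)) := by
  classical
  let W : Set (PadicAlgCl q) := {ζ | ∃ M : ℕ, ‖(M : PadicAlgCl q)‖ = 1 ∧ ζ ^ M = 1}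
  have h1 : x ∈ IntermediateField.adjoin ↥(IntermediateField.fixedField U) W := by
    rw [← InfiniteGalois.fixedField_fixingSubgroup
      (IntermediateField.adjoin ↥(IntermediateField.fixedField U) W)]
    rw [IntermediateField.mem_fixedField_iff]
    intro s hs
    obtain ⟨τ, hτ⟩ := unr_abs_exists_in_U U hU s
    rw [← hτ]
    apply hx
    apply unr_abs_inert_of_roots
    intro M ζ hM hζ
    rw [hτ]
    exact (IntermediateField.mem_fixingSubgroup_iff _ _).1 hs ζ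
      (IntermediateField.subset_adjoin _ _ ⟨M, hM, hζ⟩)
  obtain ⟨T, hTW, hxT⟩ := IntermediateField.exists_finset_of_mem_adjoin h1
  have hW : ∀ ζ : PadicAlgCl q, ∃ m : ℕ, ζ ∈ W → ‖(m : PadicAlgCl q)‖ = 1 ∧ ζ ^ m = 1 := by
    intro ζ
    by_cases h : ζ ∈ W
    · obtain ⟨m, hm⟩ := h
      exact ⟨m, fun _ => hm⟩
    · exact ⟨0, fun h' => absurd h' h⟩
  choose m hm using hW
  have hM₀ : ‖((∏ ζ ∈ T, m ζ : ℕ) : PadicAlgCl q)‖ = 1 := by
    rw [Nat.cast_prod, norm_prod]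
    exact Finset.prod_eq_one fun ζ hζ => (hm ζ (hTW hζ)).1
  have hM₀0 : (∏ ζ ∈ T, m ζ) ≠ 0 := by
    intro h0
    rw [h0] at hM₀
    simp at hM₀
  have hne : NeZero ((∏ ζ ∈ T, m ζ : ℕ) : ℚ_[q]) := ⟨Nat.cast_ne_zero.2 hM₀0⟩
  have hne' : NeZero (∏ ζ ∈ T, m ζ) := ⟨hM₀0⟩
  obtain ⟨ξ, hξ⟩ := HasEnoughRootsOfUnity.exists_primitiveRoot (PadicAlgCl q) (∏ ζ ∈ T, m ζ)
  refine ⟨_, ξ, hM₀, hξ, ?_⟩
  refine (IntermediateField.adjoin_le_iff.2 ?_) hxT
  intro ζ hζ
  have h2 : ζ ^ (∏ ζ ∈ T, m ζ) = 1 := by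
    obtain ⟨c, hc⟩ := Finset.dvd_prod_of_mem m hζ
    rw [hc, pow_mul, (hm ζ (hTW hζ)).2, one_pow]
  obtain ⟨i, -, hi⟩ := hξ.eq_pow_of_pow_eq_one h2
  rw [← hi]
  exact pow_mem (IntermediateField.mem_adjoin_simple_self _ ξ) i

end MaxUnr

end Fermat.Agent.S55
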