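import Mathlib
import Fermat.Agent.S55.UnrAbs5

/-!
S55, LOCAL side: `K(ξ)/K` for a root of unity `ξ` of order prime to the residue characteristic
has the value group of `K`; an element of `Ω` fixed by inertia and by a Frobenius lies in `K`.
-/

set_option autoImplicit false

namespace Fermat.Agent.S55

open scoped BigOperators Pointwise

section Adjoin

variable {q : ℕ} [Fact q.Prime] (K : IntermediateField ℚ_[q] (PadicAlgCl q))
  [FiniteDimensional ℚ_[q] ↥K]

/-- the value group of `K(ξ)` is that of `K`. -/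
theorem unr_abs_adjoin_val (M : ℕ) (hM : ‖(M : PadicAlgCl q)‖ = 1) (ξ : PadicAlgCl q)
    (hξ : IsPrimitiveRoot ξ M) (x : PadicAlgCl q)
    (hx : x ∈ IntermediateField.adjoin ↥K ({ξ} : Set (PadicAlgCl q))) (hx0 : x ≠ 0) :
    ∃ n : ℤ, ‖x‖ = ‖((lf_unif ↥K : ↥K) : PadicAlgCl q)‖ ^ n := by
  classical
  have hM0 : M ≠ 0 := by
    rintro rfl
    simp at hM
  have : NeZero M := ⟨hM0⟩
  have hint : IsIntegral ↥K ξ := (Algebra.IsAlgebraic.isAlgebraic ξ).isIntegral
  have hfinL : FiniteDimensional ↥K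
      ↥(IntermediateField.adjoin ↥K ({ξ} : Set (PadicAlgCl q))) :=
    IntermediateField.adjoin.finiteDimensional hint
  have hcyc : IsCyclotomicExtension {M} ↥K
      ↥(IntermediateField.adjoin ↥K ({ξ} : Set (PadicAlgCl q))) :=
    hξ.intermediateField_adjoin_isCyclotomicExtension ↥K
  have hgal : IsGalois ↥K ↥(IntermediateField.adjoin ↥K ({ξ} : Set (PadicAlgCl q))) :=
    IsCyclotomicExtension.isGalois {M} ↥K _
  have hlocK : lf_IsLocal ↥K := lf_isLocal_intermediate K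
  have hext : lf_IsLocalExt ↥K ↥(IntermediateField.adjoin ↥K ({ξ} : Set (PadicAlgCl q))) :=
    lf_isLocalExt_tower K _
  have hlocL : lf_IsLocal ↥(IntermediateField.adjoin ↥K ({ξ} : Set (PadicAlgCl q))) :=
    lf_isLocal_tower K _
  let ξ' : ↥(IntermediateField.adjoin ↥K ({ξ} : Set (PadicAlgCl q))) :=
    ⟨ξ, IntermediateField.mem_adjoin_simple_self ↥K ξ⟩
  have hξ' : IsPrimitiveRoot ξ' M := by
    have : IsPrimitiveRoot ((algebraMap
        ↥(IntermediateField.adjoin ↥K ({ξ} : Set (PadicAlgCl q))) (PadicAlgCl q)) ξ') M := hξ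
    exact this.of_map_of_injective
      (algebraMap ↥(IntermediateField.adjoin ↥K ({ξ} : Set (PadicAlgCl q)))
        (PadicAlgCl q)).injective
  have hmK : ‖(M : ↥K)‖ = 1 := by
    have : ((M : ↥K) : PadicAlgCl q) = (M : PadicAlgCl q) := by simp
    rw [← hM, ← this]
    rfl
  have hgen : ∀ σ : ↥(IntermediateField.adjoin ↥K ({ξ} : Set (PadicAlgCl q))) ≃ₐ[↥K]
      ↥(IntermediateField.adjoin ↥K ({ξ} : Set (PadicAlgCl q))), σ ξ' = ξ' → σ = 1 := by
    intro σ hσ
    have htop := IsCyclotomicExtension.adjoin_primitive_root_eq_top (A := ↥K) hξ'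
    have : (σ : ↥(IntermediateField.adjoin ↥K ({ξ} : Set (PadicAlgCl q))) →ₐ[↥K]
        ↥(IntermediateField.adjoin ↥K ({ξ} : Set (PadicAlgCl q))))
        = ((1 : ↥(IntermediateField.adjoin ↥K ({ξ} : Set (PadicAlgCl q))) ≃ₐ[↥K]
          ↥(IntermediateField.adjoin ↥K ({ξ} : Set (PadicAlgCl q)))) :
            ↥(IntermediateField.adjoin ↥K ({ξ} : Set (PadicAlgCl q))) →ₐ[↥K]
              ↥(IntermediateField.adjoin ↥K ({ξ} : Set (PadicAlgCl q)))) := by
      refine AlgHom.ext_of_adjoin_eq_top htop ?_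
      intro x hx
      rw [Set.mem_singleton_iff] at hx
      rw [hx]
      exact hσ
    exact AlgEquiv.coe_toAlgHom_injective this
  have hu : unr_IsUnram ↥K ↥(IntermediateField.adjoin ↥K ({ξ} : Set (PadicAlgCl q))) :=
    unr_cyc_isUnram (K := ↥K) M hmK ξ' hξ'.pow_eq_one hgen
  have hx0' : (⟨x, hx⟩ : ↥(IntermediateField.adjoin ↥K ({ξ} : Set (PadicAlgCl q)))) ≠ 0 := by
    intro h
    exact hx0 (congrArg Subtype.val h)
  obtain ⟨n, hn⟩ := hu ⟨x, hx⟩ hx0'
  exact ⟨n, hn⟩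

end Adjoin

section Fixed

variable {q : ℕ} [Fact q.Prime]

/-- an element of `U` which fixes `ξ` fixes `K_U(ξ)` pointwise. -/
theorem unr_abs_fix_adjoin (U : Subgroup (lcf_Gal q)) (h : ↥U) (ξ x : PadicAlgCl q)
    (hξ : (h : lcf_Gal q) ξ = ξ)
    (hx : x ∈ IntermediateField.adjoin ↥(IntermediateField.fixedField U)
      ({ξ} : Set (PadicAlgCl q))) : (h : lcf_Gal q) x = x := by
  obtain ⟨σ, hσ⟩ := unr_abs_exists_over_K U h
  have hle : IntermediateField.adjoin ↥(IntermediateField.fixedField U)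
      ({ξ} : Set (PadicAlgCl q)) ≤ IntermediateField.fixedField (Subgroup.zpowers σ) := by
    rw [IntermediateField.adjoin_le_iff]
    intro y hy
    rw [Set.mem_singleton_iff] at hy
    rw [hy, SetLike.mem_coe, IntermediateField.mem_fixedField_iff]
    intro τ hτ
    have h1 : σ ∈ MulAction.stabilizer
        (PadicAlgCl q ≃ₐ[↥(IntermediateField.fixedField U)] PadicAlgCl q) ξ := by
      rw [MulAction.mem_stabilizer_iff]
      change σ ξ = ξ
      rw [hσ]; exact hξ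
    have h2 := (Subgroup.zpowers_le.2 h1) hτ
    rw [MulAction.mem_stabilizer_iff] at h2
    exact h2
  have := (IntermediateField.mem_fixedField_iff _ _).1 (hle hx) σ (Subgroup.mem_zpowers σ)
  rw [← hσ]
  exact this

/-- **The fixed field of inertia and Frobenius is `K_U`**: an element of `Ω` fixed by the
inert elements of `U` and by a Frobenius element of `U` is fixed by `U`. -/
theorem unr_abs_fixed_of_frob (U : Subgroup (lcf_Gal q)) (hU : lcf_IsOpen U) (φ : ↥U)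
    (hφ : lcf_IsFrob U φ) (x : PadicAlgCl q)
    (hx : ∀ s : ↥U, lcf_IsInert (s : lcf_Gal q) → (s : lcf_Gal q) x = x)
    (hφx : (φ : lcf_Gal q) x = x) (g : ↥U) : (g : lcf_Gal q) x = x := by
  have hfin := unr_abs_finite U hU
  obtain ⟨M, ξ, hM, hξ, hmem⟩ := unr_abs_mem_adjoin_root U hU x hx
  obtain ⟨σ, hσ⟩ := unr_abs_exists_over_K U g
  obtain ⟨j, hj⟩ := (unr_abs_finite_level (IntermediateField.fixedField U) M hM ξ hξ).2 σ
  have h1 : (g : lcf_Gal q) ξ = ξ ^ (lcf_resCard U ^ j) := by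
    rw [← hσ]; exact hj
  have h2 := unr_abs_frob_pow_root U φ hφ M hM ξ hξ.pow_eq_one j
  have h3 : (((φ ^ j)⁻¹ * g : ↥U) : lcf_Gal q) ξ = ξ := by
    rw [Subgroup.coe_mul, AlgEquiv.mul_apply, h1, ← h2, Subgroup.coe_inv]
    exact AlgEquiv.symm_apply_apply ((φ ^ j : ↥U) : lcf_Gal q) ξ
  have h4 := unr_abs_fix_adjoin U ((φ ^ j)⁻¹ * g) ξ x h3 hmem
  have h5 : ∀ k : ℕ, ((φ ^ k : ↥U) : lcf_Gal q) x = x := by
    intro k
    induction k with
    | zero => simp
    | succ k ih => rw [pow_succ, Subgroup.coe_mul, AlgEquiv.mul_apply, hφx, ih]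
  rw [Subgroup.coe_mul, AlgEquiv.mul_apply, Subgroup.coe_inv] at h4
  have h6 := congrArg ((φ ^ j : ↥U) : lcf_Gal q) h4
  rw [h5 j] at h6
  have h7 : ((φ ^ j : ↥U) : lcf_Gal q) ((((φ ^ j : ↥U) : lcf_Gal q))⁻¹ ((g : lcf_Gal q) x))
      = (g : lcf_Gal q) x :=
    AlgEquiv.apply_symm_apply ((φ ^ j : ↥U) : lcf_Gal q) ((g : lcf_Gal q) x)
  exact h7.symm.trans h6

end Fixed

end Fermat.Agent.S55
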