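import Mathlib
import Fermat.Agent.S55.UnrLF
import Fermat.Agent.S55.FG.Cyc2
import Fermat.Agent.S55.Local.H2DvdField

/-!
S55, LOCAL side: `H²(Gal(L/K), O_Lˣ) = 0` for an unramified extension of local fields,
elementwise: a unit-valued 2-cocycle is the coboundary of a unit-valued 1-cochain.
-/

set_option autoImplicit false

namespace Fermat.Agent.S55

open groupCohomology

attribute [local instance] l3d_galAct

section H2

variable {K L : Type} [NormedField K] [NormedField L] [Algebra K L]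
  [lf_IsLocal K] [lf_IsLocal L] [lf_IsLocalExt K L] [IsGalois K L]

omit [lf_IsLocal K] [lf_IsLocal L] [lf_IsLocalExt K L] [IsGalois K L] in
theorem unr_h2_norm_sum {ι : Type*} (s : Finset ι) (a : ι → Additive Lˣ)
    (h : ∀ i ∈ s, ‖((Additive.toMul (a i) : Lˣ) : L)‖ = 1) :
    ‖((Additive.toMul (∑ i ∈ s, a i) : Lˣ) : L)‖ = 1 := by
  refine Finset.sum_induction a (fun x : Additive Lˣ => ‖((Additive.toMul x : Lˣ) : L)‖ = 1)
    ?_ ?_ h
  · intro x y hx hy
    show ‖(((Additive.toMul x : Lˣ) * (Additive.toMul y : Lˣ) : Lˣ) : L)‖ = 1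
    rw [Units.val_mul, norm_mul, hx, hy, mul_one]
  · show ‖(((1 : Lˣ) : Lˣ) : L)‖ = 1
    rw [Units.val_one, norm_one]

/-- a unit-valued 2-cocycle of an unramified extension is a coboundary. -/
theorem unr_h2_isCoboundary (hu : unr_IsUnram K L)
    (c : (L ≃ₐ[K] L) × (L ≃ₐ[K] L) → Additive Lˣ) (hc : IsCocycle₂ c)
    (h1 : ∀ p, ‖((Additive.toMul (c p) : Lˣ) : L)‖ = 1) : IsCoboundary₂ c := by
  have hfin : FiniteDimensional K L := lf_IsLocalExt.finite
  have hcyc := unr_lf_isCyclic hu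
  obtain ⟨σ, hσ⟩ := IsCyclic.exists_generator (α := L ≃ₐ[K] L)
  rw [fgD_isCoboundary_iff (fgD_Log.ofGen σ hσ) hc]
  have hinv := fgD_tr_inv (fgD_Log.ofGen σ hσ) hc
  have hnorm : ‖((Additive.toMul (fgD_tr (fgD_Log.ofGen σ hσ) c) : Lˣ) : L)‖ = 1 :=
    unr_h2_norm_sum _ _ (fun i _ => h1 _)
  set a := fgD_tr (fgD_Log.ofGen σ hσ) c with ha
  have hfix : ∀ g : L ≃ₐ[K] L, g ((Additive.toMul a : Lˣ) : L) = ((Additive.toMul a : Lˣ) : L) := by
    intro g
    have := congrArg (fun b : Additive Lˣ => ((Additive.toMul b : Lˣ) : L)) (hinv g)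
    exact this
  have hbot := (IsGalois.mem_bot_iff_fixed (F := K) (E := L) _).2 hfix
  obtain ⟨k, hk⟩ := IntermediateField.mem_bot.1 hbot
  have hk1 : ‖k‖ = 1 := by
    rw [← lf_norm_algebraMap (L := L), hk]
    exact hnorm
  obtain ⟨x, hx1, hxk⟩ := unr_lf_norm_surj hu k hk1
  have hx0 : x ≠ 0 := by
    rintro rfl
    simp at hx1
  refine ⟨Additive.ofMul (Units.mk0 x hx0), ?_⟩
  rw [(fgD_Log.ofGen σ hσ).sum_eq_finsum (fun g => g • (Additive.ofMul (Units.mk0 x hx0)))]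
  apply Additive.toMul.injective
  apply Units.ext
  rw [l3d_toMul_finsum K L]
  show ((Additive.toMul a : Lˣ) : L) = algebraMap K L (Algebra.norm K x)
  rw [hxk, hk]

/-- **`H²(unramified, units) = 0`**: a unit-valued 2-cocycle of an unramified extension is the
coboundary of a unit-valued 1-cochain. -/
theorem unr_h2_units (hu : unr_IsUnram K L)
    (c : (L ≃ₐ[K] L) × (L ≃ₐ[K] L) → Additive Lˣ) (hc : IsCocycle₂ c)
    (h1 : ∀ p, ‖((Additive.toMul (c p) : Lˣ) : L)‖ = 1) :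
    ∃ β : (L ≃ₐ[K] L) → Additive Lˣ, (∀ g, ‖((Additive.toMul (β g) : Lˣ) : L)‖ = 1) ∧
      ∀ g h, g • β h - β (g * h) + β g = c (g, h) := by
  obtain ⟨β₀, hβ₀⟩ := unr_h2_isCoboundary hu c hc h1
  choose n hn using fun u : Lˣ => hu (u : L) u.ne_zero
  have hϖ0 : algebraMap K L (lf_unif K) ≠ 0 := by
    rw [Ne, map_eq_zero]; exact lf_unif_ne_zero K
  set ϖ : Lˣ := Units.mk0 (algebraMap K L (lf_unif K)) hϖ0 with hϖ
  have hϖn : ‖(ϖ : L)‖ = ‖lf_unif K‖ := lf_norm_algebraMap _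
  have hρ0 : 0 < ‖lf_unif K‖ := lf_norm_unif_pos K
  have hgϖ : ∀ g : L ≃ₐ[K] L, g • (Additive.ofMul ϖ : Additive Lˣ) = Additive.ofMul ϖ := by
    intro g
    apply Additive.toMul.injective
    apply Units.ext
    show g (algebraMap K L (lf_unif K)) = algebraMap K L (lf_unif K)
    exact g.commutes _
  have hgz : ∀ (g : L ≃ₐ[K] L) (m : ℤ),
      g • (m • (Additive.ofMul ϖ : Additive Lˣ)) = m • Additive.ofMul ϖ := by
    intro g m
    rw [smul_comm, hgϖ]
  have hnz : ∀ m : ℤ, ‖((Additive.toMul (m • (Additive.ofMul ϖ : Additive Lˣ)) : Lˣ) : L)‖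
      = ‖lf_unif K‖ ^ m := by
    intro m
    show ‖((ϖ ^ m : Lˣ) : L)‖ = _
    rw [Units.val_zpow_eq_zpow_val, norm_zpow, hϖn]
  have hnadd : ∀ x y : Additive Lˣ, ‖((Additive.toMul (x + y) : Lˣ) : L)‖
      = ‖((Additive.toMul x : Lˣ) : L)‖ * ‖((Additive.toMul y : Lˣ) : L)‖ := by
    intro x y
    show ‖(((Additive.toMul x : Lˣ) * (Additive.toMul y : Lˣ) : Lˣ) : L)‖ = _
    rw [Units.val_mul, norm_mul]
  have hnneg : ∀ x : Additive Lˣ, ‖((Additive.toMul (-x) : Lˣ) : L)‖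
      = ‖((Additive.toMul x : Lˣ) : L)‖⁻¹ := by
    intro x
    show ‖(((Additive.toMul x : Lˣ)⁻¹ : Lˣ) : L)‖ = _
    rw [Units.val_inv_eq_inv_val, norm_inv]
  have hng : ∀ (g : L ≃ₐ[K] L) (x : Additive Lˣ), ‖((Additive.toMul (g • x) : Lˣ) : L)‖
      = ‖((Additive.toMul x : Lˣ) : L)‖ := by
    intro g x
    show ‖g ((Additive.toMul x : Lˣ) : L)‖ = _
    exact lf_norm_algEquiv g _
  let N : (L ≃ₐ[K] L) → ℤ := fun g => n (Additive.toMul (β₀ g))
  have hN : ∀ g, ‖((Additive.toMul (β₀ g) : Lˣ) : L)‖ = ‖lf_unif K‖ ^ N g := fun g => hn _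
  have hsum : ∀ g h, N h - N (g * h) + N g = 0 := by
    intro g h
    have e := congrArg (fun x : Additive Lˣ => ‖((Additive.toMul x : Lˣ) : L)‖) (hβ₀ g h)
    beta_reduce at e
    rw [h1, hnadd, sub_eq_add_neg, hnadd, hnneg, hng, hN, hN, hN, ← zpow_neg,
      ← zpow_add₀ hρ0.ne', ← zpow_add₀ hρ0.ne'] at e
    have hinj := lf_zpow_norm_unif_injective (K := K)
    have := hinj (a₁ := N h + -N (g * h) + N g) (a₂ := 0) (by simpa using e)
    omega
  refine ⟨fun g => β₀ g - N g • Additive.ofMul ϖ, ?_, ?_⟩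
  · intro g
    show ‖((Additive.toMul (β₀ g - N g • Additive.ofMul ϖ) : Lˣ) : L)‖ = 1
    rw [sub_eq_add_neg, hnadd, hnneg, hnz, hN]
    exact mul_inv_cancel₀ (zpow_ne_zero _ hρ0.ne')
  · intro g h
    show g • (β₀ h - N h • Additive.ofMul ϖ) - (β₀ (g * h) - N (g * h) • Additive.ofMul ϖ)
      + (β₀ g - N g • Additive.ofMul ϖ) = c (g, h)
    have hN' : N (g * h) = N h + N g := by
      have := hsum g h
      omega
    rw [smul_sub, hgz, ← hβ₀ g h, hN', add_zsmul]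
    abel

end H2

end Fermat.Agent.S55
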