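/-
S55 (Poitou-Tate), BRIDGE package [MU-T] (helper24).  Prefix `mut_`.

`F_p(1) = pt_T p` versus the group `μ_p` of `p`-th roots of unity of `AlgebraicClosure ℚ`
(resp. of `PadicAlgCl q`):

* `mut_zeta p`            : a fixed primitive `p`-th root of unity of `AlgebraicClosure ℚ`;
* `mut_exp p`             : `pt_T p → (AlgebraicClosure ℚ)ˣ`, `a ↦ ζ ^ a`;  additive-to-multiplicative,
                            injective, with image `rootsOfUnity p`, and Galois equivariant:
                            `g (mut_exp a) = mut_exp ((pt_T p).ρ g a)`;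
* `mut_expLoc p q`        : the same with values in `(PadicAlgCl q)ˣ`, equivariant for the local
                            Galois group through `localGaloisToGlobal q`;
* the cocycle dictionary (degrees 1, 2, 3) between additive cochains with values in `pt_T p`
  and multiplicative cochains with values in roots of unity.
-/
import Mathlib
import Fermat.Agent.S55.PT
import Fermat.Agent.S55.Adm
import Fermat.Agent.S55.Bridge.Defs

set_option autoImplicit false
set_option linter.style.haveILetI false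
set_option maxHeartbeats 1000000
set_option synthInstance.maxHeartbeats 400000
open CategoryTheory Module groupCohomology ExtCitation

namespace Fermat.Agent.S55

local notation "Qbar" => AlgebraicClosure ℚ

/-! ### Generic exponential attached to an element of order `p` -/

section Generic

variable {p : ℕ} [Fact p.Prime] {M : Type*} [CommGroup M]

/-- `a ↦ z ^ a` for `a : ZMod p`. -/
def mut_pow (z : M) (a : ZMod p) : M := z ^ a.val

theorem mut_pow_zero (z : M) : mut_pow (p := p) z 0 = 1 := by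
  simp [mut_pow]

theorem mut_pow_natCast {z : M} (hz : z ^ p = 1) (n : ℕ) :
    mut_pow (p := p) z (n : ZMod p) = z ^ n := by
  unfold mut_pow
  rw [ZMod.val_natCast]
  conv_rhs => rw [← Nat.mod_add_div n p]
  rw [pow_add, pow_mul, hz, one_pow, mul_one]

theorem mut_pow_add {z : M} (hz : z ^ p = 1) (a b : ZMod p) :
    mut_pow z (a + b) = mut_pow z a * mut_pow z b := by
  haveI : NeZero p := ⟨(Fact.out : p.Prime).ne_zero⟩
  have h := mut_pow_natCast hz (a.val + b.val)
  rw [Nat.cast_add, ZMod.natCast_zmod_val, ZMod.natCast_zmod_val] at h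
  rw [h, pow_add]
  rfl

theorem mut_pow_mul {z : M} (hz : z ^ p = 1) (a b : ZMod p) :
    mut_pow z (a * b) = mut_pow z b ^ a.val := by
  haveI : NeZero p := ⟨(Fact.out : p.Prime).ne_zero⟩
  have h := mut_pow_natCast hz (a.val * b.val)
  rw [Nat.cast_mul, ZMod.natCast_zmod_val, ZMod.natCast_zmod_val] at h
  rw [h, mul_comm, pow_mul]
  rfl

omit [Fact p.Prime] in
theorem mut_pow_pow {z : M} (hz : z ^ p = 1) (a : ZMod p) : mut_pow z a ^ p = 1 := by
  unfold mut_pow
  rw [← pow_mul, mul_comm, pow_mul, hz, one_pow]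

theorem mut_pow_neg {z : M} (hz : z ^ p = 1) (a : ZMod p) :
    mut_pow z (-a) = (mut_pow z a)⁻¹ := by
  rw [eq_inv_iff_mul_eq_one, ← mut_pow_add hz, neg_add_cancel, mut_pow_zero]

theorem mut_pow_sub {z : M} (hz : z ^ p = 1) (a b : ZMod p) :
    mut_pow z (a - b) = mut_pow z a / mut_pow z b := by
  rw [sub_eq_add_neg, mut_pow_add hz, mut_pow_neg hz, div_eq_mul_inv]

theorem mut_pow_eq_one_iff {z : M} (hz : z ^ p = 1) (hz1 : z ≠ 1) (a : ZMod p) :
    mut_pow z a = 1 ↔ a = 0 := by
  haveI : NeZero p := ⟨(Fact.out : p.Prime).ne_zero⟩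
  constructor
  · intro h
    unfold mut_pow at h
    have hord : orderOf z = p := by
      rcases (Nat.dvd_prime (Fact.out : p.Prime)).1 (orderOf_dvd_of_pow_eq_one hz) with h1 | h1
      · exact absurd (orderOf_eq_one_iff.1 h1) hz1
      · exact h1
    have hdvd : p ∣ a.val := by
      have := orderOf_dvd_of_pow_eq_one h
      rwa [hord] at this
    have hlt : a.val < p := ZMod.val_lt a
    have h0 : a.val = 0 := Nat.eq_zero_of_dvd_of_lt hdvd hlt
    exact (ZMod.val_eq_zero a).1 h0
  · rintro rfl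
    exact mut_pow_zero z

theorem mut_pow_injective {z : M} (hz : z ^ p = 1) (hz1 : z ≠ 1) :
    Function.Injective (mut_pow (p := p) z) := by
  intro a b h
  have h1 : mut_pow z (a - b) = 1 := by
    rw [mut_pow_sub hz, h, div_self']
  exact sub_eq_zero.1 ((mut_pow_eq_one_iff hz hz1 _).1 h1)

end Generic

/-! ### Generic dictionary: additive cochains versus multiplicative cochains -/

section Dictionary

universe u

variable {k H : Type u} [CommRing k] [Group H] (A : Rep k H)
  {M : Type*} [CommGroup M] [MulDistribMulAction H M]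

/-- `E : A → M` is an injective, equivariant homomorphism from the additive group of the
representation `A` to the multiplicative `H`-module `M`. -/
structure mut_IsExp (E : A → M) : Prop where
  map_add : ∀ a b : A, E (a + b) = E a * E b
  inj : Function.Injective E
  equivariant : ∀ (h : H) (a : A), h • E a = E (A.ρ h a)

namespace mut_IsExp

variable {A} {E : A → M} (hE : mut_IsExp A E)
include hE

theorem map_zero : E 0 = 1 := by
  have h := hE.map_add 0 0
  rw [add_zero] at h
  exact (mul_eq_left.1 h.symm)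

theorem map_neg (a : A) : E (-a) = (E a)⁻¹ := by
  rw [eq_inv_iff_mul_eq_one, ← hE.map_add, neg_add_cancel, hE.map_zero]

theorem map_sub (a b : A) : E (a - b) = E a / E b := by
  rw [sub_eq_add_neg, hE.map_add, hE.map_neg, div_eq_mul_inv]

theorem eq_zero_iff (a : A) : E a = 1 ↔ a = 0 := by
  rw [← hE.map_zero]
  exact hE.inj.eq_iff

theorem map_d₀₁ (a : A) (g : H) : E ((d₀₁ A).hom a g) = g • E a / E a := by
  rw [d₀₁_hom_apply, hE.map_sub, hE.equivariant]

theorem map_d₁₂ (x : H → A) (g h : H) :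
    E ((d₁₂ A).hom x (g, h)) = g • E (x h) / E (x (g * h)) * E (x g) := by
  rw [d₁₂_hom_apply, hE.map_add, hE.map_sub, hE.equivariant]

theorem map_d₂₃ (f : H × H → A) (g h j : H) :
    E ((d₂₃ A).hom f (g, h, j)) =
      g • E (f (h, j)) / E (f (g * h, j)) * E (f (g, h * j)) / E (f (g, h)) := by
  rw [d₂₃_hom_apply, hE.map_sub, hE.map_add, hE.map_sub, hE.equivariant]

/-- additive 1-cocycles correspond to multiplicative 1-cocycles. -/
theorem mem_cocycles₁_iff (f : H → A) :
    f ∈ cocycles₁ A ↔ IsMulCocycle₁ (fun g => E (f g)) := by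
  rw [groupCohomology.mem_cocycles₁_iff]
  constructor
  · intro h g g'
    change E (f (g * g')) = g • E (f g') * E (f g)
    rw [h g g', hE.map_add, hE.equivariant]
  · intro h g g'
    apply hE.inj
    have := h g g'
    change E (f (g * g')) = g • E (f g') * E (f g) at this
    rw [this, hE.map_add, hE.equivariant]

/-- additive 2-cocycles correspond to multiplicative 2-cocycles. -/
theorem mem_cocycles₂_iff (f : H × H → A) :
    f ∈ cocycles₂ A ↔ IsMulCocycle₂ (fun x => E (f x)) := by
  rw [groupCohomology.mem_cocycles₂_iff]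
  constructor
  · intro h g g' j
    change E (f (g * g', j)) * E (f (g, g')) = g • E (f (g', j)) * E (f (g, g' * j))
    rw [← hE.map_add, h g g' j, hE.map_add, hE.equivariant]
  · intro h g g' j
    apply hE.inj
    have := h g g' j
    change E (f (g * g', j)) * E (f (g, g')) = g • E (f (g', j)) * E (f (g, g' * j)) at this
    rw [hE.map_add, this, hE.map_add, hE.equivariant]

/-- `f = d x` in terms of the multiplicative cochains. -/
theorem d₀₁_eq_iff (a : A) (f : H → A) :
    (d₀₁ A).hom a = f ↔ ∀ g : H, g • E a / E a = E (f g) := by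
  constructor
  · rintro rfl g
    exact (hE.map_d₀₁ a g).symm
  · intro h
    funext g
    apply hE.inj
    rw [hE.map_d₀₁, h]

theorem d₁₂_eq_iff (x : H → A) (f : H × H → A) :
    (d₁₂ A).hom x = f ↔ ∀ g h : H, g • E (x h) / E (x (g * h)) * E (x g) = E (f (g, h)) := by
  constructor
  · rintro rfl g h
    exact (hE.map_d₁₂ x g h).symm
  · intro h
    funext ⟨g, g'⟩
    apply hE.inj
    rw [hE.map_d₁₂, h]

theorem d₂₃_eq_iff (f : H × H → A) (c : H × H × H → A) :
    (d₂₃ A).hom f = c ↔ ∀ g h j : H,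
      g • E (f (h, j)) / E (f (g * h, j)) * E (f (g, h * j)) / E (f (g, h)) = E (c (g, h, j)) := by
  constructor
  · rintro rfl g h j
    exact (hE.map_d₂₃ f g h j).symm
  · intro h
    funext ⟨g, g', j⟩
    apply hE.inj
    rw [hE.map_d₂₃, h]

omit [CommGroup M] [MulDistribMulAction H M] hE in
/-- a multiplicative cochain with values in the range of `E` comes from an additive one. -/
theorem exists_lift {X : Type*} (y : X → M) (hy : ∀ x, y x ∈ Set.range E) :
    ∃ x : X → A, ∀ t, E (x t) = y t :=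
  ⟨fun t => (hy t).choose, fun t => (hy t).choose_spec⟩

theorem mem_coboundaries₁_iff (f : H → A) :
    f ∈ coboundaries₁ A ↔ ∃ z : M, z ∈ Set.range E ∧ ∀ g : H, g • z / z = E (f g) := by
  constructor
  · rintro ⟨a, ha⟩
    exact ⟨E a, ⟨a, rfl⟩, (hE.d₀₁_eq_iff a f).1 ha⟩
  · rintro ⟨z, ⟨a, rfl⟩, hz⟩
    exact ⟨a, (hE.d₀₁_eq_iff a f).2 hz⟩

theorem mem_coboundaries₂_iff (f : H × H → A) :
    f ∈ coboundaries₂ A ↔ ∃ y : H → M, (∀ h, y h ∈ Set.range E) ∧
      ∀ g h : H, g • y h / y (g * h) * y g = E (f (g, h)) := by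
  constructor
  · rintro ⟨x, hx⟩
    exact ⟨fun h => E (x h), fun h => ⟨x h, rfl⟩, (hE.d₁₂_eq_iff x f).1 hx⟩
  · rintro ⟨y, hy, hyf⟩
    obtain ⟨x, hx⟩ := mut_IsExp.exists_lift (E := E) y hy
    refine ⟨x, (hE.d₁₂_eq_iff x f).2 fun g h => ?_⟩
    rw [hx, hx, hx]
    exact hyf g h

theorem isMulCoboundary₁ {f : H → A} (hf : f ∈ coboundaries₁ A) :
    IsMulCoboundary₁ (fun g => E (f g)) := by
  obtain ⟨z, -, hz⟩ := (hE.mem_coboundaries₁_iff f).1 hf
  exact ⟨z, hz⟩

theorem isMulCoboundary₂ {f : H × H → A} (hf : f ∈ coboundaries₂ A) :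
    IsMulCoboundary₂ (fun x => E (f x)) := by
  obtain ⟨y, -, hy⟩ := (hE.mem_coboundaries₂_iff f).1 hf
  exact ⟨y, hy⟩

end mut_IsExp

end Dictionary

/-! ### The global exponential `F_p(1) → μ_p ⊂ Qbarˣ` -/

section Global

variable (p : ℕ) [Fact p.Prime]

theorem mut_exists_prim : ∃ ζ : Qbar, IsPrimitiveRoot ζ p := by
  haveI : NeZero (p : Qbar) := ⟨by exact_mod_cast (Fact.out : p.Prime).ne_zero⟩
  exact HasEnoughRootsOfUnity.exists_primitiveRoot Qbar p

/-- a fixed primitive `p`-th root of unity in `AlgebraicClosure ℚ`. -/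
noncomputable def mut_zeta : Qbar := (mut_exists_prim p).choose

theorem mut_zeta_prim : IsPrimitiveRoot (mut_zeta p) p := (mut_exists_prim p).choose_spec

/-- the same as a unit. -/
noncomputable def mut_zetaU : Qbarˣ :=
  ((mut_zeta_prim p).isUnit (Fact.out : p.Prime).ne_zero).unit

@[simp] theorem mut_zetaU_coe : ((mut_zetaU p : Qbarˣ) : Qbar) = mut_zeta p := rfl

theorem mut_zetaU_pow : mut_zetaU p ^ p = 1 := by
  apply Units.ext
  rw [Units.val_pow_eq_pow_val, mut_zetaU_coe, (mut_zeta_prim p).pow_eq_one, Units.val_one]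

theorem mut_zetaU_ne_one : mut_zetaU p ≠ 1 := by
  intro h
  have h1 : mut_zeta p = 1 := by
    have := congrArg (fun u : Qbarˣ => (u : Qbar)) h
    simpa using this
  exact (mut_zeta_prim p).ne_one (Fact.out : p.Prime).one_lt h1

theorem mut_zetaU_mem : mut_zetaU p ∈ rootsOfUnity p Qbar :=
  (mem_rootsOfUnity _ _).2 (mut_zetaU_pow p)

/-- **the exponential** `F_p(1) → Qbarˣ`, `a ↦ ζ ^ a`. -/
noncomputable def mut_exp (a : pt_T p) : Qbarˣ :=
  mut_pow (mut_zetaU p) (show ZMod p from a)

theorem mut_exp_zero : mut_exp p 0 = 1 := mut_pow_zero _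

theorem mut_exp_add (a b : pt_T p) : mut_exp p (a + b) = mut_exp p a * mut_exp p b :=
  mut_pow_add (mut_zetaU_pow p) _ _

theorem mut_exp_neg (a : pt_T p) : mut_exp p (-a) = (mut_exp p a)⁻¹ :=
  mut_pow_neg (mut_zetaU_pow p) _

theorem mut_exp_sub (a b : pt_T p) : mut_exp p (a - b) = mut_exp p a / mut_exp p b :=
  mut_pow_sub (mut_zetaU_pow p) _ _

theorem mut_exp_pow (a : pt_T p) : mut_exp p a ^ p = 1 := mut_pow_pow (mut_zetaU_pow p) _

theorem mut_exp_mem (a : pt_T p) : mut_exp p a ∈ rootsOfUnity p Qbar :=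
  (mem_rootsOfUnity _ _).2 (mut_exp_pow p a)

theorem mut_exp_eq_one_iff (a : pt_T p) : mut_exp p a = 1 ↔ a = 0 :=
  mut_pow_eq_one_iff (mut_zetaU_pow p) (mut_zetaU_ne_one p) _

theorem mut_exp_injective : Function.Injective (mut_exp p) :=
  mut_pow_injective (mut_zetaU_pow p) (mut_zetaU_ne_one p)

/-- every `p`-th root of unity is a value of `mut_exp`. -/
theorem mut_exp_surj {t : Qbarˣ} (ht : t ∈ rootsOfUnity p Qbar) : ∃ a : pt_T p, mut_exp p a = t := by
  haveI : NeZero p := ⟨(Fact.out : p.Prime).ne_zero⟩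
  have ht' : (t : Qbar) ^ p = 1 := by
    have := (mem_rootsOfUnity _ _).1 ht
    have h2 := congrArg (fun u : Qbarˣ => (u : Qbar)) this
    simpa using h2
  obtain ⟨i, -, hi⟩ := (mut_zeta_prim p).eq_pow_of_pow_eq_one ht'
  refine ⟨((i : ZMod p) : ZMod p), ?_⟩
  apply Units.ext
  change ((mut_pow (mut_zetaU p) ((i : ZMod p)) : Qbarˣ) : Qbar) = t
  rw [mut_pow_natCast (mut_zetaU_pow p), Units.val_pow_eq_pow_val, mut_zetaU_coe, hi]

/-- the units `mut_exp a` are exactly the `p`-th roots of unity. -/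
theorem mut_range_exp : Set.range (mut_exp p) = (rootsOfUnity p Qbar : Set Qbarˣ) := by
  ext t
  constructor
  · rintro ⟨a, rfl⟩
    exact mut_exp_mem p a
  · intro ht
    exact mut_exp_surj p ht

/-- **Galois equivariance**: `g • ζ^a = ζ^(χ(g) a)`. -/
theorem mut_exp_rho (g : s55_GQ) (a : pt_T p) :
    g • mut_exp p a = mut_exp p ((pt_T p).ρ g a) := by
  apply Units.ext
  have h1 : ((g • mut_exp p a : Qbarˣ) : Qbar) = g ((mut_exp p a : Qbarˣ) : Qbar) := rfl
  rw [h1, adm_cyclo_spec p g (mut_exp_mem p a), adm_T_ρ]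
  change _ = ((mut_pow (mut_zetaU p) (((cycloChar p g : (ZMod p)ˣ) : ZMod p) * (show ZMod p from a)) :
    Qbarˣ) : Qbar)
  rw [mut_pow_mul (mut_zetaU_pow p), Units.val_pow_eq_pow_val]
  rfl

theorem mut_exp_rho_coe (g : s55_GQ) (a : pt_T p) :
    g ((mut_exp p a : Qbarˣ) : Qbar) = ((mut_exp p ((pt_T p).ρ g a) : Qbarˣ) : Qbar) := by
  rw [← mut_exp_rho]
  rfl

/-- **[MU-T], global form**: `mut_exp` identifies `F_p(1)` with `μ_p ⊂ Qbarˣ`,
compatibly with the action of `G_ℚ`. -/
theorem mut_isExp : mut_IsExp (pt_T p) (mut_exp p) where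
  map_add := mut_exp_add p
  inj := mut_exp_injective p
  equivariant := mut_exp_rho p

/-- **[MU-T], restricted form**: the same along any homomorphism `φ : H →* G_ℚ`
(`H` acts on `Qbarˣ` through `φ`). -/
theorem mut_isExp_res {H : Type} [Group H] (φ : H →* s55_GQ) :
    letI : MulDistribMulAction H Qbarˣ := MulDistribMulAction.compHom Qbarˣ φ
    mut_IsExp (Rep.res φ (pt_T p)) (mut_exp p) := by
  letI : MulDistribMulAction H Qbarˣ := MulDistribMulAction.compHom Qbarˣ φ
  exact
    { map_add := mut_exp_add p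
      inj := mut_exp_injective p
      equivariant := fun h a => mut_exp_rho p (φ h) a }

/-- the action of `G_ℚ` on the fixed primitive root. -/
theorem mut_zeta_smul (g : s55_GQ) :
    g (mut_zeta p) = mut_zeta p ^ ((cycloChar p g : ZMod p)).val :=
  adm_cyclo_spec p g (mut_zetaU_mem p)

/-- **[MU-T]** in the form of `Bridge/Defs.lean`. -/
theorem mut_main : br_MuTStatement := fun p _ =>
  ⟨mut_zeta p, mut_zeta_prim p, fun g => mut_zeta_smul p g⟩

end Global

/-! ### The local exponential `F_p(1) → μ_p ⊂ (PadicAlgCl q)ˣ` -/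

section Local

variable (p : ℕ) [Fact p.Prime] (q : ℕ) [Fact q.Prime]

/-- the exponential with values in the units of `PadicAlgCl q`. -/
noncomputable def mut_expLoc (a : pt_T p) : (PadicAlgCl q)ˣ :=
  Units.map ((padicEmbedding q : Qbar →ₐ[ℚ] PadicAlgCl q) : Qbar →* PadicAlgCl q) (mut_exp p a)

theorem mut_expLoc_coe (a : pt_T p) :
    ((mut_expLoc p q a : (PadicAlgCl q)ˣ) : PadicAlgCl q) =
      padicEmbedding q ((mut_exp p a : Qbarˣ) : Qbar) := rfl

theorem mut_expLoc_zero : mut_expLoc p q 0 = 1 := by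
  unfold mut_expLoc
  rw [mut_exp_zero, map_one]

theorem mut_expLoc_add (a b : pt_T p) :
    mut_expLoc p q (a + b) = mut_expLoc p q a * mut_expLoc p q b := by
  unfold mut_expLoc
  rw [mut_exp_add, map_mul]

theorem mut_expLoc_pow (a : pt_T p) : mut_expLoc p q a ^ p = 1 := by
  unfold mut_expLoc
  rw [← map_pow, mut_exp_pow, map_one]

theorem mut_expLoc_mem (a : pt_T p) : mut_expLoc p q a ∈ rootsOfUnity p (PadicAlgCl q) :=
  (mem_rootsOfUnity _ _).2 (mut_expLoc_pow p q a)

theorem mut_expLoc_injective : Function.Injective (mut_expLoc p q) := by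
  intro a b h
  apply mut_exp_injective p
  apply Units.ext
  apply (padicEmbedding q).injective
  have := congrArg (fun u : (PadicAlgCl q)ˣ => (u : PadicAlgCl q)) h
  exact this

/-- the image of the fixed primitive root is a primitive root of `PadicAlgCl q`. -/
theorem mut_zetaLoc_prim : IsPrimitiveRoot (padicEmbedding q (mut_zeta p)) p :=
  (mut_zeta_prim p).map_of_injective (padicEmbedding q).injective

/-- every `p`-th root of unity of `PadicAlgCl q` is a value of `mut_expLoc`. -/
theorem mut_expLoc_surj {t : (PadicAlgCl q)ˣ} (ht : t ∈ rootsOfUnity p (PadicAlgCl q)) :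
    ∃ a : pt_T p, mut_expLoc p q a = t := by
  haveI : NeZero p := ⟨(Fact.out : p.Prime).ne_zero⟩
  have ht' : (t : PadicAlgCl q) ^ p = 1 := by
    have := (mem_rootsOfUnity _ _).1 ht
    have h2 := congrArg (fun u : (PadicAlgCl q)ˣ => (u : PadicAlgCl q)) this
    simpa using h2
  obtain ⟨i, -, hi⟩ := (mut_zetaLoc_prim p q).eq_pow_of_pow_eq_one ht'
  refine ⟨((i : ZMod p) : ZMod p), ?_⟩
  apply Units.ext
  rw [mut_expLoc_coe]
  change padicEmbedding q ((mut_pow (mut_zetaU p) ((i : ZMod p)) : Qbarˣ) : Qbar) = t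
  rw [mut_pow_natCast (mut_zetaU_pow p), Units.val_pow_eq_pow_val, mut_zetaU_coe, map_pow, hi]

theorem mut_range_expLoc :
    Set.range (mut_expLoc p q) = (rootsOfUnity p (PadicAlgCl q) : Set (PadicAlgCl q)ˣ) := by
  ext t
  constructor
  · rintro ⟨a, rfl⟩
    exact mut_expLoc_mem p q a
  · intro ht
    exact mut_expLoc_surj p q ht

/-- **local Galois equivariance**: `τ (ζ^a) = ζ^(χ(τ|Qbar) a)`. -/
theorem mut_expLoc_rho (τ : PadicAlgCl q ≃ₐ[ℚ_[q]] PadicAlgCl q) (a : pt_T p) :
    τ • mut_expLoc p q a = mut_expLoc p q ((pt_T p).ρ (localGaloisToGlobal q τ) a) := by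
  apply Units.ext
  have h1 : ((τ • mut_expLoc p q a : (PadicAlgCl q)ˣ) : PadicAlgCl q) =
      τ ((mut_expLoc p q a : (PadicAlgCl q)ˣ) : PadicAlgCl q) := rfl
  rw [h1, mut_expLoc_coe, mut_expLoc_coe, ← padicEmbedding_localGaloisToGlobal, mut_exp_rho_coe]

/-- the action of the local Galois group on the image of the fixed primitive root. -/
theorem mut_zetaLoc_smul (τ : PadicAlgCl q ≃ₐ[ℚ_[q]] PadicAlgCl q) :
    τ (padicEmbedding q (mut_zeta p)) =
      padicEmbedding q (mut_zeta p) ^ ((cycloChar p (localGaloisToGlobal q τ) : ZMod p)).val := by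
  rw [← padicEmbedding_localGaloisToGlobal, mut_zeta_smul, map_pow]

/-- **[MU-T], local form**: `mut_expLoc` identifies the restriction of `F_p(1)` to the local
Galois group with `μ_p ⊂ (PadicAlgCl q)ˣ` with its native Galois action. -/
theorem mut_isExp_loc :
    mut_IsExp (Rep.res (localGaloisToGlobal q) (pt_T p)) (mut_expLoc p q) where
  map_add := mut_expLoc_add p q
  inj := mut_expLoc_injective p q
  equivariant := mut_expLoc_rho p q

end Local

end Fermat.Agent.S55
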