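/-
S55 (Poitou-Tate), package [PAIR-OF], part 2: the pairing as a relation.  Owner: helper8.
Prefix `pof_`.

`pof_Rel inv S M x y t` : "`t = ∑_v inv_v [ b_v ∪ loc_v y - loc_v ε ]` for some level-`S`
2-cochain `ε` of `F_p(1)` with `d ε = c ∪ y`" (`x = (c, b)`).  It is bi-additive, total on
cone cocycles × level-`S` cocycles ([H3VAN], [CUPLEVEL]), single valued ([REC]), and relates
cone coboundaries and coboundaries `d m'` to `0`.
-/
import Mathlib
import Fermat.Agent.S55.PairOfCup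

set_option autoImplicit false
set_option maxHeartbeats 1000000
set_option synthInstance.maxHeartbeats 400000
open CategoryTheory Module groupCohomology ExtCitation

namespace Fermat.Agent.S55

/-- Abstract descent: a bi-additive, bi-homogeneous, total and single-valued relation
`R x y t` which relates `(x, y)` to `0` for `x ∈ B₀` and for `q y = 0` defines a linear map
`Z ⧸ B₀ → Dual H`.  (`Y` is only assumed to be an additive monoid: negation is `(-1) • ·`.) -/
theorem pof_descend {k Z Y H : Type*} [CommRing k] [AddCommGroup Z] [Module k Z]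
    [AddCommMonoid Y] [Module k Y] [AddCommGroup H] [Module k H]
    (B₀ : Submodule k Z) (q : Y →ₗ[k] H) (hq : Function.Surjective q)
    (R : Z → Y → k → Prop)
    (hex : ∀ x y, ∃ t, R x y t)
    (huniq : ∀ x y t t', R x y t → R x y t' → t = t')
    (hadd : ∀ x x' y t t', R x y t → R x' y t' → R (x + x') y (t + t'))
    (hadd' : ∀ x y y' t t', R x y t → R x y' t' → R x (y + y') (t + t'))
    (hsmul : ∀ (a : k) x y t, R x y t → R (a • x) y (a • t))
    (hsmul' : ∀ (a : k) x y t, R x y t → R x (a • y) (a • t))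
    (hB : ∀ x ∈ B₀, ∀ y, R x y 0)
    (hY : ∀ x y, q y = 0 → R x y 0) :
    ∃ Θ : (Z ⧸ B₀) →ₗ[k] Module.Dual k H,
      ∀ x y, R x y (Θ (Submodule.Quotient.mk x) (q y)) := by
  classical
  choose f hf using hex
  have fadd : ∀ x x' y, f (x + x') y = f x y + f x' y := fun x x' y =>
    huniq _ _ _ _ (hf _ _) (hadd _ _ _ _ _ (hf x y) (hf x' y))
  have fadd' : ∀ x y y', f x (y + y') = f x y + f x y' := fun x y y' =>
    huniq _ _ _ _ (hf _ _) (hadd' _ _ _ _ _ (hf x y) (hf x y'))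
  have fsmul : ∀ (a : k) x y, f (a • x) y = a • f x y := fun a x y =>
    huniq _ _ _ _ (hf _ _) (hsmul a _ _ _ (hf x y))
  have fsmul' : ∀ (a : k) x y, f x (a • y) = a • f x y := fun a x y =>
    huniq _ _ _ _ (hf _ _) (hsmul' a _ _ _ (hf x y))
  have fker : ∀ x y, q y = 0 → f x y = 0 := fun x y h =>
    huniq _ _ _ _ (hf _ _) (hY x y h)
  have fB : ∀ x ∈ B₀, ∀ y, f x y = 0 := fun x hx y =>
    huniq _ _ _ _ (hf _ _) (hB x hx y)
  have fcongr : ∀ x y y', q y = q y' → f x y = f x y' := by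
    intro x y y' h
    have h1 : f x (y + (-1 : k) • y') = 0 :=
      fker x _ (by rw [map_add, map_smul, h, neg_one_smul, add_neg_cancel])
    have h2 : f x (y + (-1 : k) • y') = f x y + (-1 : k) • f x y' := by
      rw [fadd', fsmul']
    rw [h1, neg_one_smul] at h2
    exact (sub_eq_zero.1 (by rw [sub_eq_add_neg]; exact h2.symm))
  let s : H → Y := Function.surjInv hq
  have hs : ∀ w, q (s w) = w := Function.surjInv_eq hq
  let Θ₀ : Z →ₗ[k] Module.Dual k H :=
    { toFun := fun x =>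
        { toFun := fun w => f x (s w)
          map_add' := fun w w' => by
            rw [← fadd']
            exact fcongr _ _ _ (by rw [map_add, hs, hs, hs])
          map_smul' := fun a w => by
            rw [RingHom.id_apply, ← fsmul']
            exact fcongr _ _ _ (by rw [map_smul, hs, hs]) }
      map_add' := fun x x' => by
        ext w
        exact fadd x x' (s w)
      map_smul' := fun a x => by
        ext w
        exact fsmul a x (s w) }
  have hΘ₀ : ∀ x y, Θ₀ x (q y) = f x y := fun x y => fcongr _ _ _ (hs _)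
  refine ⟨B₀.liftQ Θ₀ (fun x hx => ?_), fun x y => ?_⟩
  · rw [LinearMap.mem_ker]
    ext w
    exact fB x hx (s w)
  · rw [Submodule.liftQ_apply, hΘ₀]
    exact hf x y

variable {p : ℕ} [Fact p.Prime]

section Rel

variable (inv : pt_InvFamily) (S : Finset Nat.Primes) (M : Rep.{0, 0, 0} (ZMod p) s55_GQ)

/-- The local term `b_v ∪ loc_v y - loc_v ε`. -/
noncomputable def pof_L (v : extArithIndex S)
    (b : extArithLocalGroups S v → Rep.res (extArithLoc S v) M)
    (y : s55_GQ → M.dualTwist (cycloChar p)) (ε : s55_GQ × s55_GQ → pt_T p) :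
    extArithLocalGroups S v × extArithLocalGroups S v → Rep.res (extArithLoc S v) (pt_T p) :=
  cup₁₁ (pt_evv S v M) b (cone_loc₁ S (M.dualTwist (cycloChar p)) v y) -
    cone_loc₂ S (pt_T p) v ε

variable {S M} in
lemma pof_L_add (v : extArithIndex S)
    (b b' : extArithLocalGroups S v → Rep.res (extArithLoc S v) M)
    (y : s55_GQ → M.dualTwist (cycloChar p)) (ε ε' : s55_GQ × s55_GQ → pt_T p) :
    pof_L S M v (b + b') y (ε + ε') = pof_L S M v b y ε + pof_L S M v b' y ε' := by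
  unfold pof_L
  rw [pof_cup₁₁_add_left, map_add]
  abel

variable {S M} in
lemma pof_L_add_right (v : extArithIndex S)
    (b : extArithLocalGroups S v → Rep.res (extArithLoc S v) M)
    (y y' : s55_GQ → M.dualTwist (cycloChar p)) (ε ε' : s55_GQ × s55_GQ → pt_T p) :
    pof_L S M v b (y + y') (ε + ε') = pof_L S M v b y ε + pof_L S M v b y' ε' := by
  unfold pof_L
  rw [map_add, pof_cup₁₁_add_right, map_add]
  abel

variable {S M} in
lemma pof_L_smul (v : extArithIndex S) (a : ZMod p)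
    (b : extArithLocalGroups S v → Rep.res (extArithLoc S v) M)
    (y : s55_GQ → M.dualTwist (cycloChar p)) (ε : s55_GQ × s55_GQ → pt_T p) :
    pof_L S M v (a • b) y (a • ε) = a • pof_L S M v b y ε := by
  unfold pof_L
  rw [pof_cup₁₁_smul_left, map_smul, smul_sub]

variable {S M} in
lemma pof_L_smul_right (v : extArithIndex S) (a : ZMod p)
    (b : extArithLocalGroups S v → Rep.res (extArithLoc S v) M)
    (y : s55_GQ → M.dualTwist (cycloChar p)) (ε : s55_GQ × s55_GQ → pt_T p) :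
    pof_L S M v b (a • y) (a • ε) = a • pof_L S M v b y ε := by
  unfold pof_L
  rw [map_smul, pof_cup₁₁_smul_right, map_smul, smul_sub]

variable {S M} in
lemma pof_L_sub_eps (v : extArithIndex S)
    (b : extArithLocalGroups S v → Rep.res (extArithLoc S v) M)
    (y : s55_GQ → M.dualTwist (cycloChar p)) (ε ε' : s55_GQ × s55_GQ → pt_T p) :
    pof_L S M v b y ε - pof_L S M v b y ε' = cone_loc₂ S (pt_T p) v (ε' - ε) := by
  unfold pof_L
  rw [map_sub]
  abel

/-- The sum of the local invariants. -/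
noncomputable def pof_V :
    (∀ v : extArithIndex S,
      ↥(levelCocycles₂ (extArithLoc S v) (Rep.res (extArithLoc S v) (pt_T p)))) →ₗ[ZMod p]
      ZMod p :=
  ∑ v : extArithIndex S, ((inv p S v).comp (continuousH2π (extArithLoc S v)
    (Rep.res (extArithLoc S v) (pt_T p)))).comp (LinearMap.proj v)

lemma pof_V_apply (ℓ : ∀ v : extArithIndex S,
      ↥(levelCocycles₂ (extArithLoc S v) (Rep.res (extArithLoc S v) (pt_T p)))) :
    pof_V inv S ℓ = ∑ v : extArithIndex S, inv p S v (continuousH2π _ _ (ℓ v)) := by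
  simp only [pof_V, LinearMap.sum_apply, LinearMap.comp_apply, LinearMap.proj_apply]

/-- The relation "`t` is a value of the pairing at `(x, y)`". -/
def pof_Rel (x : cone_Amb S M) (y : s55_GQ → M.dualTwist (cycloChar p)) (t : ZMod p) : Prop :=
  ∃ (ε : s55_GQ × s55_GQ → pt_T p)
    (hcoc : ∀ v : extArithIndex S, pof_L S M v (x.2 v) y ε ∈
      levelCocycles₂ (extArithLoc S v) (Rep.res (extArithLoc S v) (pt_T p))),
    IsLevelConstantS₂ S ε ∧ (d₂₃ (pt_T p)).hom ε = cup₂₁ (pt_ev M) x.1 y ∧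
      t = pof_V inv S (fun v => ⟨_, hcoc v⟩)

variable {inv S M}

theorem pof_rel_add {x x' : cone_Amb S M} {y : s55_GQ → M.dualTwist (cycloChar p)}
    {t t' : ZMod p} (h : pof_Rel inv S M x y t) (h' : pof_Rel inv S M x' y t') :
    pof_Rel inv S M (x + x') y (t + t') := by
  obtain ⟨ε, hcoc, hε, hd, rfl⟩ := h
  obtain ⟨ε', hcoc', hε', hd', rfl⟩ := h'
  refine ⟨ε + ε', fun v => ?_, hε.add hε', ?_, ?_⟩
  · rw [Prod.snd_add, Pi.add_apply, pof_L_add]
    exact Submodule.add_mem _ (hcoc v) (hcoc' v)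
  · rw [map_add, hd, hd', Prod.fst_add, pof_cup₂₁_add_left]
  · rw [← map_add]
    congr 1
    funext v
    apply Subtype.ext
    exact (pof_L_add (p := p) (M := M) v (x.2 v) (x'.2 v) y ε ε').symm

theorem pof_rel_add_right {x : cone_Amb S M} {y y' : s55_GQ → M.dualTwist (cycloChar p)}
    {t t' : ZMod p} (h : pof_Rel inv S M x y t) (h' : pof_Rel inv S M x y' t') :
    pof_Rel inv S M x (y + y') (t + t') := by
  obtain ⟨ε, hcoc, hε, hd, rfl⟩ := h
  obtain ⟨ε', hcoc', hε', hd', rfl⟩ := h'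
  refine ⟨ε + ε', fun v => ?_, hε.add hε', ?_, ?_⟩
  · rw [pof_L_add_right]
    exact Submodule.add_mem _ (hcoc v) (hcoc' v)
  · rw [map_add, hd, hd', pof_cup₂₁_add_right]
  · rw [← map_add]
    congr 1
    funext v
    apply Subtype.ext
    exact (pof_L_add_right (p := p) (M := M) v (x.2 v) y y' ε ε').symm

theorem pof_rel_smul (a : ZMod p) {x : cone_Amb S M} {y : s55_GQ → M.dualTwist (cycloChar p)}
    {t : ZMod p} (h : pof_Rel inv S M x y t) :
    pof_Rel inv S M (a • x) y (a • t) := by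
  obtain ⟨ε, hcoc, hε, hd, rfl⟩ := h
  refine ⟨a • ε, fun v => ?_, hε.comp (a • ·), ?_, ?_⟩
  · rw [Prod.smul_snd, Pi.smul_apply, pof_L_smul]
    exact Submodule.smul_mem _ a (hcoc v)
  · rw [map_smul, hd, Prod.smul_fst, pof_cup₂₁_smul_left]
  · rw [← map_smul]
    congr 1
    funext v
    apply Subtype.ext
    exact (pof_L_smul (p := p) (M := M) v a (x.2 v) y ε).symm

theorem pof_rel_smul_right (a : ZMod p) {x : cone_Amb S M}
    {y : s55_GQ → M.dualTwist (cycloChar p)}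
    {t : ZMod p} (h : pof_Rel inv S M x y t) :
    pof_Rel inv S M x (a • y) (a • t) := by
  obtain ⟨ε, hcoc, hε, hd, rfl⟩ := h
  refine ⟨a • ε, fun v => ?_, hε.comp (a • ·), ?_, ?_⟩
  · rw [pof_L_smul_right]
    exact Submodule.smul_mem _ a (hcoc v)
  · rw [map_smul, hd, pof_cup₂₁_smul_right]
  · rw [← map_smul]
    congr 1
    funext v
    apply Subtype.ext
    exact (pof_L_smul_right (p := p) (M := M) v a (x.2 v) y ε).symm

theorem pof_rel_unique (hREC : pt_RecStatement inv) (hp2 : p ≠ 2) (hpS : pPrime p ∈ S)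
    {x : cone_Amb S M} {y : s55_GQ → M.dualTwist (cycloChar p)} {t t' : ZMod p}
    (h : pof_Rel inv S M x y t) (h' : pof_Rel inv S M x y t') : t = t' := by
  obtain ⟨ε, hcoc, hε, hd, rfl⟩ := h
  obtain ⟨ε', hcoc', hε', hd', rfl⟩ := h'
  rw [← sub_eq_zero, ← map_sub]
  have hδ : ε' - ε ∈ levelCocyclesS₂ S (pt_T p) := by
    refine ⟨?_, Submodule.sub_mem (levelCochainsS₂ S (pt_T p)) hε' hε⟩
    change (d₂₃ (pt_T p)).hom (ε' - ε) = 0
    rw [map_sub, hd, hd', sub_self]
  have hrec := hREC hp2 S hpS (continuousH2Sπ S (pt_T p) ⟨ε' - ε, hδ⟩)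
  rw [pof_V_apply, ← hrec]
  refine Finset.sum_congr rfl fun v _ => ?_
  have hmem : cone_loc₂ S (pt_T p) v (ε' - ε) ∈
      levelCocycles₂ (extArithLoc S v) (Rep.res (extArithLoc S v) (pt_T p)) := by
    rw [← pof_L_sub_eps v (x.2 v) y ε ε']
    exact Submodule.sub_mem _ (hcoc v) (hcoc' v)
  have e : locTotal₂S S (pt_T p) (continuousH2Sπ S (pt_T p) ⟨ε' - ε, hδ⟩) v =
      continuousH2π _ _ ⟨cone_loc₂ S (pt_T p) v (ε' - ε), hmem⟩ := rfl
  rw [e]
  congr 2
  apply Subtype.ext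
  exact pof_L_sub_eps v (x.2 v) y ε ε'

/-- The local terms are continuous cocycles. -/
theorem pof_hcoc (hCL : pt_CupLevelStatement) (hp2 : p ≠ 2) (hpS : pPrime p ∈ S)
    [FiniteDimensional (ZMod p) M] (hsm : s55_Smooth M) (hMur : s55_UnramOutside S M)
    {x : cone_Amb S M} (hx : x ∈ cone_Z S M) {y : s55_GQ → M.dualTwist (cycloChar p)}
    (hyc : (d₁₂ (M.dualTwist (cycloChar p))).hom y = 0) (hy : IsLevelConstantS₁ S y)
    {ε : s55_GQ × s55_GQ → pt_T p} (hε : IsLevelConstantS₂ S ε)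
    (hd : (d₂₃ (pt_T p)).hom ε = cup₂₁ (pt_ev M) x.1 y) (v : extArithIndex S) :
    pof_L S M v (x.2 v) y ε ∈
      levelCocycles₂ (extArithLoc S v) (Rep.res (extArithLoc S v) (pt_T p)) := by
  have hly : (d₁₂ (Rep.res (extArithLoc S v) (M.dualTwist (cycloChar p)))).hom
      (cone_loc₁ S (M.dualTwist (cycloChar p)) v y) = 0 := by
    rw [pof_loc_d₁₂, hyc, map_zero]
  refine ⟨?_, ?_⟩
  · change (d₂₃ _).hom (pof_L S M v (x.2 v) y ε) = 0
    unfold pof_L
    rw [map_sub, cup_d₁₁ (pt_evv_equivariant S v M) _ _ hly, (hx.2 v).2]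
    funext ⟨g, h, j⟩
    rw [Pi.sub_apply, pof_loc_cup₂₁, pof_loc_d₂₃, hd, sub_self]
    rfl
  · exact Submodule.sub_mem (levelCochains₂ (extArithLoc S v)
        (Rep.res (extArithLoc S v) (pt_T p)))
      (hCL hp2 S hpS M hsm hMur v _ _ (hx.2 v).1 (pof_loc_level₁ S v _ y hy))
      (pof_loc_level₂ S v _ ε hε)

theorem pof_rel_exists (hT : pt_TAdmStatement) (hD : pt_DualAdmStatement)
    (hCL : pt_CupLevelStatement) (hH3 : pt_H3VanStatement)
    (hp2 : p ≠ 2) (hpS : pPrime p ∈ S)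
    [FiniteDimensional (ZMod p) M] (hsm : s55_Smooth M) (hMur : s55_UnramOutside S M)
    {x : cone_Amb S M} (hx : x ∈ cone_Z S M) {y : s55_GQ → M.dualTwist (cycloChar p)}
    (hyc : (d₁₂ (M.dualTwist (cycloChar p))).hom y = 0) (hy : IsLevelConstantS₁ S y) :
    ∃ t, pof_Rel inv S M x y t := by
  obtain ⟨hsm', hur'⟩ := hD hp2 S hpS M hsm hMur
  obtain ⟨K, hK, hfix⟩ := pof_uniform S (M.dualTwist (cycloChar p)) hsm' hur'
  have hlev : pt_IsLevelS₃ S (cup₂₁ (pt_ev M) x.1 y) :=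
    pof_levelS_cup₂₁ S (pt_ev M) hK hfix x.1 y hx.1.2 hy
  have hcoc₃ : pt_IsCocycle₃ (pt_T p) (cup₂₁ (pt_ev M) x.1 y) :=
    pof_cocycle₃ (pt_ev_equivariant M) x.1 y (LinearMap.mem_ker.1 hx.1.1) hyc
  obtain ⟨ε, hε, hd⟩ := hH3 hp2 S hpS (pt_T p) (hT hp2 S hpS).1 (hT hp2 S hpS).2 _ hlev hcoc₃
  exact ⟨_, ε, pof_hcoc hCL hp2 hpS hsm hMur hx hyc hy hε hd, hε, hd, rfl⟩

/-- The value is `0` as soon as all local terms are continuous coboundaries. -/
theorem pof_rel_zero_of {x : cone_Amb S M} {y : s55_GQ → M.dualTwist (cycloChar p)}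
    (ε : s55_GQ × s55_GQ → pt_T p) (hε : IsLevelConstantS₂ S ε)
    (hd : (d₂₃ (pt_T p)).hom ε = cup₂₁ (pt_ev M) x.1 y)
    (hcoc : ∀ v : extArithIndex S, pof_L S M v (x.2 v) y ε ∈
      levelCocycles₂ (extArithLoc S v) (Rep.res (extArithLoc S v) (pt_T p)))
    (hcob : ∀ v : extArithIndex S, pof_L S M v (x.2 v) y ε ∈
      levelCoboundaries₂ (extArithLoc S v) (Rep.res (extArithLoc S v) (pt_T p))) :
    pof_Rel inv S M x y 0 := by
  refine ⟨ε, hcoc, hε, hd, ?_⟩
  rw [pof_V_apply]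
  symm
  refine Finset.sum_eq_zero fun v _ => ?_
  have h0 : continuousH2π (extArithLoc S v) (Rep.res (extArithLoc S v) (pt_T p))
      ⟨_, hcoc v⟩ = 0 := (continuousH2π_eq_zero_iff _ _ _).2 (hcob v)
  rw [h0, map_zero]

/-- Cone coboundaries pair to `0`. -/
theorem pof_rel_cobdry_left (hD : pt_DualAdmStatement) (hCL : pt_CupLevelStatement)
    (hp2 : p ≠ 2) (hpS : pPrime p ∈ S)
    [FiniteDimensional (ZMod p) M] (hsm : s55_Smooth M) (hMur : s55_UnramOutside S M)
    (a : ↥(levelCochainsS₁ S M)) (m : extArithIndex S → M)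
    (hx : cone_d S M (a, m) ∈ cone_Z S M)
    {y : s55_GQ → M.dualTwist (cycloChar p)}
    (hyc : (d₁₂ (M.dualTwist (cycloChar p))).hom y = 0) (hy : IsLevelConstantS₁ S y) :
    pof_Rel inv S M (cone_d S M (a, m)) y 0 := by
  obtain ⟨hsm', hur'⟩ := hD hp2 S hpS M hsm hMur
  obtain ⟨K, hK, hfix⟩ := pof_uniform S (M.dualTwist (cycloChar p)) hsm' hur'
  have hε : IsLevelConstantS₂ S (cup₁₁ (pt_ev M) (a : s55_GQ → M) y) :=
    pof_levelS_cup₁₁ S (pt_ev M) hK hfix _ y a.2 hy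
  have hd : (d₂₃ (pt_T p)).hom (cup₁₁ (pt_ev M) (a : s55_GQ → M) y) =
      cup₂₁ (pt_ev M) (cone_d S M (a, m)).1 y := by
    rw [cone_d_fst]
    exact cup_d₁₁ (pt_ev_equivariant M) _ y hyc
  have hL : ∀ v : extArithIndex S,
      pof_L S M v ((cone_d S M (a, m)).2 v) y (cup₁₁ (pt_ev M) (a : s55_GQ → M) y) =
        (d₁₂ (Rep.res (extArithLoc S v) (pt_T p))).hom
          (-cup₀₁ (pt_evv S v M) (m v : Rep.res (extArithLoc S v) M)
            (cone_loc₁ S (M.dualTwist (cycloChar p)) v y)) := by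
    intro v
    have hly : (d₁₂ (Rep.res (extArithLoc S v) (M.dualTwist (cycloChar p)))).hom
        (cone_loc₁ S (M.dualTwist (cycloChar p)) v y) = 0 := by
      rw [pof_loc_d₁₂, hyc, map_zero]
    unfold pof_L
    rw [cone_d_snd, pof_cup₁₁_sub_left, pof_loc_cup₁₁, map_neg,
      cup_d₀₁ (pt_evv_equivariant S v M) _ _ hly]
    abel
  refine pof_rel_zero_of _ hε hd (pof_hcoc hCL hp2 hpS hsm hMur hx hyc hy hε hd) fun v => ?_
  rw [hL v]
  refine (mem_levelCoboundaries₂_iff _ _ _).2 ⟨_, ?_, rfl⟩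
  exact Submodule.neg_mem (levelCochains₁ (extArithLoc S v)
      (Rep.res (extArithLoc S v) (pt_T p)))
    (pof_level_cup₀₁ (extArithLoc S v) (pt_evv S v M) _ _ (pof_loc_level₁ S v _ y hy))

/-- Coboundaries `d m'` pair to `0`. -/
theorem pof_rel_cobdry_right (hD : pt_DualAdmStatement) (hCL : pt_CupLevelStatement)
    (hp2 : p ≠ 2) (hpS : pPrime p ∈ S)
    [FiniteDimensional (ZMod p) M] (hsm : s55_Smooth M) (hMur : s55_UnramOutside S M)
    {x : cone_Amb S M} (hx : x ∈ cone_Z S M) (m' : M.dualTwist (cycloChar p)) :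
    pof_Rel inv S M x ((d₀₁ (M.dualTwist (cycloChar p))).hom m') 0 := by
  obtain ⟨hsm', hur'⟩ := hD hp2 S hpS M hsm hMur
  obtain ⟨K, hK, hfix⟩ := pof_uniform S (M.dualTwist (cycloChar p)) hsm' hur'
  have hyc : (d₁₂ (M.dualTwist (cycloChar p))).hom
      ((d₀₁ (M.dualTwist (cycloChar p))).hom m') = 0 := by
    have := d₀₁_comp_d₁₂ (M.dualTwist (cycloChar p))
    exact congrArg (fun f => f.hom m') this
  have hy : IsLevelConstantS₁ S ((d₀₁ (M.dualTwist (cycloChar p))).hom m') :=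
    pof_levelS_d₀₁ S hK hfix m'
  have hε : IsLevelConstantS₂ S (cup₂₀ (pt_ev M) x.1 m') :=
    pof_levelS_cup₂₀ S (pt_ev M) hK hfix x.1 m' hx.1.2
  have hd : (d₂₃ (pt_T p)).hom (cup₂₀ (pt_ev M) x.1 m') =
      cup₂₁ (pt_ev M) x.1 ((d₀₁ (M.dualTwist (cycloChar p))).hom m') :=
    cup_d₂₀ (pt_ev_equivariant M) x.1 m' (LinearMap.mem_ker.1 hx.1.1)
  have hL : ∀ v : extArithIndex S,
      pof_L S M v (x.2 v) ((d₀₁ (M.dualTwist (cycloChar p))).hom m')
          (cup₂₀ (pt_ev M) x.1 m') =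
        (d₁₂ (Rep.res (extArithLoc S v) (pt_T p))).hom
          (-cup₁₀ (pt_evv S v M) (x.2 v)
            (m' : Rep.res (extArithLoc S v) (M.dualTwist (cycloChar p)))) := by
    intro v
    unfold pof_L
    rw [pof_loc_d₀₁, pof_loc_cup₂₀, ← (hx.2 v).2, map_neg,
      cup_d₁₀ (pt_evv_equivariant S v M) (x.2 v) m']
    abel
  refine pof_rel_zero_of _ hε hd (pof_hcoc hCL hp2 hpS hsm hMur hx hyc hy hε hd) fun v => ?_
  rw [hL v]
  refine (mem_levelCoboundaries₂_iff _ _ _).2 ⟨_, ?_, rfl⟩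
  refine Submodule.neg_mem (levelCochains₁ (extArithLoc S v)
      (Rep.res (extArithLoc S v) (pt_T p)))
    (pof_level_cup₁₀ (extArithLoc S v) (pt_evv S v M) _ _ (hx.2 v).1 ⟨K, hK.1, fun s hs => ?_⟩)
  change (M.dualTwist (cycloChar p)).ρ (extArithLoc S v s) m' = m'
  rw [hfix _ hs, Module.End.one_apply]

end Rel

end Fermat.Agent.S55
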