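/-
S55 (Poitou-Tate), package [PAIR-OF], part 3: construction of the pairing map `Θ`.
Owner: helper8.  Prefix `pof_`.

EXPORT:  `pof_main : pt_PairOfStatement`.
-/
import Mathlib
import Fermat.Agent.S55.PairOfRel

set_option autoImplicit false
set_option maxHeartbeats 1000000
set_option synthInstance.maxHeartbeats 400000
open CategoryTheory Module groupCohomology ExtCitation

namespace Fermat.Agent.S55

/-- **[PAIR-OF]** the Poitou-Tate pairing `Θ : H²_c(G_S, M) → Dual H¹_S(M')` exists. -/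
theorem pof_main : pt_PairOfStatement := by
  intro inv hT hD hCL hREC hH3 p _ hp2 S hpS M _ hsm hMur
  classical
  let q : ↥(levelCocyclesS₁ S (M.dualTwist (cycloChar p))) →ₗ[ZMod p]
      ↥(continuousH1S S (M.dualTwist (cycloChar p))) :=
    (H1π (M.dualTwist (cycloChar p))).hom.submoduleMap
      (levelCocyclesS₁ S (M.dualTwist (cycloChar p)))
  have hq : Function.Surjective q := LinearMap.submoduleMap_surjective _ _
  have hyc : ∀ y : ↥(levelCocyclesS₁ S (M.dualTwist (cycloChar p))),
      (d₁₂ (M.dualTwist (cycloChar p))).hom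
        ((y : cocycles₁ (M.dualTwist (cycloChar p))) :
          s55_GQ → M.dualTwist (cycloChar p)) = 0 := fun y => LinearMap.mem_ker.1 y.1.2
  have hyl : ∀ y : ↥(levelCocyclesS₁ S (M.dualTwist (cycloChar p))),
      IsLevelConstantS₁ S ((y : cocycles₁ (M.dualTwist (cycloChar p))) :
          s55_GQ → M.dualTwist (cycloChar p)) := fun y => y.2
  have hex : ∀ (x : ↥(cone_Z S M)) (y : ↥(levelCocyclesS₁ S (M.dualTwist (cycloChar p)))),
      ∃ t, pof_Rel inv S M (x : cone_Amb S M)
      ((y : cocycles₁ (M.dualTwist (cycloChar p))) : s55_GQ → M.dualTwist (cycloChar p)) t :=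
    fun x y => pof_rel_exists hT hD hCL hH3 hp2 hpS hsm hMur x.2 (hyc y) (hyl y)
  have hB : ∀ x ∈ (cone_B S M).comap (cone_Z S M).subtype,
      ∀ (y : ↥(levelCocyclesS₁ S (M.dualTwist (cycloChar p)))),
      pof_Rel inv S M (x : cone_Amb S M)
      ((y : cocycles₁ (M.dualTwist (cycloChar p))) : s55_GQ → M.dualTwist (cycloChar p)) 0 := by
    intro x hx y
    obtain ⟨⟨a, m⟩, ham⟩ := hx
    have hx' : cone_d S M (a, m) ∈ cone_Z S M := by
      rw [ham]
      exact x.2
    have := pof_rel_cobdry_left (inv := inv) hD hCL hp2 hpS hsm hMur a m hx' (hyc y) (hyl y)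
    rw [ham] at this
    exact this
  have hY : ∀ (x : ↥(cone_Z S M)) (y : ↥(levelCocyclesS₁ S (M.dualTwist (cycloChar p)))),
      q y = 0 → pof_Rel inv S M (x : cone_Amb S M)
      ((y : cocycles₁ (M.dualTwist (cycloChar p))) : s55_GQ → M.dualTwist (cycloChar p)) 0 := by
    intro x y hy
    have h1 : (H1π (M.dualTwist (cycloChar p))).hom
        (y : cocycles₁ (M.dualTwist (cycloChar p))) = 0 :=
      congrArg Subtype.val hy
    obtain ⟨m', hm'⟩ := (H1π_eq_zero_iff _).1 h1
    have := pof_rel_cobdry_right (inv := inv) hD hCL hp2 hpS hsm hMur x.2 m'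
    rw [hm'] at this
    exact this
  have hadd : ∀ (x x' : ↥(cone_Z S M)) (y : ↥(levelCocyclesS₁ S (M.dualTwist (cycloChar p))))
      (t t' : ZMod p), pof_Rel inv S M (x : cone_Amb S M)
      ((y : cocycles₁ (M.dualTwist (cycloChar p))) : s55_GQ → M.dualTwist (cycloChar p)) t →
      pof_Rel inv S M (x' : cone_Amb S M)
      ((y : cocycles₁ (M.dualTwist (cycloChar p))) : s55_GQ → M.dualTwist (cycloChar p)) t' →
      pof_Rel inv S M ((x + x' : ↥(cone_Z S M)) : cone_Amb S M)
      ((y : cocycles₁ (M.dualTwist (cycloChar p))) : s55_GQ → M.dualTwist (cycloChar p))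
        (t + t') := by
    intro x x' y t t' h h'
    rw [Submodule.coe_add]
    exact pof_rel_add h h'
  have hadd' : ∀ (x : ↥(cone_Z S M)) (y y' : ↥(levelCocyclesS₁ S (M.dualTwist (cycloChar p))))
      (t t' : ZMod p), pof_Rel inv S M (x : cone_Amb S M)
      ((y : cocycles₁ (M.dualTwist (cycloChar p))) : s55_GQ → M.dualTwist (cycloChar p)) t →
      pof_Rel inv S M (x : cone_Amb S M)
      ((y' : cocycles₁ (M.dualTwist (cycloChar p))) : s55_GQ → M.dualTwist (cycloChar p)) t' →
      pof_Rel inv S M (x : cone_Amb S M)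
      (((y + y' : ↥(levelCocyclesS₁ S (M.dualTwist (cycloChar p)))) :
        cocycles₁ (M.dualTwist (cycloChar p))) : s55_GQ → M.dualTwist (cycloChar p))
        (t + t') := by
    intro x y y' t t' h h'
    exact pof_rel_add_right h h'
  have hsmul : ∀ (a : ZMod p) (x : ↥(cone_Z S M))
      (y : ↥(levelCocyclesS₁ S (M.dualTwist (cycloChar p))))
      (t : ZMod p), pof_Rel inv S M (x : cone_Amb S M)
      ((y : cocycles₁ (M.dualTwist (cycloChar p))) : s55_GQ → M.dualTwist (cycloChar p)) t →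
      pof_Rel inv S M ((a • x : ↥(cone_Z S M)) : cone_Amb S M)
      ((y : cocycles₁ (M.dualTwist (cycloChar p))) : s55_GQ → M.dualTwist (cycloChar p))
        (a • t) := by
    intro a x y t h
    rw [Submodule.coe_smul]
    exact pof_rel_smul a h
  have hsmul' : ∀ (a : ZMod p) (x : ↥(cone_Z S M))
      (y : ↥(levelCocyclesS₁ S (M.dualTwist (cycloChar p))))
      (t : ZMod p), pof_Rel inv S M (x : cone_Amb S M)
      ((y : cocycles₁ (M.dualTwist (cycloChar p))) : s55_GQ → M.dualTwist (cycloChar p)) t →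
      pof_Rel inv S M (x : cone_Amb S M)
      (((a • y : ↥(levelCocyclesS₁ S (M.dualTwist (cycloChar p)))) :
        cocycles₁ (M.dualTwist (cycloChar p))) : s55_GQ → M.dualTwist (cycloChar p))
        (a • t) := by
    intro a x y t h
    exact pof_rel_smul_right a h
  have huniq : ∀ (x : ↥(cone_Z S M)) (y : ↥(levelCocyclesS₁ S (M.dualTwist (cycloChar p))))
      (t t' : ZMod p), pof_Rel inv S M (x : cone_Amb S M)
      ((y : cocycles₁ (M.dualTwist (cycloChar p))) : s55_GQ → M.dualTwist (cycloChar p)) t →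
      pof_Rel inv S M (x : cone_Amb S M)
      ((y : cocycles₁ (M.dualTwist (cycloChar p))) : s55_GQ → M.dualTwist (cycloChar p)) t' →
      t = t' := fun x y t t' h h' => pof_rel_unique hREC hp2 hpS h h'
  obtain ⟨Θ, hΘ⟩ := pof_descend (k := ZMod p) (Z := ↥(cone_Z S M))
    (Y := ↥(levelCocyclesS₁ S (M.dualTwist (cycloChar p))))
    (H := ↥(continuousH1S S (M.dualTwist (cycloChar p))))
    ((cone_B S M).comap (cone_Z S M).subtype) q hq
    (fun (x : ↥(cone_Z S M)) (y : ↥(levelCocyclesS₁ S (M.dualTwist (cycloChar p))))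
        (t : ZMod p) => pof_Rel inv S M (x : cone_Amb S M)
      ((y : cocycles₁ (M.dualTwist (cycloChar p))) : s55_GQ → M.dualTwist (cycloChar p)) t)
    hex huniq hadd hadd' hsmul hsmul' hB hY
  refine ⟨Θ, ?_⟩
  intro x y hy ε hε hd hcoc
  have h1 := hΘ x ⟨y, hy⟩
  have h2 : pof_Rel inv S M (x : cone_Amb S M)
      (y : s55_GQ → M.dualTwist (cycloChar p))
      (∑ v : extArithIndex S, inv p S v (continuousH2π _ _ ⟨_, hcoc v⟩)) :=
    ⟨ε, hcoc, hε, hd, (pof_V_apply inv S _).symm⟩
  exact pof_rel_unique hREC hp2 hpS h1 h2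

end Fermat.Agent.S55
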