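/-
S55 (Poitou-Tate): THE GLOBAL WIRING (checklist of the open packages).
Owner: helper9.  Prefix `w55_`.

`w55_kappa_fin` : `s55_KappaStatement`, hypothesis-free (every package is landed and imported).
-/
import Mathlib
import Fermat.Agent.S55.Final
import Fermat.Agent.S55.Local.LocalFinal
import Fermat.Agent.S55.Local.Perm11
import Fermat.Agent.S55.Local.Perm20Main
import Fermat.Agent.S55.PairOf
import Fermat.Agent.S55.CoverOf
import Fermat.Agent.S55.H3OfMain
import Fermat.Agent.S55.Dev.Main
import Fermat.Agent.S55.Bridge.ARed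
import Fermat.Agent.S55.Bridge.RecRed
import Fermat.Agent.S55.Bridge.KAH3
import Fermat.Agent.S55.Bridge.KAH2Surj
import Fermat.Agent.S55.Bridge.KAH2Ex
import Fermat.Agent.S55.Bridge.KAEx
import Fermat.Agent.S55.Bridge.KAShaInj
import Fermat.Agent.S55.Bridge.KAShaSurj
import Fermat.Agent.S55.Global.KRec
import Fermat.Agent.S55.Global.WireG
import Fermat.Agent.S55.Global.KExArtPerfFin
import Fermat.Agent.S55.Global.FundOf
import Fermat.Agent.S55.Global.H3FMain
import Fermat.Agent.S55.Local.H3FLoc
import Fermat.Agent.S55.Global.AkExiMain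
import Fermat.Agent.S55.Global.KExLarge
import Fermat.Agent.S55.Global.KExDeg
import Fermat.Agent.S55.Global.KExGlobCount
import Fermat.Agent.S55.Global.KExUnits
import Fermat.Agent.S55.Global.KExPair
import Fermat.Agent.S55.Local.KExLocCount

set_option autoImplicit false

namespace Fermat.Agent.S55

/-- **[LD1]** (closed): local Tate duality. -/
theorem w55_ld1 : ld_LD1Statement := lwf_ld1_of p11_main lp20_main

/-- **[FUND]** (closed): the fundamental class. -/
theorem w55_fund : gl_FundStatement := fof_main wg_recip sec_H1 sec_H2Le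

/-- **[AK-H3F]** (closed). -/
theorem w55_H3F : ak_H3FStatement := h3f_main w55_fund h3l_main

/-- **THE WIRING** from the K-targets. -/
theorem w55_kappa_of (hKH3 : kl_H3Statement) (hKEx : kl_ExStatement)
    (hKSI : kl_ShaInjStatement) (hKH2 : kl_H2Statement) :
    s55_KappaStatement :=
  have hKRec : kl_RecQStatement := wg_RecQ
  have hLD1 : ld_LD1Statement := w55_ld1
  have hLCD : pt_LCDStatement := lwf_lcd
  have hREC : fin55_RecOfStatement := rrd_main hKRec
  have hH3B : pt_H3BaseStatement := kah3_main hKH3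
  have hH3V : pt_H3VanStatement := h3o_main hH3B
  fin55_kappa lwf_inv lwf_ptinv hLD1 hLCD hREC
    (ab_baseOf_of hLD1 hLCD hREC hH3V drec3_main (kaex_main hKEx) (kasi_main hKSI)
      (kass_main wg_ShaSurj hKH3 hKRec) (kah2_main hKH2) (kah2s_main (lwf_perm20_of lp20_main)))
    hH3B pof_main (dev_main pof_main) cov_main h3o_main

/-- **THE WIRING** from [AK-EXI] and [KEX-LARGE]. -/
theorem w55_kappa (hExi : ak_ExiStatement) (hL : kex_ExLargeStatement) :
    s55_KappaStatement :=
  w55_kappa_of (wg_H3 w55_H3F hExi) (wg_Ex hL)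
    (wg_ShaInj (wg_H3 w55_H3F hExi) (kxa_fin hL)) (wg_H2 hExi)

/-- **[AK-EXI]** (closed). -/
theorem w55_Exi : ak_ExiStatement := akx_main w55_fund

/-- **[KEX-LARGE]** (closed). -/
theorem w55_ExLarge : kex_ExLargeStatement :=
  kex_large_of kxp_main wg_recK kxlc_main kxd_main (kxg_main kxu_main ekum_main)

/-- **THE KAPPA STATEMENT**, hypothesis-free. -/
theorem w55_kappa_fin : s55_KappaStatement := w55_kappa w55_Exi w55_ExLarge

end Fermat.Agent.S55
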