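import Mathlib
import Fermat.Agent.S55.Local.SplCountBridge
import Fermat.Agent.S55.Global.JCohDefs

/-!
S55: the dictionary of a local cyclic layer `(U, τ)` of degree `p` (`jcoh_IsLayer p U τ`):
`V = U ⊔ zpowers τ`, `K = Ω^V`, `L = Ω^U`; `L/K` is Galois with group `{τ̄ ^ k : k < p}`.
-/

set_option autoImplicit false

namespace Fermat.Agent.S55

open scoped BigOperators

section Layer

variable {q : ℕ} [Fact q.Prime] {p : ℕ} {U : Subgroup (lcf_Gal q)} {τ : lcf_Gal q}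

/-- the group generated by `U` and `τ`. -/
noncomputable def unr_layerV (U : Subgroup (lcf_Gal q)) (τ : lcf_Gal q) : Subgroup (lcf_Gal q) :=
  U ⊔ Subgroup.zpowers τ

theorem unr_layer_tau_mem : τ ∈ unr_layerV U τ :=
  (le_sup_right : Subgroup.zpowers τ ≤ U ⊔ Subgroup.zpowers τ) (Subgroup.mem_zpowers τ)

theorem unr_layer_le : U ≤ unr_layerV U τ := le_sup_left

theorem unr_layer_conj_pow (h : jcoh_IsLayer p U τ) (k : ℕ) (g : lcf_Gal q) (hg : g ∈ U) :
    τ ^ k * g * (τ ^ k)⁻¹ ∈ U := by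
  induction k with
  | zero => simpa using hg
  | succ k ih =>
    have h1 := h.conj_mem _ ih
    have e : τ * (τ ^ k * g * (τ ^ k)⁻¹) * τ⁻¹ = τ ^ (k + 1) * g * (τ ^ (k + 1))⁻¹ := by
      rw [pow_succ']
      group
    rw [e] at h1
    exact h1

theorem unr_layer_mem_normalizer (hp : 0 < p) (h : jcoh_IsLayer p U τ) :
    τ ∈ Subgroup.normalizer (U : Set (lcf_Gal q)) := by
  rw [Subgroup.mem_normalizer_iff]
  intro g
  constructor
  · exact h.conj_mem g
  · intro hg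
    have h1 := unr_layer_conj_pow h (p - 1) _ hg
    have e : τ ^ (p - 1) * (τ * g * τ⁻¹) * (τ ^ (p - 1))⁻¹ = τ ^ p * g * (τ ^ p)⁻¹ := by
      have hp' : p = (p - 1) + 1 := by omega
      conv_rhs => rw [hp', pow_succ]
      group
    rw [e] at h1
    have h2 := U.mul_mem (U.mul_mem (U.inv_mem h.pow_mem) h1) h.pow_mem
    have e2 : (τ ^ p)⁻¹ * (τ ^ p * g * (τ ^ p)⁻¹) * τ ^ p = g := by group
    rw [e2] at h2
    exact h2

theorem unr_layer_le_normalizer (hp : 0 < p) (h : jcoh_IsLayer p U τ) :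
    unr_layerV U τ ≤ Subgroup.normalizer (U : Set (lcf_Gal q)) :=
  sup_le Subgroup.le_normalizer (Subgroup.zpowers_le.2 (unr_layer_mem_normalizer hp h))

/-- the standing hypotheses of the absolute-relative bridge hold for `(V, U)`. -/
theorem unr_layer_hyp (hp : 0 < p) (h : jcoh_IsLayer p U τ) : splc_Hyp (unr_layerV U τ) U :=
  ⟨unr_layer_le, h.isOpen, fun _ hg s hs =>
    (Subgroup.mem_normalizer_iff.1 (unr_layer_le_normalizer hp h hg) s).1 hs⟩

/-- the base field of the layer consists of the elements fixed by `U` and by `τ`. -/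
theorem unr_layer_mem_K (a : PadicAlgCl q) :
    a ∈ splc_K (unr_layerV U τ) ↔ (∀ g : lcf_Gal q, g ∈ U → g a = a) ∧ τ a = a := by
  constructor
  · intro ha
    exact ⟨fun g hg => ha ⟨g, unr_layer_le hg⟩, ha ⟨τ, unr_layer_tau_mem⟩⟩
  · rintro ⟨hU, hτ⟩
    have hle : unr_layerV U τ ≤ MulAction.stabilizer (lcf_Gal q) a := by
      refine sup_le (fun g hg => ?_) (Subgroup.zpowers_le.2 ?_)
      · exact MulAction.mem_stabilizer_iff.2 (hU g hg)
      · exact MulAction.mem_stabilizer_iff.2 hτ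
    intro g
    exact MulAction.mem_stabilizer_iff.1 (hle g.2)

/-- units version. -/
theorem unr_layer_units_mem_K (a : (PadicAlgCl q)ˣ) :
    (a : PadicAlgCl q) ∈ splc_K (unr_layerV U τ) ↔ a ∈ jcoh_fix U ∧ τ • a = a := by
  rw [unr_layer_mem_K]
  constructor
  · rintro ⟨hU, hτ⟩
    exact ⟨fun g hg => Units.ext (hU g hg), Units.ext hτ⟩
  · rintro ⟨hU, hτ⟩
    exact ⟨fun g hg => congrArg (fun u : (PadicAlgCl q)ˣ => (u : PadicAlgCl q)) (hU g hg),
      congrArg (fun u : (PadicAlgCl q)ˣ => (u : PadicAlgCl q)) hτ⟩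

theorem unr_layer_units_mem_F (hp : 0 < p) (h : jcoh_IsLayer p U τ) (a : (PadicAlgCl q)ˣ) :
    (a : PadicAlgCl q) ∈ splc_F (unr_layer_hyp hp h).le ↔ a ∈ jcoh_fix U := by
  rw [splc_mem_F]
  constructor
  · intro hU g hg
    exact Units.ext (hU g hg)
  · intro hU g hg
    exact congrArg (fun u : (PadicAlgCl q)ˣ => (u : PadicAlgCl q)) (hU g hg)

/-- the generator `τ̄` of the Galois group of the layer. -/
noncomputable def unr_layerSigma (hp : 0 < p) (h : jcoh_IsLayer p U τ) :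
    ↥(splc_F (unr_layer_hyp hp h).le) ≃ₐ[↥(splc_K (unr_layerV U τ))]
      ↥(splc_F (unr_layer_hyp hp h).le) :=
  splc_pi (unr_layer_hyp hp h) ⟨τ, unr_layer_tau_mem⟩

theorem unr_layerSigma_pow_apply (hp : 0 < p) (h : jcoh_IsLayer p U τ) (k : ℕ)
    (x : ↥(splc_F (unr_layer_hyp hp h).le)) :
    (((unr_layerSigma hp h ^ k) x : ↥(splc_F (unr_layer_hyp hp h).le)) : PadicAlgCl q)
      = (τ ^ k) (x : PadicAlgCl q) := by
  have e : unr_layerSigma hp h ^ k
      = splc_pi (unr_layer_hyp hp h) (⟨τ, unr_layer_tau_mem⟩ ^ k) := by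
    rw [map_pow]; rfl
  rw [e, splc_pi_apply]
  rfl

theorem unr_layer_gen (hp : 0 < p) (h : jcoh_IsLayer p U τ)
    (g : ↥(splc_F (unr_layer_hyp hp h).le) ≃ₐ[↥(splc_K (unr_layerV U τ))]
      ↥(splc_F (unr_layer_hyp hp h).le)) :
    g ∈ Subgroup.zpowers (unr_layerSigma hp h) := by
  obtain ⟨v, rfl⟩ := splc_pi_surjective (unr_layer_hyp hp h) g
  have hle : unr_layerV U τ ≤ ((Subgroup.zpowers (unr_layerSigma hp h)).comap
      (splc_pi (unr_layer_hyp hp h))).map (unr_layerV U τ).subtype := by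
    refine sup_le (fun u hu => ?_) (Subgroup.zpowers_le.2 ?_)
    · refine ⟨⟨u, unr_layer_le hu⟩, ?_, rfl⟩
      rw [SetLike.mem_coe, Subgroup.mem_comap,
        (splc_pi_eq_one_iff (unr_layer_hyp hp h) ⟨u, unr_layer_le hu⟩).2 hu]
      exact Subgroup.one_mem _
    · refine ⟨⟨τ, unr_layer_tau_mem⟩, ?_, rfl⟩
      rw [SetLike.mem_coe, Subgroup.mem_comap]
      exact Subgroup.mem_zpowers _
  obtain ⟨w, hw, hwv⟩ := hle v.2
  have : w = v := Subtype.ext hwv
  rw [← this]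
  exact hw

theorem unr_layerSigma_pow (hp : 0 < p) (h : jcoh_IsLayer p U τ) :
    unr_layerSigma hp h ^ p = 1 := by
  have e : unr_layerSigma hp h ^ p
      = splc_pi (unr_layer_hyp hp h) (⟨τ, unr_layer_tau_mem⟩ ^ p) := by
    rw [map_pow]; rfl
  rw [e, splc_pi_eq_one_iff]
  exact h.pow_mem

theorem unr_layerSigma_ne_one (hp : 0 < p) (h : jcoh_IsLayer p U τ) :
    unr_layerSigma hp h ≠ 1 := by
  intro e
  exact h.not_mem ((splc_pi_eq_one_iff (unr_layer_hyp hp h) ⟨τ, unr_layer_tau_mem⟩).1 e)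

theorem unr_layer_orderOf (hp : p.Prime) (h : jcoh_IsLayer p U τ) :
    orderOf (unr_layerSigma hp.pos h) = p := by
  have : Fact p.Prime := ⟨hp⟩
  exact orderOf_eq_prime (unr_layerSigma_pow hp.pos h) (unr_layerSigma_ne_one hp.pos h)

theorem unr_layer_card (hp : p.Prime) (h : jcoh_IsLayer p U τ) :
    Nat.card (↥(splc_F (unr_layer_hyp hp.pos h).le) ≃ₐ[↥(splc_K (unr_layerV U τ))]
      ↥(splc_F (unr_layer_hyp hp.pos h).le)) = p := by
  exact (orderOf_eq_card_of_forall_mem_zpowers (unr_layer_gen hp.pos h)).symm.trans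
    (unr_layer_orderOf hp h)

theorem unr_layer_isCyclic (hp : 0 < p) (h : jcoh_IsLayer p U τ) :
    IsCyclic (↥(splc_F (unr_layer_hyp hp h).le) ≃ₐ[↥(splc_K (unr_layerV U τ))]
      ↥(splc_F (unr_layer_hyp hp h).le)) :=
  ⟨unr_layerSigma hp h, unr_layer_gen hp h⟩

/-- the norm of the layer is `b ↦ ∏_{k < p} τ ^ k b`. -/
theorem unr_layer_norm (hp : p.Prime) (h : jcoh_IsLayer p U τ)
    (y : ↥(splc_F (unr_layer_hyp hp.pos h).le)) :
    haveI := splc_finite (unr_layer_hyp hp.pos h)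
    ((Algebra.norm ↥(splc_K (unr_layerV U τ)) y : ↥(splc_K (unr_layerV U τ))) : PadicAlgCl q)
      = ∏ k ∈ Finset.range p, (τ ^ k) (y : PadicAlgCl q) := by
  classical
  have hfin := splc_finite (unr_layer_hyp hp.pos h)
  have hgal := splc_isGalois (unr_layer_hyp hp.pos h)
  have e1 := Algebra.norm_eq_prod_automorphisms ↥(splc_K (unr_layerV U τ)) y
  have e2 := IsCyclic.image_range_orderOf (unr_layer_gen hp.pos h)
  rw [unr_layer_orderOf hp h] at e2
  have e3 : ∏ σ : ↥(splc_F (unr_layer_hyp hp.pos h).le) ≃ₐ[↥(splc_K (unr_layerV U τ))]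
      ↥(splc_F (unr_layer_hyp hp.pos h).le), σ y
      = ∏ k ∈ Finset.range p, (unr_layerSigma hp.pos h ^ k) y := by
    rw [← e2, Finset.prod_image]
    intro i hi j hj hij
    have hi' : i < orderOf (unr_layerSigma hp.pos h) := by
      rw [unr_layer_orderOf hp h]; exact Finset.mem_range.1 hi
    have hj' : j < orderOf (unr_layerSigma hp.pos h) := by
      rw [unr_layer_orderOf hp h]; exact Finset.mem_range.1 hj
    exact pow_injOn_Iio_orderOf hi' hj' hij
  rw [e3] at e1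
  have e4 := congrArg (fun z : ↥(splc_F (unr_layer_hyp hp.pos h).le) => (z : PadicAlgCl q)) e1
  beta_reduce at e4
  have e5 : ((∏ k ∈ Finset.range p, (unr_layerSigma hp.pos h ^ k) y :
      ↥(splc_F (unr_layer_hyp hp.pos h).le)) : PadicAlgCl q)
      = ∏ k ∈ Finset.range p, (τ ^ k) (y : PadicAlgCl q) := by
    rw [← Finset.prod_congr rfl (fun k _ => unr_layerSigma_pow_apply hp.pos h k y)]
    exact map_prod (algebraMap ↥(splc_F (unr_layer_hyp hp.pos h).le) (PadicAlgCl q)) _ _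
  rw [← e5, ← e4]
  rfl

end Layer

end Fermat.Agent.S55
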