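/-
S55 (Poitou-Tate), internal package [H3-OF] (helper13), part 1: cochain-level devissage.
Prefix `h3o_`.

`h3o_VanSub S B W` : every level-`S` 3-cocycle with values in the submodule `W` of `B` is the
coboundary of a level-`S` 2-cochain with values in `W`.

* `h3o_ses`     : devissage along `W' ≤ W` with quotient a representation `C`;
* `h3o_retract` : passage to a retract.
-/
import Mathlib
import Fermat.Agent.S55.PTBase

set_option autoImplicit false
set_option linter.style.haveILetI false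
set_option linter.unusedVariables false
set_option linter.unusedSimpArgs false
set_option maxHeartbeats 1000000
set_option synthInstance.maxHeartbeats 400000
open CategoryTheory Module groupCohomology ExtCitation

namespace Fermat.Agent.S55

variable {k : Type} [CommRing k]

/-- `H³`-vanishing on the level of cochains, for cochains with values in a submodule. -/
def h3o_VanSub (S : Finset Nat.Primes) (B : Rep.{0, 0, 0} k s55_GQ) (W : Submodule k B) : Prop :=
  ∀ z : s55_GQ × s55_GQ × s55_GQ → B, pt_IsLevelS₃ S z → pt_IsCocycle₃ B z → (∀ x, z x ∈ W) →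
    ∃ a : s55_GQ × s55_GQ → B, IsLevelConstantS₂ S a ∧ (∀ x, a x ∈ W) ∧ (d₂₃ B).hom a = z

/-- `H³`-vanishing on the level of cochains. -/
def h3o_Van (S : Finset Nat.Primes) (B : Rep.{0, 0, 0} k s55_GQ) : Prop :=
  ∀ z : s55_GQ × s55_GQ × s55_GQ → B, pt_IsLevelS₃ S z → pt_IsCocycle₃ B z →
    ∃ a : s55_GQ × s55_GQ → B, IsLevelConstantS₂ S a ∧ (d₂₃ B).hom a = z

theorem h3o_van_iff_top (S : Finset Nat.Primes) (B : Rep.{0, 0, 0} k s55_GQ) :
    h3o_Van S B ↔ h3o_VanSub S B ⊤ := by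
  constructor
  · intro h z hz hc _
    obtain ⟨a, ha, hd⟩ := h z hz hc
    exact ⟨a, ha, fun _ => Submodule.mem_top, hd⟩
  · intro h z hz hc
    obtain ⟨a, ha, -, hd⟩ := h z hz hc (fun _ => Submodule.mem_top)
    exact ⟨a, ha, hd⟩

/-- The existence of normal levels: every finite extension unramified outside `S` is contained
in one with normal fixing subgroup. -/
def h3o_NormalLevel (S : Finset Nat.Primes) : Prop :=
  ∀ F : IntermediateField ℚ (AlgebraicClosure ℚ), F.IsUnramifiedOutside S →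
    ∃ F' : IntermediateField ℚ (AlgebraicClosure ℚ), F ≤ F' ∧ F'.IsUnramifiedOutside S ∧
      F'.fixingSubgroup.Normal

/-- A representation is of level `S` if it is trivial on the fixing subgroup of a finite
extension unramified outside `S`. -/
def h3o_RepLevel (S : Finset Nat.Primes) (B : Rep.{0, 0, 0} k s55_GQ) : Prop :=
  ∃ L : IntermediateField ℚ (AlgebraicClosure ℚ), L.IsUnramifiedOutside S ∧
    ∀ s ∈ L.fixingSubgroup, ∀ b : B, B.ρ s b = b

section level

variable {S : Finset Nat.Primes}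

theorem h3o_levelS₃_comp {X Y : Type*} {z : s55_GQ × s55_GQ × s55_GQ → X}
    (hz : pt_IsLevelS₃ S z) (f : X → Y) : pt_IsLevelS₃ S (f ∘ z) := by
  obtain ⟨F, hF, h⟩ := hz
  exact ⟨F, hF, fun g g' g'' s s' s'' hs hs' hs'' => by
    simp only [Function.comp_apply, h g g' g'' s s' s'' hs hs' hs'']⟩

theorem h3o_levelS₃_sub {X : Type*} [AddGroup X] {z z' : s55_GQ × s55_GQ × s55_GQ → X}
    (hz : pt_IsLevelS₃ S z) (hz' : pt_IsLevelS₃ S z') : pt_IsLevelS₃ S (z - z') := by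
  obtain ⟨F, hF, h⟩ := hz
  obtain ⟨F', hF', h'⟩ := hz'
  refine ⟨F ⊔ F', hF.sup hF', fun g g' g'' s s' s'' hs hs' hs'' => ?_⟩
  have e1 := IntermediateField.fixingSubgroup_antitone (le_sup_left : F ≤ F ⊔ F')
  have e2 := IntermediateField.fixingSubgroup_antitone (le_sup_right : F' ≤ F ⊔ F')
  simp only [Pi.sub_apply]
  rw [h g g' g'' s s' s'' (e1 hs) (e1 hs') (e1 hs''),
    h' g g' g'' s s' s'' (e2 hs) (e2 hs') (e2 hs'')]

/-- The coboundary of a level-`S` 2-cochain with values in a representation of level `S` is a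
level-`S` 3-cochain. -/
theorem h3o_levelS₃_d₂₃ (hNC : h3o_NormalLevel S) (B : Rep.{0, 0, 0} k s55_GQ)
    (hB : h3o_RepLevel S B) {a : s55_GQ × s55_GQ → B} (ha : IsLevelConstantS₂ S a) :
    pt_IsLevelS₃ S ((d₂₃ B).hom a) := by
  obtain ⟨F, hF, h⟩ := ha
  obtain ⟨L, hL, hfix⟩ := hB
  obtain ⟨F', hle, hF', hnorm⟩ := hNC (F ⊔ L) (hF.sup hL)
  have e1 : F'.fixingSubgroup ≤ F.fixingSubgroup :=
    IntermediateField.fixingSubgroup_antitone (le_sup_left.trans hle)
  have e2 : F'.fixingSubgroup ≤ L.fixingSubgroup :=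
    IntermediateField.fixingSubgroup_antitone (le_sup_right.trans hle)
  refine ⟨F', hF', fun g g' g'' s s' s'' hs hs' hs'' => ?_⟩
  simp only [d₂₃_hom_apply]
  have h1 : a (g' * s', g'' * s'') = a (g', g'') := h g' g'' s' s'' (e1 hs') (e1 hs'')
  have h2 : a (g * s * (g' * s'), g'' * s'') = a (g * g', g'') := by
    have hc : g'⁻¹ * s * g' ∈ F'.fixingSubgroup := by
      have := hnorm.conj_mem s hs g'⁻¹
      simpa using this
    have : g * s * (g' * s') = g * g' * (g'⁻¹ * s * g' * s') := by group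
    rw [this]
    exact h (g * g') g'' _ s'' (e1 (mul_mem hc hs')) (e1 hs'')
  have h3 : a (g * s, g' * s' * (g'' * s'')) = a (g, g' * g'') := by
    have hc : g''⁻¹ * s' * g'' ∈ F'.fixingSubgroup := by
      have := hnorm.conj_mem s' hs' g''⁻¹
      simpa using this
    have : g' * s' * (g'' * s'') = g' * g'' * (g''⁻¹ * s' * g'' * s'') := by group
    rw [this]
    exact h g (g' * g'') s _ (e1 hs) (e1 (mul_mem hc hs''))
  have h4 : a (g * s, g' * s') = a (g, g') := h g g' s s' (e1 hs) (e1 hs')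
  rw [h1, h2, h3, h4, map_mul, Module.End.mul_apply, hfix s (e2 hs)]

end level

section cocycle

/-- `d ∘ d = 0` in degree `2 → 3 → 4`. -/
theorem h3o_isCocycle₃_d₂₃ (B : Rep.{0, 0, 0} k s55_GQ) (a : s55_GQ × s55_GQ → B) :
    pt_IsCocycle₃ B ((d₂₃ B).hom a) := by
  intro g h j l
  simp only [d₂₃_hom_apply, map_sub, map_add, map_mul, Module.End.mul_apply, mul_assoc]
  abel

theorem h3o_isCocycle₃_sub (B : Rep.{0, 0, 0} k s55_GQ) {z z' : s55_GQ × s55_GQ × s55_GQ → B}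
    (hz : pt_IsCocycle₃ B z) (hz' : pt_IsCocycle₃ B z') : pt_IsCocycle₃ B (z - z') := by
  intro g h j l
  have h1 := hz g h j l
  have h2 := hz' g h j l
  simp only [Pi.sub_apply, map_sub]
  have : B.ρ g (z (h, j, l)) - B.ρ g (z' (h, j, l)) - (z (g * h, j, l) - z' (g * h, j, l))
      + (z (g, h * j, l) - z' (g, h * j, l)) - (z (g, h, j * l) - z' (g, h, j * l))
      + (z (g, h, j) - z' (g, h, j))
      = (B.ρ g (z (h, j, l)) - z (g * h, j, l) + z (g, h * j, l) - z (g, h, j * l) + z (g, h, j))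
        - (B.ρ g (z' (h, j, l)) - z' (g * h, j, l) + z' (g, h * j, l) - z' (g, h, j * l)
          + z' (g, h, j)) := by abel
  rw [this, h1, h2, sub_zero]

/-- A linear map which is equivariant on the values of a 3-cocycle maps it to a 3-cocycle. -/
theorem h3o_isCocycle₃_comp (A B : Rep.{0, 0, 0} k s55_GQ) (f : A →ₗ[k] B)
    {z : s55_GQ × s55_GQ × s55_GQ → A} (hz : pt_IsCocycle₃ A z)
    (hf : ∀ g x, f (A.ρ g (z x)) = B.ρ g (f (z x))) : pt_IsCocycle₃ B (f ∘ z) := by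
  intro g h j l
  have h1 := congrArg f (hz g h j l)
  simp only [map_sub, map_add, map_zero, hf] at h1
  exact h1

/-- A linear map which is equivariant on the values of a 2-cochain commutes with `d`. -/
theorem h3o_d₂₃_comp (A B : Rep.{0, 0, 0} k s55_GQ) (f : A →ₗ[k] B)
    (a : s55_GQ × s55_GQ → A)
    (hf : ∀ g x, f (A.ρ g (a x)) = B.ρ g (f (a x))) (x : s55_GQ × s55_GQ × s55_GQ) :
    (d₂₃ B).hom (f ∘ a) x = f ((d₂₃ A).hom a x) := by
  simp only [d₂₃_hom_apply, Function.comp_apply, map_sub, map_add, hf]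

theorem h3o_d₂₃_mem (B : Rep.{0, 0, 0} k s55_GQ) (W : Submodule k B)
    (hW : ∀ g : s55_GQ, ∀ w ∈ W, B.ρ g w ∈ W) {a : s55_GQ × s55_GQ → B} (ha : ∀ x, a x ∈ W)
    (x : s55_GQ × s55_GQ × s55_GQ) : (d₂₃ B).hom a x ∈ W := by
  simp only [d₂₃_hom_apply]
  exact W.sub_mem (W.add_mem (W.sub_mem (hW _ _ (ha _)) (ha _)) (ha _)) (ha _)

end cocycle

section devissage

variable {S : Finset Nat.Primes}

/-- **Devissage.**  `W' ≤ W` stable submodules of `B`, `q : W → C` equivariant and onto with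
kernel `W'`: vanishing for `C` and for `W'` implies vanishing for `W`. -/
theorem h3o_ses (hNC : h3o_NormalLevel S) (B C : Rep.{0, 0, 0} k s55_GQ)
    (hB : h3o_RepLevel S B) (W W' : Submodule k B)
    (hW : ∀ g : s55_GQ, ∀ w ∈ W, B.ρ g w ∈ W) (hW'W : W' ≤ W)
    (q : B →ₗ[k] C) (hq : ∀ g : s55_GQ, ∀ w ∈ W, q (B.ρ g w) = C.ρ g (q w))
    (hker : ∀ w ∈ W, q w = 0 → w ∈ W') (hsec : ∀ c : C, ∃ w ∈ W, q w = c)
    (hC : h3o_Van S C) (hW' : h3o_VanSub S B W') : h3o_VanSub S B W := by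
  intro z hz hc hzW
  have hqz_lev : pt_IsLevelS₃ S (q ∘ z) := h3o_levelS₃_comp hz q
  have hqz_coc : pt_IsCocycle₃ C (q ∘ z) :=
    h3o_isCocycle₃_comp B C q hc (fun g x => hq g _ (hzW x))
  obtain ⟨aC, haC, hdC⟩ := hC (q ∘ z) hqz_lev hqz_coc
  choose s hsW hs using hsec
  have haB : IsLevelConstantS₂ S (s ∘ aC) := haC.comp s
  have haBW : ∀ x, (s ∘ aC) x ∈ W := fun x => hsW _
  have hz'lev : pt_IsLevelS₃ S (z - (d₂₃ B).hom (s ∘ aC)) :=
    h3o_levelS₃_sub hz (h3o_levelS₃_d₂₃ hNC B hB haB)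
  have hz'coc : pt_IsCocycle₃ B (z - (d₂₃ B).hom (s ∘ aC)) :=
    h3o_isCocycle₃_sub B hc (h3o_isCocycle₃_d₂₃ B _)
  have hz'W : ∀ x, (z - (d₂₃ B).hom (s ∘ aC)) x ∈ W := fun x =>
    W.sub_mem (hzW x) (h3o_d₂₃_mem B W hW haBW x)
  have hqs : q ∘ (s ∘ aC) = aC := by
    funext x
    exact hs _
  have hqz' : ∀ x, q ((z - (d₂₃ B).hom (s ∘ aC)) x) = 0 := by
    intro x
    rw [Pi.sub_apply, map_sub,
      ← h3o_d₂₃_comp B C q (s ∘ aC) (fun g y => hq g _ (haBW y)) x, hqs, hdC]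
    simp
  obtain ⟨a', ha', ha'W, hda'⟩ := hW' _ hz'lev hz'coc (fun x => hker _ (hz'W x) (hqz' x))
  refine ⟨s ∘ aC + a', haB.add ha', fun x => W.add_mem (haBW x) (hW'W (ha'W x)), ?_⟩
  rw [map_add, hda']
  abel

/-- **Retract.** -/
theorem h3o_retract (B M : Rep.{0, 0, 0} k s55_GQ) (i : M →ₗ[k] B) (π : B →ₗ[k] M)
    (hi : ∀ g m, i (M.ρ g m) = B.ρ g (i m)) (hπ : ∀ g b, π (B.ρ g b) = M.ρ g (π b))
    (hπi : ∀ m, π (i m) = m) (hB : h3o_Van S B) : h3o_Van S M := by
  intro z hz hc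
  obtain ⟨a, ha, hd⟩ := hB (i ∘ z) (h3o_levelS₃_comp hz i)
    (h3o_isCocycle₃_comp M B i hc (fun g x => hi g _))
  refine ⟨π ∘ a, ha.comp π, ?_⟩
  funext x
  rw [h3o_d₂₃_comp B M π a (fun g y => hπ g _) x, hd]
  exact hπi _

theorem h3o_vanSub_bot (B : Rep.{0, 0, 0} k s55_GQ) : h3o_VanSub S B ⊥ := by
  intro z hz hc hzW
  refine ⟨0, isLevelConstantS₂_const S (0 : B), fun _ => Submodule.zero_mem _, ?_⟩
  rw [map_zero]
  funext x
  exact ((Submodule.mem_bot k).1 (hzW x)).symm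

end devissage

end Fermat.Agent.S55
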