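/-
S55 (Poitou-Tate), package [PAIR-OF], part 1: cochain algebra.  Owner: helper8.  Prefix `pof_`.

* `pof_cocycle₃` : the cup product of a 2-cocycle and a 1-cocycle is a 3-cocycle;
* bilinearity of `cup₁₁`, `cup₂₁`;
* `pof_uniform` : a finite-dimensional smooth module unramified outside `S` is fixed by the
  fixing subgroup of ONE finite extension unramified outside `S`;
* compatibility of restriction to a place with differentials and cup products;
* level (= continuity) of cup products.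
-/
import Mathlib
import Fermat.Agent.S55.PTDev

set_option autoImplicit false
set_option maxHeartbeats 1000000
set_option synthInstance.maxHeartbeats 400000
open CategoryTheory Module groupCohomology ExtCitation

namespace Fermat.Agent.S55

section Cup

variable {k Γ : Type} [CommRing k] [Group Γ] {A A' B : Rep k Γ}
  {φ : A →ₗ[k] A' →ₗ[k] B}

/-- Leibniz in degrees `(2,1)` for cocycles: `c ∪ y` is a 3-cocycle. -/
theorem pof_cocycle₃ (hφ : cup_Equivariant φ) (c : Γ × Γ → A) (y : Γ → A')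
    (hc : (d₂₃ A).hom c = 0) (hy : (d₁₂ A').hom y = 0) :
    pt_IsCocycle₃ B (cup₂₁ φ c y) := by
  intro g h j l
  have h2 : c (g * h, j) + c (g, h) = A.ρ g (c (h, j)) + c (g, h * j) :=
    (mem_cocycles₂_iff c).1 (LinearMap.mem_ker.2 hc) g h j
  have h3 : A.ρ g (c (h, j)) = c (g * h, j) + c (g, h) - c (g, h * j) := by
    rw [h2]; abel
  have h1 : y (j * l) = A'.ρ j (y l) + y j :=
    (mem_cocycles₁_iff y).1 (LinearMap.mem_ker.2 hy) j l
  have e : ∀ (g : Γ) (a : A) (a' : A'), B.ρ g (φ a a') = φ (A.ρ g a) (A'.ρ g a') :=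
    fun g a a' => (hφ g a a').symm
  simp only [cup₂₁_apply, e, h3, h1, map_add, map_sub, LinearMap.add_apply, LinearMap.sub_apply,
    map_mul, Module.End.mul_apply, mul_assoc]
  abel

end Cup

section CupLin

variable {k Γ : Type} [CommRing k] [Group Γ] {A A' B : Rep k Γ}
  (φ : A →ₗ[k] A' →ₗ[k] B)

lemma pof_cup₁₁_add_left (b b' : Γ → A) (y : Γ → A') :
    cup₁₁ φ (b + b') y = cup₁₁ φ b y + cup₁₁ φ b' y := by
  funext ⟨g, h⟩
  simp only [cup₁₁_apply, Pi.add_apply, map_add, LinearMap.add_apply]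

lemma pof_cup₁₁_add_right (b : Γ → A) (y y' : Γ → A') :
    cup₁₁ φ b (y + y') = cup₁₁ φ b y + cup₁₁ φ b y' := by
  funext ⟨g, h⟩
  simp only [cup₁₁_apply, Pi.add_apply, map_add]

lemma pof_cup₁₁_smul_left (a : k) (b : Γ → A) (y : Γ → A') :
    cup₁₁ φ (a • b) y = a • cup₁₁ φ b y := by
  funext ⟨g, h⟩
  simp only [cup₁₁_apply, Pi.smul_apply, map_smul, LinearMap.smul_apply]

lemma pof_cup₁₁_smul_right (a : k) (b : Γ → A) (y : Γ → A') :
    cup₁₁ φ b (a • y) = a • cup₁₁ φ b y := by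
  funext ⟨g, h⟩
  simp only [cup₁₁_apply, Pi.smul_apply, map_smul]

lemma pof_cup₁₁_sub_left (b b' : Γ → A) (y : Γ → A') :
    cup₁₁ φ (b - b') y = cup₁₁ φ b y - cup₁₁ φ b' y := by
  funext ⟨g, h⟩
  simp only [cup₁₁_apply, Pi.sub_apply, map_sub, LinearMap.sub_apply]

lemma pof_cup₂₁_add_left (c c' : Γ × Γ → A) (y : Γ → A') :
    cup₂₁ φ (c + c') y = cup₂₁ φ c y + cup₂₁ φ c' y := by
  funext ⟨g, h, j⟩
  simp only [cup₂₁_apply, Pi.add_apply, map_add, LinearMap.add_apply]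

lemma pof_cup₂₁_add_right (c : Γ × Γ → A) (y y' : Γ → A') :
    cup₂₁ φ c (y + y') = cup₂₁ φ c y + cup₂₁ φ c y' := by
  funext ⟨g, h, j⟩
  simp only [cup₂₁_apply, Pi.add_apply, map_add]

lemma pof_cup₂₁_smul_left (a : k) (c : Γ × Γ → A) (y : Γ → A') :
    cup₂₁ φ (a • c) y = a • cup₂₁ φ c y := by
  funext ⟨g, h, j⟩
  simp only [cup₂₁_apply, Pi.smul_apply, map_smul, LinearMap.smul_apply]

lemma pof_cup₂₁_smul_right (a : k) (c : Γ × Γ → A) (y : Γ → A') :
    cup₂₁ φ c (a • y) = a • cup₂₁ φ c y := by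
  funext ⟨g, h, j⟩
  simp only [cup₂₁_apply, Pi.smul_apply, map_smul]

end CupLin

variable {p : ℕ} [Fact p.Prime]

/-- A finite-dimensional smooth module is fixed by the fixing subgroup of ONE finite extension. -/
theorem pof_uniform_open (A : Rep.{0, 0, 0} (ZMod p) s55_GQ) [FiniteDimensional (ZMod p) A]
    (hsm : s55_Smooth A) :
    ∃ F : IntermediateField ℚ (AlgebraicClosure ℚ), FiniteDimensional ℚ F ∧
      ∀ s ∈ F.fixingSubgroup, A.ρ s = 1 := by
  classical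
  have : Finite A := Module.finite_of_finite (ZMod p)
  choose F hF hfix using hsm
  have : ∀ m, FiniteDimensional ℚ (F m) := hF
  refine ⟨⨆ m, F m, IntermediateField.finiteDimensional_iSup_of_finite, fun s hs => ?_⟩
  ext m
  rw [Module.End.one_apply]
  exact hfix m s (IntermediateField.fixingSubgroup_antitone (le_iSup F m) hs)

/-- A finite-dimensional smooth module unramified outside `S` is fixed by the fixing subgroup
of ONE finite extension unramified outside `S`. -/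
theorem pof_uniform (S : Finset Nat.Primes) (A : Rep.{0, 0, 0} (ZMod p) s55_GQ)
    [FiniteDimensional (ZMod p) A] (hsm : s55_Smooth A) (hur : s55_UnramOutside S A) :
    ∃ F : IntermediateField ℚ (AlgebraicClosure ℚ), F.IsUnramifiedOutside S ∧
      ∀ s ∈ F.fixingSubgroup, A.ρ s = 1 := by
  classical
  obtain ⟨F₀, hF₀, hfix₀⟩ := pof_uniform_open A hsm
  have halg : Algebra.IsAlgebraic ℚ (AlgebraicClosure ℚ) := AlgebraicClosure.isAlgebraic ℚ
  have hclos : IsAlgClosure ℚ (AlgebraicClosure ℚ) := AlgebraicClosure.instIsAlgClosure ℚ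
  have hgal : IsGalois ℚ (AlgebraicClosure ℚ) := inferInstance
  set N : Subgroup s55_GQ := MonoidHom.ker (A.ρ : s55_GQ →* Module.End (ZMod p) A) with hN
  have hle : F₀.fixingSubgroup ≤ N := fun s hs => MonoidHom.mem_ker.2 (hfix₀ s hs)
  have hopen : IsOpen (N : Set s55_GQ) :=
    Subgroup.isOpen_mono hle (IntermediateField.fixingSubgroup_isOpen F₀)
  have hclosed : IsClosed (N : Set s55_GQ) := N.isClosed_of_isOpen hopen
  set K : IntermediateField ℚ (AlgebraicClosure ℚ) := IntermediateField.fixedField N with hK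
  have hfix : K.fixingSubgroup = N := InfiniteGalois.fixingSubgroup_fixedField ⟨N, hclosed⟩
  have hfd : FiniteDimensional ℚ K := by
    rw [← InfiniteGalois.isOpen_iff_finite, hfix]
    exact hopen
  refine ⟨K, ⟨hfd, fun q hq V hV g hg => ?_⟩, fun s hs => ?_⟩
  · rw [hfix]
    exact MonoidHom.mem_ker.2 (hur q hq V hV g hg)
  · rw [hfix] at hs
    exact MonoidHom.mem_ker.1 hs

section Loc

variable (S : Finset Nat.Primes) (v : extArithIndex S)

lemma pof_loc_d₂₃ (A : Rep.{0, 0, 0} (ZMod p) s55_GQ) (ε : s55_GQ × s55_GQ → A)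
    (g h j : extArithLocalGroups S v) :
    (d₂₃ (Rep.res (extArithLoc S v) A)).hom (cone_loc₂ S A v ε) (g, h, j) =
      (d₂₃ A).hom ε (extArithLoc S v g, extArithLoc S v h, extArithLoc S v j) := by
  simp only [d₂₃_hom_apply, cochainsPullPush₂_apply, map_mul]
  rfl

lemma pof_loc_d₁₂ (A : Rep.{0, 0, 0} (ZMod p) s55_GQ) (y : s55_GQ → A) :
    (d₁₂ (Rep.res (extArithLoc S v) A)).hom (cone_loc₁ S A v y) =
      cone_loc₂ S A v ((d₁₂ A).hom y) :=
  (cochainsPullPush₂_d₁₂ (A := A) (B := Rep.res (extArithLoc S v) A) (extArithLoc S v)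
    (LinearMap.id : A →ₗ[ZMod p] Rep.res (extArithLoc S v) A) (fun _ _ => rfl) y).symm

lemma pof_loc_d₀₁ (A : Rep.{0, 0, 0} (ZMod p) s55_GQ) (m : A) :
    cone_loc₁ S A v ((d₀₁ A).hom m) = (d₀₁ (Rep.res (extArithLoc S v) A)).hom m := by
  funext g
  rfl

lemma pof_loc_cup₁₁ (M : Rep.{0, 0, 0} (ZMod p) s55_GQ) (a : s55_GQ → M)
    (y : s55_GQ → M.dualTwist (cycloChar p)) :
    cone_loc₂ S (pt_T p) v (cup₁₁ (pt_ev M) a y) =
      cup₁₁ (pt_evv S v M) (cone_loc₁ S M v a)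
        (cone_loc₁ S (M.dualTwist (cycloChar p)) v y) := by
  funext ⟨g, h⟩
  rfl

lemma pof_loc_cup₂₀ (M : Rep.{0, 0, 0} (ZMod p) s55_GQ) (c : s55_GQ × s55_GQ → M)
    (m' : M.dualTwist (cycloChar p)) :
    cone_loc₂ S (pt_T p) v (cup₂₀ (pt_ev M) c m') =
      cup₂₀ (pt_evv S v M) (cone_loc₂ S M v c)
        (m' : Rep.res (extArithLoc S v) (M.dualTwist (cycloChar p))) := by
  funext ⟨g, h⟩
  change (pt_ev M) (c (extArithLoc S v g, extArithLoc S v h))
      ((M.dualTwist (cycloChar p)).ρ (extArithLoc S v g * extArithLoc S v h) m') =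
    (pt_ev M) (c (extArithLoc S v g, extArithLoc S v h))
      ((M.dualTwist (cycloChar p)).ρ (extArithLoc S v (g * h)) m')
  rw [map_mul (extArithLoc S v)]

lemma pof_loc_cup₂₁ (M : Rep.{0, 0, 0} (ZMod p) s55_GQ) (c : s55_GQ × s55_GQ → M)
    (y : s55_GQ → M.dualTwist (cycloChar p)) (g h j : extArithLocalGroups S v) :
    cup₂₁ (pt_evv S v M) (cone_loc₂ S M v c)
        (cone_loc₁ S (M.dualTwist (cycloChar p)) v y) (g, h, j) =
      cup₂₁ (pt_ev M) c y (extArithLoc S v g, extArithLoc S v h, extArithLoc S v j) := by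
  change (pt_ev M) (c (extArithLoc S v g, extArithLoc S v h))
      ((M.dualTwist (cycloChar p)).ρ (extArithLoc S v (g * h)) (y (extArithLoc S v j))) =
    (pt_ev M) (c (extArithLoc S v g, extArithLoc S v h))
      ((M.dualTwist (cycloChar p)).ρ (extArithLoc S v g * extArithLoc S v h)
        (y (extArithLoc S v j)))
  rw [map_mul (extArithLoc S v)]

lemma pof_loc_level₁ (A : Rep.{0, 0, 0} (ZMod p) s55_GQ) (y : s55_GQ → A)
    (hy : IsLevelConstantS₁ S y) :
    IsLevelConstant₁ (extArithLoc S v) (cone_loc₁ S A v y) := by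
  obtain ⟨F, hF, h⟩ := hy
  refine ⟨F, hF.1, fun g s hs => ?_⟩
  change y (extArithLoc S v (g * s)) = y (extArithLoc S v g)
  rw [map_mul]
  exact h _ _ hs

lemma pof_loc_level₂ (A : Rep.{0, 0, 0} (ZMod p) s55_GQ) (ε : s55_GQ × s55_GQ → A)
    (hε : IsLevelConstantS₂ S ε) :
    IsLevelConstant₂ (extArithLoc S v) (cone_loc₂ S A v ε) := by
  obtain ⟨F, hF, h⟩ := hε
  refine ⟨F, hF.1, fun g g' s s' hs hs' => ?_⟩
  change ε (extArithLoc S v (g * s), extArithLoc S v (g' * s')) =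
    ε (extArithLoc S v g, extArithLoc S v g')
  rw [map_mul, map_mul]
  exact h _ _ _ _ hs hs'

end Loc

section Level

variable (S : Finset Nat.Primes) {A A' B : Rep.{0, 0, 0} (ZMod p) s55_GQ}
  (φ : A →ₗ[ZMod p] A' →ₗ[ZMod p] B)

lemma pof_rho_mul_fix {K : IntermediateField ℚ (AlgebraicClosure ℚ)}
    (hfix : ∀ s ∈ K.fixingSubgroup, A'.ρ s = 1) (g s : s55_GQ) (hs : s ∈ K.fixingSubgroup) :
    A'.ρ (g * s) = A'.ρ g := by
  rw [map_mul, hfix s hs, mul_one]

lemma pof_rho_mul_fix₂ {K : IntermediateField ℚ (AlgebraicClosure ℚ)}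
    (hfix : ∀ s ∈ K.fixingSubgroup, A'.ρ s = 1) (g g' s s' : s55_GQ)
    (hs : s ∈ K.fixingSubgroup) (hs' : s' ∈ K.fixingSubgroup) :
    A'.ρ (g * s * (g' * s')) = A'.ρ (g * g') := by
  rw [map_mul, pof_rho_mul_fix hfix g s hs, pof_rho_mul_fix hfix g' s' hs', ← map_mul]

lemma pof_levelS_cup₂₁ {K : IntermediateField ℚ (AlgebraicClosure ℚ)}
    (hK : K.IsUnramifiedOutside S) (hfix : ∀ s ∈ K.fixingSubgroup, A'.ρ s = 1)
    (c : s55_GQ × s55_GQ → A) (y : s55_GQ → A')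
    (hc : IsLevelConstantS₂ S c) (hy : IsLevelConstantS₁ S y) :
    pt_IsLevelS₃ S (cup₂₁ φ c y) := by
  obtain ⟨F, hF, h⟩ := hc
  obtain ⟨F', hF', h'⟩ := hy
  have e1 : ∀ t, t ∈ (F ⊔ F' ⊔ K).fixingSubgroup → t ∈ F.fixingSubgroup := fun t ht =>
    IntermediateField.fixingSubgroup_antitone (le_sup_left.trans le_sup_left) ht
  have e2 : ∀ t, t ∈ (F ⊔ F' ⊔ K).fixingSubgroup → t ∈ F'.fixingSubgroup := fun t ht =>
    IntermediateField.fixingSubgroup_antitone (le_sup_right.trans le_sup_left) ht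
  have e3 : ∀ t, t ∈ (F ⊔ F' ⊔ K).fixingSubgroup → t ∈ K.fixingSubgroup := fun t ht =>
    IntermediateField.fixingSubgroup_antitone le_sup_right ht
  refine ⟨F ⊔ F' ⊔ K, (hF.sup hF').sup hK, fun g g' g'' s s' s'' hs hs' hs'' => ?_⟩
  simp only [cup₂₁_apply]
  rw [h g g' s s' (e1 s hs) (e1 s' hs'), h' g'' s'' (e2 s'' hs''),
    pof_rho_mul_fix₂ hfix g g' s s' (e3 s hs) (e3 s' hs')]

lemma pof_levelS_cup₁₁ {K : IntermediateField ℚ (AlgebraicClosure ℚ)}
    (hK : K.IsUnramifiedOutside S) (hfix : ∀ s ∈ K.fixingSubgroup, A'.ρ s = 1)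
    (a : s55_GQ → A) (y : s55_GQ → A')
    (ha : IsLevelConstantS₁ S a) (hy : IsLevelConstantS₁ S y) :
    IsLevelConstantS₂ S (cup₁₁ φ a y) := by
  obtain ⟨F, hF, h⟩ := ha
  obtain ⟨F', hF', h'⟩ := hy
  have e1 : ∀ t, t ∈ (F ⊔ F' ⊔ K).fixingSubgroup → t ∈ F.fixingSubgroup := fun t ht =>
    IntermediateField.fixingSubgroup_antitone (le_sup_left.trans le_sup_left) ht
  have e2 : ∀ t, t ∈ (F ⊔ F' ⊔ K).fixingSubgroup → t ∈ F'.fixingSubgroup := fun t ht =>
    IntermediateField.fixingSubgroup_antitone (le_sup_right.trans le_sup_left) ht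
  have e3 : ∀ t, t ∈ (F ⊔ F' ⊔ K).fixingSubgroup → t ∈ K.fixingSubgroup := fun t ht =>
    IntermediateField.fixingSubgroup_antitone le_sup_right ht
  refine ⟨F ⊔ F' ⊔ K, (hF.sup hF').sup hK, fun g g' s s' hs hs' => ?_⟩
  simp only [cup₁₁_apply]
  rw [h g s (e1 s hs), h' g' s' (e2 s' hs'), pof_rho_mul_fix hfix g s (e3 s hs)]

lemma pof_levelS_cup₂₀ {K : IntermediateField ℚ (AlgebraicClosure ℚ)}
    (hK : K.IsUnramifiedOutside S) (hfix : ∀ s ∈ K.fixingSubgroup, A'.ρ s = 1)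
    (c : s55_GQ × s55_GQ → A) (m' : A') (hc : IsLevelConstantS₂ S c) :
    IsLevelConstantS₂ S (cup₂₀ φ c m') := by
  obtain ⟨F, hF, h⟩ := hc
  have e1 : ∀ t, t ∈ (F ⊔ K).fixingSubgroup → t ∈ F.fixingSubgroup := fun t ht =>
    IntermediateField.fixingSubgroup_antitone le_sup_left ht
  have e3 : ∀ t, t ∈ (F ⊔ K).fixingSubgroup → t ∈ K.fixingSubgroup := fun t ht =>
    IntermediateField.fixingSubgroup_antitone le_sup_right ht
  refine ⟨F ⊔ K, hF.sup hK, fun g g' s s' hs hs' => ?_⟩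
  simp only [cup₂₀_apply]
  rw [h g g' s s' (e1 s hs) (e1 s' hs'), pof_rho_mul_fix₂ hfix g g' s s' (e3 s hs) (e3 s' hs')]

lemma pof_levelS_d₀₁ {K : IntermediateField ℚ (AlgebraicClosure ℚ)}
    (hK : K.IsUnramifiedOutside S) (hfix : ∀ s ∈ K.fixingSubgroup, A'.ρ s = 1) (m' : A') :
    IsLevelConstantS₁ S ((d₀₁ A').hom m') := by
  refine ⟨K, hK, fun g s hs => ?_⟩
  simp only [d₀₁_hom_apply]
  rw [pof_rho_mul_fix hfix g s hs]

end Level

section LocalLevel

variable {H : Type} [Group H] (r : H →* s55_GQ) {A A' B : Rep.{0, 0, 0} (ZMod p) H}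
  (φ : A →ₗ[ZMod p] A' →ₗ[ZMod p] B)

lemma pof_level_cup₀₁ (m : A) (y : H → A') (hy : IsLevelConstant₁ r y) :
    IsLevelConstant₁ r (cup₀₁ φ m y) :=
  hy.comp (fun z => φ m z)

lemma pof_level_cup₁₀ (b : H → A) (m' : A') (hb : IsLevelConstant₁ r b)
    (hm : ∃ F : IntermediateField ℚ (AlgebraicClosure ℚ), FiniteDimensional ℚ F ∧
      ∀ s : H, r s ∈ F.fixingSubgroup → A'.ρ s m' = m') :
    IsLevelConstant₁ r (cup₁₀ φ b m') := by
  obtain ⟨F, hF, h⟩ := hb
  obtain ⟨F', hF', h'⟩ := hm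
  have : FiniteDimensional ℚ F := hF
  have : FiniteDimensional ℚ F' := hF'
  refine ⟨F ⊔ F', inferInstance, fun g s hs => ?_⟩
  simp only [cup₁₀_apply]
  rw [h g s (IntermediateField.fixingSubgroup_antitone le_sup_left hs), map_mul,
    Module.End.mul_apply, h' s (IntermediateField.fixingSubgroup_antitone le_sup_right hs)]

end LocalLevel

end Fermat.Agent.S55
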