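import Mathlib
import Fermat.Agent.S55.UnrInertia
import Fermat.Agent.S55.UnrNorm

set_option autoImplicit false

namespace Fermat.Agent.S55

open scoped BigOperators

section Teich

variable {L Γ₀ : Type*} [Field L] [LinearOrderedCommGroupWithZero Γ₀]
  (v : Valuation L Γ₀) (ϖ : L)

/-- iterated congruences for `Q`-th powers. -/
theorem unr_val_pow_pow_sub_le (a b : L) (ha : v a ≤ 1) (hb : v b ≤ 1) (Q : ℕ)
    (hQ : v (Q : L) ≤ v ϖ) (hϖ : v ϖ ≤ 1) (hab : v (a - b) ≤ v ϖ) (n : ℕ) :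
    v (a ^ (Q ^ n) - b ^ (Q ^ n)) ≤ v ϖ ^ (n + 1) := by
  induction n with
  | zero => simpa using hab
  | succ n ih =>
    rw [pow_succ, pow_mul, pow_mul]
    exact unr_val_pow_sub_pow_succ v ϖ _ _ (unr_val_pow_le_one v a ha _)
      (unr_val_pow_le_one v b hb _) Q (n + 1) hQ hϖ (by omega) ih

end Teich

section Fixed

variable {G L Γ₀ : Type*} [Group G] [Field L] [MulSemiringAction G L]
  [LinearOrderedCommGroupWithZero Γ₀] (v : Valuation L Γ₀) (ϖ : L)

/-- The hypotheses of the ramified package: a group `G` acting by isometries on a complete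
discretely valued field `L` with uniformizer `ϖ` (not necessarily fixed) and finite residue
field, all of `G` being inert (trivial on the residue field). -/
structure unr_Inert (G : Type*) {L Γ₀ : Type*} [Group G] [Field L] [MulSemiringAction G L]
    [LinearOrderedCommGroupWithZero Γ₀] (v : Valuation L Γ₀) (ϖ : L) : Prop where
  inv : ∀ (g : G) (x : L), v (g • x) = v x
  lt_one : v ϖ < 1
  ne_zero : ϖ ≠ 0
  disc : ∀ x : L, x ≠ 0 → ∃ k : ℤ, v x = v ϖ ^ k
  inert : ∀ (g : G) (x : L), v x ≤ 1 → v (g • x - x) < 1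
  complete : ∀ f : ℕ → L, (∀ n, v (f (n + 1) - f n) ≤ v ϖ ^ n) →
    ∃ x : L, ∀ n, v (x - f n) ≤ v ϖ ^ n

variable {v ϖ}

theorem unr_Inert.pow_le_one (h : unr_Inert G v ϖ) (n : ℕ) : v ϖ ^ n ≤ 1 :=
  pow_le_one₀ zero_le h.lt_one.le

theorem unr_Inert.pow_le_pow (h : unr_Inert G v ϖ) {m n : ℕ} (hmn : m ≤ n) :
    v ϖ ^ n ≤ v ϖ ^ m :=
  pow_le_pow_of_le_one zero_le h.lt_one.le hmn

/-- a limit of fixed elements is fixed. -/
theorem unr_Inert.fixed_of_approx (h : unr_Inert G v ϖ) (x : L) (f : ℕ → L)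
    (hf : ∀ n (g : G), v (g • f n - f n) ≤ v ϖ ^ n) (hx : ∀ n, v (x - f n) ≤ v ϖ ^ n) (g : G) :
    g • x = x := by
  have : g • x - x = 0 := by
    refine unr_eq_zero_of_forall_le v ϖ h.ne_zero h.lt_one h.disc _ fun n => ?_
    have e : g • x - x = g • (x - f n) + ((g • f n - f n) - (x - f n)) := by
      rw [smul_sub]; ring
    rw [e]
    refine le_trans (v.map_add _ _) (max_le ?_ ?_)
    · rw [h.inv]; exact hx n
    · exact le_trans (Valuation.map_sub v _ _) (max_le (hf n g) (hx n))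
  exact sub_eq_zero.1 this

/-- **Teichmüller representatives are fixed by inertia**: every integral element is congruent
to a `G`-fixed integral element. -/
theorem unr_Inert.exists_fixed_congr (h : unr_Inert G v ϖ)
    [Finite (IsLocalRing.ResidueField v.valuationSubring)] (x : L) (hx : v x ≤ 1) :
    ∃ c : L, (∀ g : G, g • c = c) ∧ v c ≤ 1 ∧ v (x - c) < 1 := by
  set Q := Nat.card (IsLocalRing.ResidueField v.valuationSubring) with hQdef
  have hQ : v (Q : L) ≤ v ϖ :=
    unr_le_of_lt_one v ϖ h.ne_zero h.lt_one h.disc _ (unr_val_natCard_lt_one v)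
  have hx1 : v (x ^ Q - x) ≤ v ϖ :=
    unr_le_of_lt_one v ϖ h.ne_zero h.lt_one h.disc _ (unr_val_pow_natCard_sub_lt_one v x hx)
  -- the sequence `x ^ (Q ^ n)`
  have hstep : ∀ n, v (x ^ (Q ^ (n + 1)) - x ^ (Q ^ n)) ≤ v ϖ ^ (n + 1) := by
    intro n
    have := unr_val_pow_pow_sub_le v ϖ (x ^ Q) x (unr_val_pow_le_one v x hx _) hx Q hQ
      h.lt_one.le hx1 n
    rwa [← pow_mul, ← pow_succ'] at this
  obtain ⟨T, hT⟩ := h.complete (fun n => x ^ (Q ^ n)) fun n =>
    le_trans (hstep n) (h.pow_le_pow (by omega))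
  have hfix : ∀ g : G, g • T = T := by
    refine h.fixed_of_approx T (fun n => x ^ (Q ^ n)) (fun n g => ?_) hT
    have hgx : v (g • x - x) ≤ v ϖ :=
      unr_le_of_lt_one v ϖ h.ne_zero h.lt_one h.disc _ (h.inert g x hx)
    have := unr_val_pow_pow_sub_le v ϖ (g • x) x (by rw [h.inv]; exact hx) hx Q hQ
      h.lt_one.le hgx n
    rw [smul_pow']
    exact le_trans this (h.pow_le_pow (by omega))
  have hTx : v (x - T) < 1 := by
    have e : x - T = -((T - x ^ (Q ^ 1)) + (x ^ Q - x)) := by rw [pow_one]; ring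
    rw [e, Valuation.map_neg]
    refine lt_of_le_of_lt (v.map_add _ _) (max_lt ?_ ?_)
    · exact lt_of_le_of_lt (hT 1) (by simpa using h.lt_one)
    · exact lt_of_le_of_lt hx1 h.lt_one
  refine ⟨T, hfix, ?_, hTx⟩
  have e : T = x - (x - T) := by ring
  rw [e]
  exact le_trans (Valuation.map_sub v _ _) (max_le hx hTx.le)

end Fixed

end Fermat.Agent.S55
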