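import Mathlib
import Fermat.Agent.S55.UnrEF1

set_option autoImplicit false

namespace Fermat.Agent.S55

open scoped BigOperators

section Approx

variable {G L Γ₀ : Type*} [Group G] [Field L] [MulSemiringAction G L]
  [LinearOrderedCommGroupWithZero Γ₀] {v : Valuation L Γ₀} {ϖ : L}

/-- digits: an integral element has a `ϖ`-adic expansion with `G`-fixed digits. -/
theorem unr_Inert.exists_digits (h : unr_Inert G v ϖ)
    [Finite (IsLocalRing.ResidueField v.valuationSubring)] (x : L) (hx : v x ≤ 1) (m : ℕ) :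
    ∃ (c : ℕ → L) (y : L), (∀ j, (∀ g : G, g • c j = c j) ∧ v (c j) ≤ 1) ∧ v y ≤ 1 ∧
      x = ∑ j ∈ Finset.range m, c j * ϖ ^ j + ϖ ^ m * y := by
  classical
  induction m with
  | zero => exact ⟨fun _ => 0, x, fun j => ⟨fun g => smul_zero g, by simp⟩, hx, by simp⟩
  | succ m ih =>
    obtain ⟨c, y, hc, hy, e⟩ := ih
    obtain ⟨d, hd, hd1, hyd⟩ := h.exists_fixed_congr y hy
    have hyd' : v (y - d) ≤ v ϖ ^ 1 := by
      simpa using unr_le_of_lt_one v ϖ h.ne_zero h.lt_one h.disc _ hyd
    obtain ⟨y', hy', ey⟩ := unr_exists_eq_pow_mul v ϖ h.ne_zero _ 1 hyd'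
    rw [pow_one] at ey
    refine ⟨Function.update c m d, y', fun j => ?_, hy', ?_⟩
    · by_cases hj : j = m
      · subst hj
        rw [Function.update_self]
        exact ⟨hd, hd1⟩
      · rw [Function.update_of_ne hj]
        exact hc j
    · rw [Finset.sum_range_succ, Function.update_self]
      have e1 : ∑ j ∈ Finset.range m, Function.update c m d j * ϖ ^ j
          = ∑ j ∈ Finset.range m, c j * ϖ ^ j := by
        refine Finset.sum_congr rfl fun j hj => ?_
        rw [Function.update_of_ne (Finset.mem_range.1 hj).ne]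
      rw [e1, e]
      have : y = d + ϖ * y' := by rw [← ey]; ring
      rw [this]
      ring

/-- the block step: an integral element is a combination of `1, ϖ, …, ϖ ^ (e - 1)` with fixed
integral coefficients, up to a multiple of the fixed element `a` of value `v ϖ ^ e`. -/
theorem unr_Inert.exists_block (h : unr_Inert G v ϖ)
    [Finite (IsLocalRing.ResidueField v.valuationSubring)] (a : L) (e : ℕ)
    (hae : v a = v ϖ ^ e) (x : L) (hx : v x ≤ 1) :
    ∃ (c : ℕ → L) (y : L), (∀ j, (∀ g : G, g • c j = c j) ∧ v (c j) ≤ 1) ∧ v y ≤ 1 ∧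
      x = ∑ j ∈ Finset.range e, c j * ϖ ^ j + a * y := by
  obtain ⟨c, y, hc, hy, ex⟩ := h.exists_digits x hx e
  have hϖe : v (ϖ ^ e) ≠ 0 := (Valuation.ne_zero_iff v).2 (pow_ne_zero e h.ne_zero)
  have ha0 : a ≠ 0 := by
    intro h0
    rw [h0, map_zero, ← map_pow] at hae
    exact hϖe hae.symm
  refine ⟨c, ϖ ^ e / a * y, hc, ?_, ?_⟩
  · rw [map_mul, map_div₀, map_pow, hae]
    rw [map_pow] at hϖe
    rw [div_self hϖe, one_mul]
    exact hy
  · rw [ex]
    field_simp

end Approx

section Span

variable {G L Γ₀ : Type*} [Group G] [Field L] [MulSemiringAction G L]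
  [LinearOrderedCommGroupWithZero Γ₀] {v : Valuation L Γ₀} {ϖ : L}

/-- **Integral elements are combinations of `1, ϖ, …, ϖ ^ (e - 1)` with fixed coefficients**
(successive approximation; `a` a fixed element of value `v ϖ ^ e`, `e ≥ 1`). -/
theorem unr_Inert.exists_expansion (h : unr_Inert G v ϖ)
    [Finite (IsLocalRing.ResidueField v.valuationSubring)] (a : L) (ha : ∀ g : G, g • a = a)
    (e : ℕ) (he : 0 < e) (hae : v a = v ϖ ^ e) (x : L) (hx : v x ≤ 1) :
    ∃ C : ℕ → L, (∀ j, ∀ g : G, g • C j = C j) ∧ x = ∑ j ∈ Finset.range e, C j * ϖ ^ j := by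
  classical
  have hstep : ∀ z : {z : L // v z ≤ 1}, ∃ (c : ℕ → L) (y : {z : L // v z ≤ 1}),
      (∀ j, (∀ g : G, g • c j = c j) ∧ v (c j) ≤ 1) ∧
        z.1 = ∑ j ∈ Finset.range e, c j * ϖ ^ j + a * y.1 := by
    intro z
    obtain ⟨c, y, hc, hy, e1⟩ := h.exists_block a e hae z z.2
    exact ⟨c, ⟨y, hy⟩, hc, e1⟩
  choose cstep xstep hcstep hxstep using hstep
  let X : ℕ → {z : L // v z ≤ 1} := fun n => Nat.rec ⟨x, hx⟩ (fun _ y => xstep y) n
  have hX0 : (X 0).1 = x := rfl
  have hXs : ∀ n, X (n + 1) = xstep (X n) := fun n => rfl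
  let S : ℕ → ℕ → L := fun j n => ∑ k ∈ Finset.range n, a ^ k * cstep (X k) j
  have hva : v a ≤ v ϖ := by
    rw [hae]
    calc v ϖ ^ e ≤ v ϖ ^ 1 := h.pow_le_pow he
      _ = v ϖ := pow_one _
  have hvan : ∀ n, v (a ^ n) ≤ v ϖ ^ n := by
    intro n
    rw [map_pow]
    exact pow_le_pow_left₀ zero_le hva n
  -- the finite identity
  have hfin : ∀ n, x = ∑ j ∈ Finset.range e, S j n * ϖ ^ j + a ^ n * (X n).1 := by
    intro n
    induction n with
    | zero =>
      simp only [S, Finset.range_zero, Finset.sum_empty, zero_mul, Finset.sum_const_zero,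
        pow_zero, one_mul, zero_add]
      exact hX0.symm
    | succ n ih =>
      have e1 := hxstep (X n)
      have e2 : ∀ j, S j (n + 1) = S j n + a ^ n * cstep (X n) j := fun j =>
        Finset.sum_range_succ _ _
      have e3 : ∑ j ∈ Finset.range e, S j (n + 1) * ϖ ^ j
          = ∑ j ∈ Finset.range e, S j n * ϖ ^ j
            + a ^ n * ∑ j ∈ Finset.range e, cstep (X n) j * ϖ ^ j := by
        rw [Finset.mul_sum, ← Finset.sum_add_distrib]
        refine Finset.sum_congr rfl fun j _ => ?_
        rw [e2]; ring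
      rw [e3, hXs]
      conv_lhs => rw [ih, e1]
      ring
  -- the limits of the coefficients
  have hSfix : ∀ j n (g : G), g • S j n = S j n := by
    intro j n g
    simp only [S]
    rw [Finset.smul_sum]
    refine Finset.sum_congr rfl fun k _ => ?_
    rw [smul_mul', smul_pow', ha, (hcstep (X k) j).1]
  have hSdiff : ∀ j n, v (S j (n + 1) - S j n) ≤ v ϖ ^ n := by
    intro j n
    have : S j (n + 1) - S j n = a ^ n * cstep (X n) j := by
      simp only [S]
      rw [Finset.sum_range_succ]; ring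
    rw [this, map_mul]
    calc v (a ^ n) * v (cstep (X n) j) ≤ v ϖ ^ n * 1 :=
          mul_le_mul' (hvan n) (hcstep (X n) j).2
      _ = v ϖ ^ n := mul_one _
  have hlim : ∀ j, ∃ C : L, ∀ n, v (C - S j n) ≤ v ϖ ^ n := fun j =>
    h.complete (S j) (hSdiff j)
  choose C hC using hlim
  refine ⟨C, fun j g => ?_, ?_⟩
  · refine h.fixed_of_approx (C j) (S j) (fun n g => ?_) (hC j) g
    rw [hSfix, sub_self, map_zero]
    exact zero_le
  · have : x - ∑ j ∈ Finset.range e, C j * ϖ ^ j = 0 := by
      refine unr_eq_zero_of_forall_le v ϖ h.ne_zero h.lt_one h.disc _ fun n => ?_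
      have e1 : x - ∑ j ∈ Finset.range e, C j * ϖ ^ j
          = ∑ j ∈ Finset.range e, (S j n - C j) * ϖ ^ j + a ^ n * (X n).1 := by
        conv_lhs => rw [hfin n]
        rw [add_sub_right_comm, ← Finset.sum_sub_distrib]
        congr 1
        refine Finset.sum_congr rfl fun j _ => ?_
        ring
      rw [e1]
      refine le_trans (v.map_add _ _) (max_le ?_ ?_)
      · refine unr_sum_le v _ _ _ fun j _ => ?_
        rw [map_mul, ← Valuation.map_neg, neg_sub]
        calc v (C j - S j n) * v (ϖ ^ j) ≤ v ϖ ^ n * 1 :=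
              mul_le_mul' (hC j n) (by rw [map_pow]; exact h.pow_le_one j)
          _ = v ϖ ^ n := mul_one _
      · rw [map_mul]
        calc v (a ^ n) * v (X n).1 ≤ v ϖ ^ n * 1 := mul_le_mul' (hvan n) (X n).2
          _ = v ϖ ^ n := mul_one _
    exact sub_eq_zero.1 this

/-- **The hard half of the fundamental identity** (abstract form): a finite group `G` acting
faithfully and inertly on a complete discretely valued field with finite residue field has
at most `e` elements, if some `G`-fixed element has value `v ϖ ^ e`, `e ≥ 1`. -/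
theorem unr_Inert.card_le (h : unr_Inert G v ϖ) [Fintype G] [FaithfulSMul G L]
    [Finite (IsLocalRing.ResidueField v.valuationSubring)] (a : L) (ha : ∀ g : G, g • a = a)
    (e : ℕ) (he : 0 < e) (hae : v a = v ϖ ^ e) : Fintype.card G ≤ e := by
  classical
  have hva : v a ≠ 0 := by
    rw [hae]
    exact pow_ne_zero e ((Valuation.ne_zero_iff v).2 h.ne_zero)
  have ha0 : a ≠ 0 := (Valuation.ne_zero_iff v).1 hva
  have hva1 : v a < 1 := by
    rw [hae]
    exact pow_lt_one₀ zero_le h.lt_one he.ne'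
  -- the span
  have hspan : ∀ x : L, x ∈ Submodule.span (FixedPoints.subfield G L)
      (((Finset.range e).image fun j => ϖ ^ j : Finset L) : Set L) := by
    intro x
    -- scale into the valuation ring
    obtain ⟨m, hm⟩ : ∃ m : ℕ, v (a ^ m * x) ≤ 1 := by
      rcases eq_or_ne x 0 with rfl | hx0
      · exact ⟨0, by simp⟩
      obtain ⟨k, hk⟩ := h.disc x hx0
      refine ⟨k.natAbs, ?_⟩
      rw [map_mul, map_pow, hae, hk, ← pow_mul, ← zpow_natCast, ← zpow_add₀
        ((Valuation.ne_zero_iff v).2 h.ne_zero)]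
      have h0 : (0 : ℤ) ≤ ((e * k.natAbs : ℕ) : ℤ) + k := by
        have h1 : (k.natAbs : ℤ) ≤ ((e * k.natAbs : ℕ) : ℤ) := by
          exact_mod_cast Nat.le_mul_of_pos_left _ he
        have h2 : -k ≤ (k.natAbs : ℤ) := by
          rw [Int.natCast_natAbs]; exact neg_le_abs k
        omega
      obtain ⟨r, hr⟩ : ∃ r : ℕ, ((e * k.natAbs : ℕ) : ℤ) + k = r := ⟨_, (Int.toNat_of_nonneg h0).symm⟩
      rw [hr, zpow_natCast]
      exact h.pow_le_one r
    obtain ⟨C, hCfix, hCx⟩ := h.exists_expansion a ha e he hae (a ^ m * x) hm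
    have ham : a ^ m ≠ 0 := pow_ne_zero m ha0
    have hx : x = ∑ j ∈ Finset.range e, (C j / a ^ m) * ϖ ^ j := by
      have : x = (a ^ m * x) / a ^ m := by field_simp
      rw [this, hCx, Finset.sum_div]
      refine Finset.sum_congr rfl fun j _ => ?_
      ring
    rw [hx]
    refine Submodule.sum_mem _ fun j hj => ?_
    have hfix : C j / a ^ m ∈ FixedPoints.subfield G L := by
      intro g
      rw [smul_div₀', smul_pow', ha, hCfix]
    have : (C j / a ^ m) * ϖ ^ j
        = (⟨C j / a ^ m, hfix⟩ : FixedPoints.subfield G L) • ϖ ^ j := rfl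
    rw [this]
    exact Submodule.smul_mem _ _ (Submodule.subset_span
      (Finset.mem_coe.2 (Finset.mem_image.2 ⟨j, hj, rfl⟩)))
  have htop : Submodule.span (FixedPoints.subfield G L)
      (((Finset.range e).image fun j => ϖ ^ j : Finset L) : Set L) = ⊤ :=
    Submodule.eq_top_iff'.2 hspan
  have h1 := finrank_span_finset_le_card (R := FixedPoints.subfield G L)
    ((Finset.range e).image fun j => ϖ ^ j : Finset L)
  unfold Set.finrank at h1
  rw [htop, finrank_top, FixedPoints.finrank_eq_card G L] at h1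
  exact le_trans h1 (le_trans Finset.card_image_le (by rw [Finset.card_range]))

end Span

end Fermat.Agent.S55
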