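import Mathlib
import Fermat.Agent.S55.UnrEF2
import Fermat.Agent.S55.UnrLF

set_option autoImplicit false

namespace Fermat.Agent.S55

open scoped BigOperators

section LF

variable (K L : Type*) [NormedField K] [NormedField L] [Algebra K L]
variable [lf_IsLocal K] [lf_IsLocal L] [lf_IsLocalExt K L]

/-- The inertia subgroup of an extension of local fields: the automorphisms acting trivially
on the residue field. -/
def unr_inertia : Subgroup (L ≃ₐ[K] L) where
  carrier := {σ | ∀ x : L, ‖x‖ ≤ 1 → ‖σ x - x‖ < 1}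
  one_mem' := fun x _ => by simp
  mul_mem' := by
    intro σ τ hσ hτ x hx
    have e : (σ * τ) x - x = σ (τ x - x) + (σ x - x) := by
      rw [AlgEquiv.mul_apply, map_sub]; ring
    rw [e]
    refine lt_of_le_of_lt (lf_norm_add_le_max _ _) (max_lt ?_ (hσ x hx))
    rw [lf_norm_algEquiv]
    exact hτ x hx
  inv_mem' := by
    intro σ hσ x hx
    have e : σ⁻¹ x - x = σ⁻¹ (x - σ x) := by
      rw [map_sub]
      congr 1
      exact (σ.symm_apply_apply x).symm
    rw [e, lf_norm_algEquiv, norm_sub_rev]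
    exact hσ x hx

variable {K L}

theorem unr_mem_inertia (σ : L ≃ₐ[K] L) :
    σ ∈ unr_inertia K L ↔ ∀ x : L, ‖x‖ ≤ 1 → ‖σ x - x‖ < 1 := Iff.rfl

/-- the ramified hypotheses hold for the inertia group. -/
theorem unr_lf_inert : unr_Inert ↥(unr_inertia K L) (NormedField.valuation (K := L))
    (lf_unif L) where
  inv := fun g x => by
    rw [NormedField.valuation_apply, NormedField.valuation_apply, ← NNReal.coe_inj,
      coe_nnnorm, coe_nnnorm]
    exact lf_norm_algEquiv (g : L ≃ₐ[K] L) x
  lt_one := (unr_normed_val_lt_one_iff _).2 (lf_norm_unif_lt_one L)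
  ne_zero := lf_unif_ne_zero L
  disc := fun x hx => by
    obtain ⟨k, hk⟩ := lf_exists_norm_eq_zpow hx
    exact ⟨k, (unr_normed_val_eq_zpow_iff x _ k).2 hk⟩
  inert := fun g x hx =>
    (unr_normed_val_lt_one_iff _).2 (g.2 x ((unr_normed_val_le_one_iff x).1 hx))
  complete := fun f hf => by
    obtain ⟨x, hx⟩ := unr_normed_complete (lf_unif L) (lf_norm_unif_lt_one L) f
      fun n => (unr_normed_val_le_pow_iff _ _ n).1 (hf n)
    exact ⟨x, fun n => (unr_normed_val_le_pow_iff _ _ n).2 (hx n)⟩

/-- **[EF-LE]** the hard half of the fundamental identity: the inertia group of an extension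
of local fields has at most `e` elements, `e` the ramification index. -/
theorem unr_lf_card_inertia_le (e : ℕ) (he : ‖lf_unif K‖ = ‖lf_unif L‖ ^ e) :
    Nat.card ↥(unr_inertia K L) ≤ e := by
  classical
  have hfin : Finite (L ≃ₐ[K] L) := inferInstance
  let _ : Fintype ↥(unr_inertia K L) := Fintype.ofFinite _
  have := unr_lf_finite_residue (L := L)
  have he0 : 0 < e := by
    rcases Nat.eq_zero_or_pos e with h0 | h0
    · exfalso
      rw [h0, pow_zero] at he
      exact absurd (lf_norm_unif_lt_one K) (by rw [he]; exact lt_irrefl _)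
    · exact h0
  rw [Nat.card_eq_fintype_card]
  refine unr_lf_inert.card_le (algebraMap K L (lf_unif K))
    (fun g => (g : L ≃ₐ[K] L).commutes _) e he0 ?_
  rw [← map_pow]
  rw [NormedField.valuation_apply, NormedField.valuation_apply, ← NNReal.coe_inj,
    coe_nnnorm, coe_nnnorm, lf_norm_algebraMap, he, norm_pow]

/-- **[EF-LE]**, subtype form. -/
theorem unr_lf_card_inert_le (e : ℕ) (he : ‖lf_unif K‖ = ‖lf_unif L‖ ^ e) :
    Nat.card {σ : L ≃ₐ[K] L // ∀ x : L, ‖x‖ ≤ 1 → ‖σ x - x‖ < 1} ≤ e :=
  unr_lf_card_inertia_le e he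

end LF

end Fermat.Agent.S55
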